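import Fermat.Agent.S20.Core

/-!
# S20 core piece C0 (helper516): basic API of `MF`, `SF`, `ev`

Statements are exactly those of `origin/helper20:Fermat/Agent/S20/Skeleton.lean` (C0.1 – C0.4),
in namespace `Fermat.Agent.S20.C0h516`.
-/

set_option autoImplicit false
set_option linter.unusedSectionVars false

noncomputable section

namespace Fermat.Agent.S20.C0h516

open Fermat.Agent.S20
open UpperHalfPlane ModularForm CongruenceSubgroup MatrixGroups Filter Module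
open scoped Manifold Topology Real

local notation "Sm" => ModularGroup.S
local notation "Tm" => ModularGroup.T

/-! ### generic constructions (arithmetic subgroup of `GL(2,ℝ)`) -/

theorem exists_modularForm_of_data (𝒢 : Subgroup (GL (Fin 2) ℝ)) [𝒢.IsArithmetic] (k : ℤ)
    (f : ℍ → ℂ) (hol : MDiff f) (hinv : ∀ γ ∈ 𝒢, f ∣[k] γ = f)
    (hbd : ∀ g : SL(2, ℤ), IsBoundedAtImInfty (f ∣[k] g)) :
    ∃ F : ModularForm 𝒢 k, ⇑F = f := by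
  refine ⟨⟨⟨f, hinv⟩, hol, fun {c} hc => ?_⟩, rfl⟩
  have hc' : IsCusp c 𝒮ℒ := (Subgroup.IsArithmetic.isCusp_iff_isCusp_SL2Z 𝒢).mp hc
  exact (OnePoint.isBoundedAt_iff_forall_SL2Z hc').mpr fun γ _ => hbd γ

theorem exists_cuspForm_of_data (𝒢 : Subgroup (GL (Fin 2) ℝ)) [𝒢.IsArithmetic] (k : ℤ)
    (f : ℍ → ℂ) (hol : MDiff f) (hinv : ∀ γ ∈ 𝒢, f ∣[k] γ = f)
    (hbd : ∀ g : SL(2, ℤ), IsZeroAtImInfty (f ∣[k] g)) :
    ∃ F : CuspForm 𝒢 k, ⇑F = f := by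
  refine ⟨⟨⟨f, hinv⟩, hol, fun {c} hc => ?_⟩, rfl⟩
  have hc' : IsCusp c 𝒮ℒ := (Subgroup.IsArithmetic.isCusp_iff_isCusp_SL2Z 𝒢).mp hc
  exact (OnePoint.isZeroAt_iff_forall_SL2Z hc').mpr fun γ _ => hbd γ

theorem slash_eq_of_mem_map {Γ : Subgroup SL(2, ℤ)} {k : ℤ} {f : ℍ → ℂ}
    (h : ∀ γ ∈ Γ, f ∣[k] γ = f) :
    ∀ γ ∈ (Γ : Subgroup (GL (Fin 2) ℝ)), f ∣[k] γ = f := by
  rintro γ ⟨γ', hγ', rfl⟩
  have := h γ' hγ'
  rwa [ModularForm.SL_slash] at this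

theorem slash_eq_of_mem_of_map {Γ : Subgroup SL(2, ℤ)} {k : ℤ} {f : ℍ → ℂ}
    (h : ∀ γ ∈ (Γ : Subgroup (GL (Fin 2) ℝ)), f ∣[k] γ = f) :
    ∀ γ ∈ Γ, f ∣[k] γ = f := by
  intro γ hγ
  rw [ModularForm.SL_slash]
  exact h _ (Subgroup.mem_map_of_mem _ hγ)

theorem coe_mem_MF {Γ : Subgroup SL(2, ℤ)} [Γ.FiniteIndex] {k : ℤ}
    (g : ModularForm (Γ : Subgroup (GL (Fin 2) ℝ)) k) : (⇑g : ℍ → ℂ) ∈ MF Γ k :=
  ⟨ModularFormClass.holo g,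
    slash_eq_of_mem_of_map fun γ hγ => SlashInvariantFormClass.slash_action_eq g γ hγ,
    fun γ => ModularFormClass.bdd_at_infty_slash g γ⟩

theorem coe_mem_SF {Γ : Subgroup SL(2, ℤ)} [Γ.FiniteIndex] {k : ℤ}
    (g : CuspForm (Γ : Subgroup (GL (Fin 2) ℝ)) k) : (⇑g : ℍ → ℂ) ∈ SF Γ k :=
  ⟨CuspFormClass.holo g,
    slash_eq_of_mem_of_map fun γ hγ => SlashInvariantFormClass.slash_action_eq g γ hγ,
    fun γ => CuspFormClass.zero_at_infty_slash g γ⟩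

theorem mem_MF_iff_exists {Γ : Subgroup SL(2, ℤ)} [Γ.FiniteIndex] {k : ℤ} {f : ℍ → ℂ} :
    f ∈ MF Γ k ↔ ∃ g : ModularForm (Γ : Subgroup (GL (Fin 2) ℝ)) k, ⇑g = f := by
  constructor
  · rintro ⟨h1, h2, h3⟩
    exact exists_modularForm_of_data _ k f h1 (slash_eq_of_mem_map h2) h3
  · rintro ⟨g, rfl⟩
    exact coe_mem_MF g

theorem mem_SF_iff_exists {Γ : Subgroup SL(2, ℤ)} [Γ.FiniteIndex] {k : ℤ} {f : ℍ → ℂ} :
    f ∈ SF Γ k ↔ ∃ g : CuspForm (Γ : Subgroup (GL (Fin 2) ℝ)) k, ⇑g = f := by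
  constructor
  · rintro ⟨h1, h2, h3⟩
    exact exists_cuspForm_of_data _ k f h1 (slash_eq_of_mem_map h2) h3
  · rintro ⟨g, rfl⟩
    exact coe_mem_SF g

/-- Level one: `MF ⊤ k` versus Mathlib's `ModularForm 𝒮ℒ k`. -/
theorem mem_MF_top_iff_exists {k : ℤ} {f : ℍ → ℂ} :
    f ∈ MF ⊤ k ↔ ∃ g : ModularForm 𝒮ℒ k, ⇑g = f := by
  constructor
  · rintro ⟨h1, h2, h3⟩
    refine exists_modularForm_of_data _ k f h1 ?_ h3
    rintro γ ⟨γ', rfl⟩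
    have := h2 γ' (Subgroup.mem_top _)
    rwa [ModularForm.SL_slash] at this
  · rintro ⟨g, rfl⟩
    refine ⟨ModularFormClass.holo g, fun γ _ => ?_,
      fun γ => ModularFormClass.bdd_at_infty_slash g γ⟩
    rw [ModularForm.SL_slash]
    exact SlashInvariantFormClass.slash_action_eq g _ ⟨γ, rfl⟩

/-- Level one: `SF ⊤ k` versus Mathlib's `CuspForm 𝒮ℒ k`. -/
theorem mem_SF_top_iff_exists {k : ℤ} {f : ℍ → ℂ} :
    f ∈ SF ⊤ k ↔ ∃ g : CuspForm 𝒮ℒ k, ⇑g = f := by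
  constructor
  · rintro ⟨h1, h2, h3⟩
    refine exists_cuspForm_of_data _ k f h1 ?_ h3
    rintro γ ⟨γ', rfl⟩
    have := h2 γ' (Subgroup.mem_top _)
    rwa [ModularForm.SL_slash] at this
  · rintro ⟨g, rfl⟩
    refine ⟨CuspFormClass.holo g, fun γ _ => ?_,
      fun γ => CuspFormClass.zero_at_infty_slash g γ⟩
    rw [ModularForm.SL_slash]
    exact SlashInvariantFormClass.slash_action_eq g _ ⟨γ, rfl⟩

variable (Γ : Subgroup SL(2, ℤ)) [Γ.FiniteIndex]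

/-! ## C0 : basic API of `MF`, `SF`, `ev` -/

/-- the underlying linear map of `MFequiv` -/
def MFlin (k : ℤ) : ModularForm (Γ : Subgroup (GL (Fin 2) ℝ)) k →ₗ[ℂ] MF Γ k where
  toFun g := ⟨⇑g, coe_mem_MF g⟩
  map_add' _ _ := rfl
  map_smul' _ _ := rfl

theorem MFlin_bijective (k : ℤ) : Function.Bijective (MFlin Γ k) := by
  refine ⟨fun g₁ g₂ h => DFunLike.coe_injective (congrArg Subtype.val h), ?_⟩
  rintro ⟨f, hf⟩
  obtain ⟨g, rfl⟩ := mem_MF_iff_exists.mp hf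
  exact ⟨g, rfl⟩

/-- the underlying linear map of `SFequiv` -/
def SFlin (k : ℤ) : CuspForm (Γ : Subgroup (GL (Fin 2) ℝ)) k →ₗ[ℂ] SF Γ k where
  toFun g := ⟨⇑g, coe_mem_SF g⟩
  map_add' _ _ := rfl
  map_smul' _ _ := rfl

theorem SFlin_bijective (k : ℤ) : Function.Bijective (SFlin Γ k) := by
  refine ⟨fun g₁ g₂ h => DFunLike.coe_injective (congrArg Subtype.val h), ?_⟩
  rintro ⟨f, hf⟩
  obtain ⟨g, rfl⟩ := mem_SF_iff_exists.mp hf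
  exact ⟨g, rfl⟩

/-- C0.1 -/
def MFequiv (k : ℤ) : ModularForm (Γ : Subgroup (GL (Fin 2) ℝ)) k ≃ₗ[ℂ] MF Γ k :=
  LinearEquiv.ofBijective (MFlin Γ k) (MFlin_bijective Γ k)

/-- C0.1 -/
theorem MFequiv_coe (k : ℤ) (f : ModularForm (Γ : Subgroup (GL (Fin 2) ℝ)) k) :
    ((MFequiv Γ k f : MF Γ k) : ℍ → ℂ) = ⇑f := rfl

/-- C0.1 -/
def SFequiv (k : ℤ) : CuspForm (Γ : Subgroup (GL (Fin 2) ℝ)) k ≃ₗ[ℂ] SF Γ k :=
  LinearEquiv.ofBijective (SFlin Γ k) (SFlin_bijective Γ k)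

/-- C0.1 -/
theorem SFequiv_coe (k : ℤ) (f : CuspForm (Γ : Subgroup (GL (Fin 2) ℝ)) k) :
    ((SFequiv Γ k f : SF Γ k) : ℍ → ℂ) = ⇑f := rfl

variable {Γ}

/-- C0.2 (no finite index needed) -/
theorem mul_mem_MF {a k : ℤ} {E f : ℍ → ℂ} (hE : E ∈ MF ⊤ a) (hf : f ∈ MF Γ k) :
    E * f ∈ MF Γ (a + k) := by
  obtain ⟨hE1, hE2, hE3⟩ := hE
  obtain ⟨hf1, hf2, hf3⟩ := hf
  refine ⟨hE1.mul hf1, fun γ hγ => ?_, fun γ => ?_⟩
  · rw [ModularForm.mul_slash_SL2, hE2 γ (Subgroup.mem_top _), hf2 γ hγ]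
  · rw [ModularForm.mul_slash_SL2]
    exact (hE3 γ).mul (hf3 γ)

/-- C0.2 -/
theorem mul_mem_SF {a k : ℤ} {E f : ℍ → ℂ} (hE : E ∈ MF ⊤ a) (hf : f ∈ SF Γ k) :
    E * f ∈ SF Γ (a + k) := by
  obtain ⟨hE1, hE2, hE3⟩ := hE
  obtain ⟨hf1, hf2, hf3⟩ := hf
  refine ⟨hE1.mul hf1, fun γ hγ => ?_, fun γ => ?_⟩
  · rw [ModularForm.mul_slash_SL2, hE2 γ (Subgroup.mem_top _), hf2 γ hγ]
  · rw [ModularForm.mul_slash_SL2, mul_comm]
    exact (hf3 γ).mul_boundedAtFilter (hE3 γ)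

/-- C0.3 -/
theorem ev_mk {k : ℤ} {f : ℍ → ℂ} (hf : ∀ γ ∈ Γ, f ∣[k] γ = f) (g : SL(2, ℤ)) (τ : ℍ) :
    ev Γ k τ f (QuotientGroup.mk g) = (f ∣[k] g⁻¹) τ := by
  obtain ⟨h, hh⟩ := QuotientGroup.mk_out_eq_mul Γ g
  rw [ev_apply, hh, mul_inv_rev, SlashAction.slash_mul, hf _ (Γ.inv_mem h.2)]

/-- C0.3 : equivariance of the vector of conjugates. -/
theorem ev_smul {k : ℤ} {f : ℍ → ℂ} (hf : ∀ γ ∈ Γ, f ∣[k] γ = f) (γ : SL(2, ℤ)) (τ : ℍ)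
    (x : X Γ) : ev Γ k (γ • τ) f x = denom γ τ ^ k * ev Γ k τ f (γ⁻¹ • x) := by
  induction x using QuotientGroup.induction_on with
  | H g =>
    rw [MulAction.Quotient.smul_mk, ev_mk hf, ev_mk hf, smul_eq_mul, mul_inv_rev, inv_inv,
      SlashAction.slash_mul, ModularForm.SL_slash_apply (f ∣[k] g⁻¹) γ τ]
    have hd : denom γ τ ≠ 0 := denom_ne_zero _ _
    rw [mul_comm, mul_assoc, ← zpow_add₀ hd]
    simp

/-- C0.3 : in particular for `T` (`T • τ = τ + 1`). -/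
theorem ev_T {k : ℤ} {f : ℍ → ℂ} (hf : ∀ γ ∈ Γ, f ∣[k] γ = f) (τ : ℍ) :
    ev Γ k (Tm • τ) f = shiftT Γ (ev Γ k τ f) := by
  funext x
  rw [ev_smul hf, shiftT, LinearMap.funLeft_apply]
  have hd : denom Tm τ = 1 := by
    simp [denom, ModularGroup.coe_T]
  rw [hd, one_zpow, one_mul]

/-- C0.3 -/
theorem ev_mul {a k : ℤ} {E : ℍ → ℂ} (hE : E ∈ MF ⊤ a) (f : ℍ → ℂ) (τ : ℍ) :
    ev Γ (a + k) τ (E * f) = E τ • ev Γ k τ f := by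
  funext x
  rw [ev_apply, ModularForm.mul_slash_SL2, hE.2.1 _ (Subgroup.mem_top _)]
  rfl

/-- C0.3 -/
theorem ev_eq_zero_iff {k : ℤ} {f : ℍ → ℂ} (hf : ∀ γ ∈ Γ, f ∣[k] γ = f) (τ : ℍ) :
    ev Γ k τ f = 0 ↔ ∀ γ : SL(2, ℤ), f (γ • τ) = 0 := by
  constructor
  · intro h γ
    have h1 := congrFun h (QuotientGroup.mk γ⁻¹)
    rw [ev_mk hf, inv_inv, ModularForm.SL_slash_apply] at h1
    rcases mul_eq_zero.mp h1 with h2 | h2
    · exact h2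
    · exact absurd h2 (zpow_ne_zero _ (denom_ne_zero _ _))
  · intro h
    funext x
    rw [ev_apply, ModularForm.SL_slash_apply, h]
    simp

variable (Γ)

/-- C0.4 (Mathlib `ModularForm.isZero_of_neg_weight`) -/
theorem MF_eq_bot_of_neg {k : ℤ} (hk : k < 0) : MF Γ k = ⊥ := by
  rw [eq_bot_iff]
  intro f hf
  obtain ⟨g, rfl⟩ := mem_MF_iff_exists.mp hf
  rw [ModularForm.isZero_of_neg_weight hk g]
  exact Submodule.zero_mem _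

/-- C0.4 (Mathlib `ModularForm.eq_const_of_weight_zero`) -/
theorem MF_zero_eq_const {f : ℍ → ℂ} (hf : f ∈ MF Γ 0) : ∃ c : ℂ, f = fun _ => c := by
  obtain ⟨g, rfl⟩ := mem_MF_iff_exists.mp hf
  obtain ⟨c, hc⟩ := ModularForm.eq_const_of_weight_zero g
  exact ⟨c, hc⟩

/-- C0.4 -/
theorem SF_eq_bot_of_nonpos {k : ℤ} (hk : k ≤ 0) : SF Γ k = ⊥ := by
  rw [eq_bot_iff]
  intro f hf
  rcases hk.lt_or_eq with hk | rfl
  · have := SF_le_MF Γ k hf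
    rwa [MF_eq_bot_of_neg Γ hk] at this
  · obtain ⟨c, rfl⟩ := MF_zero_eq_const Γ (SF_le_MF Γ 0 hf)
    have h0 : IsZeroAtImInfty ((fun _ : ℍ => c) ∣[(0 : ℤ)] (1 : SL(2, ℤ))) := hf.2.2 1
    rw [SlashAction.slash_one] at h0
    have hc : c = 0 := by
      have h1 : Filter.Tendsto (fun _ : ℍ => c) atImInfty (nhds 0) := h0
      exact tendsto_nhds_unique tendsto_const_nhds h1
    subst hc
    exact Submodule.zero_mem _

/-- C0.4 -/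
theorem MF_eq_bot_of_odd (hneg : -1 ∈ Γ) {k : ℤ} (hk : Odd k) : MF Γ k = ⊥ := by
  rw [eq_bot_iff]
  intro f hf
  obtain ⟨g, rfl⟩ := mem_MF_iff_exists.mp hf
  have hmem : (-1 : GL (Fin 2) ℝ) ∈ (Γ : Subgroup (GL (Fin 2) ℝ)) := by
    refine ⟨-1, hneg, ?_⟩
    ext i j
    simp
  rw [ModularForm.eq_zero_of_neg_one_mem hmem hk g]
  exact Submodule.zero_mem _

end Fermat.Agent.S20.C0h516
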