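/-
S20 long shot, work package B (division lemmas) -- helper980.

Pure complex-analysis core: division of a holomorphic function by a holomorphic function
with simple zeros, on an open subset of `ℂ`.
-/
import Mathlib.Analysis.Complex.RemovableSingularity
import Mathlib.NumberTheory.ModularForms.LevelOne.DimensionFormula

set_option autoImplicit false

noncomputable section

namespace Fermat.Agent.S20.B980

open Filter Topology

/-- The quotient `f / P`, with the value `f' / P'` at the zeros of `P`. -/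
def divFun (f P : ℂ → ℂ) (z : ℂ) : ℂ :=
  if P z = 0 then deriv f z / deriv P z else f z / P z

lemma divFun_of_ne {f P : ℂ → ℂ} {z : ℂ} (h : P z ≠ 0) : divFun f P z = f z / P z := by
  simp [divFun, h]

lemma divFun_of_eq {f P : ℂ → ℂ} {z : ℂ} (h : P z = 0) :
    divFun f P z = deriv f z / deriv P z := by
  simp [divFun, h]

/-- Near a simple zero `z₀` of `P`, `P` does not vanish at `z ≠ z₀`. -/
lemma eventually_dslope_ne_zero {P : ℂ → ℂ} {U : Set ℂ} (hU : IsOpen U)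
    (hP : DifferentiableOn ℂ P U) {z₀ : ℂ} (hz₀ : z₀ ∈ U) (hP' : deriv P z₀ ≠ 0) :
    ∀ᶠ z in 𝓝 z₀, dslope P z₀ z ≠ 0 := by
  have hd : DifferentiableOn ℂ (dslope P z₀) U :=
    (Complex.differentiableOn_dslope (hU.mem_nhds hz₀)).mpr hP
  have hc : ContinuousAt (dslope P z₀) z₀ :=
    (hd.differentiableAt (hU.mem_nhds hz₀)).continuousAt
  have h0 : dslope P z₀ z₀ ≠ 0 := by rwa [dslope_same]
  exact hc.eventually_ne h0

lemma eventually_ne_zero_nhdsNE {P : ℂ → ℂ} {U : Set ℂ} (hU : IsOpen U)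
    (hP : DifferentiableOn ℂ P U) {z₀ : ℂ} (hz₀ : z₀ ∈ U) (hPz : P z₀ = 0)
    (hP' : deriv P z₀ ≠ 0) :
    ∀ᶠ z in 𝓝[≠] z₀, P z ≠ 0 := by
  have h1 := (eventually_dslope_ne_zero hU hP hz₀ hP').filter_mono
    (nhdsWithin_le_nhds (s := {z₀}ᶜ))
  have h2 : ∀ᶠ z in 𝓝[≠] z₀, z ≠ z₀ := eventually_mem_nhdsWithin
  filter_upwards [h1, h2] with z hz hne
  have := sub_smul_dslope P z₀ z
  rw [hPz, sub_zero, smul_eq_mul] at this
  rw [← this]
  exact mul_ne_zero (sub_ne_zero.mpr hne) hz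

/-- Local form of `divFun` near a simple zero of `P` at which `f` vanishes. -/
lemma divFun_eventuallyEq_dslope {f P : ℂ → ℂ} {U : Set ℂ} (hU : IsOpen U)
    (hP : DifferentiableOn ℂ P U) {z₀ : ℂ} (hz₀ : z₀ ∈ U) (hPz : P z₀ = 0)
    (hP' : deriv P z₀ ≠ 0) (hfz : f z₀ = 0) :
    divFun f P =ᶠ[𝓝 z₀] fun z ↦ dslope f z₀ z / dslope P z₀ z := by
  filter_upwards [eventually_dslope_ne_zero hU hP hz₀ hP'] with z hz
  rcases eq_or_ne z z₀ with rfl | hne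
  · rw [divFun_of_eq hPz, dslope_same, dslope_same]
  · have hPeq := sub_smul_dslope P z₀ z
    rw [hPz, sub_zero, smul_eq_mul] at hPeq
    have hfeq := sub_smul_dslope f z₀ z
    rw [hfz, sub_zero, smul_eq_mul] at hfeq
    have hPne : P z ≠ 0 := by
      rw [← hPeq]; exact mul_ne_zero (sub_ne_zero.mpr hne) hz
    rw [divFun_of_ne hPne, ← hPeq, ← hfeq]
    exact mul_div_mul_left _ _ (sub_ne_zero.mpr hne)

/-- **Division lemma, analytic core.** If `f` and `P` are holomorphic on the open set `U`,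
all zeros of `P` in `U` are simple, and `f` vanishes at them, then `divFun f P` is holomorphic
on `U`. -/
theorem differentiableOn_divFun {f P : ℂ → ℂ} {U : Set ℂ} (hU : IsOpen U)
    (hf : DifferentiableOn ℂ f U) (hP : DifferentiableOn ℂ P U)
    (hsimple : ∀ z ∈ U, P z = 0 → deriv P z ≠ 0)
    (hvan : ∀ z ∈ U, P z = 0 → f z = 0) :
    DifferentiableOn ℂ (divFun f P) U := by
  intro z₀ hz₀
  refine DifferentiableAt.differentiableWithinAt ?_
  by_cases hPz : P z₀ = 0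
  · have hd : DifferentiableAt ℂ (dslope P z₀) z₀ :=
      ((Complex.differentiableOn_dslope (hU.mem_nhds hz₀)).mpr hP).differentiableAt
        (hU.mem_nhds hz₀)
    have hdf : DifferentiableAt ℂ (dslope f z₀) z₀ :=
      ((Complex.differentiableOn_dslope (hU.mem_nhds hz₀)).mpr hf).differentiableAt
        (hU.mem_nhds hz₀)
    have h0 : dslope P z₀ z₀ ≠ 0 := by rw [dslope_same]; exact hsimple z₀ hz₀ hPz
    exact (hdf.div hd h0).congr_of_eventuallyEq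
      (divFun_eventuallyEq_dslope hU hP hz₀ hPz (hsimple z₀ hz₀ hPz) (hvan z₀ hz₀ hPz))
  · have hPd : DifferentiableAt ℂ P z₀ := hP.differentiableAt (hU.mem_nhds hz₀)
    have hfd : DifferentiableAt ℂ f z₀ := hf.differentiableAt (hU.mem_nhds hz₀)
    have hev : divFun f P =ᶠ[𝓝 z₀] fun z ↦ f z / P z := by
      filter_upwards [hPd.continuousAt.eventually_ne hPz] with z hz
      exact divFun_of_ne hz
    exact (hfd.div hPd hPz).congr_of_eventuallyEq hev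

theorem mul_divFun {f P : ℂ → ℂ} {z : ℂ} (hvan : P z = 0 → f z = 0) :
    P z * divFun f P z = f z := by
  by_cases hPz : P z = 0
  · rw [hPz, zero_mul, hvan hPz]
  · rw [divFun_of_ne hPz, mul_div_cancel₀ _ hPz]

/-! ### Transfer to the upper half plane -/

open UpperHalfPlane ModularForm MatrixGroups Matrix.SpecialLinearGroup OnePoint Asymptotics

open scoped Manifold

/-- The quotient `f / P` on the upper half plane (value `f' / P'` at the zeros of `P`). -/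
def divH (f P : ℍ → ℂ) (τ : ℍ) : ℂ := divFun (f ∘ ofComplex) (P ∘ ofComplex) (τ : ℂ)

lemma mul_divH {f P : ℍ → ℂ} (hvan : ∀ τ : ℍ, P τ = 0 → f τ = 0) (τ : ℍ) :
    P τ * divH f P τ = f τ := by
  have := mul_divFun (f := f ∘ ofComplex) (P := P ∘ ofComplex) (z := (τ : ℂ))
    (by simpa [ofComplex_apply] using hvan τ)
  simpa [divH, ofComplex_apply] using this

lemma mul_divH_eq {f P : ℍ → ℂ} (hvan : ∀ τ : ℍ, P τ = 0 → f τ = 0) :
    P * divH f P = f := funext fun τ ↦ mul_divH hvan τ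

lemma mdiff_divH {f P : ℍ → ℂ} (hf : MDiff f) (hP : MDiff P)
    (hsimple : ∀ τ : ℍ, P τ = 0 → deriv (P ∘ ofComplex) τ ≠ 0)
    (hvan : ∀ τ : ℍ, P τ = 0 → f τ = 0) : MDiff (divH f P) := by
  rw [mdifferentiable_iff] at hf hP ⊢
  have key := differentiableOn_divFun isOpen_upperHalfPlaneSet hf hP
    (fun z hz hPz ↦ by
      have := hsimple ⟨z, hz⟩ (by simpa [ofComplex_apply_of_im_pos hz] using hPz)
      simpa using this)
    (fun z hz hPz ↦ by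
      have := hvan ⟨z, hz⟩ (by simpa [ofComplex_apply_of_im_pos hz] using hPz)
      simpa [ofComplex_apply_of_im_pos hz] using this)
  refine key.congr fun z hz ↦ ?_
  simp [divH, ofComplex_apply_of_im_pos hz]

/-- Cancellation: if `P` is holomorphic with simple zeros and `P * h₁ = P * h₂` with `h₁`, `h₂`
holomorphic, then `h₁ = h₂`. -/
lemma eq_of_mul_eq {P h₁ h₂ : ℍ → ℂ} (hP : MDiff P) (hh₁ : MDiff h₁) (hh₂ : MDiff h₂)
    (hsimple : ∀ τ : ℍ, P τ = 0 → deriv (P ∘ ofComplex) τ ≠ 0)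
    (h : P * h₁ = P * h₂) : h₁ = h₂ := by
  funext τ₀
  have hmul : ∀ τ : ℍ, P τ * h₁ τ = P τ * h₂ τ := fun τ ↦ congrFun h τ
  by_cases hPz : P τ₀ = 0
  · rw [mdifferentiable_iff] at hP hh₁ hh₂
    have hU : {z : ℂ | 0 < z.im} ∈ 𝓝 (τ₀ : ℂ) := isOpen_upperHalfPlaneSet.mem_nhds τ₀.2
    have e : ∀ᶠ z in 𝓝[≠] (τ₀ : ℂ), (h₁ ∘ ofComplex) z = (h₂ ∘ ofComplex) z := by
      have h1 := eventually_ne_zero_nhdsNE isOpen_upperHalfPlaneSet hP τ₀.2
        (by simpa [ofComplex_apply] using hPz) (hsimple τ₀ hPz)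
      filter_upwards [h1] with z hz
      exact mul_left_cancel₀ hz (hmul (ofComplex z))
    have c₁ : ContinuousAt (h₁ ∘ ofComplex) (τ₀ : ℂ) := (hh₁.differentiableAt hU).continuousAt
    have c₂ : ContinuousAt (h₂ ∘ ofComplex) (τ₀ : ℂ) := (hh₂.differentiableAt hU).continuousAt
    have := tendsto_nhds_unique_of_eventuallyEq
      (c₁.tendsto.mono_left (nhdsWithin_le_nhds (s := {(τ₀ : ℂ)}ᶜ)))
      (c₂.tendsto.mono_left (nhdsWithin_le_nhds (s := {(τ₀ : ℂ)}ᶜ))) e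
    simpa [ofComplex_apply] using this
  · exact mul_left_cancel₀ hPz (hmul τ₀)

section modular

variable {w k : ℤ}

lemma slash_levelOne (P : ModularForm 𝒮ℒ w) (γ : SL(2, ℤ)) : (⇑P) ∣[w] γ = ⇑P := by
  have hγ : (γ : GL (Fin 2) ℝ) ∈ 𝒮ℒ := ⟨γ, rfl⟩
  rw [SL_slash]
  exact SlashInvariantFormClass.slash_action_eq P _ hγ

/-- Key identity: `P * (g ∣ γ) = f ∣ γ` for `g = f / P`, `P` of level one. -/
lemma mul_divH_slash (P : ModularForm 𝒮ℒ w) {f : ℍ → ℂ}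
    (hvan : ∀ τ : ℍ, P τ = 0 → f τ = 0) (γ : SL(2, ℤ)) :
    ⇑P * (divH f P ∣[k - w] γ) = f ∣[k] γ := by
  have h1 := mul_slash_SL2 w (k - w) γ (⇑P) (divH f P)
  rw [show w + (k - w) = k by ring, mul_divH_eq hvan, slash_levelOne] at h1
  exact h1.symm

/-- A level-one modular form tends to its value at infinity. -/
lemma tendsto_levelOne (P : ModularForm 𝒮ℒ w) :
    Tendsto (⇑P) atImInfty (𝓝 (cuspFunction 1 P 0)) := by
  have hanal := ModularFormClass.analyticAt_cuspFunction_zero P one_pos one_mem_strictPeriods_SL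
  exact (hanal.continuousAt.tendsto.comp (qParam_tendsto_atImInfty one_pos)).congr
    (fun τ ↦ SlashInvariantFormClass.eq_cuspFunction P τ one_mem_strictPeriods_SL one_ne_zero)

/-- A level-one modular form which is not zero at `i∞` is bounded away from zero near `i∞`. -/
lemma exists_le_norm_levelOne (P : ModularForm 𝒮ℒ w) (hPinf : ¬ IsZeroAtImInfty (⇑P)) :
    ∃ c : ℝ, 0 < c ∧ ∃ A : ℝ, ∀ τ : ℍ, A ≤ τ.im → c ≤ ‖P τ‖ := by
  have ht := tendsto_levelOne P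
  have hv : cuspFunction 1 P 0 ≠ 0 := by
    intro h0
    rw [h0] at ht
    exact hPinf ht
  have hpos : 0 < ‖cuspFunction 1 P 0‖ / 2 := by positivity
  refine ⟨‖cuspFunction 1 P 0‖ / 2, hpos, ?_⟩
  have hev : ∀ᶠ τ in atImInfty, ‖cuspFunction 1 P 0‖ / 2 ≤ ‖P τ‖ := by
    have := ht.norm
    have hlt : ‖cuspFunction 1 P 0‖ / 2 < ‖cuspFunction 1 P 0‖ := by linarith
    exact (this.eventually (lt_mem_nhds hlt)).mono fun τ hτ ↦ hτ.le
  exact (atImInfty_mem _).mp hev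

variable {𝒢 : Subgroup (GL (Fin 2) ℝ)}

lemma divH_slash_eq (h𝒢 : 𝒢 ≤ 𝒮ℒ) (P : ModularForm 𝒮ℒ w)
    (hsimple : ∀ τ : ℍ, P τ = 0 → deriv (⇑P ∘ ofComplex) τ ≠ 0)
    {F : Type*} [FunLike F ℍ ℂ] [ModularFormClass F 𝒢 k] (f : F)
    (hvan : ∀ τ : ℍ, P τ = 0 → f τ = 0) (γ : GL (Fin 2) ℝ) (hγ : γ ∈ 𝒢) :
    divH (⇑f) (⇑P) ∣[k - w] γ = divH (⇑f) (⇑P) := by
  obtain ⟨γ', rfl⟩ := h𝒢 hγ
  have hg : MDiff (divH (⇑f) (⇑P)) :=
    mdiff_divH (ModularFormClass.holo f) (ModularFormClass.holo P) hsimple hvan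
  refine eq_of_mul_eq (ModularFormClass.holo P) (hg.slash _ _) hg hsimple ?_
  have h1 : ⇑P * (divH (⇑f) (⇑P) ∣[k - w] γ') = (⇑f) ∣[k] γ' :=
    mul_divH_slash (k := k) P hvan γ'
  have h2 : (⇑f) ∣[k] γ' = ⇑f := SlashInvariantFormClass.slash_action_eq f _ hγ
  have h3 : ⇑P * divH (⇑f) (⇑P) = ⇑f := mul_divH_eq hvan
  exact (h1.trans h2).trans h3.symm

lemma isBoundedAtImInfty_divH_slash (P : ModularForm 𝒮ℒ w)
    (hPinf : ¬ IsZeroAtImInfty (⇑P)) {f : ℍ → ℂ}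
    (hvan : ∀ τ : ℍ, P τ = 0 → f τ = 0) (γ : SL(2, ℤ))
    (hb : IsBoundedAtImInfty (f ∣[k] γ)) :
    IsBoundedAtImInfty (divH f (⇑P) ∣[k - w] γ) := by
  obtain ⟨c, hc, A, hA⟩ := exists_le_norm_levelOne P hPinf
  rw [isBoundedAtImInfty_iff] at hb ⊢
  obtain ⟨M, B, hB⟩ := hb
  refine ⟨M / c, max A B, fun τ hτ ↦ ?_⟩
  have h1 := congrFun (mul_divH_slash (k := k) P hvan γ) τ
  rw [Pi.mul_apply] at h1
  have hPτ : c ≤ ‖P τ‖ := hA τ ((le_max_left _ _).trans hτ)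
  have hFτ : ‖(f ∣[k] γ) τ‖ ≤ M := hB τ ((le_max_right _ _).trans hτ)
  have hM : 0 ≤ M := (norm_nonneg _).trans hFτ
  rw [← h1, norm_mul] at hFτ
  rw [le_div_iff₀ hc]
  calc ‖(divH f (⇑P) ∣[k - w] γ) τ‖ * c ≤ ‖(divH f (⇑P) ∣[k - w] γ) τ‖ * ‖P τ‖ :=
        mul_le_mul_of_nonneg_left hPτ (norm_nonneg _)
    _ = ‖P τ‖ * ‖(divH f (⇑P) ∣[k - w] γ) τ‖ := mul_comm _ _
    _ ≤ M := hFτ

lemma isZeroAtImInfty_divH_slash (P : ModularForm 𝒮ℒ w)
    (hPinf : ¬ IsZeroAtImInfty (⇑P)) {f : ℍ → ℂ}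
    (hvan : ∀ τ : ℍ, P τ = 0 → f τ = 0) (γ : SL(2, ℤ))
    (hb : IsZeroAtImInfty (f ∣[k] γ)) :
    IsZeroAtImInfty (divH f (⇑P) ∣[k - w] γ) := by
  obtain ⟨c, hc, A, hA⟩ := exists_le_norm_levelOne P hPinf
  rw [isZeroAtImInfty_iff] at hb ⊢
  intro ε hε
  obtain ⟨B, hB⟩ := hb (ε * c) (mul_pos hε hc)
  refine ⟨max A B, fun τ hτ ↦ ?_⟩
  have h1 := congrFun (mul_divH_slash (k := k) P hvan γ) τ
  rw [Pi.mul_apply] at h1
  have hPτ : c ≤ ‖P τ‖ := hA τ ((le_max_left _ _).trans hτ)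
  have hFτ : ‖(f ∣[k] γ) τ‖ ≤ ε * c := hB τ ((le_max_right _ _).trans hτ)
  rw [← h1, norm_mul] at hFτ
  have : ‖(divH f (⇑P) ∣[k - w] γ) τ‖ * c ≤ ε * c :=
    calc ‖(divH f (⇑P) ∣[k - w] γ) τ‖ * c ≤ ‖(divH f (⇑P) ∣[k - w] γ) τ‖ * ‖P τ‖ :=
          mul_le_mul_of_nonneg_left hPτ (norm_nonneg _)
      _ = ‖P τ‖ * ‖(divH f (⇑P) ∣[k - w] γ) τ‖ := mul_comm _ _
      _ ≤ ε * c := hFτ
  exact le_of_mul_le_mul_right this hc

/-- **Division lemma (modular forms).** Division of a modular form for an arithmetic subgroup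
`𝒢 ≤ 𝒮ℒ` by a level-one modular form `P` with simple zeros which does not vanish at `i∞`,
when `f` vanishes at all zeros of `P`. -/
def divModularForm [𝒢.IsArithmetic] (h𝒢 : 𝒢 ≤ 𝒮ℒ) (P : ModularForm 𝒮ℒ w)
    (hsimple : ∀ τ : ℍ, P τ = 0 → deriv (⇑P ∘ ofComplex) τ ≠ 0)
    (hPinf : ¬ IsZeroAtImInfty (⇑P)) (f : ModularForm 𝒢 k)
    (hvan : ∀ τ : ℍ, P τ = 0 → f τ = 0) : ModularForm 𝒢 (k - w) where
  toFun := divH (⇑f) (⇑P)
  slash_action_eq' γ hγ := divH_slash_eq h𝒢 P hsimple f hvan γ hγ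
  holo' := mdiff_divH (ModularFormClass.holo f) (ModularFormClass.holo P) hsimple hvan
  bdd_at_cusps' {c} hc := by
    rw [Subgroup.IsArithmetic.isCusp_iff_isCusp_SL2Z] at hc
    rw [isBoundedAt_iff_forall_SL2Z hc]
    intro γ _
    exact isBoundedAtImInfty_divH_slash P hPinf hvan γ (ModularFormClass.bdd_at_infty_slash f γ)

/-- **Division lemma (cusp forms).** -/
def divCuspForm [𝒢.IsArithmetic] (h𝒢 : 𝒢 ≤ 𝒮ℒ) (P : ModularForm 𝒮ℒ w)
    (hsimple : ∀ τ : ℍ, P τ = 0 → deriv (⇑P ∘ ofComplex) τ ≠ 0)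
    (hPinf : ¬ IsZeroAtImInfty (⇑P)) (f : CuspForm 𝒢 k)
    (hvan : ∀ τ : ℍ, P τ = 0 → f τ = 0) : CuspForm 𝒢 (k - w) where
  toFun := divH (⇑f) (⇑P)
  slash_action_eq' γ hγ := divH_slash_eq h𝒢 P hsimple f hvan γ hγ
  holo' := mdiff_divH (ModularFormClass.holo f) (ModularFormClass.holo P) hsimple hvan
  zero_at_cusps' {c} hc := by
    rw [Subgroup.IsArithmetic.isCusp_iff_isCusp_SL2Z] at hc
    rw [isZeroAt_iff_forall_SL2Z hc]
    intro γ _
    exact isZeroAtImInfty_divH_slash P hPinf hvan γ (CuspFormClass.zero_at_infty_slash f γ)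

@[simp]
lemma mul_divModularForm_apply [𝒢.IsArithmetic] (h𝒢 : 𝒢 ≤ 𝒮ℒ) (P : ModularForm 𝒮ℒ w)
    (hsimple : ∀ τ : ℍ, P τ = 0 → deriv (⇑P ∘ ofComplex) τ ≠ 0)
    (hPinf : ¬ IsZeroAtImInfty (⇑P)) (f : ModularForm 𝒢 k)
    (hvan : ∀ τ : ℍ, P τ = 0 → f τ = 0) (τ : ℍ) :
    P τ * divModularForm h𝒢 P hsimple hPinf f hvan τ = f τ :=
  mul_divH hvan τ

@[simp]
lemma mul_divCuspForm_apply [𝒢.IsArithmetic] (h𝒢 : 𝒢 ≤ 𝒮ℒ) (P : ModularForm 𝒮ℒ w)
    (hsimple : ∀ τ : ℍ, P τ = 0 → deriv (⇑P ∘ ofComplex) τ ≠ 0)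
    (hPinf : ¬ IsZeroAtImInfty (⇑P)) (f : CuspForm 𝒢 k)
    (hvan : ∀ τ : ℍ, P τ = 0 → f τ = 0) (τ : ℍ) :
    P τ * divCuspForm h𝒢 P hsimple hPinf f hvan τ = f τ :=
  mul_divH hvan τ

/-! ### Division by the discriminant -/

local notation "Δ" => ModularForm.discriminant

lemma discriminant_slash_SL (γ : SL(2, ℤ)) : (Δ ∣[(12 : ℤ)] γ) = Δ :=
  SlashInvariantFormClass.slash_action_eq CuspForm.discriminant _ ⟨γ, rfl⟩

lemma div_discriminant_slash (f : ℍ → ℂ) (γ : SL(2, ℤ)) :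
    (fun z ↦ f z / Δ z) ∣[k - 12] γ = fun z ↦ (f ∣[k] γ) z / Δ z := by
  change (f / Δ) ∣[k - 12] γ = (f ∣[k] γ) / Δ
  rw [div_slash_SL2, discriminant_slash_SL]

/-- **Division by `Δ`.** If all `SL(2, ℤ)`-translates of `f` are `O(exp (-2π Im τ))` at `i∞`,
then `f / Δ` is a modular form of weight `k - 12`. -/
def divDiscriminant [𝒢.IsArithmetic] (h𝒢 : 𝒢 ≤ 𝒮ℒ) (f : ModularForm 𝒢 k)
    (hf : ∀ γ : SL(2, ℤ),
      (⇑f ∣[k] γ) =O[atImInfty] fun τ ↦ Real.exp (-2 * Real.pi * τ.im)) :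
    ModularForm 𝒢 (k - 12) where
  toFun z := f z / Δ z
  slash_action_eq' γ hγ := by
    obtain ⟨γ', rfl⟩ := h𝒢 hγ
    have h1 := div_discriminant_slash (k := k) (⇑f) γ'
    have h2 : (⇑f) ∣[k] γ' = ⇑f := SlashInvariantFormClass.slash_action_eq f _ hγ
    rw [h2] at h1
    exact h1
  holo' := (ModularFormClass.holo f).div (ModularFormClass.holo CuspForm.discriminant)
    discriminant_ne_zero
  bdd_at_cusps' {c} hc := by
    rw [Subgroup.IsArithmetic.isCusp_iff_isCusp_SL2Z] at hc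
    rw [isBoundedAt_iff_forall_SL2Z hc]
    intro γ _
    rw [div_discriminant_slash (k := k) (⇑f) γ, IsBoundedAtImInfty, BoundedAtFilter]
    exact (div_isBoundedUnder_of_isBigO ((hf γ).trans exp_isBigO_discriminant)).isBigO_one ℝ

@[simp]
lemma discriminant_mul_divDiscriminant_apply [𝒢.IsArithmetic] (h𝒢 : 𝒢 ≤ 𝒮ℒ)
    (f : ModularForm 𝒢 k)
    (hf : ∀ γ : SL(2, ℤ),
      (⇑f ∣[k] γ) =O[atImInfty] fun τ ↦ Real.exp (-2 * Real.pi * τ.im)) (τ : ℍ) :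
    Δ τ * divDiscriminant h𝒢 f hf τ = f τ :=
  mul_div_cancel₀ (f τ) (discriminant_ne_zero τ)

end modular

/-! ### Statements in the form requested by the S20 plan (subtask B) -/

section statements

variable {Γ : Subgroup SL(2, ℤ)} [Γ.FiniteIndex] {w k : ℤ}

local notation "Δ" => ModularForm.discriminant

theorem exists_eq_mul_of_vanishing (P : ModularForm 𝒮ℒ w)
    (hP : ∀ z : ℍ, P z = 0 → deriv (⇑P ∘ ofComplex) z ≠ 0)
    (hPinf : ¬ IsZeroAtImInfty (⇑P))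
    (f : ModularForm (Γ : Subgroup (GL (Fin 2) ℝ)) k) (hf : ∀ z : ℍ, P z = 0 → f z = 0) :
    ∃ g : ModularForm (Γ : Subgroup (GL (Fin 2) ℝ)) (k - w), ∀ z, f z = P z * g z :=
  ⟨divModularForm (Subgroup.map_le_range _ _) P hP hPinf f hf,
    fun z ↦ (mul_divModularForm_apply _ P hP hPinf f hf z).symm⟩

theorem exists_eq_mul_of_vanishing_cuspForm (P : ModularForm 𝒮ℒ w)
    (hP : ∀ z : ℍ, P z = 0 → deriv (⇑P ∘ ofComplex) z ≠ 0)
    (hPinf : ¬ IsZeroAtImInfty (⇑P))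
    (f : CuspForm (Γ : Subgroup (GL (Fin 2) ℝ)) k) (hf : ∀ z : ℍ, P z = 0 → f z = 0) :
    ∃ g : CuspForm (Γ : Subgroup (GL (Fin 2) ℝ)) (k - w), ∀ z, f z = P z * g z :=
  ⟨divCuspForm (Subgroup.map_le_range _ _) P hP hPinf f hf,
    fun z ↦ (mul_divCuspForm_apply _ P hP hPinf f hf z).symm⟩

theorem exists_eq_discriminant_mul (f : ModularForm (Γ : Subgroup (GL (Fin 2) ℝ)) k)
    (hf : ∀ γ : SL(2, ℤ),
      (⇑f ∣[k] γ) =O[atImInfty] fun τ ↦ Real.exp (-2 * Real.pi * τ.im)) :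
    ∃ g : ModularForm (Γ : Subgroup (GL (Fin 2) ℝ)) (k - 12), ∀ z, f z = Δ z * g z :=
  ⟨divDiscriminant (Subgroup.map_le_range _ _) f hf,
    fun z ↦ (discriminant_mul_divDiscriminant_apply _ f hf z).symm⟩

end statements

end Fermat.Agent.S20.B980

end
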