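import Mathlib

/-!
# S20 long shot — core definitions (FROZEN INTERFACE, owner helper20)

Everything is stated for a subgroup `Γ : Subgroup SL(2, ℤ)` and at FUNCTION level
(no bundled forms, hence no weight casts).

* `MF Γ k`, `SF Γ k` : modular / cusp forms of weight `k` for `Γ`, as `Submodule ℂ (ℍ → ℂ)`.
* `X Γ := SL(2, ℤ) ⧸ Γ` (left cosets, left multiplication action).
* `ev Γ k τ f : X Γ → ℂ`, `x ↦ (f ∣[k] (x.out)⁻¹) τ`  (vector of conjugates of `f` at `τ`).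
* `shiftT Γ`, `per Γ`, `proj Γ a`, `Theta Γ s` : the permutation operator of `T` on `ℂ^X`,
  its order, its spectral projectors and `Theta s = ∑ₐ exp(2πi a s / h) • proj a`.
* `HasJet Γ k f v` : `Theta (-τ) (ev τ f) → v` as `im τ → ∞` ("leading coefficients at the cusps").
* `LevelOneDivisor z₀ w P` : `P` is a level one form of weight `w` with simple zeros, exactly on
  the orbit of `z₀`, not vanishing at `∞`.
* `FundSystem Γ` : a unimodular frame (fundamental system of generators).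
-/

set_option autoImplicit false

noncomputable section

namespace Fermat.Agent.S20

open UpperHalfPlane ModularForm CongruenceSubgroup MatrixGroups Filter
open scoped Manifold Topology Real

lemma smul_slash_SL (k : ℤ) (γ : SL(2, ℤ)) (c : ℂ) (f : ℍ → ℂ) :
    (c • f) ∣[k] γ = c • (f ∣[k] γ) := by
  simp

/-- Function-level space of weight `k` modular forms for `Γ ≤ SL(2, ℤ)`. -/
def MF (Γ : Subgroup SL(2, ℤ)) (k : ℤ) : Submodule ℂ (ℍ → ℂ) where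
  carrier := {f | MDiff f ∧ (∀ γ ∈ Γ, f ∣[k] γ = f) ∧
    ∀ γ : SL(2, ℤ), IsBoundedAtImInfty (f ∣[k] γ)}
  zero_mem' := by
    refine ⟨mdifferentiable_const, fun γ _ => by simp, fun γ => ?_⟩
    simpa using (zero_form_isBoundedAtImInfty : IsBoundedAtImInfty (0 : ℍ → ℂ))
  add_mem' := by
    rintro f g ⟨hf, hf', hf''⟩ ⟨hg, hg', hg''⟩
    refine ⟨hf.add hg, fun γ hγ => by rw [SlashAction.add_slash, hf' γ hγ, hg' γ hγ],
      fun γ => ?_⟩
    rw [SlashAction.add_slash]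
    exact (hf'' γ).add (hg'' γ)
  smul_mem' := by
    rintro c f ⟨hf, hf', hf''⟩
    refine ⟨hf.const_smul c, fun γ hγ => by rw [smul_slash_SL, hf' γ hγ], fun γ => ?_⟩
    rw [smul_slash_SL]
    exact (hf'' γ).const_smul_left c

/-- Function-level space of weight `k` cusp forms for `Γ ≤ SL(2, ℤ)`. -/
def SF (Γ : Subgroup SL(2, ℤ)) (k : ℤ) : Submodule ℂ (ℍ → ℂ) where
  carrier := {f | MDiff f ∧ (∀ γ ∈ Γ, f ∣[k] γ = f) ∧
    ∀ γ : SL(2, ℤ), IsZeroAtImInfty (f ∣[k] γ)}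
  zero_mem' := by
    refine ⟨mdifferentiable_const, fun γ _ => by simp, fun γ => ?_⟩
    rw [SlashAction.zero_slash]
    exact Filter.zero_zeroAtFilter atImInfty
  add_mem' := by
    rintro f g ⟨hf, hf', hf''⟩ ⟨hg, hg', hg''⟩
    refine ⟨hf.add hg, fun γ hγ => by rw [SlashAction.add_slash, hf' γ hγ, hg' γ hγ],
      fun γ => ?_⟩
    rw [SlashAction.add_slash]
    exact (hf'' γ).add (hg'' γ)
  smul_mem' := by
    rintro c f ⟨hf, hf', hf''⟩
    refine ⟨hf.const_smul c, fun γ hγ => by rw [smul_slash_SL, hf' γ hγ], fun γ => ?_⟩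
    rw [smul_slash_SL]
    exact (hf'' γ).smul c

lemma mem_MF {Γ : Subgroup SL(2, ℤ)} {k : ℤ} {f : ℍ → ℂ} :
    f ∈ MF Γ k ↔ MDiff f ∧ (∀ γ ∈ Γ, f ∣[k] γ = f) ∧
      ∀ γ : SL(2, ℤ), IsBoundedAtImInfty (f ∣[k] γ) := Iff.rfl

lemma mem_SF {Γ : Subgroup SL(2, ℤ)} {k : ℤ} {f : ℍ → ℂ} :
    f ∈ SF Γ k ↔ MDiff f ∧ (∀ γ ∈ Γ, f ∣[k] γ = f) ∧
      ∀ γ : SL(2, ℤ), IsZeroAtImInfty (f ∣[k] γ) := Iff.rfl

lemma SF_le_MF (Γ : Subgroup SL(2, ℤ)) (k : ℤ) : SF Γ k ≤ MF Γ k :=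
  fun _ hf => ⟨hf.1, hf.2.1, fun γ => (hf.2.2 γ).isBoundedAtImInfty⟩

/-- The coset space, with the left multiplication action of `SL(2, ℤ)`. -/
abbrev X (Γ : Subgroup SL(2, ℤ)) : Type := SL(2, ℤ) ⧸ Γ

/-- The vector of conjugates of `f` at `τ`. -/
def ev (Γ : Subgroup SL(2, ℤ)) (k : ℤ) (τ : ℍ) : (ℍ → ℂ) →ₗ[ℂ] (X Γ → ℂ) where
  toFun f x := (f ∣[k] (x.out)⁻¹) τ
  map_add' f g := by
    ext x
    simp [SlashAction.add_slash]
  map_smul' c f := by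
    ext x
    simp

lemma ev_apply (Γ : Subgroup SL(2, ℤ)) (k : ℤ) (τ : ℍ) (f : ℍ → ℂ) (x : X Γ) :
    ev Γ k τ f x = (f ∣[k] (x.out)⁻¹) τ := rfl

section Cusp

variable (Γ : Subgroup SL(2, ℤ))

/-- The permutation operator of `T` on `ℂ^X`: `(shiftT v) x = v (T⁻¹ • x)`.
For `Γ`-invariant `f` one has `ev Γ k (T • τ) f = shiftT Γ (ev Γ k τ f)`. -/
def shiftT : (X Γ → ℂ) →ₗ[ℂ] (X Γ → ℂ) :=
  LinearMap.funLeft ℂ ℂ (fun x : X Γ => (ModularGroup.T)⁻¹ • x)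

/-- The order of `T` acting on `X Γ` (positive when `Γ` has finite index). -/
def per : ℕ := orderOf (MulAction.toPermHom SL(2, ℤ) (X Γ) ModularGroup.T)

/-- Spectral projector of `shiftT` for the eigenvalue `exp (2πi a / h)`, `h = per Γ`. -/
def proj (a : ℕ) : (X Γ → ℂ) →ₗ[ℂ] (X Γ → ℂ) :=
  ((per Γ : ℂ))⁻¹ • ∑ i ∈ Finset.range (per Γ),
    Complex.exp (-(2 * π * Complex.I * a * i / per Γ)) • (shiftT Γ) ^ i

/-- `Theta s = ∑_{a < h} exp (2πi a s / h) • proj a`. -/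
def Theta (s : ℂ) : (X Γ → ℂ) →ₗ[ℂ] (X Γ → ℂ) :=
  ∑ a ∈ Finset.range (per Γ), Complex.exp (2 * π * Complex.I * a * s / per Γ) • proj Γ a

/-- The normalised vector of conjugates, whose limit at `i∞` is the jet. -/
def jetFun (k : ℤ) (f : ℍ → ℂ) (τ : ℍ) : X Γ → ℂ := Theta Γ (-(τ : ℂ)) (ev Γ k τ f)

/-- `v` is the jet (vector of leading coefficients at the cusps) of `f`. -/
def HasJet (k : ℤ) (f : ℍ → ℂ) (v : X Γ → ℂ) : Prop :=
  Tendsto (jetFun Γ k f) atImInfty (𝓝 v)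

end Cusp

/-- `P` is a level one modular form of weight `w`, with simple zeros located exactly on the
`SL(2, ℤ)`-orbit of `z₀`, and not vanishing at `i∞`. -/
structure LevelOneDivisor (z₀ : ℍ) (w : ℤ) (P : ℍ → ℂ) : Prop where
  mem : P ∈ MF ⊤ w
  zero_iff : ∀ z : ℍ, P z = 0 ↔ ∃ γ : SL(2, ℤ), γ • z₀ = z
  simple : ∀ z : ℍ, P z = 0 → deriv (P ∘ ofComplex) z ≠ 0
  not_zero_at_infty : ¬ IsZeroAtImInfty P

/-- A fundamental system (unimodular frame) for `Γ`: homogeneous generators of `⊕ₖ MF Γ k` over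
the level one forms whose vectors of conjugates are linearly independent at every point of `ℍ`
and at `i∞`. -/
structure FundSystem (Γ : Subgroup SL(2, ℤ)) where
  J : Type
  [fintypeJ : Fintype J]
  wt : J → ℤ
  F : J → ℍ → ℂ
  mem : ∀ j, F j ∈ MF Γ (wt j)
  gen : ∀ (k : ℤ) (f : ℍ → ℂ), f ∈ MF Γ k →
    ∃ c : J → ℍ → ℂ, (∀ j, c j ∈ MF ⊤ (k - wt j)) ∧ f = ∑ j, c j * F j
  indep : ∀ τ : ℍ, LinearIndependent ℂ fun j => ev Γ (wt j) τ (F j)
  jet : J → X Γ → ℂ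
  hasJet : ∀ j, HasJet Γ (wt j) (F j) (jet j)
  jet_indep : LinearIndependent ℂ jet
  card_eq : Fintype.card J = Nat.card (X Γ)

attribute [instance] FundSystem.fintypeJ

end Fermat.Agent.S20
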