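/-
S20 long shot — package C0 of captain helper20's skeleton (basic API of `MF`, `SF`, `ev`),
statements exactly as in `origin/helper20:Fermat/Agent/S20/Skeleton.lean`.  (helper980)
Sorry-free.
-/
import Fermat.Agent.S20.Core

set_option autoImplicit false

noncomputable section

namespace Fermat.Agent.S20.C980

open Fermat.Agent.S20
open UpperHalfPlane ModularForm CongruenceSubgroup MatrixGroups Filter Module
open scoped Manifold Topology Real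

local notation "Δ" => ModularForm.discriminant
local notation "Sm" => ModularGroup.S
local notation "Tm" => ModularGroup.T

/-! ## C0.1 : bundled forms versus function-level spaces -/

section bridge

variable (Γ : Subgroup SL(2, ℤ)) [Γ.FiniteIndex]

lemma coe_mem_MF {k : ℤ} (f : ModularForm (Γ : Subgroup (GL (Fin 2) ℝ)) k) :
    (⇑f : ℍ → ℂ) ∈ MF Γ k := by
  refine ⟨ModularFormClass.holo f, fun γ hγ => ?_,
    fun γ => ModularFormClass.bdd_at_infty_slash f γ⟩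
  rw [SL_slash]
  exact SlashInvariantFormClass.slash_action_eq f _ ⟨γ, hγ, rfl⟩

lemma coe_mem_SF {k : ℤ} (f : CuspForm (Γ : Subgroup (GL (Fin 2) ℝ)) k) :
    (⇑f : ℍ → ℂ) ∈ SF Γ k := by
  refine ⟨CuspFormClass.holo f, fun γ hγ => ?_,
    fun γ => CuspFormClass.zero_at_infty_slash f γ⟩
  rw [SL_slash]
  exact SlashInvariantFormClass.slash_action_eq f _ ⟨γ, hγ, rfl⟩

/-- The bundled modular form attached to an element of `MF Γ k`. -/
def ofMF {k : ℤ} {f : ℍ → ℂ} (hf : f ∈ MF Γ k) :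
    ModularForm (Γ : Subgroup (GL (Fin 2) ℝ)) k where
  toFun := f
  slash_action_eq' γ hγ := by
    obtain ⟨γ', hγ', rfl⟩ := hγ
    exact hf.2.1 γ' hγ'
  holo' := hf.1
  bdd_at_cusps' {c} hc := by
    rw [Subgroup.IsArithmetic.isCusp_iff_isCusp_SL2Z] at hc
    rw [OnePoint.isBoundedAt_iff_forall_SL2Z hc]
    intro γ _
    exact hf.2.2 γ

/-- The bundled cusp form attached to an element of `SF Γ k`. -/
def ofSF {k : ℤ} {f : ℍ → ℂ} (hf : f ∈ SF Γ k) :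
    CuspForm (Γ : Subgroup (GL (Fin 2) ℝ)) k where
  toFun := f
  slash_action_eq' γ hγ := by
    obtain ⟨γ', hγ', rfl⟩ := hγ
    exact hf.2.1 γ' hγ'
  holo' := hf.1
  zero_at_cusps' {c} hc := by
    rw [Subgroup.IsArithmetic.isCusp_iff_isCusp_SL2Z] at hc
    rw [OnePoint.isZeroAt_iff_forall_SL2Z hc]
    intro γ _
    exact hf.2.2 γ

@[simp] lemma coe_ofMF {k : ℤ} {f : ℍ → ℂ} (hf : f ∈ MF Γ k) : ⇑(ofMF Γ hf) = f := rfl
@[simp] lemma coe_ofSF {k : ℤ} {f : ℍ → ℂ} (hf : f ∈ SF Γ k) : ⇑(ofSF Γ hf) = f := rfl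

/-- C0.1 -/
def MFequiv (k : ℤ) : ModularForm (Γ : Subgroup (GL (Fin 2) ℝ)) k ≃ₗ[ℂ] MF Γ k where
  toFun f := ⟨⇑f, coe_mem_MF Γ f⟩
  map_add' f g := rfl
  map_smul' c f := rfl
  invFun f := ofMF Γ f.2
  left_inv f := by ext; rfl
  right_inv f := by ext; rfl

/-- C0.1 -/
theorem MFequiv_coe (k : ℤ) (f : ModularForm (Γ : Subgroup (GL (Fin 2) ℝ)) k) :
    ((MFequiv Γ k f : MF Γ k) : ℍ → ℂ) = ⇑f := rfl

/-- C0.1 -/
def SFequiv (k : ℤ) : CuspForm (Γ : Subgroup (GL (Fin 2) ℝ)) k ≃ₗ[ℂ] SF Γ k where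
  toFun f := ⟨⇑f, coe_mem_SF Γ f⟩
  map_add' f g := rfl
  map_smul' c f := rfl
  invFun f := ofSF Γ f.2
  left_inv f := by ext; rfl
  right_inv f := by ext; rfl

/-- C0.1 -/
theorem SFequiv_coe (k : ℤ) (f : CuspForm (Γ : Subgroup (GL (Fin 2) ℝ)) k) :
    ((SFequiv Γ k f : SF Γ k) : ℍ → ℂ) = ⇑f := rfl

end bridge

variable {Γ : Subgroup SL(2, ℤ)}

/-! ## C0.2 : products with level one forms -/

lemma slash_top {a : ℤ} {E : ℍ → ℂ} (hE : E ∈ MF ⊤ a) (γ : SL(2, ℤ)) : E ∣[a] γ = E :=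
  hE.2.1 γ (Subgroup.mem_top γ)

/-- C0.2 (no finite index needed) -/
theorem mul_mem_MF {a k : ℤ} {E f : ℍ → ℂ} (hE : E ∈ MF ⊤ a) (hf : f ∈ MF Γ k) :
    E * f ∈ MF Γ (a + k) := by
  refine ⟨hE.1.mul hf.1, fun γ hγ => ?_, fun γ => ?_⟩
  · rw [mul_slash_SL2, slash_top hE, hf.2.1 γ hγ]
  · rw [mul_slash_SL2, slash_top hE]
    have hb : IsBoundedAtImInfty E := by simpa using hE.2.2 1
    exact hb.mul (hf.2.2 γ)

/-- C0.2 -/
theorem mul_mem_SF {a k : ℤ} {E f : ℍ → ℂ} (hE : E ∈ MF ⊤ a) (hf : f ∈ SF Γ k) :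
    E * f ∈ SF Γ (a + k) := by
  refine ⟨hE.1.mul hf.1, fun γ hγ => ?_, fun γ => ?_⟩
  · rw [mul_slash_SL2, slash_top hE, hf.2.1 γ hγ]
  · rw [mul_slash_SL2, slash_top hE]
    have hb : IsBoundedAtImInfty E := by simpa using hE.2.2 1
    exact hb.mul_zeroAtFilter (hf.2.2 γ)

/-! ## C0.3 : the vector of conjugates -/

/-- C0.3 -/
theorem ev_mk {k : ℤ} {f : ℍ → ℂ} (hf : ∀ γ ∈ Γ, f ∣[k] γ = f) (g : SL(2, ℤ)) (τ : ℍ) :
    ev Γ k τ f (QuotientGroup.mk g) = (f ∣[k] g⁻¹) τ := by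
  rw [ev_apply]
  obtain ⟨γ, hγ⟩ : ∃ γ : Γ, (QuotientGroup.mk g : X Γ).out = g * γ :=
    ⟨_, QuotientGroup.mk_out_eq_mul Γ g |>.choose_spec⟩
  rw [hγ, mul_inv_rev, SlashAction.slash_mul, hf _ (Γ.inv_mem γ.2)]

/-- C0.3 : equivariance of the vector of conjugates. -/
theorem ev_smul {k : ℤ} {f : ℍ → ℂ} (hf : ∀ γ ∈ Γ, f ∣[k] γ = f) (γ : SL(2, ℤ)) (τ : ℍ)
    (x : X Γ) : ev Γ k (γ • τ) f x = denom γ τ ^ k * ev Γ k τ f (γ⁻¹ • x) := by
  induction x using QuotientGroup.induction_on with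
  | H g =>
    have h1 : γ⁻¹ • (QuotientGroup.mk g : X Γ) = QuotientGroup.mk (γ⁻¹ * g) := rfl
    rw [h1, ev_mk hf, ev_mk hf, mul_inv_rev, inv_inv, SlashAction.slash_mul]
    rw [ModularForm.SL_slash_apply (f := f ∣[k] g⁻¹) (k := k) γ τ, mul_comm (denom _ _ ^ k),
      mul_assoc, ← zpow_add₀ (denom_ne_zero _ _)]
    simp

/-- C0.3 : in particular for `T` (`T • τ = τ + 1`). -/
theorem ev_T {k : ℤ} {f : ℍ → ℂ} (hf : ∀ γ ∈ Γ, f ∣[k] γ = f) (τ : ℍ) :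
    ev Γ k (Tm • τ) f = shiftT Γ (ev Γ k τ f) := by
  ext x
  rw [ev_smul hf]
  have hd : denom (Tm : SL(2, ℤ)) τ = 1 := by
    rw [ModularGroup.denom_apply]
    simp [ModularGroup.T]
  rw [hd, one_zpow, one_mul]
  rfl

/-- C0.3 -/
theorem ev_mul {a k : ℤ} {E : ℍ → ℂ} (hE : E ∈ MF ⊤ a) (f : ℍ → ℂ) (τ : ℍ) :
    ev Γ (a + k) τ (E * f) = E τ • ev Γ k τ f := by
  ext x
  simp only [ev_apply, Pi.smul_apply, smul_eq_mul]
  rw [mul_slash_SL2, slash_top hE, Pi.mul_apply]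

/-- C0.3 -/
theorem ev_eq_zero_iff {k : ℤ} {f : ℍ → ℂ} (hf : ∀ γ ∈ Γ, f ∣[k] γ = f) (τ : ℍ) :
    ev Γ k τ f = 0 ↔ ∀ γ : SL(2, ℤ), f (γ • τ) = 0 := by
  constructor
  · intro h γ
    have h1 := congrFun h (QuotientGroup.mk γ⁻¹)
    rw [ev_mk hf, inv_inv, ModularForm.SL_slash_apply, Pi.zero_apply] at h1
    rcases mul_eq_zero.mp h1 with h2 | h2
    · exact h2
    · exact absurd h2 (zpow_ne_zero _ (denom_ne_zero _ _))
  · intro h
    ext x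
    rw [ev_apply, ModularForm.SL_slash_apply, h, zero_mul, Pi.zero_apply]

/-! ## C0.4 : small weights -/

section small

variable (Γ) [Γ.FiniteIndex]

/-- C0.4 (Mathlib `ModularForm.isZero_of_neg_weight`) -/
theorem MF_eq_bot_of_neg {k : ℤ} (hk : k < 0) : MF Γ k = ⊥ := by
  rw [eq_bot_iff]
  intro f hf
  have := ModularForm.isZero_of_neg_weight hk (ofMF Γ hf)
  have h2 : ⇑(ofMF Γ hf) = 0 := by rw [this]; rfl
  simpa using h2

/-- C0.4 (Mathlib `ModularForm.eq_const_of_weight_zero`) -/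
theorem MF_zero_eq_const {f : ℍ → ℂ} (hf : f ∈ MF Γ 0) : ∃ c : ℂ, f = fun _ => c := by
  obtain ⟨c, hc⟩ := ModularForm.eq_const_of_weight_zero (ofMF Γ hf)
  exact ⟨c, hc⟩

/-- C0.4 -/
theorem SF_eq_bot_of_nonpos {k : ℤ} (hk : k ≤ 0) : SF Γ k = ⊥ := by
  rw [eq_bot_iff]
  intro f hf
  rcases hk.lt_or_eq with hk | rfl
  · have : f ∈ MF Γ k := SF_le_MF Γ k hf
    rw [MF_eq_bot_of_neg Γ hk] at this
    exact this
  · obtain ⟨c, rfl⟩ := MF_zero_eq_const Γ (SF_le_MF Γ 0 hf)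
    have h0 : IsZeroAtImInfty ((fun _ : ℍ => c) ∣[(0 : ℤ)] (1 : SL(2, ℤ))) := hf.2.2 1
    rw [SlashAction.slash_one] at h0
    have hc : c = 0 := tendsto_nhds_unique tendsto_const_nhds h0
    subst hc
    rfl

set_option linter.unusedSectionVars false in
/-- C0.4 -/
theorem MF_eq_bot_of_odd (hneg : -1 ∈ Γ) {k : ℤ} (hk : Odd k) : MF Γ k = ⊥ := by
  rw [eq_bot_iff]
  intro f hf
  have h1 := hf.2.1 (-1) hneg
  rw [Submodule.mem_bot]
  funext τ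
  have h2 := congrFun h1 τ
  rw [ModularForm.SL_slash_apply] at h2
  have hd : denom ((-1 : SL(2, ℤ)) : GL (Fin 2) ℝ) τ = -1 := by
    simp [denom]
  have hs : (-1 : SL(2, ℤ)) • τ = τ := by
    simp
  rw [hd, hs, zpow_neg, hk.neg_one_zpow] at h2
  have : f τ * (-1)⁻¹ = - f τ := by ring
  rw [this] at h2
  have h3 : 2 * f τ = 0 := by linear_combination -h2
  simpa using h3

end small

end Fermat.Agent.S20.C980

end
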