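/-
S20 long shot — package L0 of captain helper20's skeleton (level one toolkit),
statements exactly as in `origin/helper20:Fermat/Agent/S20/Skeleton.lean`.  (helper980)
Sorry-free.
-/
import Fermat.Agent.S20.C0_helper980

set_option autoImplicit false

noncomputable section

namespace Fermat.Agent.S20.C980

open Fermat.Agent.S20
open UpperHalfPlane ModularForm CongruenceSubgroup MatrixGroups Filter Module
open scoped Manifold Topology Real

local notation "Δ" => ModularForm.discriminant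

/-! ## Bridge between `ModularForm 𝒮ℒ k` and `MF ⊤ k` -/

lemma coe_mem_MF_top {k : ℤ} (f : ModularForm 𝒮ℒ k) : (⇑f : ℍ → ℂ) ∈ MF ⊤ k := by
  refine ⟨ModularFormClass.holo f, fun γ _ => ?_,
    fun γ => ModularFormClass.bdd_at_infty_slash f γ⟩
  rw [SL_slash]
  exact SlashInvariantFormClass.slash_action_eq f _ ⟨γ, rfl⟩

lemma coe_mem_SF_top {k : ℤ} (f : CuspForm 𝒮ℒ k) : (⇑f : ℍ → ℂ) ∈ SF ⊤ k := by
  refine ⟨CuspFormClass.holo f, fun γ _ => ?_,
    fun γ => CuspFormClass.zero_at_infty_slash f γ⟩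
  rw [SL_slash]
  exact SlashInvariantFormClass.slash_action_eq f _ ⟨γ, rfl⟩

/-- The bundled level one modular form attached to an element of `MF ⊤ k`. -/
def ofMFtop {k : ℤ} {f : ℍ → ℂ} (hf : f ∈ MF ⊤ k) : ModularForm 𝒮ℒ k where
  toFun := f
  slash_action_eq' γ hγ := by
    obtain ⟨γ', rfl⟩ := hγ
    exact hf.2.1 γ' (Subgroup.mem_top _)
  holo' := hf.1
  bdd_at_cusps' {c} hc := by
    rw [Subgroup.IsArithmetic.isCusp_iff_isCusp_SL2Z] at hc
    rw [OnePoint.isBoundedAt_iff_forall_SL2Z hc]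
    intro γ _
    exact hf.2.2 γ

/-- The bundled level one cusp form attached to an element of `SF ⊤ k`. -/
def ofSFtop {k : ℤ} {f : ℍ → ℂ} (hf : f ∈ SF ⊤ k) : CuspForm 𝒮ℒ k where
  toFun := f
  slash_action_eq' γ hγ := by
    obtain ⟨γ', rfl⟩ := hγ
    exact hf.2.1 γ' (Subgroup.mem_top _)
  holo' := hf.1
  zero_at_cusps' {c} hc := by
    rw [Subgroup.IsArithmetic.isCusp_iff_isCusp_SL2Z] at hc
    rw [OnePoint.isZeroAt_iff_forall_SL2Z hc]
    intro γ _
    exact hf.2.2 γ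

@[simp] lemma coe_ofMFtop {k : ℤ} {f : ℍ → ℂ} (hf : f ∈ MF ⊤ k) : ⇑(ofMFtop hf) = f := rfl
@[simp] lemma coe_ofSFtop {k : ℤ} {f : ℍ → ℂ} (hf : f ∈ SF ⊤ k) : ⇑(ofSFtop hf) = f := rfl

/-- Level one forms, bundled versus function level. -/
def MFtopEquiv (k : ℤ) : ModularForm 𝒮ℒ k ≃ₗ[ℂ] MF ⊤ k where
  toFun f := ⟨⇑f, coe_mem_MF_top f⟩
  map_add' f g := rfl
  map_smul' c f := rfl
  invFun f := ofMFtop f.2
  left_inv f := by ext; rfl
  right_inv f := by ext; rfl

/-! ## L0 : level one toolkit -/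

/-- L0.1 -/
theorem E₄_mem : (⇑E₄ : ℍ → ℂ) ∈ MF ⊤ 4 := coe_mem_MF_top E₄
/-- L0.1 -/
theorem E₆_mem : (⇑E₆ : ℍ → ℂ) ∈ MF ⊤ 6 := coe_mem_MF_top E₆
/-- L0.1 -/
theorem discriminant_mem : (Δ : ℍ → ℂ) ∈ SF ⊤ 12 := coe_mem_SF_top CuspForm.discriminant

/-- L0.2 : dimension of level one forms (Mathlib `dimension_level_one`). -/
theorem finrank_MF_top (k : ℤ) : finrank ℂ (MF (⊤ : Subgroup SL(2, ℤ)) k) =
    if 0 ≤ k ∧ Even k then (if k % 12 = 2 then k.toNat / 12 else k.toNat / 12 + 1) else 0 := by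
  rw [← (MFtopEquiv k).finrank_eq]
  rcases lt_or_ge k 0 with hk | hk
  · rw [if_neg (by omega)]
    exact Module.finrank_eq_zero_of_rank_eq_zero
      (ModularForm.levelOne_neg_weight_rank_zero hk)
  rcases Int.even_or_odd k with he | ho
  · rw [if_pos ⟨hk, he⟩]
    lift k to ℕ using hk
    have hr := dimension_level_one k (mod_cast he)
    have h12 : ((k : ℤ) % 12 = 2) ↔ k ≡ 2 [MOD 12] := by
      rw [Nat.ModEq]; omega
    simp only [Int.toNat_natCast]
    apply Module.finrank_eq_of_rank_eq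
    rw [hr]
    by_cases h : k ≡ 2 [MOD 12]
    · rw [if_pos h, if_pos (h12.mpr h)]
    · rw [if_neg h, if_neg (fun h' => h (h12.mp h'))]
  · rw [if_neg (fun h => (Int.not_even_iff_odd.mpr ho) h.2)]
    exact Module.finrank_eq_zero_of_rank_eq_zero
      (ModularForm.levelOne_odd_weight_rank_zero ho)

/-- L0.3 : level one cusp forms are multiples of `Δ` (Mathlib `CuspForm.discriminantEquiv`). -/
theorem exists_eq_discriminant_mul_top {k : ℤ} {f : ℍ → ℂ} (hf : f ∈ SF ⊤ k) :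
    ∃ g ∈ MF ⊤ (k - 12), f = Δ * g := by
  refine ⟨⇑(CuspForm.discriminantEquiv (ofSFtop hf)), coe_mem_MF_top _, ?_⟩
  exact (ModularForm.discriminant_mul_discriminantEquiv (ofSFtop hf)).symm

end Fermat.Agent.S20.C980

end
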