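/-
S20 long shot — L0.4 and C1.1 (kernel of the evaluation at a fibre) of captain helper20's
skeleton, statements exactly as in `origin/helper20:Fermat/Agent/S20/Skeleton.lean`.  (helper980)
Sorry-free.
-/
import Fermat.Agent.S20.L0_helper980
import Fermat.Agent.S20.B_helper980

set_option autoImplicit false

noncomputable section

namespace Fermat.Agent.S20.C980

open Fermat.Agent.S20
open UpperHalfPlane ModularForm CongruenceSubgroup MatrixGroups Filter Module
open scoped Manifold Topology Real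

local notation "Δ" => ModularForm.discriminant

/-- L0.4 : a level one form without zeros on `ℍ` and not vanishing at `∞` has weight `0`. -/
theorem weight_eq_zero_of_nonvanishing {k : ℤ} {f : ℍ → ℂ} (hf : f ∈ MF ⊤ k)
    (h0 : ∀ z, f z ≠ 0) (hinf : ¬ IsZeroAtImInfty f) : k = 0 := by
  rcases lt_trichotomy k 0 with hk | hk | hk
  · exfalso
    have := ModularFormClass.levelOne_neg_weight_eq_zero hk (ofMFtop hf)
    exact h0 UpperHalfPlane.I (by simpa using congrFun this UpperHalfPlane.I)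
  · exact hk
  · exfalso
    let P : ModularForm 𝒮ℒ k := ofMFtop hf
    let g : ModularForm 𝒮ℒ (0 - k) :=
      B980.divModularForm (𝒢 := 𝒮ℒ) le_rfl P (fun τ hτ => absurd hτ (h0 τ)) hinf
        (ModularForm.const (1 : ℂ)) (fun τ hτ => absurd hτ (h0 τ))
    have hg : ∀ τ, P τ * g τ = 1 := fun τ =>
      B980.mul_divModularForm_apply (𝒢 := 𝒮ℒ) le_rfl P
        (fun τ hτ => absurd hτ (h0 τ)) hinf
        (ModularForm.const (1 : ℂ)) (fun τ hτ => absurd hτ (h0 τ)) τ
    have hz := ModularFormClass.levelOne_neg_weight_eq_zero (k := 0 - k) (by omega) g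
    have := hg UpperHalfPlane.I
    rw [hz] at this
    simp at this

variable {Γ : Subgroup SL(2, ℤ)} [Γ.FiniteIndex]

/-- C1.1 : kernel of the evaluation at the fibre over `z₀` (uses leaf B). -/
theorem ker_ev {z₀ : ℍ} {w : ℤ} {P : ℍ → ℂ} (hP : LevelOneDivisor z₀ w P) {k : ℤ} {f : ℍ → ℂ}
    (hf : f ∈ MF Γ k) (h0 : ev Γ k z₀ f = 0) : ∃ g ∈ MF Γ (k - w), f = P * g := by
  have hvan : ∀ z : ℍ, P z = 0 → f z = 0 := by
    intro z hz
    obtain ⟨γ, rfl⟩ := (hP.zero_iff z).mp hz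
    exact (ev_eq_zero_iff hf.2.1 z₀).mp h0 γ
  obtain ⟨g, hg⟩ := B980.exists_eq_mul_of_vanishing (Γ := Γ) (ofMFtop hP.mem) hP.simple
    hP.not_zero_at_infty (ofMF Γ hf) hvan
  exact ⟨⇑g, coe_mem_MF Γ g, funext hg⟩

/-- C1.1, cusp form version. -/
theorem ker_ev_SF {z₀ : ℍ} {w : ℤ} {P : ℍ → ℂ} (hP : LevelOneDivisor z₀ w P) {k : ℤ}
    {f : ℍ → ℂ} (hf : f ∈ SF Γ k) (h0 : ev Γ k z₀ f = 0) : ∃ g ∈ SF Γ (k - w), f = P * g := by
  have hvan : ∀ z : ℍ, P z = 0 → f z = 0 := by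
    intro z hz
    obtain ⟨γ, rfl⟩ := (hP.zero_iff z).mp hz
    exact (ev_eq_zero_iff hf.2.1 z₀).mp h0 γ
  obtain ⟨g, hg⟩ := B980.exists_eq_mul_of_vanishing_cuspForm (Γ := Γ) (ofMFtop hP.mem) hP.simple
    hP.not_zero_at_infty (ofSF Γ hf) hvan
  exact ⟨⇑g, coe_mem_SF Γ g, funext hg⟩

end Fermat.Agent.S20.C980

end
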