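/-
S20 / work package F, bridge (helper658): the form `f0 N = Δ ∣[12] diag(N,1)` and a separating
point `z0 N`, restated at FUNCTION level for `SL(2,ℤ)` (no `GL(2,ℝ)` quotient), in shapes that are
definitionally the ones used by the core skeletons:
* `IsMF (Gamma0 N) 12 f` / `f ∈ MF (Gamma0 N) 12`  unfold to the triple in `f0_isMF_raw`;
* `conj Γ k f q τ` / `ev Γ k τ f q`  unfold to `(f ∣[k] (q.out)⁻¹) τ`.
-/
import Fermat.Agent.S20.F_helper658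

set_option autoImplicit false

open UpperHalfPlane ModularForm CongruenceSubgroup MatrixGroups
open Matrix.SpecialLinearGroup Filter Topology
open scoped Manifold

noncomputable section

namespace Fermat.Agent.S20.F658

/-- finitely many pairwise distinct holomorphic functions on `ℍ` take pairwise distinct values
at some common point -/
lemma exists_point_injective {ι : Type*} [Finite ι] (F : ι → ℍ → ℂ)
    (hF : ∀ i, MDiff (F i)) (hinj : Function.Injective F) :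
    ∃ z₀ : ℍ, Function.Injective (fun i ↦ F i z₀) := by
  classical
  let _ : Fintype ι := Fintype.ofFinite ι
  let s : Finset (ι × ι) := Finset.univ.filter fun p ↦ p.1 ≠ p.2
  have hne : ∏ p ∈ s, (F p.1 - F p.2) ≠ 0 := by
    intro h0
    rw [UpperHalfPlane.prod_eq_zero_iff (fun p _ ↦ (hF p.1).sub (hF p.2))] at h0
    obtain ⟨p, hp, hp0⟩ := h0
    exact (Finset.mem_filter.mp hp).2 (hinj (sub_eq_zero.mp hp0))
  obtain ⟨z₀, hz₀⟩ := Function.ne_iff.mp hne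
  refine ⟨z₀, fun q q' hqq' ↦ ?_⟩
  by_contra hq
  apply hz₀
  rw [Finset.prod_apply, Pi.zero_apply]
  exact Finset.prod_eq_zero (i := (q, q')) (Finset.mem_filter.mpr ⟨Finset.mem_univ _, hq⟩)
    (by simpa [sub_eq_zero] using hqq')

lemma exists_z0 (N : ℕ) [NeZero N] :
    ∃ z₀ : ℍ, Function.Injective
      (fun q : 𝒮ℒ ⧸ (Gamma0 N : Subgroup (GL (Fin 2) ℝ)).subgroupOf 𝒮ℒ ↦
        SlashInvariantForm.quotientFunc (f0 N) q z₀) :=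
  exists_point_injective _
    (Quotient.forall.mpr fun r ↦ (ModularForm.translate (f0 N) r.val⁻¹).holo')
    (quotientFunc_f0_injective N)

/-- a point separating all `SL(2,ℤ)`-conjugates of `f0 N` -/
def z0 (N : ℕ) [NeZero N] : ℍ := (exists_z0 N).choose

lemma z0_spec (N : ℕ) [NeZero N] :
    Function.Injective
      (fun q : 𝒮ℒ ⧸ (Gamma0 N : Subgroup (GL (Fin 2) ℝ)).subgroupOf 𝒮ℒ ↦
        SlashInvariantForm.quotientFunc (f0 N) q (z0 N)) :=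
  (exists_z0 N).choose_spec

/-- `f0 N` is holomorphic -/
lemma f0_mdiff (N : ℕ) [NeZero N] : MDiff (f0 N : ℍ → ℂ) := (f0 N).holo'

/-- `f0 N` is `Γ₀(N)`-invariant (slash action of `SL(2,ℤ)`) -/
lemma f0_slash_eq (N : ℕ) [NeZero N] (γ : SL(2, ℤ)) (hγ : γ ∈ Gamma0 N) :
    (f0 N : ℍ → ℂ) ∣[(12 : ℤ)] γ = f0 N :=
  (f0 N).slash_action_eq' (mapGL ℝ γ) ⟨γ, hγ, rfl⟩

/-- every `SL(2,ℤ)`-translate of `f0 N` is bounded at `i∞` -/
lemma f0_bdd (N : ℕ) [NeZero N] (g : SL(2, ℤ)) :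
    IsBoundedAtImInfty ((f0 N : ℍ → ℂ) ∣[(12 : ℤ)] g) :=
  ModularFormClass.bdd_at_infty_slash (f0 N) g

/-- the raw "is a modular form of weight 12 for `Γ₀(N)`" triple -/
lemma f0_isMF_raw (N : ℕ) [NeZero N] :
    MDiff (f0 N : ℍ → ℂ) ∧ (∀ γ ∈ Gamma0 N, (f0 N : ℍ → ℂ) ∣[(12 : ℤ)] γ = f0 N) ∧
      ∀ g : SL(2, ℤ), IsBoundedAtImInfty ((f0 N : ℍ → ℂ) ∣[(12 : ℤ)] g) :=
  ⟨f0_mdiff N, f0_slash_eq N, f0_bdd N⟩

/-- the stabiliser of `f0 N` in `SL(2,ℤ)` is exactly `Γ₀(N)` -/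
lemma f0_slash_eq_iff (N : ℕ) [NeZero N] (γ : SL(2, ℤ)) :
    (f0 N : ℍ → ℂ) ∣[(12 : ℤ)] γ = f0 N ↔ γ ∈ Gamma0 N :=
  ⟨fun h ↦ mem_Gamma0_of_slash_eq N γ h, f0_slash_eq N γ⟩

/-- **separation, representative-free form**: if two conjugates `f0 ∣ g⁻¹`, `f0 ∣ h⁻¹` agree at
`z0 N` then `g Γ₀(N) = h Γ₀(N)`. -/
theorem f0_separates (N : ℕ) [NeZero N] (g h : SL(2, ℤ))
    (hgh : ((f0 N : ℍ → ℂ) ∣[(12 : ℤ)] g⁻¹) (z0 N) = ((f0 N : ℍ → ℂ) ∣[(12 : ℤ)] h⁻¹) (z0 N)) :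
    g⁻¹ * h ∈ Gamma0 N := by
  have hg : mapGL ℝ g ∈ 𝒮ℒ := ⟨g, rfl⟩
  have hh : mapGL ℝ h ∈ 𝒮ℒ := ⟨h, rfl⟩
  have key := @z0_spec N _ (⟦⟨mapGL ℝ g, hg⟩⟧) (⟦⟨mapGL ℝ h, hh⟩⟧) (by
    simp only [SlashInvariantForm.quotientFunc_mk, ← map_inv]
    exact hgh)
  have h2 := QuotientGroup.leftRel_apply.mp (Quotient.exact key)
  rw [Subgroup.mem_subgroupOf] at h2
  obtain ⟨A, hA, hA'⟩ := h2
  have h3 : mapGL ℝ A = mapGL ℝ (g⁻¹ * h) := by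
    rw [hA', map_mul, map_inv]
    rfl
  rwa [← mapGL_injective h3]

/-- the same in coset form -/
theorem f0_separates_mk (N : ℕ) [NeZero N] (g h : SL(2, ℤ))
    (hgh : ((f0 N : ℍ → ℂ) ∣[(12 : ℤ)] g⁻¹) (z0 N) = ((f0 N : ℍ → ℂ) ∣[(12 : ℤ)] h⁻¹) (z0 N)) :
    (g : SL(2, ℤ) ⧸ Gamma0 N) = h :=
  QuotientGroup.eq.mpr (f0_separates N g h hgh)

/-- **WP F at function level** (shape of `conj` / `ev` in the core skeletons):
the conjugates `q ↦ (f0 ∣[12] (q.out)⁻¹) z0`, `q ∈ SL(2,ℤ) ⧸ Γ₀(N)`, are pairwise distinct. -/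
theorem f0_conj_injective (N : ℕ) [NeZero N] :
    Function.Injective (fun q : SL(2, ℤ) ⧸ Gamma0 N ↦
      ((f0 N : ℍ → ℂ) ∣[(12 : ℤ)] ((q.out : SL(2, ℤ))⁻¹)) (z0 N)) := by
  intro q q' hqq'
  have := f0_separates_mk N q.out q'.out hqq'
  rwa [QuotientGroup.out_eq', QuotientGroup.out_eq'] at this

end Fermat.Agent.S20.F658

namespace Fermat.Agent.S20

open F658 in
/-- **WP F, function-level form.**  There are `f₀ : ℍ → ℂ`, a modular form of weight 12 for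
`Γ₀(N)` (holomorphic, invariant, all translates bounded at `i∞`), and `z₀ : ℍ`, such that the
conjugates `(f₀ ∣[12] (q.out)⁻¹) z₀`, `q ∈ SL(2,ℤ) ⧸ Γ₀(N)`, are pairwise distinct. -/
theorem exists_form_distinct_conj_raw (N : ℕ) [NeZero N] :
    ∃ (f₀ : ℍ → ℂ) (z₀ : ℍ),
      (MDiff f₀ ∧ (∀ γ ∈ Gamma0 N, f₀ ∣[(12 : ℤ)] γ = f₀) ∧
        ∀ g : SL(2, ℤ), IsBoundedAtImInfty (f₀ ∣[(12 : ℤ)] g)) ∧
      (∀ g h : SL(2, ℤ), (f₀ ∣[(12 : ℤ)] g⁻¹) z₀ = (f₀ ∣[(12 : ℤ)] h⁻¹) z₀ →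
        (g : SL(2, ℤ) ⧸ Gamma0 N) = h) ∧
      Function.Injective (fun q : SL(2, ℤ) ⧸ Gamma0 N ↦
        (f₀ ∣[(12 : ℤ)] ((q.out : SL(2, ℤ))⁻¹)) z₀) :=
  ⟨f0 N, z0 N, f0_isMF_raw N, f0_separates_mk N, f0_conj_injective N⟩

end Fermat.Agent.S20
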