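import Fermat.Agent.S20.Core

/-!
# S20, piece P1 : linear algebra of permutation operators (helper225)

Pure linear algebra (no modular forms):

* `finrank_invariants_of_sq_eq_one`, `finrank_invariants_of_cube_eq_one` (P1.1, P1.2):
  eigenspace dimensions of the permutation operator of an involution / of a permutation of
  order three, in terms of the number of fixed points;
* `Theta_zero`, `Theta_add` (P1.4) and `det_Theta` (P1.3) for the operator `Theta Γ s` of
  `Core.lean`.
-/

set_option autoImplicit false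

noncomputable section

namespace Fermat.Agent.S20.P1h225

open Module

/-! ## Generic: one idempotent -/

section Idem

variable {V : Type*} [AddCommGroup V] [Module ℂ V] [FiniteDimensional ℂ V]

/-- For an idempotent `P`, `det (1 + (c - 1) • P) = c ^ rank P`. -/
theorem det_one_add_smul_idem (P : V →ₗ[ℂ] V) (hP : IsIdempotentElem P) (c : ℂ) :
    LinearMap.det (1 + (c - 1) • P) = c ^ finrank ℂ (LinearMap.range P) := by
  have h := LinearMap.IsIdempotentElem.isProj_range P hP
  set e := (LinearMap.range P).prodEquivOfIsCompl (LinearMap.ker P) h.isCompl with he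
  have h1 : P = e.conj (LinearMap.prodMap LinearMap.id 0) := h.eq_conj_prodMap
  have h2 : (1 + (c - 1) • P : V →ₗ[ℂ] V) =
      e.conj (LinearMap.prodMap (c • LinearMap.id) LinearMap.id) := by
    have : (LinearMap.prodMap (c • LinearMap.id) LinearMap.id :
        (LinearMap.range P × LinearMap.ker P) →ₗ[ℂ] (LinearMap.range P × LinearMap.ker P)) =
        1 + (c - 1) • LinearMap.prodMap LinearMap.id 0 := by
      ext x <;> simp [sub_smul]
    rw [this, map_add, map_smul, ← h1]
    congr 1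
    ext x
    simp [LinearEquiv.conj_apply]
  rw [h2, LinearEquiv.conj_apply, LinearMap.comp_assoc, LinearMap.det_conj,
    LinearMap.det_prodMap, LinearMap.det_smul, LinearMap.det_id, LinearMap.det_id, mul_one,
    mul_one]

/-- The rank of an idempotent is its trace. -/
theorem finrank_range_idem (P : V →ₗ[ℂ] V) (hP : IsIdempotentElem P) :
    (finrank ℂ (LinearMap.range P) : ℂ) = LinearMap.trace ℂ V P :=
  ((LinearMap.IsIdempotentElem.isProj_range P hP).trace).symm

/-- Determinant of `1 + ∑ (c i - 1) • P i` for pairwise orthogonal idempotents. -/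
theorem det_one_add_sum_smul_idem {ι : Type*} [DecidableEq ι] (s : Finset ι)
    (P : ι → V →ₗ[ℂ] V) (c : ι → ℂ) (hP : ∀ i ∈ s, IsIdempotentElem (P i))
    (hort : ∀ i ∈ s, ∀ j ∈ s, i ≠ j → P i * P j = 0) :
    LinearMap.det (1 + ∑ i ∈ s, (c i - 1) • P i) =
      ∏ i ∈ s, c i ^ finrank ℂ (LinearMap.range (P i)) := by
  induction s using Finset.induction_on with
  | empty => simp
  | insert j s hj ih =>
    have ih' := ih (fun i hi => hP i (Finset.mem_insert_of_mem hi))
      (fun i hi k hk hik => hort i (Finset.mem_insert_of_mem hi) k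
        (Finset.mem_insert_of_mem hk) hik)
    have hmul : (1 + ∑ i ∈ insert j s, (c i - 1) • P i : V →ₗ[ℂ] V) =
        (1 + (c j - 1) • P j) * (1 + ∑ i ∈ s, (c i - 1) • P i) := by
      rw [Finset.sum_insert hj, mul_add, mul_one, add_mul, one_mul, Finset.mul_sum]
      have hz : ∑ i ∈ s, ((c j - 1) • P j) * ((c i - 1) • P i) = 0 := by
        apply Finset.sum_eq_zero
        intro i hi
        have hji : j ≠ i := fun h => hj (h ▸ hi)
        rw [smul_mul_smul_comm, hort j (Finset.mem_insert_self j s) i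
          (Finset.mem_insert_of_mem hi) hji, smul_zero]
      rw [hz, add_zero, add_assoc]
    rw [hmul, map_mul, ih', det_one_add_smul_idem _ (hP j (Finset.mem_insert_self j s)),
      Finset.prod_insert hj]

/-- Determinant of `∑ c i • P i` for a complete system of orthogonal idempotents. -/
theorem det_sum_smul_idem {ι : Type*} [DecidableEq ι] (s : Finset ι)
    (P : ι → V →ₗ[ℂ] V) (c : ι → ℂ) (hP : ∀ i ∈ s, IsIdempotentElem (P i))
    (hort : ∀ i ∈ s, ∀ j ∈ s, i ≠ j → P i * P j = 0) (hsum : ∑ i ∈ s, P i = 1) :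
    LinearMap.det (∑ i ∈ s, c i • P i) =
      ∏ i ∈ s, c i ^ finrank ℂ (LinearMap.range (P i)) := by
  rw [← det_one_add_sum_smul_idem s P c hP hort]
  congr 1
  simp only [sub_smul, one_smul, Finset.sum_sub_distrib, hsum]
  abel

end Idem

/-! ## Generic: spectral projectors of an operator of finite order -/

section Spectral

variable {V : Type*} [AddCommGroup V] [Module ℂ V]

/-- The spectral projector of `L` (with `L ^ n = 1`) for the eigenvalue `ε` (with `ε ^ n = 1`). -/
def specProj (L : V →ₗ[ℂ] V) (n : ℕ) (ε : ℂ) : V →ₗ[ℂ] V :=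
  (n : ℂ)⁻¹ • ∑ i ∈ Finset.range n, (ε⁻¹) ^ i • L ^ i

variable {L : V →ₗ[ℂ] V} {n : ℕ} {ε : ℂ}

lemma pow_apply_of_eigen {v : V} (hv : L v = ε • v) (i : ℕ) : (L ^ i) v = ε ^ i • v := by
  induction i with
  | zero => simp
  | succ i ih =>
    rw [pow_succ, Module.End.mul_apply, hv, map_smul, ih, smul_smul, pow_succ']

lemma specProj_apply_of_eigen' {ε' : ℂ} {v : V}
    (hv : L v = ε' • v) :
    specProj L n ε v = ((n : ℂ)⁻¹ * ∑ i ∈ Finset.range n, (ε' / ε) ^ i) • v := by
  simp only [specProj, LinearMap.smul_apply, LinearMap.sum_apply, pow_apply_of_eigen hv,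
    smul_smul, ← Finset.sum_smul]
  congr 2
  apply Finset.sum_congr rfl
  intro i _
  rw [div_eq_mul_inv, mul_pow, mul_comm]

lemma specProj_apply_of_eigen (hn : n ≠ 0) (hε : ε ≠ 0) {v : V} (hv : L v = ε • v) :
    specProj L n ε v = v := by
  rw [specProj_apply_of_eigen' hv, div_self hε]
  simp [hn]

lemma specProj_apply_of_eigen_ne (hn : n ≠ 0) (hε : ε ^ n = 1) {ε' : ℂ} (hε' : ε' ^ n = 1)
    (hne : ε' ≠ ε) {v : V} (hv : L v = ε' • v) :
    specProj L n ε v = 0 := by
  rw [specProj_apply_of_eigen' hv]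
  have hε0 : ε ≠ 0 := by
    rintro rfl
    rw [zero_pow hn] at hε
    exact zero_ne_one hε
  have h1 : ε' / ε ≠ 1 := by
    intro h
    exact hne ((div_eq_one_iff_eq hε0).mp h)
  rw [geom_sum_eq h1, div_pow, hε, hε', div_one, sub_self, zero_div, mul_zero, zero_smul]

lemma L_specProj (hn : n ≠ 0) (hL : L ^ n = 1) (hε : ε ^ n = 1) (v : V) :
    L (specProj L n ε v) = ε • specProj L n ε v := by
  have hε0 : ε ≠ 0 := by
    rintro rfl
    rw [zero_pow hn] at hε
    exact zero_ne_one hε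
  have key : L * ∑ i ∈ Finset.range n, (ε⁻¹) ^ i • L ^ i =
      ε • ∑ i ∈ Finset.range n, (ε⁻¹) ^ i • L ^ i := by
    have h1 : L * ∑ i ∈ Finset.range n, (ε⁻¹) ^ i • L ^ i =
        ε • ∑ i ∈ Finset.range n, (ε⁻¹) ^ (i + 1) • L ^ (i + 1) := by
      rw [Finset.mul_sum, Finset.smul_sum]
      apply Finset.sum_congr rfl
      intro i _
      rw [mul_smul_comm, smul_smul, ← pow_succ' L, pow_succ' (ε⁻¹), ← mul_assoc,
        mul_inv_cancel₀ hε0, one_mul]
    rw [h1]
    congr 1
    have h2 := Finset.sum_range_succ' (fun i => (ε⁻¹) ^ i • L ^ i) n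
    have h3 := Finset.sum_range_succ (fun i => (ε⁻¹) ^ i • L ^ i) n
    rw [h3] at h2
    simp only [pow_zero, one_smul] at h2
    rw [hL, inv_pow, hε, inv_one, one_smul] at h2
    exact (add_right_cancel h2).symm
  have := congrArg (fun f : V →ₗ[ℂ] V => f v) key
  simp only [specProj, LinearMap.smul_apply, map_smul]
  rw [smul_comm ε]
  congr 1

lemma specProj_idem (hn : n ≠ 0) (hL : L ^ n = 1) (hε : ε ^ n = 1) :
    IsIdempotentElem (specProj L n ε) := by
  have hε0 : ε ≠ 0 := by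
    rintro rfl
    rw [zero_pow hn] at hε
    exact zero_ne_one hε
  ext v
  rw [Module.End.mul_apply]
  exact specProj_apply_of_eigen hn hε0 (L_specProj hn hL hε v)

lemma specProj_ortho (hn : n ≠ 0) (hL : L ^ n = 1) (hε : ε ^ n = 1) {ε' : ℂ}
    (hε' : ε' ^ n = 1) (hne : ε' ≠ ε) :
    specProj L n ε * specProj L n ε' = 0 := by
  ext v
  rw [Module.End.mul_apply]
  exact specProj_apply_of_eigen_ne hn hε hε' hne (L_specProj hn hL hε' v)

lemma range_specProj (hn : n ≠ 0) (hL : L ^ n = 1) (hε : ε ^ n = 1) :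
    LinearMap.range (specProj L n ε) = Module.End.eigenspace L ε := by
  have hε0 : ε ≠ 0 := by
    rintro rfl
    rw [zero_pow hn] at hε
    exact zero_ne_one hε
  ext v
  rw [Module.End.mem_eigenspace_iff]
  constructor
  · rintro ⟨w, rfl⟩
    exact L_specProj hn hL hε w
  · intro hv
    exact ⟨v, specProj_apply_of_eigen hn hε0 hv⟩

lemma sum_specProj (hn : n ≠ 0) {ζ : ℂ} (hζ : IsPrimitiveRoot ζ n) :
    ∑ a ∈ Finset.range n, specProj L n (ζ ^ a) = 1 := by
  simp only [specProj]
  rw [← Finset.smul_sum, Finset.sum_comm]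
  have hinner : ∀ i ∈ Finset.range n,
      ∑ a ∈ Finset.range n, ((ζ ^ a)⁻¹) ^ i • L ^ i =
        (if i = 0 then (n : ℂ) else 0) • L ^ i := by
    intro i hi
    rw [← Finset.sum_smul]
    congr 1
    have hrew : ∀ a : ℕ, ((ζ ^ a)⁻¹) ^ i = ((ζ⁻¹) ^ i) ^ a := by
      intro a
      rw [← inv_pow, ← pow_mul, ← pow_mul, mul_comm]
    simp only [hrew]
    split_ifs with h0
    · subst h0
      simp
    · have hi' : i < n := Finset.mem_range.mp hi
      have hw1 : (ζ⁻¹) ^ i ≠ 1 :=
        hζ.inv.pow_ne_one_of_pos_of_lt h0 hi'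
      have hwn : ((ζ⁻¹) ^ i) ^ n = 1 := by
        rw [← pow_mul, mul_comm, pow_mul, hζ.inv.pow_eq_one, one_pow]
      rw [geom_sum_eq hw1, hwn, sub_self, zero_div]
  rw [Finset.sum_congr rfl hinner, Finset.sum_eq_single 0]
  · simp [hn]
  · intro i _ hi0
    simp [hi0]
  · intro h0
    exact absurd (Finset.mem_range.mpr (Nat.pos_of_ne_zero hn)) h0

lemma trace_specProj [FiniteDimensional ℂ V] (L : V →ₗ[ℂ] V) (n : ℕ) (ε : ℂ) :
    LinearMap.trace ℂ V (specProj L n ε) =
      (n : ℂ)⁻¹ * ∑ i ∈ Finset.range n, (ε⁻¹) ^ i * LinearMap.trace ℂ V (L ^ i) := by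
  simp [specProj]

/-- Dimension of the eigenspace = trace of the spectral projector. -/
lemma finrank_eigenspace_eq [FiniteDimensional ℂ V] (hn : n ≠ 0) (hL : L ^ n = 1)
    (hε : ε ^ n = 1) :
    (finrank ℂ (Module.End.eigenspace L ε) : ℂ) =
      (n : ℂ)⁻¹ * ∑ i ∈ Finset.range n, (ε⁻¹) ^ i * LinearMap.trace ℂ V (L ^ i) := by
  rw [← range_specProj hn hL hε, finrank_range_idem _ (specProj_idem hn hL hε),
    trace_specProj]

end Spectral

/-! ## Permutation operators -/

section Perm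

variable {Y : Type*}

lemma funLeft_pow (f : Y → Y) (i : ℕ) :
    (LinearMap.funLeft ℂ ℂ f) ^ i = LinearMap.funLeft ℂ ℂ (f^[i]) := by
  induction i with
  | zero =>
    ext v y
    simp [LinearMap.funLeft_apply]
  | succ i ih =>
    rw [pow_succ', ih]
    ext v y
    simp [LinearMap.funLeft_apply]

lemma trace_funLeft [Fintype Y] [DecidableEq Y] (f : Y → Y) :
    LinearMap.trace ℂ (Y → ℂ) (LinearMap.funLeft ℂ ℂ f) =
      ((Finset.univ.filter fun y => f y = y).card : ℂ) := by
  rw [LinearMap.trace_eq_matrix_trace ℂ (Pi.basisFun ℂ Y), Matrix.trace]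
  simp [LinearMap.funLeft_apply, Pi.single_apply, Finset.sum_boole]

lemma funLeft_perm_pow (σ : Equiv.Perm Y) (i : ℕ) :
    (LinearMap.funLeft ℂ ℂ σ) ^ i = LinearMap.funLeft ℂ ℂ ⇑(σ ^ i) := by
  rw [funLeft_pow, Equiv.Perm.iterate_eq_pow]

lemma funLeft_perm_pow_eq_one (σ : Equiv.Perm Y) {n : ℕ} (hσ : σ ^ n = 1) :
    (LinearMap.funLeft ℂ ℂ σ) ^ n = 1 := by
  rw [funLeft_perm_pow, hσ]
  ext v y
  simp [LinearMap.funLeft_apply]

lemma trace_funLeft_perm_pow [Fintype Y] [DecidableEq Y] (σ : Equiv.Perm Y) (i : ℕ) :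
    LinearMap.trace ℂ (Y → ℂ) ((LinearMap.funLeft ℂ ℂ σ) ^ i) =
      ((Finset.univ.filter fun y => (σ ^ i) y = y).card : ℂ) := by
  rw [funLeft_perm_pow, trace_funLeft]

/-- **P1.1** -/
theorem finrank_invariants_of_sq_eq_one {Y : Type} [Fintype Y] [DecidableEq Y]
    (σ : Equiv.Perm Y) (hσ : σ ^ 2 = 1) (ε : ℂ) (hε : ε = 1 ∨ ε = -1) :
    (finrank ℂ (Module.End.eigenspace (LinearMap.funLeft ℂ ℂ σ) ε) : ℂ) =
      ((Fintype.card Y : ℂ) + ε * (Finset.univ.filter fun y => σ y = y).card) / 2 := by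
  have hε2 : ε ^ 2 = 1 := by
    rcases hε with rfl | rfl <;> norm_num
  have hεinv : ε⁻¹ = ε := by
    rcases hε with rfl | rfl <;> norm_num
  rw [finrank_eigenspace_eq (n := 2) two_ne_zero (funLeft_perm_pow_eq_one σ hσ) hε2]
  simp only [Finset.sum_range_succ, Finset.sum_range_zero, zero_add, trace_funLeft_perm_pow,
    pow_zero, pow_one, one_mul, hεinv]
  simp only [Equiv.Perm.coe_one, id_eq, Finset.filter_true_of_mem, Finset.mem_univ,
    implies_true, Finset.card_univ]
  push_cast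
  ring

/-- **P1.2** -/
theorem finrank_invariants_of_cube_eq_one {Y : Type} [Fintype Y] [DecidableEq Y]
    (σ : Equiv.Perm Y) (hσ : σ ^ 3 = 1) (ε : ℂ) (hε : ε ^ 3 = 1) :
    (finrank ℂ (Module.End.eigenspace (LinearMap.funLeft ℂ ℂ σ) ε) : ℂ) =
      ((Fintype.card Y : ℂ) +
        (if ε = 1 then 2 else -1) * (Finset.univ.filter fun y => σ y = y).card) / 3 := by
  have hε0 : ε ≠ 0 := by
    rintro rfl
    norm_num at hε
  have hεinv : ε⁻¹ = ε ^ 2 := by
    field_simp
    rw [← hε]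
  have hfix : (Finset.univ.filter fun y => (σ ^ 2) y = y) =
      (Finset.univ.filter fun y => σ y = y) := by
    ext y
    simp only [Finset.mem_filter, Finset.mem_univ, true_and]
    have h3 : σ (σ (σ y)) = y := by
      have := congrArg (fun τ : Equiv.Perm Y => τ y) hσ
      simpa [pow_succ, Equiv.Perm.mul_apply] using this
    have h2 : (σ ^ 2) y = σ (σ y) := by
      simp [pow_succ, Equiv.Perm.mul_apply]
    rw [h2]
    constructor
    · intro h
      have : σ (σ (σ y)) = σ y := by rw [h]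
      rw [h3] at this
      exact this.symm
    · intro h
      rw [h, h]
  have hcoef : ε⁻¹ + (ε⁻¹) ^ 2 = if ε = 1 then 2 else -1 := by
    rw [hεinv]
    split_ifs with h1
    · subst h1
      norm_num
    · have h0 : (ε - 1) * (ε ^ 2 + ε + 1) = 0 := by
        ring_nf
        rw [hε]
        ring
      have h2 : ε ^ 2 + ε + 1 = 0 := by
        rcases mul_eq_zero.mp h0 with h | h
        · exact absurd (sub_eq_zero.mp h) h1
        · exact h
      have h4 : (ε ^ 2) ^ 2 = ε := by
        have : (ε ^ 2) ^ 2 = ε ^ 3 * ε := by ring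
        rw [this, hε, one_mul]
      rw [h4]
      linear_combination h2
  rw [finrank_eigenspace_eq (n := 3) three_ne_zero (funLeft_perm_pow_eq_one σ hσ) hε]
  simp only [Finset.sum_range_succ, Finset.sum_range_zero, zero_add, trace_funLeft_perm_pow,
    pow_zero, pow_one, one_mul, hfix]
  simp only [Equiv.Perm.coe_one, id_eq, Finset.filter_true_of_mem, Finset.mem_univ,
    implies_true, Finset.card_univ]
  rw [← hcoef]
  push_cast
  ring

end Perm

/-! ## The one-parameter group attached to a permutation of finite order -/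

section PermTheta

open Complex

variable {Y : Type} (σ : Equiv.Perm Y) (n : ℕ)

/-- the standard primitive `n`-th root of unity -/
def zeta (n : ℕ) : ℂ := Complex.exp (2 * Real.pi * Complex.I / n)

lemma zeta_prim {n : ℕ} (hn : n ≠ 0) : IsPrimitiveRoot (zeta n) n :=
  Complex.isPrimitiveRoot_exp n hn

lemma zeta_pow_pow {n : ℕ} (hn : n ≠ 0) (a : ℕ) : (zeta n ^ a) ^ n = 1 := by
  rw [← pow_mul, mul_comm, pow_mul, (zeta_prim hn).pow_eq_one, one_pow]

lemma zeta_pow_inj {n : ℕ} (hn : n ≠ 0) {a b : ℕ} (ha : a < n) (hb : b < n)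
    (h : zeta n ^ a = zeta n ^ b) : a = b :=
  (zeta_prim hn).pow_inj ha hb h

lemma conj_zeta (n : ℕ) : (starRingEnd ℂ) (zeta n) = (zeta n)⁻¹ := by
  rw [zeta, ← Complex.exp_conj, ← Complex.exp_neg]
  congr 1
  simp only [map_div₀, map_mul, Complex.conj_ofReal, Complex.conj_I, map_natCast, map_ofNat]
  ring

/-- the operator `L = funLeft σ` -/
abbrev opL : (Y → ℂ) →ₗ[ℂ] (Y → ℂ) := LinearMap.funLeft ℂ ℂ σ

/-- the projector onto the `ζ^a`-eigenspace -/
def pr (a : ℕ) : (Y → ℂ) →ₗ[ℂ] (Y → ℂ) := specProj (opL σ) n (zeta n ^ a)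

/-- `Θ(s) = ∑_{a<n} exp(2πi a s / n) pr a` -/
def theta (s : ℂ) : (Y → ℂ) →ₗ[ℂ] (Y → ℂ) :=
  ∑ a ∈ Finset.range n, Complex.exp (2 * Real.pi * Complex.I * a * s / n) • pr σ n a

/-- rank of `pr a` -/
def rk (a : ℕ) : ℕ := finrank ℂ (LinearMap.range (pr σ n a))

variable {σ n}

lemma pr_idem (hn : n ≠ 0) (hσ : σ ^ n = 1) (a : ℕ) : IsIdempotentElem (pr σ n a) :=
  specProj_idem hn (funLeft_perm_pow_eq_one σ hσ) (zeta_pow_pow hn a)

lemma pr_ortho (hn : n ≠ 0) (hσ : σ ^ n = 1) {a b : ℕ} (ha : a < n) (hb : b < n)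
    (hab : a ≠ b) : pr σ n a * pr σ n b = 0 :=
  specProj_ortho hn (funLeft_perm_pow_eq_one σ hσ) (zeta_pow_pow hn a) (zeta_pow_pow hn b)
    (fun h => hab (zeta_pow_inj hn ha hb h.symm))

lemma sum_pr (hn : n ≠ 0) : ∑ a ∈ Finset.range n, pr σ n a = 1 :=
  sum_specProj hn (zeta_prim hn)

lemma theta_zero (hn : n ≠ 0) : theta σ n 0 = 1 := by
  simp [theta, sum_pr hn]

lemma theta_add (hn : n ≠ 0) (hσ : σ ^ n = 1) (s t : ℂ) :
    theta σ n (s + t) = theta σ n s * theta σ n t := by
  simp only [theta]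
  rw [Finset.sum_mul]
  apply Finset.sum_congr rfl
  intro a ha
  rw [Finset.mul_sum, Finset.sum_eq_single a]
  · rw [smul_mul_smul_comm, (pr_idem hn hσ a).eq, ← Complex.exp_add]
    congr 2
    ring
  · intro b hb hba
    rw [smul_mul_smul_comm, pr_ortho hn hσ (Finset.mem_range.mp ha) (Finset.mem_range.mp hb)
      (Ne.symm hba), smul_zero]
  · intro h
    exact absurd ha h

lemma det_theta [Finite Y] (hn : n ≠ 0) (hσ : σ ^ n = 1) (s : ℂ) :
    LinearMap.det (theta σ n s) =
      Complex.exp (2 * Real.pi * Complex.I * s / n * ∑ a ∈ Finset.range n, (a : ℂ) * rk σ n a) := by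
  rw [theta, det_sum_smul_idem (Finset.range n) (pr σ n) _ (fun a _ => pr_idem hn hσ a)
    (fun a ha b hb hab => pr_ortho hn hσ (Finset.mem_range.mp ha) (Finset.mem_range.mp hb) hab)
    (sum_pr hn)]
  rw [Finset.mul_sum, Complex.exp_sum]
  apply Finset.prod_congr rfl
  intro a _
  rw [← Complex.exp_nat_mul]
  congr 1
  simp only [rk]
  ring

/-- the number of fixed points of `σ ^ i` -/
def fixCount [Fintype Y] [DecidableEq Y] (σ : Equiv.Perm Y) (i : ℕ) : ℕ :=
  (Finset.univ.filter fun y => (σ ^ i) y = y).card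

lemma rk_eq_trace [Fintype Y] [DecidableEq Y] (hn : n ≠ 0) (hσ : σ ^ n = 1) (a : ℕ) :
    (rk σ n a : ℂ) =
      (n : ℂ)⁻¹ * ∑ i ∈ Finset.range n, ((zeta n ^ a)⁻¹) ^ i * (fixCount σ i : ℂ) := by
  rw [rk, finrank_range_idem _ (pr_idem hn hσ a), pr, trace_specProj]
  simp only [trace_funLeft_perm_pow, fixCount]

lemma inv_eq_of_eq_inv' {x y : ℂ} (h : x * y = 1) : x⁻¹ = y := by
  have hx : x ≠ 0 := by
    rintro rfl
    simp at h
  field_simp
  linear_combination -h

lemma rk_reflect [Fintype Y] [DecidableEq Y] (hn : n ≠ 0) (hσ : σ ^ n = 1) {a : ℕ}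
    (ha : a ≤ n) : rk σ n (n - a) = rk σ n a := by
  have hcast : (rk σ n (n - a) : ℂ) = (rk σ n a : ℂ) := by
    have h1 : (starRingEnd ℂ) (rk σ n a : ℂ) = (rk σ n a : ℂ) := Complex.conj_natCast _
    rw [← h1, rk_eq_trace hn hσ, rk_eq_trace hn hσ]
    simp only [map_mul, map_inv₀, map_sum, map_pow, Complex.conj_natCast, conj_zeta]
    congr 1
    apply Finset.sum_congr rfl
    intro i _
    congr 2
    have hz0 : zeta n ≠ 0 := (zeta_prim hn).ne_zero hn
    have h2 : zeta n ^ (n - a) * zeta n ^ a = 1 := by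
      rw [← pow_add, Nat.sub_add_cancel ha, (zeta_prim hn).pow_eq_one]
    rw [inv_pow, inv_inv]
    exact inv_eq_of_eq_inv' h2
  exact_mod_cast hcast

lemma sum_rk [Fintype Y] (hn : n ≠ 0) (hσ : σ ^ n = 1) :
    ∑ a ∈ Finset.range n, (rk σ n a : ℂ) = Fintype.card Y := by
  have h := congrArg (LinearMap.trace ℂ (Y → ℂ)) (sum_pr (σ := σ) hn)
  rw [map_sum, LinearMap.trace_one, Module.finrank_fintype_fun_eq_card] at h
  rw [← h]
  apply Finset.sum_congr rfl
  intro a _
  rw [rk, finrank_range_idem _ (pr_idem hn hσ a)]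

lemma two_mul_sum_mul_rk [Fintype Y] [DecidableEq Y] (hn : n ≠ 0) (hσ : σ ^ n = 1) :
    2 * ∑ a ∈ Finset.range n, (a : ℂ) * rk σ n a = n * ((Fintype.card Y : ℂ) - rk σ n 0) := by
  obtain ⟨m, rfl⟩ := Nat.exists_eq_succ_of_ne_zero hn
  have hsum := sum_rk (σ := σ) hn hσ
  rw [Finset.sum_range_succ'] at hsum
  rw [Finset.sum_range_succ']
  simp only [Nat.cast_zero, zero_mul, add_zero]
  have hrefl : ∑ j ∈ Finset.range m, ((j + 1 : ℕ) : ℂ) * rk σ (m + 1) (j + 1) =
      ∑ j ∈ Finset.range m, ((m - j : ℕ) : ℂ) * rk σ (m + 1) (j + 1) := by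
    rw [← Finset.sum_range_reflect]
    apply Finset.sum_congr rfl
    intro j hj
    have hj' : j < m := Finset.mem_range.mp hj
    have e1 : m - 1 - j + 1 = m - j := by omega
    have e2 : m - j = (m + 1) - (j + 1) := by omega
    rw [e1]
    congr 1
    rw [e2, rk_reflect hn hσ (by omega)]
  have hadd : 2 * ∑ j ∈ Finset.range m, ((j + 1 : ℕ) : ℂ) * rk σ (m + 1) (j + 1) =
      ∑ j ∈ Finset.range m, ((m + 1 : ℕ) : ℂ) * rk σ (m + 1) (j + 1) := by
    rw [two_mul]
    nth_rewrite 2 [hrefl]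
    rw [← Finset.sum_add_distrib]
    apply Finset.sum_congr rfl
    intro j hj
    have hj' : j < m := Finset.mem_range.mp hj
    rw [← add_mul]
    congr 1
    rw [← Nat.cast_add]
    congr 1
    omega
  rw [hadd, ← Finset.mul_sum, ← hsum]
  ring

/-- determinant of `theta` in closed form -/
lemma det_theta' [Fintype Y] [DecidableEq Y] (hn : n ≠ 0) (hσ : σ ^ n = 1) (s : ℂ) :
    LinearMap.det (theta σ n s) =
      Complex.exp (Real.pi * Complex.I * s * ((Fintype.card Y : ℂ) - rk σ n 0)) := by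
  rw [det_theta hn hσ]
  congr 1
  have h := two_mul_sum_mul_rk (σ := σ) hn hσ
  have hn' : (n : ℂ) ≠ 0 := Nat.cast_ne_zero.mpr hn
  have h2 : ∑ a ∈ Finset.range n, (a : ℂ) * rk σ n a =
      n * ((Fintype.card Y : ℂ) - rk σ n 0) / 2 := by
    rw [← h]
    ring
  rw [h2]
  field_simp

/-- The invariants of a permutation operator: if `r` is an equivalence relation such that
`σ`-invariant functions are exactly the functions constant on `r`-classes, the `1`-eigenspace
has dimension the number of classes. -/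
lemma finrank_eigenspace_one [Finite Y] (r : Setoid Y) (h1 : ∀ y, r (σ y) y)
    (h2 : ∀ v : Y → ℂ, (∀ y, v (σ y) = v y) → ∀ y y', r y y' → v y = v y') :
    finrank ℂ (Module.End.eigenspace (opL σ) 1) = Nat.card (Quotient r) := by
  let _ := Fintype.ofFinite (Quotient r)
  set Φ : (Quotient r → ℂ) →ₗ[ℂ] (Y → ℂ) :=
    LinearMap.funLeft ℂ ℂ (Quotient.mk r) with hΦ
  have hinj : Function.Injective Φ :=
    LinearMap.funLeft_injective_of_surjective ℂ ℂ _ Quotient.mk_surjective
  have hrange : LinearMap.range Φ = Module.End.eigenspace (opL σ) 1 := by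
    ext v
    rw [Module.End.mem_eigenspace_iff, one_smul]
    constructor
    · rintro ⟨w, rfl⟩
      ext y
      simp only [hΦ, LinearMap.funLeft_apply]
      congr 1
      exact Quotient.sound (h1 y)
    · intro hv
      have hv' : ∀ y, v (σ y) = v y := fun y => congrFun hv y
      refine ⟨Quotient.lift v (fun y y' hyy' => h2 v hv' y y' hyy'), ?_⟩
      ext y
      simp [hΦ, LinearMap.funLeft_apply]
  rw [← hrange, LinearMap.finrank_range_of_inj hinj, Module.finrank_fintype_fun_eq_card,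
    Nat.card_eq_fintype_card]

lemma rk_zero [Finite Y] (hn : n ≠ 0) (hσ : σ ^ n = 1) (r : Setoid Y) (h1 : ∀ y, r (σ y) y)
    (h2 : ∀ v : Y → ℂ, (∀ y, v (σ y) = v y) → ∀ y y', r y y' → v y = v y') :
    rk σ n 0 = Nat.card (Quotient r) := by
  rw [rk, pr, pow_zero, range_specProj hn (funLeft_perm_pow_eq_one σ hσ) (one_pow n)]
  exact finrank_eigenspace_one r h1 h2

end PermTheta

/-! ## Specialisation to `Core.lean` -/

section Core

open UpperHalfPlane ModularForm CongruenceSubgroup MatrixGroups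
open scoped Real

variable (Γ : Subgroup SL(2, ℤ))

/-- the permutation `x ↦ T⁻¹ • x` of `X Γ` -/
def sigmaT : Equiv.Perm (X Γ) := (MulAction.toPermHom SL(2, ℤ) (X Γ) ModularGroup.T)⁻¹

lemma sigmaT_apply (x : X Γ) : sigmaT Γ x = (ModularGroup.T)⁻¹ • x := by
  simp [sigmaT]

lemma shiftT_eq : shiftT Γ = opL (sigmaT Γ) := by
  ext v x
  simp [shiftT, LinearMap.funLeft_apply, sigmaT_apply]

lemma sigmaT_pow_per : sigmaT Γ ^ per Γ = 1 := by
  rw [sigmaT, inv_pow, per, pow_orderOf_eq_one, inv_one]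

variable [Γ.FiniteIndex]

lemma per_ne_zero : per Γ ≠ 0 := by
  have : Finite (X Γ) := Subgroup.finite_quotient_of_finiteIndex
  have : 0 < per Γ := orderOf_pos _
  exact this.ne'

lemma proj_eq (a : ℕ) : proj Γ a = pr (sigmaT Γ) (per Γ) a := by
  have hn : (per Γ : ℂ) ≠ 0 := Nat.cast_ne_zero.mpr (per_ne_zero Γ)
  rw [proj, pr, specProj, shiftT_eq]
  congr 1
  apply Finset.sum_congr rfl
  intro i _
  congr 1
  rw [zeta, ← Complex.exp_nat_mul, ← Complex.exp_neg, ← Complex.exp_nat_mul]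
  congr 1
  field_simp

lemma Theta_eq (s : ℂ) : Theta Γ s = theta (sigmaT Γ) (per Γ) s := by
  simp only [Theta, theta, proj_eq]

/-- **P1.4** -/
theorem Theta_zero : Theta Γ 0 = LinearMap.id := by
  rw [Theta_eq, theta_zero (per_ne_zero Γ)]
  rfl

/-- **P1.4** -/
theorem Theta_add (s t : ℂ) : Theta Γ (s + t) = Theta Γ s ∘ₗ Theta Γ t := by
  rw [Theta_eq, Theta_eq, Theta_eq, theta_add (per_ne_zero Γ) (sigmaT_pow_per Γ)]
  rfl

/-- **P1.3** : determinant of `Theta`. -/
theorem det_Theta (s : ℂ) : LinearMap.det (Theta Γ s) =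
    Complex.exp (π * Complex.I * s * ((Nat.card (X Γ) : ℂ) -
      Nat.card (MulAction.orbitRel.Quotient (Subgroup.zpowers ModularGroup.T) (X Γ)))) := by
  classical
  have : Finite (X Γ) := Subgroup.finite_quotient_of_finiteIndex
  let _ : Fintype (X Γ) := Fintype.ofFinite _
  rw [Theta_eq, det_theta' (per_ne_zero Γ) (sigmaT_pow_per Γ), Nat.card_eq_fintype_card]
  congr 4
  rw [rk_zero (per_ne_zero Γ) (sigmaT_pow_per Γ)
    (MulAction.orbitRel (Subgroup.zpowers ModularGroup.T) (X Γ))]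
  · intro y
    rw [sigmaT_apply]
    refine ⟨⟨(ModularGroup.T)⁻¹, Subgroup.inv_mem _ (Subgroup.mem_zpowers _)⟩, rfl⟩
  · intro v hv y y' hyy'
    -- the stabiliser of `v`
    let H : Subgroup SL(2, ℤ) :=
      { carrier := {g | ∀ y, v (g • y) = v y}
        mul_mem' := by
          intro a b ha hb y
          rw [mul_smul, ha, hb]
        one_mem' := by
          intro y
          rw [one_smul]
        inv_mem' := by
          intro a ha y
          have := ha (a⁻¹ • y)
          rw [smul_inv_smul] at this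
          exact this.symm }
    have hT : (ModularGroup.T)⁻¹ ∈ H := by
      intro y
      have := hv y
      rwa [sigmaT_apply] at this
    have hT' : ModularGroup.T ∈ H := by
      have := H.inv_mem hT
      rwa [inv_inv] at this
    have hle : Subgroup.zpowers ModularGroup.T ≤ H := (Subgroup.zpowers_le).mpr hT'
    obtain ⟨⟨g, hg⟩, rfl⟩ := hyy'
    exact hle hg y'

end Core

end Fermat.Agent.S20.P1h225
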