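import Fermat.Agent.S20.Core

/-!
# S20 long shot — piece P2 (helper280): class counts of the weights of a fundamental system
modulo 4 and modulo 6.

The inputs from the other pieces (C0: `ev_smul`, `MF_eq_bot_of_neg`; P1: eigenspace dimensions of
permutation operators) are taken as explicit hypotheses, in exactly the shape of the skeleton.
-/

set_option autoImplicit false

noncomputable section

namespace Fermat.Agent.S20.P2h280

open Fermat.Agent.S20
open UpperHalfPlane ModularForm CongruenceSubgroup MatrixGroups Filter Module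
open scoped Manifold Topology Real

local notation "Sm" => ModularGroup.S
local notation "Tm" => ModularGroup.T

/-! ## Pure linear algebra: counting eigenvectors in a basis -/

/-- If a linearly independent family of `finrank V` eigenvectors of `L` is given, the number of
members with eigenvalue `μ` is the dimension of the `μ`-eigenspace. -/
theorem card_eigen_eq_finrank {K V J : Type*} [Field K] [AddCommGroup V] [Module K V]
    [FiniteDimensional K V] [Fintype J] [DecidableEq K]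
    (L : V →ₗ[K] V) (v : J → V) (ε : J → K) (hli : LinearIndependent K v)
    (hcard : Fintype.card J = finrank K V) (hv : ∀ j, L (v j) = ε j • v j) (μ : K) :
    (Finset.univ.filter fun j => ε j = μ).card = finrank K (Module.End.eigenspace L μ) := by
  classical
  let b : Basis J K V := Basis.mk hli
    (by rw [hli.span_eq_top_of_card_eq_finrank' hcard])
  have hb : ∀ j, b j = v j := fun j => by
    simp [b]
  have hspan : Module.End.eigenspace L μ
      = Submodule.span K (Set.range (v ∘ (Subtype.val : {j // ε j = μ} → J))) := by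
    apply le_antisymm
    · intro w hw
      rw [Module.End.mem_eigenspace_iff] at hw
      have hrepr : ∀ j, b.repr w j * ε j = μ * b.repr w j := by
        intro j
        have h1 : b.repr (L w) j = b.repr w j * ε j := by
          conv_lhs => rw [← b.sum_repr w]
          simp only [map_sum, map_smul, hb, hv]
          simp only [← hb, Finsupp.coe_finsetSum, Finsupp.coe_smul, Finset.sum_apply,
            Pi.smul_apply, b.repr_self, smul_eq_mul]
          rw [Finset.sum_eq_single j]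
          · simp
          · intro i _ hij
            simp [hij]
          · intro h; exact absurd (Finset.mem_univ j) h
        rw [hw] at h1
        simpa using h1.symm
      have hzero : ∀ j, ε j ≠ μ → b.repr w j = 0 := by
        intro j hj
        have := hrepr j
        have h2 : b.repr w j * (ε j - μ) = 0 := by linear_combination this
        rcases mul_eq_zero.1 h2 with h | h
        · exact h
        · exact absurd (sub_eq_zero.1 h) hj
      rw [← b.sum_repr w]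
      refine Submodule.sum_mem _ fun j _ => ?_
      by_cases hj : ε j = μ
      · refine Submodule.smul_mem _ _ (Submodule.subset_span ⟨⟨j, hj⟩, ?_⟩)
        simp [hb]
      · rw [hzero j hj, zero_smul]
        exact Submodule.zero_mem _
    · rw [Submodule.span_le]
      rintro _ ⟨⟨j, hj⟩, rfl⟩
      simp only [SetLike.mem_coe, Module.End.mem_eigenspace_iff, Function.comp_apply]
      rw [hv j, hj]
  rw [hspan, finrank_span_eq_card (hli.comp _ Subtype.val_injective), Fintype.card_subtype]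

variable {Γ : Subgroup SL(2, ℤ)}

/-! ## P2.0 -/

/-- The members of a fundamental system are nonzero. -/
theorem FundSystem.F_ne_zero (𝔉 : FundSystem Γ) (j : 𝔉.J) : 𝔉.F j ≠ 0 := by
  intro h
  have := (𝔉.indep UpperHalfPlane.I).ne_zero j
  rw [h, map_zero] at this
  exact this rfl

/-- P2.0, with the vanishing statements of C0.4 as hypotheses. -/
theorem FundSystem.wt_even_nonneg_of
    (hMFneg : ∀ {k : ℤ}, k < 0 → MF Γ k = ⊥)
    (hMFodd : ∀ {k : ℤ}, Odd k → MF Γ k = ⊥)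
    (𝔉 : FundSystem Γ) (j : 𝔉.J) : 0 ≤ 𝔉.wt j ∧ Even (𝔉.wt j) := by
  have hne := FundSystem.F_ne_zero 𝔉 j
  have hmem := 𝔉.mem j
  constructor
  · by_contra hk
    rw [hMFneg (not_le.1 hk)] at hmem
    exact hne ((Submodule.mem_bot ℂ).1 hmem)
  · by_contra hk
    rw [hMFodd (Int.not_even_iff_odd.1 hk)] at hmem
    exact hne ((Submodule.mem_bot ℂ).1 hmem)

/-- C0.4 (odd weights), proved directly: if `-1 ∈ Γ`, forms of odd weight vanish. -/
theorem MF_eq_bot_of_odd (hneg : -1 ∈ Γ) {k : ℤ} (hk : Odd k) : MF Γ k = ⊥ := by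
  rw [eq_bot_iff]
  intro f hf
  rw [Submodule.mem_bot]
  have h1 := hf.2.1 (-1) hneg
  funext τ
  have h2 := congrFun h1 τ
  rw [ModularForm.SL_slash_apply] at h2
  have hsm : (-1 : SL(2, ℤ)) • τ = τ := by
    have := ModularGroup.SL_neg_smul (1 : SL(2, ℤ)) τ
    rwa [one_smul] at this
  have hden : denom (-1 : SL(2, ℤ)) τ = -1 := by
    rw [ModularGroup.denom_apply]
    simp
  rw [hsm, hden] at h2
  have hpow : (-1 : ℂ) ^ (-k) = -1 := by
    rw [zpow_neg, hk.neg_one_zpow]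
    norm_num
  rw [hpow] at h2
  have : f τ = 0 := by linear_combination (-1 / 2 : ℂ) * h2
  simpa using this

/-! ## Group theory and the two elliptic points -/

/-- `-1` acts trivially on `X Γ` when `-1 ∈ Γ`. -/
lemma neg_one_smul_X (hneg : -1 ∈ Γ) (x : X Γ) : (-1 : SL(2, ℤ)) • x = x := by
  induction x using QuotientGroup.induction_on with
  | H g =>
    rw [MulAction.Quotient.smul_mk, QuotientGroup.eq, smul_eq_mul]
    have : (-1 * g)⁻¹ * g = -1 := by
      rw [mul_inv_rev]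
      simp
    rw [this]
    exact hneg

lemma S_inv_sq : (Sm⁻¹ * Sm⁻¹ : SL(2, ℤ)) = -1 := by decide

lemma ST_inv_cube : ((Sm * Tm)⁻¹ * ((Sm * Tm)⁻¹ * (Sm * Tm)⁻¹) : SL(2, ℤ)) = -1 := by decide

lemma S_smul_I : Sm • UpperHalfPlane.I = UpperHalfPlane.I := by
  rw [modular_S_smul]
  ext
  simp [UpperHalfPlane.I]

lemma denom_S_I : denom Sm UpperHalfPlane.I = Complex.I := by
  rw [ModularGroup.denom_S]
  rfl

/-- `ρ = e^{2πi/3}`, fixed by `S * T`. -/
def rho : ℍ := ⟨⟨-1 / 2, Real.sqrt 3 / 2⟩, by simp⟩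

lemma rho_coe : (rho : ℂ) = ⟨-1 / 2, Real.sqrt 3 / 2⟩ := rfl

lemma rho_sq_add : (rho : ℂ) ^ 2 + (rho : ℂ) + 1 = 0 := by
  rw [rho_coe]
  apply Complex.ext
  · simp [pow_two]
    have := Real.mul_self_sqrt (show (0:ℝ) ≤ 3 by norm_num)
    nlinarith
  · simp [pow_two]
    ring

lemma denom_ST_rho : denom ((Sm * Tm : SL(2, ℤ))) rho = (rho : ℂ) + 1 := by
  rw [ModularGroup.denom_apply]
  have h10 : (Sm * Tm : SL(2, ℤ)) 1 0 = 1 := by decide
  have h11 : (Sm * Tm : SL(2, ℤ)) 1 1 = 1 := by decide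
  rw [h10, h11]
  simp

lemma ST_smul_rho : (Sm * Tm) • rho = rho := by
  rw [mul_smul, modular_T_smul, modular_S_smul]
  ext
  simp only [coe_vadd]
  have h := rho_sq_add
  have hne : (rho : ℂ) ≠ 0 := by
    intro h0
    rw [h0] at h
    simp at h
  push_cast
  rw [inv_eq_iff_eq_inv]
  field_simp
  linear_combination -h

/-! ## The eigenvector property at a fixed point -/

/-- At a fixed point `τ₀` of `γ`, the vector of conjugates of a `Γ`-invariant function is an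
eigenvector of the permutation operator of `γ⁻¹`. -/
theorem funLeft_ev_of_fixed
    (hev_smul : ∀ {k : ℤ} {f : ℍ → ℂ}, (∀ γ ∈ Γ, f ∣[k] γ = f) → ∀ (γ : SL(2, ℤ)) (τ : ℍ)
      (x : X Γ), ev Γ k (γ • τ) f x = denom γ τ ^ k * ev Γ k τ f (γ⁻¹ • x))
    {k : ℤ} {f : ℍ → ℂ} (hf : ∀ γ ∈ Γ, f ∣[k] γ = f) (γ : SL(2, ℤ)) (τ₀ : ℍ)
    (hfix : γ • τ₀ = τ₀) :
    LinearMap.funLeft ℂ ℂ (MulAction.toPerm (γ⁻¹ : SL(2, ℤ)) : Equiv.Perm (X Γ))
        (ev Γ k τ₀ f) = (denom γ τ₀ ^ k)⁻¹ • ev Γ k τ₀ f := by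
  funext x
  have h := hev_smul hf γ τ₀ x
  rw [hfix] at h
  have hd : denom γ τ₀ ^ k ≠ 0 := zpow_ne_zero _ (denom_ne_zero _ _)
  simp only [LinearMap.funLeft_apply, MulAction.toPerm_apply, Pi.smul_apply, smul_eq_mul]
  rw [h]
  field_simp

/-! ## Eigenvalues -/

lemma I_zpow_inv_eq_one_iff {k : ℤ} (hk : Even k) :
    ((Complex.I ^ k)⁻¹ = 1 ↔ k % 4 = 0) ∧ ((Complex.I ^ k)⁻¹ = 1 ∨ (Complex.I ^ k)⁻¹ = -1) := by
  obtain ⟨m, hm⟩ := hk
  have h1 : Complex.I ^ k = (-1 : ℂ) ^ m := by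
    rw [hm, ← two_mul, zpow_mul, zpow_two, Complex.I_mul_I]
  rw [h1]
  rcases Int.even_or_odd m with he | ho
  · rw [he.neg_one_zpow]
    obtain ⟨n, hn⟩ := he
    refine ⟨⟨fun _ => by omega, fun _ => by simp⟩, Or.inl (by simp)⟩
  · rw [ho.neg_one_zpow]
    obtain ⟨n, hn⟩ := ho
    refine ⟨⟨fun h => ?_, fun h => by omega⟩, Or.inr (by norm_num)⟩
    norm_num at h

lemma rho_cube : (rho : ℂ) ^ 3 = 1 := by
  linear_combination ((rho : ℂ) - 1) * rho_sq_add

lemma rho_ne_one : (rho : ℂ) ≠ 1 := by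
  intro h
  have := rho_sq_add
  rw [h] at this
  norm_num at this

lemma rho_ne_zero : (rho : ℂ) ≠ 0 := by
  intro h0
  have h := rho_sq_add
  rw [h0] at h
  simp at h

lemma rho_sq_ne_one : (rho : ℂ) ^ 2 ≠ 1 := by
  intro h
  have h1 := rho_sq_add
  have h2 : (rho : ℂ) = -2 := by linear_combination h1 - h
  rw [h2] at h
  norm_num at h

lemma rho_sq_ne_rho : (rho : ℂ) ^ 2 ≠ (rho : ℂ) := by
  intro h
  apply rho_ne_one
  have : (rho : ℂ) * ((rho : ℂ) - 1) = 0 := by linear_combination h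
  rcases mul_eq_zero.1 this with h0 | h0
  · exact absurd h0 rho_ne_zero
  · exact sub_eq_zero.1 h0

/-- The eigenvalue `(ρ + 1)^(-k)` for even `k`, according to `k mod 6`. -/
lemma rho_zpow_inv {k : ℤ} (hk : Even k) :
    (k % 6 = 0 ∧ (((rho : ℂ) + 1) ^ k)⁻¹ = 1) ∨
    (k % 6 = 2 ∧ (((rho : ℂ) + 1) ^ k)⁻¹ = (rho : ℂ) ^ 2) ∨
    (k % 6 = 4 ∧ (((rho : ℂ) + 1) ^ k)⁻¹ = (rho : ℂ)) := by
  obtain ⟨m, hm⟩ := hk
  have hz2 : ((rho : ℂ) + 1) ^ (2 : ℤ) = (rho : ℂ) := by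
    rw [zpow_two]
    linear_combination rho_sq_add
  have h1 : ((rho : ℂ) + 1) ^ k = (rho : ℂ) ^ m := by
    rw [hm, ← two_mul, zpow_mul, hz2]
  have h3 : (rho : ℂ) ^ (3 : ℤ) = 1 := by
    have := rho_cube
    exact_mod_cast this
  have h2 : (rho : ℂ) ^ m = (rho : ℂ) ^ (m % 3) := by
    conv_lhs => rw [← Int.mul_ediv_add_emod m 3]
    rw [zpow_add₀ rho_ne_zero, zpow_mul, h3, one_zpow, one_mul]
  rw [h1, h2]
  have hlt : m % 3 < 3 := Int.emod_lt_of_pos _ (by norm_num)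
  have hge : 0 ≤ m % 3 := Int.emod_nonneg _ (by norm_num)
  have hinv : ((rho : ℂ))⁻¹ = (rho : ℂ) ^ 2 := by
    rw [inv_eq_iff_eq_inv, eq_comm, inv_eq_iff_eq_inv]
    have hne := rho_ne_zero
    field_simp
    linear_combination rho_cube
  have hinv2 : ((rho : ℂ) ^ 2)⁻¹ = (rho : ℂ) := by
    rw [← hinv, inv_inv]
  have hcases : m % 3 = 0 ∨ m % 3 = 1 ∨ m % 3 = 2 := by omega
  rcases hcases with h | h | h
  · left
    refine ⟨by omega, ?_⟩
    rw [h]; simp
  · right; left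
    refine ⟨by omega, ?_⟩
    rw [h, zpow_one, hinv]
  · right; right
    refine ⟨by omega, ?_⟩
    rw [h]
    have : (rho : ℂ) ^ (2 : ℤ) = (rho : ℂ) ^ 2 := by norm_cast
    rw [this, hinv2]

section counts

variable [Γ.FiniteIndex]

omit [Γ.FiniteIndex] in
/-- Counting fixed points: the `Finset` count for the permutation `γ⁻¹ •` is the `Nat.card` of the
fixed points of `γ`. -/
lemma card_filter_fixed [Fintype (X Γ)] [DecidableEq (X Γ)] (γ : SL(2, ℤ)) :
    (Finset.univ.filter fun y : X Γ =>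
      (MulAction.toPerm (γ⁻¹ : SL(2, ℤ)) : Equiv.Perm (X Γ)) y = y).card
      = Nat.card {x : X Γ // γ • x = x} := by
  rw [Nat.card_eq_fintype_card, Fintype.card_subtype]
  congr 1
  ext y
  simp only [Finset.mem_filter, Finset.mem_univ, true_and, MulAction.toPerm_apply]
  rw [inv_smul_eq_iff, eq_comm]

/-- P2.1 : class count mod 4, with the inputs `ev_smul` (C0.3), P1.1 and P2.0 as hypotheses. -/
theorem FundSystem.card_wt_mod_four_of
    (hev_smul : ∀ {k : ℤ} {f : ℍ → ℂ}, (∀ γ ∈ Γ, f ∣[k] γ = f) → ∀ (γ : SL(2, ℤ)) (τ : ℍ)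
      (x : X Γ), ev Γ k (γ • τ) f x = denom γ τ ^ k * ev Γ k τ f (γ⁻¹ • x))
    (hP11 : ∀ {Y : Type} [Fintype Y] [DecidableEq Y] (σ : Equiv.Perm Y), σ ^ 2 = 1 →
      ∀ ε : ℂ, (ε = 1 ∨ ε = -1) →
      (finrank ℂ (Module.End.eigenspace (LinearMap.funLeft ℂ ℂ σ) ε) : ℂ) =
        ((Fintype.card Y : ℂ) + ε * (Finset.univ.filter fun y => σ y = y).card) / 2)
    (hneg : -1 ∈ Γ) (𝔉 : FundSystem Γ) (hwt : ∀ j, 0 ≤ 𝔉.wt j ∧ Even (𝔉.wt j)) :
    2 * (Finset.univ.filter fun j => 𝔉.wt j % 4 = 0).card =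
      Nat.card (X Γ) + Nat.card {x : X Γ // Sm • x = x} := by
  classical
  have : Fintype (X Γ) := Fintype.ofFinite _
  set σ : Equiv.Perm (X Γ) := MulAction.toPerm (Sm⁻¹ : SL(2, ℤ)) with hσ
  have hσ2 : σ ^ 2 = 1 := by
    ext x
    simp only [pow_two, Equiv.Perm.mul_apply, hσ, MulAction.toPerm_apply, Equiv.Perm.one_apply]
    rw [← mul_smul, S_inv_sq, neg_one_smul_X hneg]
  have hv : ∀ j, LinearMap.funLeft ℂ ℂ σ (ev Γ (𝔉.wt j) UpperHalfPlane.I (𝔉.F j))
      = (Complex.I ^ (𝔉.wt j))⁻¹ • ev Γ (𝔉.wt j) UpperHalfPlane.I (𝔉.F j) := fun j => by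
    have := funLeft_ev_of_fixed hev_smul (𝔉.mem j).2.1 Sm UpperHalfPlane.I S_smul_I
    rw [denom_S_I] at this
    exact this
  have hcard : Fintype.card 𝔉.J = finrank ℂ (X Γ → ℂ) := by
    rw [𝔉.card_eq, Module.finrank_fintype_fun_eq_card, Nat.card_eq_fintype_card]
  have hcount := card_eigen_eq_finrank (LinearMap.funLeft ℂ ℂ σ)
    (fun j => ev Γ (𝔉.wt j) UpperHalfPlane.I (𝔉.F j)) (fun j => (Complex.I ^ (𝔉.wt j))⁻¹)
    (𝔉.indep _) hcard hv 1
  have hfilter : (Finset.univ.filter fun j => (Complex.I ^ (𝔉.wt j))⁻¹ = 1)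
      = (Finset.univ.filter fun j => 𝔉.wt j % 4 = 0) := by
    ext j
    simp only [Finset.mem_filter, Finset.mem_univ, true_and]
    exact (I_zpow_inv_eq_one_iff (hwt j).2).1
  rw [hfilter] at hcount
  have h11 := hP11 σ hσ2 1 (Or.inl rfl)
  rw [← hcount, card_filter_fixed Sm, one_mul, ← Nat.card_eq_fintype_card] at h11
  have h2 : ((2 * (Finset.univ.filter fun j => 𝔉.wt j % 4 = 0).card : ℕ) : ℂ)
      = ((Nat.card (X Γ) + Nat.card {x : X Γ // Sm • x = x} : ℕ) : ℂ) := by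
    push_cast
    rw [h11]
    ring
  exact_mod_cast h2

/-- P2.2 : class counts mod 6, with the inputs `ev_smul` (C0.3), P1.2 and P2.0 as hypotheses. -/
theorem FundSystem.card_wt_mod_six_of
    (hev_smul : ∀ {k : ℤ} {f : ℍ → ℂ}, (∀ γ ∈ Γ, f ∣[k] γ = f) → ∀ (γ : SL(2, ℤ)) (τ : ℍ)
      (x : X Γ), ev Γ k (γ • τ) f x = denom γ τ ^ k * ev Γ k τ f (γ⁻¹ • x))
    (hP12 : ∀ {Y : Type} [Fintype Y] [DecidableEq Y] (σ : Equiv.Perm Y), σ ^ 3 = 1 →
      ∀ ε : ℂ, ε ^ 3 = 1 →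
      (finrank ℂ (Module.End.eigenspace (LinearMap.funLeft ℂ ℂ σ) ε) : ℂ) =
        ((Fintype.card Y : ℂ) +
          (if ε = 1 then 2 else -1) * (Finset.univ.filter fun y => σ y = y).card) / 3)
    (hneg : -1 ∈ Γ) (𝔉 : FundSystem Γ) (hwt : ∀ j, 0 ≤ 𝔉.wt j ∧ Even (𝔉.wt j)) :
    3 * (Finset.univ.filter fun j => 𝔉.wt j % 6 = 0).card =
        Nat.card (X Γ) + 2 * Nat.card {x : X Γ // (Sm * Tm) • x = x} ∧
    3 * (Finset.univ.filter fun j => 𝔉.wt j % 6 = 2).card + Nat.card {x : X Γ // (Sm * Tm) • x = x}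
        = Nat.card (X Γ) ∧
    3 * (Finset.univ.filter fun j => 𝔉.wt j % 6 = 4).card + Nat.card {x : X Γ // (Sm * Tm) • x = x}
        = Nat.card (X Γ) := by
  classical
  have : Fintype (X Γ) := Fintype.ofFinite _
  set σ : Equiv.Perm (X Γ) := MulAction.toPerm ((Sm * Tm)⁻¹ : SL(2, ℤ)) with hσ
  have hσ3 : σ ^ 3 = 1 := by
    ext x
    simp only [pow_succ, pow_zero, one_mul, Equiv.Perm.mul_apply, hσ, MulAction.toPerm_apply,
      Equiv.Perm.one_apply]
    rw [← mul_smul, ← mul_smul, mul_assoc, ST_inv_cube, neg_one_smul_X hneg]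
  have hv : ∀ j, LinearMap.funLeft ℂ ℂ σ (ev Γ (𝔉.wt j) rho (𝔉.F j))
      = (((rho : ℂ) + 1) ^ (𝔉.wt j))⁻¹ • ev Γ (𝔉.wt j) rho (𝔉.F j) := fun j => by
    have := funLeft_ev_of_fixed hev_smul (𝔉.mem j).2.1 (Sm * Tm) rho ST_smul_rho
    rw [denom_ST_rho] at this
    exact this
  have hcard : Fintype.card 𝔉.J = finrank ℂ (X Γ → ℂ) := by
    rw [𝔉.card_eq, Module.finrank_fintype_fun_eq_card, Nat.card_eq_fintype_card]
  have hcount := card_eigen_eq_finrank (LinearMap.funLeft ℂ ℂ σ)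
    (fun j => ev Γ (𝔉.wt j) rho (𝔉.F j)) (fun j => (((rho : ℂ) + 1) ^ (𝔉.wt j))⁻¹)
    (𝔉.indep _) hcard hv
  have hf0 : (Finset.univ.filter fun j => (((rho : ℂ) + 1) ^ (𝔉.wt j))⁻¹ = 1)
      = (Finset.univ.filter fun j => 𝔉.wt j % 6 = 0) := by
    ext j
    simp only [Finset.mem_filter, Finset.mem_univ, true_and]
    rcases rho_zpow_inv (hwt j).2 with ⟨h1, h2⟩ | ⟨h1, h2⟩ | ⟨h1, h2⟩
    · simp [h1, h2]
    · rw [h2]
      exact ⟨fun h => absurd h rho_sq_ne_one, fun h => by omega⟩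
    · rw [h2]
      exact ⟨fun h => absurd h rho_ne_one, fun h => by omega⟩
  have hf2 : (Finset.univ.filter fun j => (((rho : ℂ) + 1) ^ (𝔉.wt j))⁻¹ = (rho : ℂ) ^ 2)
      = (Finset.univ.filter fun j => 𝔉.wt j % 6 = 2) := by
    ext j
    simp only [Finset.mem_filter, Finset.mem_univ, true_and]
    rcases rho_zpow_inv (hwt j).2 with ⟨h1, h2⟩ | ⟨h1, h2⟩ | ⟨h1, h2⟩
    · rw [h2]
      exact ⟨fun h => absurd h.symm rho_sq_ne_one, fun h => by omega⟩
    · simp [h1, h2]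
    · rw [h2]
      exact ⟨fun h => absurd h.symm rho_sq_ne_rho, fun h => by omega⟩
  have hf4 : (Finset.univ.filter fun j => (((rho : ℂ) + 1) ^ (𝔉.wt j))⁻¹ = (rho : ℂ))
      = (Finset.univ.filter fun j => 𝔉.wt j % 6 = 4) := by
    ext j
    simp only [Finset.mem_filter, Finset.mem_univ, true_and]
    rcases rho_zpow_inv (hwt j).2 with ⟨h1, h2⟩ | ⟨h1, h2⟩ | ⟨h1, h2⟩
    · rw [h2]
      exact ⟨fun h => absurd h.symm rho_ne_one, fun h => by omega⟩
    · rw [h2]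
      exact ⟨fun h => absurd h rho_sq_ne_rho, fun h => by omega⟩
    · simp [h1, h2]
  have c0 := hcount 1
  have c2 := hcount ((rho : ℂ) ^ 2)
  have c4 := hcount (rho : ℂ)
  rw [hf0] at c0
  rw [hf2] at c2
  rw [hf4] at c4
  have e0 := hP12 σ hσ3 1 (by norm_num)
  have e2 := hP12 σ hσ3 ((rho : ℂ) ^ 2) (by
    rw [← pow_mul, show 2 * 3 = 3 * 2 from rfl, pow_mul, rho_cube, one_pow])
  have e4 := hP12 σ hσ3 (rho : ℂ) rho_cube
  rw [if_pos rfl, ← c0, card_filter_fixed (Sm * Tm), ← Nat.card_eq_fintype_card] at e0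
  rw [if_neg rho_sq_ne_one, ← c2, card_filter_fixed (Sm * Tm), ← Nat.card_eq_fintype_card] at e2
  rw [if_neg rho_ne_one, ← c4, card_filter_fixed (Sm * Tm), ← Nat.card_eq_fintype_card] at e4
  refine ⟨?_, ?_, ?_⟩
  · have h : ((3 * (Finset.univ.filter fun j => 𝔉.wt j % 6 = 0).card : ℕ) : ℂ)
        = ((Nat.card (X Γ) + 2 * Nat.card {x : X Γ // (Sm * Tm) • x = x} : ℕ) : ℂ) := by
      push_cast
      rw [e0]
      ring
    exact_mod_cast h
  · have h : ((3 * (Finset.univ.filter fun j => 𝔉.wt j % 6 = 2).card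
        + Nat.card {x : X Γ // (Sm * Tm) • x = x} : ℕ) : ℂ) = ((Nat.card (X Γ) : ℕ) : ℂ) := by
      push_cast
      rw [e2]
      ring
    exact_mod_cast h
  · have h : ((3 * (Finset.univ.filter fun j => 𝔉.wt j % 6 = 4).card
        + Nat.card {x : X Γ // (Sm * Tm) • x = x} : ℕ) : ℂ) = ((Nat.card (X Γ) : ℕ) : ℂ) := by
      push_cast
      rw [e4]
      ring
    exact_mod_cast h

/-! ## The skeleton statements P2.0, P2.1, P2.2, with the inputs of the other pieces as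
hypotheses (`hMFneg` = C0.4 `MF_eq_bot_of_neg`, `hev_smul` = C0.3 `ev_smul`, `hP11`/`hP12` =
P1.1/P1.2, all in exactly the shape of the skeleton). -/

omit [Γ.FiniteIndex] in
/-- P2.0 -/
theorem FundSystem.wt_even_nonneg
    (hMFneg : ∀ {k : ℤ}, k < 0 → MF Γ k = ⊥)
    (hneg : -1 ∈ Γ) (𝔉 : FundSystem Γ) (j : 𝔉.J) : 0 ≤ 𝔉.wt j ∧ Even (𝔉.wt j) :=
  FundSystem.wt_even_nonneg_of hMFneg (fun hk => MF_eq_bot_of_odd hneg hk) 𝔉 j

/-- P2.1 -/
theorem FundSystem.card_wt_mod_four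
    (hMFneg : ∀ {k : ℤ}, k < 0 → MF Γ k = ⊥)
    (hev_smul : ∀ {k : ℤ} {f : ℍ → ℂ}, (∀ γ ∈ Γ, f ∣[k] γ = f) → ∀ (γ : SL(2, ℤ)) (τ : ℍ)
      (x : X Γ), ev Γ k (γ • τ) f x = denom γ τ ^ k * ev Γ k τ f (γ⁻¹ • x))
    (hP11 : ∀ {Y : Type} [Fintype Y] [DecidableEq Y] (σ : Equiv.Perm Y), σ ^ 2 = 1 →
      ∀ ε : ℂ, (ε = 1 ∨ ε = -1) →
      (finrank ℂ (Module.End.eigenspace (LinearMap.funLeft ℂ ℂ σ) ε) : ℂ) =
        ((Fintype.card Y : ℂ) + ε * (Finset.univ.filter fun y => σ y = y).card) / 2)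
    (hneg : -1 ∈ Γ) (𝔉 : FundSystem Γ) :
    2 * (Finset.univ.filter fun j => 𝔉.wt j % 4 = 0).card =
      Nat.card (X Γ) + Nat.card {x : X Γ // Sm • x = x} :=
  FundSystem.card_wt_mod_four_of hev_smul hP11 hneg 𝔉
    (fun j => FundSystem.wt_even_nonneg hMFneg hneg 𝔉 j)

/-- P2.2 -/
theorem FundSystem.card_wt_mod_six
    (hMFneg : ∀ {k : ℤ}, k < 0 → MF Γ k = ⊥)
    (hev_smul : ∀ {k : ℤ} {f : ℍ → ℂ}, (∀ γ ∈ Γ, f ∣[k] γ = f) → ∀ (γ : SL(2, ℤ)) (τ : ℍ)
      (x : X Γ), ev Γ k (γ • τ) f x = denom γ τ ^ k * ev Γ k τ f (γ⁻¹ • x))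
    (hP12 : ∀ {Y : Type} [Fintype Y] [DecidableEq Y] (σ : Equiv.Perm Y), σ ^ 3 = 1 →
      ∀ ε : ℂ, ε ^ 3 = 1 →
      (finrank ℂ (Module.End.eigenspace (LinearMap.funLeft ℂ ℂ σ) ε) : ℂ) =
        ((Fintype.card Y : ℂ) +
          (if ε = 1 then 2 else -1) * (Finset.univ.filter fun y => σ y = y).card) / 3)
    (hneg : -1 ∈ Γ) (𝔉 : FundSystem Γ) :
    3 * (Finset.univ.filter fun j => 𝔉.wt j % 6 = 0).card =
        Nat.card (X Γ) + 2 * Nat.card {x : X Γ // (Sm * Tm) • x = x} ∧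
    3 * (Finset.univ.filter fun j => 𝔉.wt j % 6 = 2).card + Nat.card {x : X Γ // (Sm * Tm) • x = x}
        = Nat.card (X Γ) ∧
    3 * (Finset.univ.filter fun j => 𝔉.wt j % 6 = 4).card + Nat.card {x : X Γ // (Sm * Tm) • x = x}
        = Nat.card (X Γ) :=
  FundSystem.card_wt_mod_six_of hev_smul hP12 hneg 𝔉
    (fun j => FundSystem.wt_even_nonneg hMFneg hneg 𝔉 j)

end counts

end Fermat.Agent.S20.P2h280
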