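import Fermat.Agent.S20.Core

/-!
# S20 long shot, piece P4 (duality by Cramer's rule) -- helper479

For a fundamental system `𝔉 : FundSystem Γ` (frozen interface `Fermat.Agent.S20.Core`) we
construct the dual functions `G_j = Δ · (row j of the inverse fundamental matrix)`, show
`G_j ∈ SF Γ (12 - wt j)`, and that every `g ∈ SF Γ k` is `∑ j, c_j * G_j` with
`c_j = Tr(F_j g) / Δ` of level one and weight `k + wt j - 12`.  Consequences:

* `wt_le_ten_of`        : `wt j ≤ 10`                                    (Skeleton P4.1)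
* `finrank_SF_two_of`   : `finrank (SF Γ 2) = #{j | wt j = 10}`          (Skeleton P4.2)
* `card_wt_zero_of`     : `#{j | wt j = 0} = 1`                          (Skeleton P4.3)

The inputs from the packages C0 / L0 of the skeleton (vanishing in weight `≤ 0`, constancy in
weight `0`, division of level one cusp forms by `Δ`, evenness of the weights) are taken as
explicit hypotheses, in exactly the shape of the skeleton statements.
-/

set_option autoImplicit false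

noncomputable section

namespace Fermat.Agent.S20.P4h479

open Fermat.Agent.S20
open UpperHalfPlane ModularForm CongruenceSubgroup MatrixGroups Filter Module
open scoped Manifold Topology Real

local notation "Δ" => ModularForm.discriminant

variable {Γ : Subgroup SL(2, ℤ)}

section internal

attribute [local instance] Classical.propDecidable

/-! ## 0. Conjugates -/

theorem ev_mk {k : ℤ} {f : ℍ → ℂ} (hf : ∀ γ ∈ Γ, f ∣[k] γ = f) (g : SL(2, ℤ)) (τ : ℍ) :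
    ev Γ k τ f (QuotientGroup.mk g) = (f ∣[k] g⁻¹) τ := by
  obtain ⟨h, hh⟩ := QuotientGroup.mk_out_eq_mul Γ g
  rw [ev_apply, hh, mul_inv_rev, SlashAction.slash_mul, hf _ (Γ.inv_mem h.2)]

theorem slash_SL_apply (k : ℤ) (f : ℍ → ℂ) (g : SL(2, ℤ)) (τ : ℍ) :
    (f ∣[k] g) τ = f (g • τ) * denom g τ ^ (-k) := by
  rw [SL_slash_apply]

theorem ev_smul {k : ℤ} {f : ℍ → ℂ} (hf : ∀ γ ∈ Γ, f ∣[k] γ = f) (γ : SL(2, ℤ)) (τ : ℍ)
    (x : X Γ) : ev Γ k (γ • τ) f x = denom γ τ ^ k * ev Γ k τ f (γ⁻¹ • x) := by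
  induction x using QuotientGroup.induction_on with
  | H g =>
    have h1 : (γ⁻¹ • (QuotientGroup.mk g : X Γ)) = QuotientGroup.mk (γ⁻¹ * g) := rfl
    rw [h1, ev_mk hf, ev_mk hf, mul_inv_rev, inv_inv, SlashAction.slash_mul,
      slash_SL_apply k (f ∣[k] g⁻¹) γ τ]
    have hd : denom γ τ ≠ 0 := denom_ne_zero _ _
    rw [mul_comm, mul_assoc, ← zpow_add₀ hd]
    simp

theorem mdiff_ev {k : ℤ} {f : ℍ → ℂ} (hf : MDiff f) (x : X Γ) :
    MDiff (fun τ => ev Γ k τ f x) := by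
  have := hf.slash k (((x.out)⁻¹ : SL(2, ℤ)) : GL (Fin 2) ℝ)
  exact this

/-! ## 1. The fundamental matrix and its inverse -/

theorem exists_equiv [Γ.FiniteIndex] (𝔉 : FundSystem Γ) : Nonempty (𝔉.J ≃ X Γ) := by
  have : Finite (X Γ) := Subgroup.finite_quotient_of_finiteIndex
  rw [← Finite.card_eq, Nat.card_eq_fintype_card]
  exact 𝔉.card_eq

/-- the fundamental matrix -/
def fundMat (𝔉 : FundSystem Γ) (e : 𝔉.J ≃ X Γ) (τ : ℍ) : Matrix 𝔉.J 𝔉.J ℂ :=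
  Matrix.of fun i j => ev Γ (𝔉.wt j) τ (𝔉.F j) (e i)

theorem fundMat_apply (𝔉 : FundSystem Γ) (e : 𝔉.J ≃ X Γ) (τ : ℍ) (i j : 𝔉.J) :
    fundMat 𝔉 e τ i j = ev Γ (𝔉.wt j) τ (𝔉.F j) (e i) := rfl

theorem isUnit_fundMat (𝔉 : FundSystem Γ) (e : 𝔉.J ≃ X Γ) (τ : ℍ) :
    IsUnit (fundMat 𝔉 e τ) := by
  rw [← Matrix.linearIndependent_cols_iff_isUnit]
  have h := 𝔉.indep τ
  have h2 := h.map' (LinearEquiv.funCongrLeft ℂ ℂ e).toLinearMap
    (LinearMap.ker_eq_bot.mpr (LinearEquiv.funCongrLeft ℂ ℂ e).injective)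
  exact h2

theorem isUnit_det_fundMat (𝔉 : FundSystem Γ) (e : 𝔉.J ≃ X Γ) (τ : ℍ) :
    IsUnit (fundMat 𝔉 e τ).det :=
  (Matrix.isUnit_iff_isUnit_det _).mp (isUnit_fundMat 𝔉 e τ)

theorem det_fundMat_ne_zero (𝔉 : FundSystem Γ) (e : 𝔉.J ≃ X Γ) (τ : ℍ) :
    (fundMat 𝔉 e τ).det ≠ 0 :=
  (isUnit_det_fundMat 𝔉 e τ).ne_zero

/-- the inverse of the fundamental matrix -/
def invMat (𝔉 : FundSystem Γ) (e : 𝔉.J ≃ X Γ) (τ : ℍ) : Matrix 𝔉.J 𝔉.J ℂ :=
  (fundMat 𝔉 e τ)⁻¹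

theorem invMat_mul_fundMat (𝔉 : FundSystem Γ) (e : 𝔉.J ≃ X Γ) (τ : ℍ) :
    invMat 𝔉 e τ * fundMat 𝔉 e τ = 1 :=
  Matrix.nonsing_inv_mul _ (isUnit_det_fundMat 𝔉 e τ)

theorem fundMat_mul_invMat (𝔉 : FundSystem Γ) (e : 𝔉.J ≃ X Γ) (τ : ℍ) :
    fundMat 𝔉 e τ * invMat 𝔉 e τ = 1 :=
  Matrix.mul_nonsing_inv _ (isUnit_det_fundMat 𝔉 e τ)

/-- the permutation of the index set induced by `γ⁻¹`. -/
def permJ (𝔉 : FundSystem Γ) (e : 𝔉.J ≃ X Γ) (γ : SL(2, ℤ)) : 𝔉.J ≃ 𝔉.J :=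
  e.trans ((MulAction.toPerm (γ⁻¹ : SL(2, ℤ))).trans e.symm)

theorem permJ_apply (𝔉 : FundSystem Γ) (e : 𝔉.J ≃ X Γ) (γ : SL(2, ℤ)) (i : 𝔉.J) :
    permJ 𝔉 e γ i = e.symm (γ⁻¹ • e i) := rfl

theorem e_permJ (𝔉 : FundSystem Γ) (e : 𝔉.J ≃ X Γ) (γ : SL(2, ℤ)) (i : 𝔉.J) :
    e (permJ 𝔉 e γ i) = γ⁻¹ • e i := by
  simp [permJ_apply]

theorem fundMat_smul (𝔉 : FundSystem Γ) (e : 𝔉.J ≃ X Γ) (γ : SL(2, ℤ)) (τ : ℍ) (i j : 𝔉.J) :
    fundMat 𝔉 e (γ • τ) i j = denom γ τ ^ (𝔉.wt j) * fundMat 𝔉 e τ (permJ 𝔉 e γ i) j := by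
  rw [fundMat_apply, fundMat_apply, e_permJ, ev_smul (𝔉.mem j).2.1]

theorem invMat_smul (𝔉 : FundSystem Γ) (e : 𝔉.J ≃ X Γ) (γ : SL(2, ℤ)) (τ : ℍ) (j i : 𝔉.J) :
    invMat 𝔉 e (γ • τ) j i
      = (denom γ τ ^ (𝔉.wt j))⁻¹ * invMat 𝔉 e τ j (permJ 𝔉 e γ i) := by
  have hd : ∀ j : 𝔉.J, denom γ τ ^ (𝔉.wt j) ≠ 0 := fun j => zpow_ne_zero _ (denom_ne_zero _ _)
  set C : Matrix 𝔉.J 𝔉.J ℂ :=
    Matrix.of fun j i => (denom γ τ ^ (𝔉.wt j))⁻¹ * invMat 𝔉 e τ j (permJ 𝔉 e γ i) with hC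
  have key : C * fundMat 𝔉 e (γ • τ) = 1 := by
    ext j j'
    rw [Matrix.mul_apply]
    have h1 : ∀ i, C j i * fundMat 𝔉 e (γ • τ) i j'
        = (denom γ τ ^ (𝔉.wt j))⁻¹ * denom γ τ ^ (𝔉.wt j') *
          (invMat 𝔉 e τ j (permJ 𝔉 e γ i) * fundMat 𝔉 e τ (permJ 𝔉 e γ i) j') := by
      intro i
      rw [fundMat_smul, hC, Matrix.of_apply]
      ring
    simp_rw [h1]
    rw [← Finset.mul_sum,
      Equiv.sum_comp (permJ 𝔉 e γ) (fun i => invMat 𝔉 e τ j i * fundMat 𝔉 e τ i j'),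
      ← Matrix.mul_apply, invMat_mul_fundMat]
    by_cases hjj : j = j'
    · subst hjj
      simp [hd j]
    · simp [hjj]
  have := Matrix.inv_eq_left_inv key
  rw [invMat, this, hC, Matrix.of_apply]


/-! ## 2. The dual functions -/

theorem discriminant_slash (γ : SL(2, ℤ)) : (Δ : ℍ → ℂ) ∣[(12 : ℤ)] γ = Δ :=
  SlashInvariantForm.slash_action_generators_SL2Z discriminant_S_invariant
    discriminant_T_invariant γ

theorem discriminant_smul (γ : SL(2, ℤ)) (τ : ℍ) : Δ (γ • τ) = denom γ τ ^ (12 : ℤ) * Δ τ := by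
  have h := congrFun (discriminant_slash γ) τ
  rw [slash_SL_apply] at h
  have hd : denom γ τ ≠ 0 := denom_ne_zero _ _
  rw [← h, mul_comm (Δ (γ • τ)), ← mul_assoc, ← zpow_add₀ hd]
  simp

/-- the dual functions `G_j` -/
def dualFun (𝔉 : FundSystem Γ) (e : 𝔉.J ≃ X Γ) (j : 𝔉.J) : ℍ → ℂ :=
  fun τ => Δ τ * invMat 𝔉 e τ j (e.symm (QuotientGroup.mk 1))

theorem zpow_aux (d : ℂ) (hd : d ≠ 0) (w : ℤ) (a b : ℂ) :
    d ^ (12 : ℤ) * a * ((d ^ w)⁻¹ * b) * d ^ (-(12 - w)) = a * b := by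
  have h1 : d ^ (12 : ℤ) * (d ^ w)⁻¹ * d ^ (-(12 - w)) = 1 := by
    rw [← zpow_neg, ← zpow_add₀ hd, ← zpow_add₀ hd]
    have : (12 : ℤ) + -w + -(12 - w) = 0 := by ring
    rw [this, zpow_zero]
  calc d ^ (12 : ℤ) * a * ((d ^ w)⁻¹ * b) * d ^ (-(12 - w))
      = (d ^ (12 : ℤ) * (d ^ w)⁻¹ * d ^ (-(12 - w))) * (a * b) := by ring
    _ = a * b := by rw [h1, one_mul]

theorem dualFun_slash_inv (𝔉 : FundSystem Γ) (e : 𝔉.J ≃ X Γ) (j : 𝔉.J) (g : SL(2, ℤ)) (τ : ℍ) :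
    (dualFun 𝔉 e j ∣[12 - 𝔉.wt j] g⁻¹) τ
      = Δ τ * invMat 𝔉 e τ j (e.symm (QuotientGroup.mk g)) := by
  have hp : permJ 𝔉 e g⁻¹ (e.symm (QuotientGroup.mk 1)) = e.symm (QuotientGroup.mk g) := by
    rw [permJ_apply, Equiv.apply_symm_apply, inv_inv]
    congr 1
    show (QuotientGroup.mk (g * 1) : X Γ) = _
    rw [mul_one]
  rw [slash_SL_apply]
  show Δ (g⁻¹ • τ) * invMat 𝔉 e (g⁻¹ • τ) j (e.symm (QuotientGroup.mk 1)) * _ = _
  rw [discriminant_smul, invMat_smul, hp]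
  exact zpow_aux _ (denom_ne_zero _ _) _ _ _

theorem dualFun_slash (𝔉 : FundSystem Γ) (e : 𝔉.J ≃ X Γ) (j : 𝔉.J) (g : SL(2, ℤ)) (τ : ℍ) :
    (dualFun 𝔉 e j ∣[12 - 𝔉.wt j] g) τ
      = Δ τ * invMat 𝔉 e τ j (e.symm (QuotientGroup.mk g⁻¹)) := by
  have := dualFun_slash_inv 𝔉 e j g⁻¹ τ
  rwa [inv_inv] at this

theorem dualFun_invariant (𝔉 : FundSystem Γ) (e : 𝔉.J ≃ X Γ) (j : 𝔉.J) (γ : SL(2, ℤ))
    (hγ : γ ∈ Γ) : dualFun 𝔉 e j ∣[12 - 𝔉.wt j] γ = dualFun 𝔉 e j := by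
  funext τ
  rw [dualFun_slash]
  have : (QuotientGroup.mk γ⁻¹ : X Γ) = QuotientGroup.mk 1 := by
    rw [QuotientGroup.eq]
    simpa using hγ
  rw [this]
  rfl

theorem ev_dualFun (𝔉 : FundSystem Γ) (e : 𝔉.J ≃ X Γ) (j : 𝔉.J) (τ : ℍ) (i : 𝔉.J) :
    ev Γ (12 - 𝔉.wt j) τ (dualFun 𝔉 e j) (e i) = Δ τ * invMat 𝔉 e τ j i := by
  obtain ⟨g, hg⟩ := QuotientGroup.mk_surjective (e i)
  rw [← hg, ev_mk (fun γ hγ => dualFun_invariant 𝔉 e j γ hγ), dualFun_slash_inv, hg,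
    Equiv.symm_apply_apply]


/-! ## 3. Holomorphy of the inverse matrix -/

theorem mdiff_det {n : Type} [Fintype n] (M : ℍ → Matrix n n ℂ)
    (h : ∀ i j, MDiff (fun τ => M τ i j)) : MDiff (fun τ => (M τ).det) := by
  rw [UpperHalfPlane.mdifferentiable_iff]
  have h' : ∀ i j, DifferentiableOn ℂ ((fun τ => M τ i j) ∘ ofComplex) {z | 0 < z.im} :=
    fun i j => UpperHalfPlane.mdifferentiable_iff.mp (h i j)
  have hfun : ((fun τ => (M τ).det) ∘ ofComplex)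
      = fun z => ∑ σ : Equiv.Perm n, Equiv.Perm.sign σ • ∏ i, M (ofComplex z) (σ i) i := by
    funext z
    simp [Matrix.det_apply]
  rw [hfun]
  refine DifferentiableOn.fun_sum fun σ _ => ?_
  refine DifferentiableOn.const_smul ?_ _
  refine DifferentiableOn.fun_finsetProd fun i _ => ?_
  exact h' (σ i) i

theorem mdiff_inv_apply {n : Type} [Fintype n] (M : ℍ → Matrix n n ℂ)
    (h : ∀ i j, MDiff (fun τ => M τ i j)) (hdet : ∀ τ, (M τ).det ≠ 0) (a b : n) :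
    MDiff (fun τ => (M τ)⁻¹ a b) := by
  have hadj : MDiff (fun τ => (M τ).adjugate a b) := by
    have : (fun τ => (M τ).adjugate a b)
        = fun τ => ((M τ).updateRow b (Pi.single a 1)).det := by
      funext τ
      rw [Matrix.adjugate_apply]
    rw [this]
    refine mdiff_det _ fun i j => ?_
    by_cases hib : i = b
    · subst hib
      simp only [Matrix.updateRow_self]
      exact mdifferentiable_const
    · simp only [Matrix.updateRow_ne hib]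
      exact h i j
  have hd := mdiff_det M h
  rw [UpperHalfPlane.mdifferentiable_iff] at hadj hd ⊢
  have hfun : ((fun τ => (M τ)⁻¹ a b) ∘ ofComplex)
      = fun z => (((fun τ => (M τ).det) ∘ ofComplex) z)⁻¹ *
          ((fun τ => (M τ).adjugate a b) ∘ ofComplex) z := by
    funext z
    simp only [Function.comp_apply, Matrix.inv_def, Matrix.smul_apply, smul_eq_mul,
      Ring.inverse_eq_inv']
  rw [hfun]
  refine DifferentiableOn.mul (DifferentiableOn.inv hd fun z _ => ?_) hadj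
  exact hdet _

theorem mdiff_fundMat (𝔉 : FundSystem Γ) (e : 𝔉.J ≃ X Γ) (i j : 𝔉.J) :
    MDiff (fun τ => fundMat 𝔉 e τ i j) :=
  mdiff_ev (𝔉.mem j).1 (e i)

theorem mdiff_invMat (𝔉 : FundSystem Γ) (e : 𝔉.J ≃ X Γ) (j i : 𝔉.J) :
    MDiff (fun τ => invMat 𝔉 e τ j i) :=
  mdiff_inv_apply (fundMat 𝔉 e) (mdiff_fundMat 𝔉 e) (det_fundMat_ne_zero 𝔉 e) j i

theorem mdiff_discriminant : MDiff (Δ : ℍ → ℂ) := CuspForm.discriminant.holo'

theorem mdiff_mul {f g : ℍ → ℂ} (hf : MDiff f) (hg : MDiff g) : MDiff (fun τ => f τ * g τ) := by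
  rw [UpperHalfPlane.mdifferentiable_iff] at hf hg ⊢
  exact hf.mul hg

theorem mdiff_dualFun (𝔉 : FundSystem Γ) (e : 𝔉.J ≃ X Γ) (j : 𝔉.J) :
    MDiff (dualFun 𝔉 e j) :=
  mdiff_mul mdiff_discriminant (mdiff_invMat 𝔉 e j _)


/-! ## 4. Decay at the cusps -/

theorem per_pos [Γ.FiniteIndex] : 0 < per Γ := by
  have : Finite (X Γ) := Subgroup.finite_quotient_of_finiteIndex
  exact orderOf_pos _

/-- growth rate of `Theta (-τ)` -/
def rate (Γ : Subgroup SL(2, ℤ)) (τ : ℍ) : ℝ :=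
  Real.exp (2 * π * ((per Γ : ℝ) - 1) / (per Γ : ℝ) * τ.im)

theorem Theta_apply (s : ℂ) (w : X Γ → ℂ) (x : X Γ) :
    Theta Γ s w x = ∑ a ∈ Finset.range (per Γ),
      Complex.exp (2 * π * Complex.I * a * s / per Γ) * proj Γ a w x := by
  simp [Theta, LinearMap.sum_apply, Finset.sum_apply]

theorem norm_Theta_le [Γ.FiniteIndex] (w : X Γ → ℂ) (x : X Γ) (τ : ℍ) :
    ‖Theta Γ (-(τ : ℂ)) w x‖ ≤ (∑ a ∈ Finset.range (per Γ), ‖proj Γ a w x‖) * rate Γ τ := by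
  rw [Theta_apply, Finset.sum_mul]
  refine (norm_sum_le _ _).trans (Finset.sum_le_sum fun a ha => ?_)
  rw [norm_mul, mul_comm]
  refine mul_le_mul_of_nonneg_left ?_ (norm_nonneg _)
  rw [Complex.norm_exp, rate]
  apply Real.exp_le_exp.mpr
  have hh : (0 : ℝ) < per Γ := by exact_mod_cast per_pos (Γ := Γ)
  have ha' : (a : ℝ) ≤ (per Γ : ℝ) - 1 := by
    have := Finset.mem_range.mp ha
    have h2 : a + 1 ≤ per Γ := this
    have h3 : ((a + 1 : ℕ) : ℝ) ≤ per Γ := by exact_mod_cast h2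
    push_cast at h3
    linarith
  have him : 0 < τ.im := τ.im_pos
  have hre : (2 * π * Complex.I * a * -(τ : ℂ) / (per Γ : ℂ)).re
      = 2 * π * a / (per Γ : ℝ) * τ.im := by
    have : (2 * π * Complex.I * a * -(τ : ℂ) / (per Γ : ℂ))
        = ((2 * π * a / (per Γ : ℝ) : ℝ) : ℂ) * (-(Complex.I * (τ : ℂ))) := by
      push_cast
      ring
    rw [this, Complex.re_ofReal_mul]
    simp
  rw [hre]
  have h2π : 0 < 2 * π := by positivity
  have : 2 * π * a / (per Γ : ℝ) ≤ 2 * π * ((per Γ : ℝ) - 1) / (per Γ : ℝ) := by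
    apply div_le_div_of_nonneg_right _ hh.le
    exact mul_le_mul_of_nonneg_left ha' h2π.le
  exact mul_le_mul_of_nonneg_right this him.le

theorem discriminant_isBigO :
    (Δ : ℍ → ℂ) =O[atImInfty] fun τ => Real.exp (-2 * π * τ.im) := by
  have := CuspFormClass.exp_decay_atImInfty (h := 1) CuspForm.discriminant one_pos
    one_mem_strictPeriods_SL
  simpa using this

theorem tendsto_exp_neg [Γ.FiniteIndex] :
    Tendsto (fun τ : ℍ => Real.exp (-2 * π * τ.im) * rate Γ τ) atImInfty (𝓝 0) := by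
  have hh : (0 : ℝ) < per Γ := by exact_mod_cast per_pos (Γ := Γ)
  have h1 : ∀ τ : ℍ, Real.exp (-2 * π * τ.im) * rate Γ τ
      = Real.exp (-(2 * π / (per Γ : ℝ) * τ.im)) := by
    intro τ
    rw [rate, ← Real.exp_add]
    congr 1
    field_simp
    ring
  simp_rw [h1]
  have h2 : Tendsto (fun τ : ℍ => 2 * π / (per Γ : ℝ) * τ.im) atImInfty atTop := by
    apply Tendsto.const_mul_atTop (by positivity)
    exact tendsto_comap
  exact Real.tendsto_exp_neg_atTop_nhds_zero.comp h2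

section jets

variable [Γ.FiniteIndex] (𝔉 : FundSystem Γ) (e : 𝔉.J ≃ X Γ)

/-- the matrix of normalised conjugates -/
def jetMat (τ : ℍ) : Matrix 𝔉.J 𝔉.J ℂ :=
  Matrix.of fun i j => jetFun Γ (𝔉.wt j) (𝔉.F j) τ (e i)

/-- the matrix of jets -/
def jetLim : Matrix 𝔉.J 𝔉.J ℂ :=
  Matrix.of fun i j => 𝔉.jet j (e i)

/-- the matrix of `Theta (-τ)` -/
def thetaMat (τ : ℍ) : Matrix 𝔉.J 𝔉.J ℂ :=
  Matrix.of fun i i' => Theta Γ (-(τ : ℂ)) (Pi.single (e i') 1) (e i)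

omit [Γ.FiniteIndex] in
theorem isUnit_jetLim : IsUnit (jetLim 𝔉 e) := by
  rw [← Matrix.linearIndependent_cols_iff_isUnit]
  have h := 𝔉.jet_indep
  have h2 := h.map' (LinearEquiv.funCongrLeft ℂ ℂ e).toLinearMap
    (LinearMap.ker_eq_bot.mpr (LinearEquiv.funCongrLeft ℂ ℂ e).injective)
  exact h2

theorem jetMat_eq (τ : ℍ) : jetMat 𝔉 e τ = thetaMat 𝔉 e τ * fundMat 𝔉 e τ := by
  have : Finite (X Γ) := Subgroup.finite_quotient_of_finiteIndex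
  let _ : Fintype (X Γ) := Fintype.ofFinite _
  ext i j
  rw [Matrix.mul_apply]
  show jetFun Γ (𝔉.wt j) (𝔉.F j) τ (e i) = _
  rw [jetFun, ← LinearMap.toMatrix'_mulVec (Theta Γ (-(τ : ℂ))), Matrix.mulVec, dotProduct,
    ← Equiv.sum_comp e]
  refine Finset.sum_congr rfl fun i' _ => ?_
  rw [LinearMap.toMatrix'_apply]
  rfl

omit [Γ.FiniteIndex] in
theorem tendsto_jetMat : Tendsto (jetMat 𝔉 e) atImInfty (𝓝 (jetLim 𝔉 e)) := by
  refine tendsto_pi_nhds.mpr fun i => tendsto_pi_nhds.mpr fun j => ?_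
  exact tendsto_pi_nhds.mp (𝔉.hasJet j) (e i)

omit [Γ.FiniteIndex] in
theorem tendsto_jetMat_inv :
    Tendsto (fun τ => (jetMat 𝔉 e τ)⁻¹) atImInfty (𝓝 (jetLim 𝔉 e)⁻¹) := by
  have hdet : (jetLim 𝔉 e).det ≠ 0 :=
    ((Matrix.isUnit_iff_isUnit_det _).mp (isUnit_jetLim 𝔉 e)).ne_zero
  have hc : ContinuousAt Inv.inv (jetLim 𝔉 e) := by
    apply continuousAt_matrix_inv
    rw [Ring.inverse_eq_inv']
    exact continuousAt_inv₀ hdet
  exact hc.tendsto.comp (tendsto_jetMat 𝔉 e)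

omit [Γ.FiniteIndex] in
theorem eventually_det_jetMat_ne_zero : ∀ᶠ τ in atImInfty, (jetMat 𝔉 e τ).det ≠ 0 := by
  have hdet : (jetLim 𝔉 e).det ≠ 0 :=
    ((Matrix.isUnit_iff_isUnit_det _).mp (isUnit_jetLim 𝔉 e)).ne_zero
  have hc : Tendsto (fun τ => (jetMat 𝔉 e τ).det) atImInfty (𝓝 (jetLim 𝔉 e).det) :=
    ((continuous_id.matrix_det).tendsto (jetLim 𝔉 e)).comp (tendsto_jetMat 𝔉 e)
  exact hc.eventually_ne hdet

theorem invMat_eq_of_det_ne_zero (τ : ℍ) (h : (jetMat 𝔉 e τ).det ≠ 0) :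
    invMat 𝔉 e τ = (jetMat 𝔉 e τ)⁻¹ * thetaMat 𝔉 e τ := by
  have hu : IsUnit (jetMat 𝔉 e τ).det := isUnit_iff_ne_zero.mpr h
  apply Matrix.inv_eq_left_inv
  rw [Matrix.mul_assoc, ← jetMat_eq, Matrix.nonsing_inv_mul _ hu]

theorem thetaMat_isBigO (i i' : 𝔉.J) :
    (fun τ => thetaMat 𝔉 e τ i i') =O[atImInfty] rate Γ := by
  refine Asymptotics.IsBigO.of_bound
    (∑ a ∈ Finset.range (per Γ), ‖proj Γ a (Pi.single (e i') 1) (e i)‖) ?_
  refine Eventually.of_forall fun τ => ?_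
  have := norm_Theta_le (Γ := Γ) (Pi.single (e i') 1) (e i) τ
  have hr : ‖rate Γ τ‖ = rate Γ τ := by
    rw [Real.norm_eq_abs, abs_of_pos]
    exact Real.exp_pos _
  rw [hr]
  exact this

theorem invMat_isBigO (j i : 𝔉.J) :
    (fun τ => invMat 𝔉 e τ j i) =O[atImInfty] rate Γ := by
  have h1 : (fun τ => ∑ i', (jetMat 𝔉 e τ)⁻¹ j i' * thetaMat 𝔉 e τ i' i) =O[atImInfty] rate Γ := by
    have : ∀ i' ∈ (Finset.univ : Finset 𝔉.J),
        (fun τ => (jetMat 𝔉 e τ)⁻¹ j i' * thetaMat 𝔉 e τ i' i) =O[atImInfty] rate Γ := by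
      intro i' _
      have hb : (fun τ => (jetMat 𝔉 e τ)⁻¹ j i') =O[atImInfty] (fun _ => (1 : ℝ)) := by
        have ht := tendsto_pi_nhds.mp (tendsto_pi_nhds.mp (tendsto_jetMat_inv 𝔉 e) j) i'
        exact ht.isBigO_one ℝ
      have := hb.mul (thetaMat_isBigO 𝔉 e i' i)
      simpa using this
    refine (Asymptotics.IsBigO.sum this).congr_left fun τ => ?_
    simp [Finset.sum_apply]
  refine h1.congr' ?_ EventuallyEq.rfl
  filter_upwards [eventually_det_jetMat_ne_zero 𝔉 e] with τ hτ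
  rw [invMat_eq_of_det_ne_zero 𝔉 e τ hτ, Matrix.mul_apply]

theorem tendsto_discriminant_mul_invMat (j i : 𝔉.J) :
    Tendsto (fun τ => Δ τ * invMat 𝔉 e τ j i) atImInfty (𝓝 0) := by
  have := discriminant_isBigO.mul (invMat_isBigO 𝔉 e j i)
  exact this.trans_tendsto tendsto_exp_neg

theorem dualFun_mem (j : 𝔉.J) : dualFun 𝔉 e j ∈ SF Γ (12 - 𝔉.wt j) := by
  refine ⟨mdiff_dualFun 𝔉 e j, fun γ hγ => dualFun_invariant 𝔉 e j γ hγ, fun γ => ?_⟩
  have : dualFun 𝔉 e j ∣[12 - 𝔉.wt j] γ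
      = fun τ => Δ τ * invMat 𝔉 e τ j (e.symm (QuotientGroup.mk γ⁻¹)) := by
    funext τ
    exact dualFun_slash 𝔉 e j γ τ
  rw [this]
  exact tendsto_discriminant_mul_invMat 𝔉 e j _

end jets


/-! ## 5. The trace pairing and the expansion in the dual functions -/

theorem mdiff_sum {ι : Type} (s : Finset ι) (f : ι → ℍ → ℂ) (hf : ∀ i ∈ s, MDiff (f i)) :
    MDiff (fun τ => ∑ i ∈ s, f i τ) := by
  rw [UpperHalfPlane.mdifferentiable_iff]
  have : ((fun τ => ∑ i ∈ s, f i τ) ∘ ofComplex)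
      = fun z => ∑ i ∈ s, (f i ∘ ofComplex) z := by
    funext z
    simp
  rw [this]
  exact DifferentiableOn.fun_sum fun i hi => UpperHalfPlane.mdifferentiable_iff.mp (hf i hi)

theorem tendsto_sum_zero {ι : Type} (s : Finset ι) (f : ι → ℍ → ℂ)
    (hf : ∀ i ∈ s, Tendsto (f i) atImInfty (𝓝 0)) :
    Tendsto (fun τ => ∑ i ∈ s, f i τ) atImInfty (𝓝 0) := by
  have := tendsto_finsetSum s hf
  simpa using this

section trace

variable (𝔉 : FundSystem Γ) (e : 𝔉.J ≃ X Γ)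

/-- the trace pairing of `F_j` with `g` -/
def tracePair (k : ℤ) (g : ℍ → ℂ) (j : 𝔉.J) : ℍ → ℂ :=
  fun τ => ∑ i, fundMat 𝔉 e τ i j * ev Γ k τ g (e i)

theorem tracePair_smul {k : ℤ} {g : ℍ → ℂ} (hg : ∀ γ ∈ Γ, g ∣[k] γ = g) (j : 𝔉.J)
    (γ : SL(2, ℤ)) (τ : ℍ) :
    tracePair 𝔉 e k g j (γ • τ) = denom γ τ ^ (𝔉.wt j + k) * tracePair 𝔉 e k g j τ := by
  have hd : denom γ τ ≠ 0 := denom_ne_zero _ _
  rw [tracePair, tracePair, Finset.mul_sum,
    ← Equiv.sum_comp (permJ 𝔉 e γ) (fun i => denom γ τ ^ (𝔉.wt j + k) *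
      (fundMat 𝔉 e τ i j * ev Γ k τ g (e i)))]
  refine Finset.sum_congr rfl fun i _ => ?_
  rw [fundMat_smul, ev_smul hg, e_permJ, zpow_add₀ hd]
  ring

theorem tracePair_mem {k : ℤ} {g : ℍ → ℂ} (hg : g ∈ SF Γ k) (j : 𝔉.J) :
    tracePair 𝔉 e k g j ∈ SF (⊤ : Subgroup SL(2, ℤ)) (𝔉.wt j + k) := by
  have hinv : ∀ γ : SL(2, ℤ), tracePair 𝔉 e k g j ∣[𝔉.wt j + k] γ = tracePair 𝔉 e k g j := by
    intro γ
    funext τ
    have hd : denom γ τ ≠ 0 := denom_ne_zero _ _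
    rw [slash_SL_apply, tracePair_smul 𝔉 e hg.2.1, mul_comm, ← mul_assoc, ← zpow_add₀ hd]
    simp
  refine ⟨?_, fun γ _ => hinv γ, fun γ => ?_⟩
  · exact mdiff_sum _ _ fun i _ => mdiff_mul (mdiff_fundMat 𝔉 e i j) (mdiff_ev hg.1 (e i))
  · rw [hinv γ]
    refine tendsto_sum_zero _ _ fun i _ => ?_
    have hb : IsBoundedAtImInfty (fun τ => fundMat 𝔉 e τ i j) := (𝔉.mem j).2.2 _
    have hz : IsZeroAtImInfty (fun τ => ev Γ k τ g (e i)) := hg.2.2 _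
    exact hb.mul_zeroAtFilter hz

theorem expansion {k : ℤ} {g : ℍ → ℂ} (hg : g ∈ SF Γ k) (c : 𝔉.J → ℍ → ℂ)
    (hc : ∀ j, tracePair 𝔉 e k g j = Δ * c j) :
    g = ∑ j, c j * dualFun 𝔉 e j := by
  funext τ
  rw [Finset.sum_apply]
  have h1 : ∀ j, (c j * dualFun 𝔉 e j) τ
      = ∑ i, ev Γ k τ g (e i) * (fundMat 𝔉 e τ i j *
          invMat 𝔉 e τ j (e.symm (QuotientGroup.mk 1))) := by
    intro j
    have := congrFun (hc j) τ
    rw [Pi.mul_apply] at this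
    rw [Pi.mul_apply, dualFun, ← mul_assoc, mul_comm (c j τ), ← this, tracePair, Finset.sum_mul]
    refine Finset.sum_congr rfl fun i _ => ?_
    ring
  simp_rw [h1]
  rw [Finset.sum_comm]
  simp_rw [← Finset.mul_sum, ← Matrix.mul_apply, fundMat_mul_invMat, Matrix.one_apply]
  rw [Finset.sum_eq_single (e.symm (QuotientGroup.mk 1))]
  · simp only [if_true, mul_one, Equiv.apply_symm_apply]
    rw [ev_mk hg.2.1]
    simp
  · intro i _ hi
    simp [hi]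
  · intro h
    exact absurd (Finset.mem_univ _) h

end trace


/-! ## 6. Main results -/

section main

variable [Γ.FiniteIndex] (𝔉 : FundSystem Γ)

omit [Γ.FiniteIndex] in
theorem ev_zero (k : ℤ) (τ : ℍ) : ev Γ k τ 0 = 0 := map_zero _

omit [Γ.FiniteIndex] in
theorem dualFun_ne_zero (e : 𝔉.J ≃ X Γ) (j : 𝔉.J) : dualFun 𝔉 e j ≠ 0 := by
  intro h
  have hrow : ∀ i, invMat 𝔉 e UpperHalfPlane.I j i = 0 := by
    intro i
    have := ev_dualFun 𝔉 e j UpperHalfPlane.I i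
    rw [h, ev_zero] at this
    exact (mul_eq_zero.mp this.symm).resolve_left (discriminant_ne_zero _)
  have := congrFun (congrFun (invMat_mul_fundMat 𝔉 e UpperHalfPlane.I) j) j
  rw [Matrix.mul_apply] at this
  simp [hrow] at this

/-- P4.1, with the inputs from C0 as explicit hypotheses. -/
theorem wt_le_ten_of (hSF : ∀ k : ℤ, k ≤ 0 → SF Γ k = ⊥) (heven : ∀ j, Even (𝔉.wt j))
    (j : 𝔉.J) : 𝔉.wt j ≤ 10 := by
  obtain ⟨e⟩ := exists_equiv 𝔉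
  by_contra hlt
  have h12 : 12 - 𝔉.wt j ≤ 0 := by
    obtain ⟨m, hm⟩ := heven j
    omega
  have hmem := dualFun_mem 𝔉 e j
  rw [hSF _ h12] at hmem
  exact dualFun_ne_zero 𝔉 e j ((Submodule.mem_bot ℂ).mp hmem)

omit [Γ.FiniteIndex] in
theorem ev_dualFun_two (e : 𝔉.J ≃ X Γ) (j : 𝔉.J) (hj : 𝔉.wt j = 10) (τ : ℍ) (i : 𝔉.J) :
    ev Γ 2 τ (dualFun 𝔉 e j) (e i) = Δ τ * invMat 𝔉 e τ j i := by
  have h2 : (12 : ℤ) - 𝔉.wt j = 2 := by omega
  rw [← ev_dualFun 𝔉 e j τ i, h2]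

omit [Γ.FiniteIndex] in
theorem linearIndependent_dualFun (e : 𝔉.J ≃ X Γ) :
    LinearIndependent ℂ (fun j : {j : 𝔉.J // 𝔉.wt j = 10} => dualFun 𝔉 e j.1) := by
  rw [Fintype.linearIndependent_iff]
  intro a ha j0
  have h1 : ∀ i, ∑ j : {j : 𝔉.J // 𝔉.wt j = 10}, a j * invMat 𝔉 e UpperHalfPlane.I j.1 i = 0 := by
    intro i
    have h := congrArg (fun f => ev Γ 2 UpperHalfPlane.I f (e i)) ha
    simp only [map_sum, map_smul, Finset.sum_apply, Pi.smul_apply, smul_eq_mul, ev_zero,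
      Pi.zero_apply] at h
    have h' : ∑ j : {j : 𝔉.J // 𝔉.wt j = 10},
        a j * (Δ UpperHalfPlane.I * invMat 𝔉 e UpperHalfPlane.I j.1 i) = 0 := by
      rw [← h]
      refine Finset.sum_congr rfl fun j _ => ?_
      rw [ev_dualFun_two 𝔉 e j.1 j.2]
    have h'' : Δ UpperHalfPlane.I *
        ∑ j : {j : 𝔉.J // 𝔉.wt j = 10}, a j * invMat 𝔉 e UpperHalfPlane.I j.1 i = 0 := by
      rw [← h', Finset.mul_sum]
      refine Finset.sum_congr rfl fun j _ => ?_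
      ring
    exact (mul_eq_zero.mp h'').resolve_left (discriminant_ne_zero _)
  have h2 : ∑ i, (∑ j : {j : 𝔉.J // 𝔉.wt j = 10}, a j * invMat 𝔉 e UpperHalfPlane.I j.1 i) *
      fundMat 𝔉 e UpperHalfPlane.I i j0.1 = 0 := by
    simp [h1]
  simp_rw [Finset.sum_mul] at h2
  rw [Finset.sum_comm] at h2
  have h3 : ∀ j : {j : 𝔉.J // 𝔉.wt j = 10},
      ∑ i, a j * invMat 𝔉 e UpperHalfPlane.I j.1 i * fundMat 𝔉 e UpperHalfPlane.I i j0.1
        = a j * (if j = j0 then 1 else 0) := by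
    intro j
    simp_rw [mul_assoc]
    rw [← Finset.mul_sum, ← Matrix.mul_apply, invMat_mul_fundMat, Matrix.one_apply]
    congr 1
    by_cases hjj : j = j0
    · simp [hjj]
    · have : j.1 ≠ j0.1 := fun h => hjj (Subtype.ext h)
      simp [hjj, this]
  simp_rw [h3] at h2
  simpa using h2

omit [Γ.FiniteIndex] in
theorem one_mem_MF_zero : (fun _ => (1 : ℂ)) ∈ MF Γ 0 := by
  refine ⟨mdifferentiable_const, fun γ _ => is_invariant_const γ 1, fun γ => ?_⟩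
  have : (fun _ : ℍ => (1 : ℂ)) ∣[(0 : ℤ)] γ = Function.const ℍ 1 := is_invariant_const γ 1
  rw [this]
  exact Filter.const_boundedAtFilter _ _

omit [Γ.FiniteIndex] in
theorem F_ne_zero (j : 𝔉.J) : 𝔉.F j ≠ 0 := by
  intro h
  have := (𝔉.indep UpperHalfPlane.I).ne_zero j
  rw [h, ev_zero] at this
  exact this rfl

omit [Γ.FiniteIndex] in
theorem wt_nonneg_of (hMFneg : ∀ k : ℤ, k < 0 → MF Γ k = ⊥) (j : 𝔉.J) : 0 ≤ 𝔉.wt j := by
  by_contra h
  have hmem := 𝔉.mem j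
  rw [hMFneg _ (not_le.mp h)] at hmem
  exact F_ne_zero 𝔉 j ((Submodule.mem_bot ℂ).mp hmem)


/-- P4.2, with the inputs from C0/L0 as explicit hypotheses. -/
theorem finrank_SF_two_of
    (hΔ : ∀ (k : ℤ) (f : ℍ → ℂ), f ∈ SF (⊤ : Subgroup SL(2, ℤ)) k →
      ∃ g ∈ MF (⊤ : Subgroup SL(2, ℤ)) (k - 12), f = Δ * g)
    (hneg : ∀ k : ℤ, k < 0 → MF (⊤ : Subgroup SL(2, ℤ)) k = ⊥)
    (hconst : ∀ f ∈ MF (⊤ : Subgroup SL(2, ℤ)) 0, ∃ c : ℂ, f = fun _ => c)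
    (hle : ∀ j, 𝔉.wt j ≤ 10) :
    finrank ℂ (SF Γ 2) = Nat.card {j : 𝔉.J // 𝔉.wt j = 10} := by
  obtain ⟨e⟩ := exists_equiv 𝔉
  have hspan : SF Γ 2 = Submodule.span ℂ
      (Set.range fun j : {j : 𝔉.J // 𝔉.wt j = 10} => dualFun 𝔉 e j.1) := by
    apply le_antisymm
    · intro g hg
      have hc : ∀ j : 𝔉.J, ∃ c ∈ MF (⊤ : Subgroup SL(2, ℤ)) (𝔉.wt j + 2 - 12),
          tracePair 𝔉 e 2 g j = Δ * c := fun j => hΔ _ _ (tracePair_mem 𝔉 e hg j)
      choose c hcmem hceq using hc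
      rw [expansion 𝔉 e hg c hceq]
      refine Submodule.sum_mem _ fun j _ => ?_
      by_cases hj : 𝔉.wt j = 10
      · have h0 : 𝔉.wt j + 2 - 12 = 0 := by omega
        have hcm := hcmem j
        rw [h0] at hcm
        obtain ⟨a, ha⟩ := hconst _ hcm
        have : c j * dualFun 𝔉 e j = a • dualFun 𝔉 e j := by
          rw [ha]
          funext τ
          simp
        rw [this]
        exact Submodule.smul_mem _ _ (Submodule.subset_span ⟨⟨j, hj⟩, rfl⟩)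
      · have hlt : 𝔉.wt j + 2 - 12 < 0 := by
          have := hle j
          omega
        have hcm := hcmem j
        rw [hneg _ hlt] at hcm
        rw [(Submodule.mem_bot ℂ).mp hcm, zero_mul]
        exact Submodule.zero_mem _
    · rw [Submodule.span_le]
      rintro _ ⟨j, rfl⟩
      have := dualFun_mem 𝔉 e j.1
      have h2 : (12 : ℤ) - 𝔉.wt j.1 = 2 := by
        have := j.2
        omega
      rw [h2] at this
      exact this
  rw [hspan, Nat.card_eq_fintype_card]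
  exact finrank_span_eq_card (linearIndependent_dualFun 𝔉 e)

omit [Γ.FiniteIndex] in
/-- P4.3, with the inputs from C0 as explicit hypotheses. -/
theorem exists_unique_wt_zero_of
    (hMFneg : ∀ k : ℤ, k < 0 → MF Γ k = ⊥)
    (hΓconst : ∀ f ∈ MF Γ 0, ∃ c : ℂ, f = fun _ => c)
    (hneg : ∀ k : ℤ, k < 0 → MF (⊤ : Subgroup SL(2, ℤ)) k = ⊥) :
    ∃! j : 𝔉.J, 𝔉.wt j = 0 := by
  have hnn := wt_nonneg_of 𝔉 hMFneg
  -- existence
  have hex : ∃ j : 𝔉.J, 𝔉.wt j = 0 := by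
    by_contra hno
    push Not at hno
    obtain ⟨c, hcmem, hc⟩ := 𝔉.gen 0 (fun _ => (1 : ℂ)) one_mem_MF_zero
    have hc0 : ∀ j, c j = 0 := by
      intro j
      have hlt : (0 : ℤ) - 𝔉.wt j < 0 := by
        have h1 := hnn j
        have h2 := hno j
        omega
      have := hcmem j
      rw [hneg _ hlt] at this
      exact (Submodule.mem_bot ℂ).mp this
    have h1 := congrFun hc UpperHalfPlane.I
    simp [hc0] at h1
  obtain ⟨j, hj⟩ := hex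
  refine ⟨j, hj, fun j' hj' => ?_⟩
  by_contra hne
  -- both `F j` and `F j'` are constants
  obtain ⟨a, ha⟩ := hΓconst (𝔉.F j) (by have := 𝔉.mem j; rwa [hj] at this)
  obtain ⟨a', ha'⟩ := hΓconst (𝔉.F j') (by have := 𝔉.mem j'; rwa [hj'] at this)
  have hev : ∀ (l : 𝔉.J) (b : ℂ), 𝔉.wt l = 0 → 𝔉.F l = (fun _ => b) →
      ev Γ (𝔉.wt l) UpperHalfPlane.I (𝔉.F l) = fun _ => b := by
    intro l b hl hb
    funext x
    rw [ev_apply, hl, hb]
    have := is_invariant_const ((x.out)⁻¹ : SL(2, ℤ)) b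
    exact congrFun this _
  have hind := 𝔉.indep UpperHalfPlane.I
  rw [Fintype.linearIndependent_iff] at hind
  have hsum : ∑ l, (if l = j then a' else if l = j' then -a else 0) •
      ev Γ (𝔉.wt l) UpperHalfPlane.I (𝔉.F l) = 0 := by
    rw [Finset.sum_eq_add_of_mem j j' (Finset.mem_univ _) (Finset.mem_univ _) (Ne.symm hne)]
    · rw [if_pos rfl, if_neg hne, if_pos rfl, hev j a hj ha, hev j' a' hj' ha']
      funext x
      simp
      ring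
    · intro l _ hl
      rw [if_neg hl.1, if_neg hl.2, zero_smul]
  have h1 := hind _ hsum j'
  rw [if_neg hne, if_pos rfl] at h1
  have ha0 : a = 0 := by simpa using h1
  apply F_ne_zero 𝔉 j
  rw [ha, ha0]
  rfl

end main


end internal

/-! ## 7. Statements in the shape of the skeleton -/

section final

variable [Γ.FiniteIndex] (𝔉 : FundSystem Γ)

/-- Skeleton P4.1 (`FundSystem.wt_le_ten`), with C0.4 / P2.0 as hypotheses. -/
theorem wt_le_ten (hSF : ∀ k : ℤ, k ≤ 0 → SF Γ k = ⊥) (heven : ∀ j, Even (𝔉.wt j))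
    (j : 𝔉.J) : 𝔉.wt j ≤ 10 :=
  wt_le_ten_of 𝔉 hSF heven j

/-- Skeleton P4.2 (`FundSystem.finrank_SF_two`), with C0.4 / L0.3 / P2.0 as hypotheses. -/
theorem finrank_SF_two
    (hΔ : ∀ (k : ℤ) (f : ℍ → ℂ), f ∈ SF (⊤ : Subgroup SL(2, ℤ)) k →
      ∃ g ∈ MF (⊤ : Subgroup SL(2, ℤ)) (k - 12), f = Δ * g)
    (hneg : ∀ k : ℤ, k < 0 → MF (⊤ : Subgroup SL(2, ℤ)) k = ⊥)
    (hconst : ∀ f ∈ MF (⊤ : Subgroup SL(2, ℤ)) 0, ∃ c : ℂ, f = fun _ => c)
    (hSF : ∀ k : ℤ, k ≤ 0 → SF Γ k = ⊥) (heven : ∀ j, Even (𝔉.wt j)) :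
    finrank ℂ (SF Γ 2) = (Finset.univ.filter fun j => 𝔉.wt j = 10).card := by
  rw [finrank_SF_two_of 𝔉 hΔ hneg hconst (wt_le_ten_of 𝔉 hSF heven), Nat.card_eq_fintype_card,
    Fintype.card_subtype]

omit [Γ.FiniteIndex] in
/-- Skeleton P4.3 (`FundSystem.card_wt_zero`), with C0.4 as hypotheses. -/
theorem card_wt_zero
    (hMFneg : ∀ k : ℤ, k < 0 → MF Γ k = ⊥)
    (hΓconst : ∀ f ∈ MF Γ 0, ∃ c : ℂ, f = fun _ => c)
    (hneg : ∀ k : ℤ, k < 0 → MF (⊤ : Subgroup SL(2, ℤ)) k = ⊥) :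
    (Finset.univ.filter fun j => 𝔉.wt j = 0).card = 1 := by
  obtain ⟨j, hj, huniq⟩ := exists_unique_wt_zero_of 𝔉 hMFneg hΓconst hneg
  rw [Finset.card_eq_one]
  refine ⟨j, ?_⟩
  ext l
  simp only [Finset.mem_filter, Finset.mem_univ, true_and, Finset.mem_singleton]
  exact ⟨fun h => huniq l h, fun h => h ▸ hj⟩

end final

end Fermat.Agent.S20.P4h479
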