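import Fermat.Agent.S20.P5_helper398
import Fermat.Agent.S20.H872.Index
import Fermat.Agent.S20.CuspCount360

/-!
# S20, piece P5 (helper398): assembly with the landed combinatorial leaves

`S20_of_core`: the frozen statement S20 from the core pieces of the frame route
(`SFequiv`, existence of a fundamental system for `Γ₀(N)`, and P2, P3, P4), with the four
combinatorial leaves (index, fixed points of `S` and `S * T`, `T`-orbits) discharged by the
landed files `H872/Index`, `H872/Coset`, `CuspCount360`.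
-/

set_option autoImplicit false

noncomputable section

namespace Fermat.Agent.S20.P5helper398

open Fermat.Agent.S20
open UpperHalfPlane ModularForm CongruenceSubgroup MatrixGroups Filter Module

local notation "Sm" => ModularGroup.S
local notation "Tm" => ModularGroup.T

/-- The frozen statement from the identification `CuspForm ≃ SF` and the abstract dimension
formula for `Γ₀(N)`. -/
theorem S20_of_dim (N : ℕ) [NeZero N]
    (e : CuspForm (CongruenceSubgroup.Gamma0 N) 2 ≃ₗ[ℂ] SF (Gamma0 N) 2)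
    (hdim : (finrank ℂ (SF (Gamma0 N) 2) : ℚ) = 1 + (Nat.card (X (Gamma0 N)) : ℚ) / 12
      - (Nat.card {x : X (Gamma0 N) // Sm • x = x} : ℚ) / 4
      - (Nat.card {x : X (Gamma0 N) // (Sm * Tm) • x = x} : ℚ) / 3
      - (Nat.card (MulAction.orbitRel.Quotient (Subgroup.zpowers Tm) (X (Gamma0 N))) : ℚ) / 2) :
    (Module.finrank ℂ (CuspForm (CongruenceSubgroup.Gamma0 N) 2) : ℚ)
      = ModularCurve.genusFormula N :=
  S20_assembled_of N e hdim (H872.card_quot_Gamma0 N) (H872.card_fixed_S N)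
    (H872.card_fixed_ST N) (CuspCount360.card_orbits_T N)

/-- The frozen statement from the core pieces of the frame route. -/
theorem S20_of_core (N : ℕ) [NeZero N]
    (e : CuspForm (CongruenceSubgroup.Gamma0 N) 2 ≃ₗ[ℂ] SF (Gamma0 N) 2)
    (𝔉 : FundSystem (Gamma0 N))
    (hP20 : ∀ j : 𝔉.J, 0 ≤ 𝔉.wt j ∧ Even (𝔉.wt j))
    (hP21 : 2 * (Finset.univ.filter fun j => 𝔉.wt j % 4 = 0).card =
      Nat.card (X (Gamma0 N)) + Nat.card {x : X (Gamma0 N) // Sm • x = x})
    (hP22 : 3 * (Finset.univ.filter fun j => 𝔉.wt j % 6 = 0).card =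
        Nat.card (X (Gamma0 N)) + 2 * Nat.card {x : X (Gamma0 N) // (Sm * Tm) • x = x} ∧
      3 * (Finset.univ.filter fun j => 𝔉.wt j % 6 = 2).card
        + Nat.card {x : X (Gamma0 N) // (Sm * Tm) • x = x} = Nat.card (X (Gamma0 N)) ∧
      3 * (Finset.univ.filter fun j => 𝔉.wt j % 6 = 4).card
        + Nat.card {x : X (Gamma0 N) // (Sm * Tm) • x = x} = Nat.card (X (Gamma0 N)))
    (hP3 : ∑ j, 𝔉.wt j
        + 6 * Nat.card (MulAction.orbitRel.Quotient (Subgroup.zpowers Tm) (X (Gamma0 N))) =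
      6 * Nat.card (X (Gamma0 N)))
    (hP41 : ∀ j : 𝔉.J, 𝔉.wt j ≤ 10)
    (hP42 : finrank ℂ (SF (Gamma0 N) 2) = (Finset.univ.filter fun j => 𝔉.wt j = 10).card)
    (hP43 : (Finset.univ.filter fun j => 𝔉.wt j = 0).card = 1) :
    (Module.finrank ℂ (CuspForm (CongruenceSubgroup.Gamma0 N) 2) : ℚ)
      = ModularCurve.genusFormula N :=
  S20_of_dim N e (finrank_SF_two_of_fundSystem 𝔉 hP20 hP21 hP22 hP3 hP41 hP42 hP43)

end Fermat.Agent.S20.P5helper398
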