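/-
S20 / T3 (helper588): `j` is injective modulo `SL(2,ℤ)`, assuming
* T1: a lattice is determined by `g₂, g₃`;
* T2: `g₂, g₃` of the lattice `ℤ + ℤτ` are (fixed) multiples of `E₄ τ`, `E₆ τ`.
-/
import Mathlib

set_option autoImplicit false

open UpperHalfPlane ModularForm MatrixGroups EisensteinSeries

noncomputable section

namespace Fermat.Agent.S20.JInjective

/-- `1, τ` are `ℝ`-linearly independent for `τ ∈ ℍ`. -/
theorem linearIndependent_one_coe (τ : ℍ) : LinearIndependent ℝ ![(1 : ℂ), (τ : ℂ)] := by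
  rw [LinearIndependent.pair_iff]
  intro s t h
  have him := congrArg Complex.im h
  have hre := congrArg Complex.re h
  simp at him hre
  have ht : t = 0 := by
    rcases him with h | h
    · exact h
    · exact absurd h τ.im_ne_zero
  subst ht
  simpa using hre

/-- the period pair `(1, τ)` -/
def pairOf (τ : ℍ) : PeriodPair where
  ω₁ := 1
  ω₂ := τ
  indep := linearIndependent_one_coe τ

@[simp] lemma pairOf_ω₁ (τ : ℍ) : (pairOf τ).ω₁ = 1 := rfl
@[simp] lemma pairOf_ω₂ (τ : ℍ) : (pairOf τ).ω₂ = τ := rfl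

/-- the period pair `(c ω₁, c ω₂)` -/
def scalePair (L : PeriodPair) (c : ℂ) (hc : c ≠ 0) : PeriodPair where
  ω₁ := c * L.ω₁
  ω₂ := c * L.ω₂
  indep := by
    have h := L.indep
    rw [LinearIndependent.pair_iff] at h ⊢
    intro s t hst
    apply h s t
    have : c * (s • L.ω₁ + t • L.ω₂) = 0 := by
      rw [← hst]
      simp only [Complex.real_smul]
      ring
    rcases mul_eq_zero.mp this with h0 | h0
    · exact absurd h0 hc
    · exact h0

@[simp] lemma scalePair_ω₁ (L : PeriodPair) (c : ℂ) (hc : c ≠ 0) :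
    (scalePair L c hc).ω₁ = c * L.ω₁ := rfl
@[simp] lemma scalePair_ω₂ (L : PeriodPair) (c : ℂ) (hc : c ≠ 0) :
    (scalePair L c hc).ω₂ = c * L.ω₂ := rfl

lemma mem_scalePair_lattice (L : PeriodPair) (c : ℂ) (hc : c ≠ 0) (x : ℂ) :
    x ∈ (scalePair L c hc).lattice ↔ c⁻¹ * x ∈ L.lattice := by
  simp only [PeriodPair.mem_lattice, scalePair_ω₁, scalePair_ω₂]
  constructor
  · rintro ⟨m, n, rfl⟩
    refine ⟨m, n, ?_⟩
    field_simp
  · rintro ⟨m, n, h⟩
    refine ⟨m, n, ?_⟩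
    have : x = c * (c⁻¹ * x) := by field_simp
    rw [this, ← h]
    ring

lemma mul_mem_scalePair_lattice (L : PeriodPair) (c : ℂ) (hc : c ≠ 0) (x : ℂ) :
    c * x ∈ (scalePair L c hc).lattice ↔ x ∈ L.lattice := by
  rw [mem_scalePair_lattice]
  rw [inv_mul_cancel_left₀ hc]

/-- multiplication by `c` as an equivalence of lattices -/
def scaleEquiv (L : PeriodPair) (c : ℂ) (hc : c ≠ 0) :
    L.lattice ≃ (scalePair L c hc).lattice where
  toFun l := ⟨c * l, (mul_mem_scalePair_lattice L c hc _).2 l.2⟩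
  invFun l := ⟨c⁻¹ * l, (mem_scalePair_lattice L c hc _).1 l.2⟩
  left_inv l := by
    ext
    simp [inv_mul_cancel_left₀ hc]
  right_inv l := by
    ext
    simp [mul_inv_cancel_left₀ hc]

lemma G_scalePair (L : PeriodPair) (c : ℂ) (hc : c ≠ 0) (n : ℕ) :
    (scalePair L c hc).G n = (c ^ n)⁻¹ * L.G n := by
  unfold PeriodPair.G
  rw [← (scaleEquiv L c hc).tsum_eq, ← tsum_mul_left]
  congr 1
  ext l
  simp [scaleEquiv, mul_pow, mul_comm]

lemma g₂_scalePair (L : PeriodPair) (c : ℂ) (hc : c ≠ 0) :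
    (scalePair L c hc).g₂ = (c ^ 4)⁻¹ * L.g₂ := by
  unfold PeriodPair.g₂
  rw [G_scalePair]
  ring

lemma g₃_scalePair (L : PeriodPair) (c : ℂ) (hc : c ≠ 0) :
    (scalePair L c hc).g₃ = (c ^ 6)⁻¹ * L.g₃ := by
  unfold PeriodPair.g₃
  rw [G_scalePair]
  ring

/-- algebra: from `a³ b'² = a'³ b²` with `a³ ≠ b²`, `a'³ ≠ b'²`, find `μ ≠ 0` with
`a' = μ⁴ a`, `b' = μ⁶ b`. -/
lemma exists_scale (a b a' b' : ℂ) (hd : a ^ 3 - b ^ 2 ≠ 0) (hd' : a' ^ 3 - b' ^ 2 ≠ 0)
    (h : a ^ 3 * b' ^ 2 = a' ^ 3 * b ^ 2) :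
    ∃ μ : ℂ, μ ≠ 0 ∧ a' = μ ^ 4 * a ∧ b' = μ ^ 6 * b := by
  by_cases ha : a = 0
  · subst ha
    have hb : b ≠ 0 := by
      intro hb; apply hd; simp [hb]
    have ha' : a' = 0 := by
      have : a' ^ 3 * b ^ 2 = 0 := by rw [← h]; simp
      rcases mul_eq_zero.mp this with h1 | h1
      · exact pow_eq_zero_iff (by norm_num) |>.mp h1
      · exact absurd (pow_eq_zero_iff (by norm_num) |>.mp h1) hb
    subst ha'
    have hb' : b' ≠ 0 := by
      intro hb'; apply hd'; simp [hb']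
    obtain ⟨μ, hμ⟩ := IsAlgClosed.exists_pow_nat_eq (b' / b) (n := 6) (by norm_num)
    refine ⟨μ, ?_, by simp, ?_⟩
    · rintro rfl
      have : b' / b = 0 := by rw [← hμ]; simp
      exact div_ne_zero hb' hb this
    · rw [hμ]; field_simp
  by_cases hb : b = 0
  · subst hb
    have hb' : b' = 0 := by
      have : a ^ 3 * b' ^ 2 = 0 := by rw [h]; simp
      rcases mul_eq_zero.mp this with h1 | h1
      · exact absurd (pow_eq_zero_iff (by norm_num) |>.mp h1) ha
      · exact pow_eq_zero_iff (by norm_num) |>.mp h1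
    subst hb'
    have ha' : a' ≠ 0 := by
      intro ha'; apply hd'; simp [ha']
    obtain ⟨μ, hμ⟩ := IsAlgClosed.exists_pow_nat_eq (a' / a) (n := 4) (by norm_num)
    refine ⟨μ, ?_, ?_, by simp⟩
    · rintro rfl
      have : a' / a = 0 := by rw [← hμ]; simp
      exact div_ne_zero ha' ha this
    · rw [hμ]; field_simp
  have ha' : a' ≠ 0 := by
    rintro rfl
    have : a ^ 3 * b' ^ 2 = 0 := by rw [h]; simp
    rcases mul_eq_zero.mp this with h1 | h1
    · exact absurd (pow_eq_zero_iff (by norm_num) |>.mp h1) ha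
    · have hb' : b' = 0 := pow_eq_zero_iff (by norm_num) |>.mp h1
      apply hd'; simp [hb']
  have hb' : b' ≠ 0 := by
    rintro rfl
    have : a' ^ 3 * b ^ 2 = 0 := by rw [← h]; simp
    rcases mul_eq_zero.mp this with h1 | h1
    · exact absurd (pow_eq_zero_iff (by norm_num) |>.mp h1) ha'
    · exact absurd (pow_eq_zero_iff (by norm_num) |>.mp h1) hb
  obtain ⟨μ, hμ⟩ := IsAlgClosed.exists_pow_nat_eq (a * b' / (a' * b)) (n := 2) (by norm_num)
  have hμ0 : μ ≠ 0 := by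
    rintro rfl
    have : a * b' / (a' * b) = 0 := by rw [← hμ]; simp
    exact div_ne_zero (mul_ne_zero ha hb') (mul_ne_zero ha' hb) this
  have h4 : μ ^ 4 = a' / a := by
    have : μ ^ 4 = (μ ^ 2) ^ 2 := by ring
    rw [this, hμ]
    field_simp
    exact h
  refine ⟨μ, hμ0, ?_, ?_⟩
  · rw [h4]; field_simp
  · have : μ ^ 6 = μ ^ 4 * μ ^ 2 := by ring
    rw [this, h4, hμ]
    field_simp

/-- **T3, conditional form.** `j` is injective modulo `SL(2,ℤ)`, assuming that lattices are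
determined by `g₂, g₃` (T1) and that `g₂, g₃` of `ℤ + ℤ τ` are fixed multiples of `E₄ τ`, `E₆ τ`. -/
theorem exists_smul_eq_of_j_eq_of
    (T1 : ∀ L L' : PeriodPair, L.g₂ = L'.g₂ → L.g₃ = L'.g₃ → L.lattice = L'.lattice)
    (c₂ c₃ : ℂ) (T2a : ∀ τ : ℍ, (pairOf τ).g₂ = c₂ * E₄ τ)
    (T2b : ∀ τ : ℍ, (pairOf τ).g₃ = c₃ * E₆ τ)
    (τ τ' : ℍ) (h : E₄ τ ^ 3 * discriminant τ' = E₄ τ' ^ 3 * discriminant τ) :
    ∃ γ : SL(2, ℤ), γ • τ = τ' := by
  -- Step 1: the scaling factor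
  have hΔ := discriminant_eq_E₄_cube_sub_E₆_sq τ
  have hΔ' := discriminant_eq_E₄_cube_sub_E₆_sq τ'
  have hne := discriminant_ne_zero τ
  have hne' := discriminant_ne_zero τ'
  have hd : E₄ τ ^ 3 - E₆ τ ^ 2 ≠ 0 := by
    intro h0; apply hne; rw [hΔ, h0]; simp
  have hd' : E₄ τ' ^ 3 - E₆ τ' ^ 2 ≠ 0 := by
    intro h0; apply hne'; rw [hΔ', h0]; simp
  have hab : E₄ τ ^ 3 * E₆ τ' ^ 2 = E₄ τ' ^ 3 * E₆ τ ^ 2 := by
    rw [hΔ, hΔ'] at h
    linear_combination (-1728 : ℂ) * h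
  obtain ⟨μ, hμ0, hμ4, hμ6⟩ := exists_scale _ _ _ _ hd hd' hab
  -- Step 2: equality of lattices
  have hμi : μ⁻¹ ≠ 0 := inv_ne_zero hμ0
  have hlat : (scalePair (pairOf τ) μ⁻¹ hμi).lattice = (pairOf τ').lattice := by
    apply T1
    · rw [g₂_scalePair, T2a, T2a, hμ4]; simp only [inv_pow, inv_inv]; ring
    · rw [g₃_scalePair, T2b, T2b, hμ6]; simp only [inv_pow, inv_inv]; ring
  have key : ∀ x : ℂ, x ∈ (pairOf τ').lattice ↔ μ * x ∈ (pairOf τ).lattice := by
    intro x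
    rw [← hlat, mem_scalePair_lattice, inv_inv]
  -- Step 3: the integer matrix
  obtain ⟨d, c, hdc⟩ := PeriodPair.mem_lattice.mp ((key 1).1 (pairOf τ').ω₁_mem_lattice)
  obtain ⟨b, a, hba⟩ := PeriodPair.mem_lattice.mp ((key τ').1 (pairOf τ').ω₂_mem_lattice)
  have h1 : μ⁻¹ ∈ (pairOf τ').lattice := by
    rw [key, mul_inv_cancel₀ hμ0]; exact (pairOf τ).ω₁_mem_lattice
  have h2 : μ⁻¹ * τ ∈ (pairOf τ').lattice := by
    rw [key, mul_inv_cancel_left₀ hμ0]; exact (pairOf τ).ω₂_mem_lattice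
  obtain ⟨s, r, hsr⟩ := PeriodPair.mem_lattice.mp h1
  obtain ⟨q, p, hqp⟩ := PeriodPair.mem_lattice.mp h2
  simp only [pairOf_ω₁, pairOf_ω₂, mul_one] at hdc hba hsr hqp
  -- Step 4: the matrix is invertible over `ℤ`
  have hind := (pairOf τ).indep
  rw [LinearIndependent.pair_iff] at hind
  simp only [pairOf_ω₁, pairOf_ω₂] at hind
  have e1 : ((s * d + r * b - 1 : ℤ) : ℂ) + ((s * c + r * a : ℤ) : ℂ) * τ = 0 := by
    have : μ * μ⁻¹ = 1 := mul_inv_cancel₀ hμ0
    rw [← hsr] at this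
    push_cast
    linear_combination this + (s : ℂ) * hdc + (r : ℂ) * hba
  have e2 : ((q * d + p * b : ℤ) : ℂ) + ((q * c + p * a - 1 : ℤ) : ℂ) * τ = 0 := by
    have : μ * (μ⁻¹ * τ) = τ := mul_inv_cancel_left₀ hμ0 _
    rw [← hqp] at this
    push_cast
    linear_combination this + (q : ℂ) * hdc + (p : ℂ) * hba
  have f1 := hind ((s * d + r * b - 1 : ℤ) : ℝ) ((s * c + r * a : ℤ) : ℝ)
    (by simpa using e1)
  have f2 := hind ((q * d + p * b : ℤ) : ℝ) ((q * c + p * a - 1 : ℤ) : ℝ)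
    (by simpa using e2)
  have g1 : s * d + r * b - 1 = 0 := by exact_mod_cast f1.1
  have g2 : s * c + r * a = 0 := by exact_mod_cast f1.2
  have g3 : q * d + p * b = 0 := by exact_mod_cast f2.1
  have g4 : q * c + p * a - 1 = 0 := by exact_mod_cast f2.2
  have hunit : (a * d - b * c) * (p * s - q * r) = 1 := by
    linear_combination (q * c + p * a) * g1 + g4 - (q * d + p * b) * g2
  have hpm : a * d - b * c = 1 ∨ a * d - b * c = -1 :=
    Int.isUnit_iff.mp (IsUnit.of_mul_eq_one _ hunit)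
  -- Step 5: the determinant is positive
  have hIm : (a : ℝ) * τ.im = (d + c * τ.re) * τ'.im + c * τ.im * τ'.re := by
    have := congrArg Complex.im hba
    rw [← hdc] at this
    simp at this
    linarith
  have hRe : (b : ℝ) + a * τ.re = (d + c * τ.re) * τ'.re - c * τ.im * τ'.im := by
    have := congrArg Complex.re hba
    rw [← hdc] at this
    simp at this
    linarith
  have hN : 0 < ((d : ℝ) + c * τ.re) ^ 2 + (c * τ.im) ^ 2 := by
    have h0 : 0 < Complex.normSq μ := Complex.normSq_pos.mpr hμ0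
    rw [← hdc] at h0
    simp [Complex.normSq_apply] at h0
    nlinarith [h0]
  have hpos : ((a * d - b * c : ℤ) : ℝ) * τ.im =
      (((d : ℝ) + c * τ.re) ^ 2 + (c * τ.im) ^ 2) * τ'.im := by
    push_cast
    linear_combination (d + c * τ.re) * hIm - (c * τ.im) * hRe
  have hdet : a * d - b * c = 1 := by
    rcases hpm with h1 | h1
    · exact h1
    · exfalso
      rw [h1] at hpos
      have := mul_pos hN τ'.im_pos
      have := τ.im_pos
      push_cast at hpos
      nlinarith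
  -- Step 6: the Möbius transformation
  refine ⟨⟨!![a, b; c, d], by rw [Matrix.det_fin_two_of]; exact hdet⟩, ?_⟩
  apply UpperHalfPlane.ext
  have hγ := coe_specialLinearGroup_apply (R := ℤ)
    (⟨!![a, b; c, d], by rw [Matrix.det_fin_two_of]; exact hdet⟩ : SL(2, ℤ)) τ
  rw [hγ]
  simp only [Matrix.of_apply, Matrix.cons_val_zero,
    Matrix.cons_val_one, Matrix.cons_val', Matrix.cons_val_fin_one, algebraMap_int_eq,
    Int.coe_castRingHom, Complex.ofReal_intCast]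
  have hμ' : (c : ℂ) * τ + d = μ := by rw [← hdc]; ring
  rw [hμ', div_eq_iff hμ0]
  linear_combination hba

/-- **T3, conditional form (Spec-shaped hypotheses).** -/
theorem exists_smul_eq_of_j_eq_of_G
    (T1 : ∀ L L' : PeriodPair, L.g₂ = L'.g₂ → L.g₃ = L'.g₃ → L.lattice = L'.lattice)
    (T2 : ∀ (τ : ℍ) {k : ℕ} (hk : 3 ≤ k), (pairOf τ).G k = 2 * riemannZeta k * E hk τ)
    (τ τ' : ℍ) (h : E₄ τ ^ 3 * discriminant τ' = E₄ τ' ^ 3 * discriminant τ) :
    ∃ γ : SL(2, ℤ), γ • τ = τ' := by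
  refine exists_smul_eq_of_j_eq_of T1 (60 * (2 * riemannZeta (4 : ℕ)))
    (140 * (2 * riemannZeta (6 : ℕ))) ?_ ?_ τ τ' h
  · intro z
    rw [PeriodPair.g₂, T2 z (by norm_num : 3 ≤ 4)]
    ring
  · intro z
    rw [PeriodPair.g₃, T2 z (by norm_num : 3 ≤ 6)]
    ring

end Fermat.Agent.S20.JInjective
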