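/-
S20 / T2 (helper423): link between Mathlib's lattice Eisenstein sums `PeriodPair.G` and the
normalised level-one Eisenstein series `ModularForm.E`.
-/
import Mathlib

set_option autoImplicit false

open UpperHalfPlane ModularForm EisensteinSeries
open scoped MatrixGroups

noncomputable section

namespace Fermat.Agent.S20.T2h423

/-- the period pair `(1, τ)` -/
def pairOf (τ : ℍ) : PeriodPair where
  ω₁ := 1
  ω₂ := τ
  indep := by
    rw [LinearIndependent.pair_iff]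
    intro s t h
    have him := congrArg Complex.im h
    have hre := congrArg Complex.re h
    simp only [Complex.real_smul, Complex.add_im, Complex.mul_im, Complex.ofReal_re,
      Complex.ofReal_im, zero_mul, add_zero,
      UpperHalfPlane.coe_im, UpperHalfPlane.coe_re, zero_add, Complex.zero_im, Complex.add_re,
      Complex.mul_re, mul_one, sub_zero, Complex.zero_re] at him hre
    have ht : t = 0 := by
      rcases mul_eq_zero.mp him with h' | h'
      · exact h'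
      · exact absurd h' τ.im_pos.ne'
    subst ht
    simp only [zero_mul, add_zero] at hre
    exact ⟨hre, rfl⟩

@[simp] lemma pairOf_ω₁ (τ : ℍ) : (pairOf τ).ω₁ = 1 := rfl
@[simp] lemma pairOf_ω₂ (τ : ℍ) : (pairOf τ).ω₂ = τ := rfl

lemma mem_lattice_pairOf {τ : ℍ} {x : ℂ} :
    x ∈ (pairOf τ).lattice ↔ ∃ m n : ℤ, (m : ℂ) * τ + n = x := by
  rw [PeriodPair.mem_lattice]
  constructor
  · rintro ⟨m, n, h⟩
    exact ⟨n, m, by rw [← h]; simp [add_comm]⟩
  · rintro ⟨m, n, h⟩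
    exact ⟨n, m, by rw [← h]; simp [add_comm]⟩

/-- The map `v ↦ v 0 * τ + v 1` from `Fin 2 → ℤ` to the lattice `ℤ + ℤ τ`. -/
def latticeMap (τ : ℍ) (v : Fin 2 → ℤ) : (pairOf τ).lattice :=
  ⟨(v 0 : ℂ) * τ + v 1, mem_lattice_pairOf.mpr ⟨v 0, v 1, rfl⟩⟩

lemma latticeMap_injective (τ : ℍ) : Function.Injective (latticeMap τ) := by
  intro v w h
  have h' : (v 0 : ℂ) * τ + v 1 = (w 0 : ℂ) * τ + w 1 := congrArg Subtype.val h
  have him := congrArg Complex.im h'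
  have hre := congrArg Complex.re h'
  simp only [Complex.add_im, Complex.mul_im, Complex.intCast_re, Complex.intCast_im,
    UpperHalfPlane.coe_im, UpperHalfPlane.coe_re, zero_mul, add_zero, Complex.add_re,
    Complex.mul_re, sub_zero] at him hre
  have h0 : v 0 = w 0 := by
    have := mul_right_cancel₀ τ.im_pos.ne' him
    exact_mod_cast this
  have h1 : v 1 = w 1 := by
    rw [h0] at hre
    have := add_left_cancel hre
    exact_mod_cast this
  funext i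
  fin_cases i
  · exact h0
  · exact h1

lemma latticeMap_surjective (τ : ℍ) : Function.Surjective (latticeMap τ) := by
  rintro ⟨x, hx⟩
  obtain ⟨m, n, h⟩ := mem_lattice_pairOf.mp hx
  refine ⟨![m, n], Subtype.ext ?_⟩
  simpa [latticeMap] using h

/-- The bijection `(Fin 2 → ℤ) ≃ ℤ + ℤ τ`. -/
def latticeEquiv (τ : ℍ) : (Fin 2 → ℤ) ≃ (pairOf τ).lattice :=
  Equiv.ofBijective (latticeMap τ) ⟨latticeMap_injective τ, latticeMap_surjective τ⟩

@[simp] lemma latticeEquiv_apply (τ : ℍ) (v : Fin 2 → ℤ) :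
    ((latticeEquiv τ v : (pairOf τ).lattice) : ℂ) = (v 0 : ℂ) * τ + v 1 := rfl

/-- The lattice sum `G k` of `ℤ + ℤ τ` is the full Eisenstein sum. -/
theorem G_pairOf_eq_tsum_eisSummand (τ : ℍ) (k : ℕ) :
    (pairOf τ).G k = ∑' v : Fin 2 → ℤ, eisSummand k v τ := by
  rw [PeriodPair.G, ← (latticeEquiv τ).tsum_eq]
  refine tsum_congr fun v ↦ ?_
  simp [eisSummand, zpow_neg]

/-- **T2**. `G_k(ℤ + ℤτ) = 2 ζ(k) E_k(τ)` for `k ≥ 3`. -/
theorem G_pairOf (τ : ℍ) {k : ℕ} (hk : 3 ≤ k) :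
    (pairOf τ).G k = 2 * riemannZeta k * E hk τ := by
  rw [G_pairOf_eq_tsum_eisSummand, tsum_eisSummand_eq_riemannZeta_mul_eisensteinSeries hk τ,
    show E hk τ = (1 / 2 : ℂ) • eisensteinSeriesSIF (N := 1) 0 k τ from rfl,
    eisensteinSeriesSIF_apply 0 k τ]
  simp only [smul_eq_mul]
  ring

/-! ### Explicit constants -/

lemma bernoulli'_five : bernoulli' 5 = 0 := by
  have h1 : Nat.choose 5 2 = 10 := by decide
  have h2 : Nat.choose 5 3 = 10 := by decide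
  rw [bernoulli'_def]
  norm_num [Finset.sum_range_succ, Finset.sum_range_zero, h1, h2]

lemma bernoulli'_six : bernoulli' 6 = 1 / 42 := by
  have h1 : Nat.choose 6 2 = 15 := by decide
  have h2 : Nat.choose 6 3 = 20 := by decide
  have h3 : Nat.choose 6 4 = 15 := by decide
  rw [bernoulli'_def]
  norm_num [Finset.sum_range_succ, Finset.sum_range_zero, h1, h2, h3, bernoulli'_five]

lemma riemannZeta_six : riemannZeta 6 = (Real.pi : ℂ) ^ 6 / 945 := by
  have h := riemannZeta_two_mul_nat (k := 3) (by norm_num)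
  have hb : bernoulli 6 = 1 / 42 := by
    rw [bernoulli_eq_bernoulli'_of_ne_one (by decide : 6 ≠ 1), bernoulli'_six]
  norm_num at h
  rw [h, hb]
  norm_num [Nat.factorial]
  ring

/-- `g₂(ℤ + ℤτ) = (4/3) π⁴ E₄(τ)`. -/
theorem g₂_pairOf (τ : ℍ) : (pairOf τ).g₂ = 4 / 3 * (Real.pi : ℂ) ^ 4 * E₄ τ := by
  have h := G_pairOf τ (k := 4) (by norm_num)
  have hz : riemannZeta ((4 : ℕ) : ℂ) = (Real.pi : ℂ) ^ 4 / 90 := by
    simpa using riemannZeta_four
  rw [PeriodPair.g₂, h, hz]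
  ring

/-- `g₃(ℤ + ℤτ) = (8/27) π⁶ E₆(τ)`. -/
theorem g₃_pairOf (τ : ℍ) : (pairOf τ).g₃ = 8 / 27 * (Real.pi : ℂ) ^ 6 * E₆ τ := by
  have h := G_pairOf τ (k := 6) (by norm_num)
  have hz : riemannZeta ((6 : ℕ) : ℂ) = (Real.pi : ℂ) ^ 6 / 945 := by
    simpa using riemannZeta_six
  rw [PeriodPair.g₃, h, hz]
  ring

/-- `g₂³ - 27 g₃² = (2π)¹² Δ(τ)` for the lattice `ℤ + ℤτ`. -/
theorem g₂_cube_sub_g₃_sq_pairOf (τ : ℍ) :
    (pairOf τ).g₂ ^ 3 - 27 * (pairOf τ).g₃ ^ 2 =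
      (2 * (Real.pi : ℂ)) ^ 12 * discriminant τ := by
  rw [g₂_pairOf, g₃_pairOf, discriminant_eq_E₄_cube_sub_E₆_sq]
  ring

/-! ### Scaling a lattice -/

/-- The period pair `(c ω₁, c ω₂)` for `c ≠ 0`. -/
def scalePair (c : ℂ) (hc : c ≠ 0) (L : PeriodPair) : PeriodPair where
  ω₁ := c * L.ω₁
  ω₂ := c * L.ω₂
  indep := by
    have h := L.indep
    rw [LinearIndependent.pair_iff] at h ⊢
    intro s t hst
    refine h s t ?_
    have : c * (s • L.ω₁ + t • L.ω₂) = 0 := by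
      rw [← hst]
      simp only [Complex.real_smul]
      ring
    exact (mul_eq_zero.mp this).resolve_left hc

@[simp] lemma scalePair_ω₁ (c : ℂ) (hc : c ≠ 0) (L : PeriodPair) :
    (scalePair c hc L).ω₁ = c * L.ω₁ := rfl
@[simp] lemma scalePair_ω₂ (c : ℂ) (hc : c ≠ 0) (L : PeriodPair) :
    (scalePair c hc L).ω₂ = c * L.ω₂ := rfl

lemma mem_lattice_scalePair {c : ℂ} (hc : c ≠ 0) {L : PeriodPair} {x : ℂ} :
    x ∈ (scalePair c hc L).lattice ↔ ∃ y ∈ L.lattice, c * y = x := by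
  simp only [PeriodPair.mem_lattice, scalePair_ω₁, scalePair_ω₂]
  constructor
  · rintro ⟨m, n, h⟩
    exact ⟨m * L.ω₁ + n * L.ω₂, ⟨m, n, rfl⟩, by rw [← h]; ring⟩
  · rintro ⟨y, ⟨m, n, hy⟩, h⟩
    exact ⟨m, n, by rw [← h, ← hy]; ring⟩

/-- Multiplication by `c` as a bijection `L ≃ cL`. -/
def scaleEquiv (c : ℂ) (hc : c ≠ 0) (L : PeriodPair) :
    L.lattice ≃ (scalePair c hc L).lattice where
  toFun y := ⟨c * y, (mem_lattice_scalePair hc).mpr ⟨y, y.2, rfl⟩⟩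
  invFun x := ⟨c⁻¹ * x, by
    obtain ⟨y, hy, h⟩ := (mem_lattice_scalePair hc).mp x.2
    rw [← h, inv_mul_cancel_left₀ hc]
    exact hy⟩
  left_inv y := Subtype.ext (by simp [inv_mul_cancel_left₀ hc])
  right_inv x := Subtype.ext (by simp [mul_inv_cancel_left₀ hc])

/-- `G_k(cL) = c⁻ᵏ G_k(L)`. -/
theorem G_scalePair (c : ℂ) (hc : c ≠ 0) (L : PeriodPair) (k : ℕ) :
    (scalePair c hc L).G k = (c ^ k)⁻¹ * L.G k := by
  rw [PeriodPair.G, PeriodPair.G, ← (scaleEquiv c hc L).tsum_eq, ← tsum_mul_left]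
  refine tsum_congr fun y ↦ ?_
  simp only [scaleEquiv, Equiv.coe_fn_mk, mul_pow, mul_inv]

theorem g₂_scalePair (c : ℂ) (hc : c ≠ 0) (L : PeriodPair) :
    (scalePair c hc L).g₂ = (c ^ 4)⁻¹ * L.g₂ := by
  rw [PeriodPair.g₂, PeriodPair.g₂, G_scalePair]; ring

theorem g₃_scalePair (c : ℂ) (hc : c ≠ 0) (L : PeriodPair) :
    (scalePair c hc L).g₃ = (c ^ 6)⁻¹ * L.g₃ := by
  rw [PeriodPair.g₃, PeriodPair.g₃, G_scalePair]; ring

end Fermat.Agent.S20.T2h423
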