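import Fermat.Agent.S20.Defs
import Fermat.Prelude.Thm_ModularForm_sturm_bound_Gamma0

/-!
# Package G: bridge to Mathlib's bundled forms, and small facts
-/

set_option autoImplicit false

open UpperHalfPlane ModularForm CongruenceSubgroup Matrix.SpecialLinearGroup EisensteinSeries
open scoped MatrixGroups ModularForm Manifold

namespace Fermat.Agent.S20

/-! ### generic constructions -/

/-- Build a bundled modular form on an arithmetic subgroup from function-level data. -/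
theorem exists_modularForm_of_data (𝒢 : Subgroup (GL (Fin 2) ℝ)) [𝒢.IsArithmetic] (k : ℤ)
    (f : ℍ → ℂ) (hol : MDiff f) (hinv : ∀ γ ∈ 𝒢, f ∣[k] γ = f)
    (hbd : ∀ g : SL(2, ℤ), IsBoundedAtImInfty (f ∣[k] g)) :
    ∃ F : ModularForm 𝒢 k, ⇑F = f := by
  refine ⟨⟨⟨f, hinv⟩, hol, fun {c} hc => ?_⟩, rfl⟩
  have hc' : IsCusp c 𝒮ℒ := (Subgroup.IsArithmetic.isCusp_iff_isCusp_SL2Z 𝒢).mp hc
  exact (OnePoint.isBoundedAt_iff_forall_SL2Z hc').mpr fun γ _ => hbd γ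

/-- Build a bundled cusp form on an arithmetic subgroup from function-level data. -/
theorem exists_cuspForm_of_data (𝒢 : Subgroup (GL (Fin 2) ℝ)) [𝒢.IsArithmetic] (k : ℤ)
    (f : ℍ → ℂ) (hol : MDiff f) (hinv : ∀ γ ∈ 𝒢, f ∣[k] γ = f)
    (hbd : ∀ g : SL(2, ℤ), IsZeroAtImInfty (f ∣[k] g)) :
    ∃ F : CuspForm 𝒢 k, ⇑F = f := by
  refine ⟨⟨⟨f, hinv⟩, hol, fun {c} hc => ?_⟩, rfl⟩
  have hc' : IsCusp c 𝒮ℒ := (Subgroup.IsArithmetic.isCusp_iff_isCusp_SL2Z 𝒢).mp hc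
  exact (OnePoint.isZeroAt_iff_forall_SL2Z hc').mpr fun γ _ => hbd γ

/-- Invariance under the image subgroup in `GL(2,ℝ)` from invariance under `Γ ≤ SL(2,ℤ)`. -/
theorem slash_eq_of_mem_map {Γ : Subgroup SL(2, ℤ)} {k : ℤ} {f : ℍ → ℂ}
    (h : ∀ γ ∈ Γ, f ∣[k] γ = f) :
    ∀ γ ∈ (Γ : Subgroup (GL (Fin 2) ℝ)), f ∣[k] γ = f := by
  rintro γ ⟨γ', hγ', rfl⟩
  have := h γ' hγ'
  rwa [ModularForm.SL_slash] at this

/-- Invariance under `Γ ≤ SL(2,ℤ)` from invariance under its image in `GL(2,ℝ)`. -/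
theorem slash_eq_of_mem_of_map {Γ : Subgroup SL(2, ℤ)} {k : ℤ} {f : ℍ → ℂ}
    (h : ∀ γ ∈ (Γ : Subgroup (GL (Fin 2) ℝ)), f ∣[k] γ = f) :
    ∀ γ ∈ Γ, f ∣[k] γ = f := by
  intro γ hγ
  rw [ModularForm.SL_slash]
  exact h _ (Subgroup.mem_map_of_mem _ hγ)

/-- A bundled modular form on (the image of) a finite-index `Γ` satisfies `IsMF`. -/
theorem isMF_coe {Γ : Subgroup SL(2, ℤ)} [Γ.FiniteIndex] {k : ℤ}
    (g : ModularForm (Γ : Subgroup (GL (Fin 2) ℝ)) k) : IsMF Γ k ⇑g :=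
  ⟨ModularFormClass.holo g,
    slash_eq_of_mem_of_map fun γ hγ => SlashInvariantFormClass.slash_action_eq g γ hγ,
    fun γ => ModularFormClass.bdd_at_infty_slash g γ⟩

/-- A bundled cusp form on (the image of) a finite-index `Γ` satisfies `IsCF`. -/
theorem isCF_coe {Γ : Subgroup SL(2, ℤ)} [Γ.FiniteIndex] {k : ℤ}
    (g : CuspForm (Γ : Subgroup (GL (Fin 2) ℝ)) k) : IsCF Γ k ⇑g :=
  ⟨CuspFormClass.holo g,
    slash_eq_of_mem_of_map fun γ hγ => SlashInvariantFormClass.slash_action_eq g γ hγ,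
    fun γ => CuspFormClass.zero_at_infty_slash g γ⟩

theorem isMF_iff_of_finiteIndex (Γ : Subgroup SL(2, ℤ)) [Γ.FiniteIndex] (k : ℤ) (f : ℍ → ℂ) :
    IsMF Γ k f ↔ ∃ g : ModularForm (Γ : Subgroup (GL (Fin 2) ℝ)) k, ⇑g = f := by
  constructor
  · rintro ⟨h1, h2, h3⟩
    exact exists_modularForm_of_data _ k f h1 (slash_eq_of_mem_map h2) h3
  · rintro ⟨g, rfl⟩
    exact isMF_coe g

theorem isCF_iff_of_finiteIndex (Γ : Subgroup SL(2, ℤ)) [Γ.FiniteIndex] (k : ℤ) (f : ℍ → ℂ) :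
    IsCF Γ k f ↔ ∃ g : CuspForm (Γ : Subgroup (GL (Fin 2) ℝ)) k, ⇑g = f := by
  constructor
  · rintro ⟨h1, h2, h3⟩
    exact exists_cuspForm_of_data _ k f h1 (slash_eq_of_mem_map h2) h3
  · rintro ⟨g, rfl⟩
    exact isCF_coe g

theorem IsCF.isMF {Γ : Subgroup SL(2, ℤ)} {k : ℤ} {f : ℍ → ℂ} (hf : IsCF Γ k f) :
    IsMF Γ k f :=
  ⟨hf.1, hf.2.1, fun g => (hf.2.2 g).isBoundedAtImInfty⟩

/-! ### the package statements -/

/-- Mathlib's cusp forms on `Γ₀(N)` are exactly the functions satisfying `IsCF`. -/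
theorem isCF_iff (N : ℕ) [NeZero N] (k : ℤ) (f : ℍ → ℂ) :
    IsCF (Gamma0 N) k f ↔ ∃ g : CuspForm (Gamma0 N) k, ⇑g = f :=
  isCF_iff_of_finiteIndex (Gamma0 N) k f

theorem isMF_iff (N : ℕ) [NeZero N] (k : ℤ) (f : ℍ → ℂ) :
    IsMF (Gamma0 N) k f ↔ ∃ g : ModularForm (Gamma0 N) k, ⇑g = f :=
  isMF_iff_of_finiteIndex (Gamma0 N) k f

theorem isMF_top_iff (k : ℤ) (f : ℍ → ℂ) :
    IsMF ⊤ k f ↔ ∃ g : ModularForm 𝒮ℒ k, ⇑g = f := by
  constructor
  · rintro ⟨h1, h2, h3⟩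
    refine exists_modularForm_of_data _ k f h1 ?_ h3
    rintro γ ⟨γ', rfl⟩
    have := h2 γ' (Subgroup.mem_top _)
    rwa [ModularForm.SL_slash] at this
  · rintro ⟨g, rfl⟩
    refine ⟨ModularFormClass.holo g, fun γ _ => ?_,
      fun γ => ModularFormClass.bdd_at_infty_slash g γ⟩
    rw [ModularForm.SL_slash]
    exact SlashInvariantFormClass.slash_action_eq g _ ⟨γ, rfl⟩

theorem isCF_top_iff (k : ℤ) (f : ℍ → ℂ) :
    IsCF ⊤ k f ↔ ∃ g : CuspForm 𝒮ℒ k, ⇑g = f := by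
  constructor
  · rintro ⟨h1, h2, h3⟩
    refine exists_cuspForm_of_data _ k f h1 ?_ h3
    rintro γ ⟨γ', rfl⟩
    have := h2 γ' (Subgroup.mem_top _)
    rwa [ModularForm.SL_slash] at this
  · rintro ⟨g, rfl⟩
    refine ⟨CuspFormClass.holo g, fun γ _ => ?_,
      fun γ => CuspFormClass.zero_at_infty_slash g γ⟩
    rw [ModularForm.SL_slash]
    exact SlashInvariantFormClass.slash_action_eq g _ ⟨γ, rfl⟩

/-- The `ℂ`-linear map from bundled cusp forms to the submodule `CFsub`. -/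
noncomputable def cuspFormToCFsub (N : ℕ) [NeZero N] (k : ℤ) :
    CuspForm (Gamma0 N) k →ₗ[ℂ] CFsub (Gamma0 N) k where
  toFun g := ⟨⇑g, isCF_coe g⟩
  map_add' _ _ := rfl
  map_smul' _ _ := rfl

theorem cuspFormToCFsub_bijective (N : ℕ) [NeZero N] (k : ℤ) :
    Function.Bijective (cuspFormToCFsub N k) := by
  refine ⟨fun g₁ g₂ h => DFunLike.coe_injective (congrArg Subtype.val h), ?_⟩
  rintro ⟨f, hf⟩
  obtain ⟨g, rfl⟩ := (isCF_iff N k f).mp hf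
  exact ⟨g, rfl⟩

/-- The `ℂ`-linear equivalence between bundled cusp forms and the submodule `CFsub`. -/
noncomputable def cuspFormEquivCFsub (N : ℕ) [NeZero N] (k : ℤ) :
    CuspForm (Gamma0 N) k ≃ₗ[ℂ] CFsub (Gamma0 N) k :=
  LinearEquiv.ofBijective (cuspFormToCFsub N k) (cuspFormToCFsub_bijective N k)

@[simp] theorem cuspFormEquivCFsub_apply_coe (N : ℕ) [NeZero N] (k : ℤ)
    (g : CuspForm (Gamma0 N) k) : ((cuspFormEquivCFsub N k g : CFsub (Gamma0 N) k) : ℍ → ℂ) = ⇑g :=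
  rfl

theorem finrank_cuspForm_eq (N : ℕ) [NeZero N] (k : ℤ) :
    Module.finrank ℂ (CuspForm (Gamma0 N) k) = Module.finrank ℂ (CFsub (Gamma0 N) k) :=
  (cuspFormEquivCFsub N k).finrank_eq

/-- weight-0 modular forms on `Γ₀(N)` are constant -/
theorem isMF_zero_iff (N : ℕ) [NeZero N] (f : ℍ → ℂ) :
    IsMF (Gamma0 N) 0 f ↔ ∃ c : ℂ, f = fun _ => c := by
  constructor
  · intro hf
    obtain ⟨g, rfl⟩ := (isMF_iff N 0 f).mp hf
    obtain ⟨c, hc⟩ := ModularForm.eq_const_of_weight_zero g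
    exact ⟨c, hc⟩
  · rintro ⟨c, rfl⟩
    have := isMF_coe (Γ := Gamma0 N)
      (ModularForm.const (Γ := (Gamma0 N : Subgroup (GL (Fin 2) ℝ))) c)
    rwa [ModularForm.coe_const] at this

/-- no modular forms of negative weight -/
theorem isMF_neg (N : ℕ) [NeZero N] {k : ℤ} (hk : k < 0) {f : ℍ → ℂ}
    (hf : IsMF (Gamma0 N) k f) : f = 0 := by
  obtain ⟨g, rfl⟩ := (isMF_iff N k f).mp hf
  rw [ModularForm.isZero_of_neg_weight hk g]
  rfl

/-- no cusp forms of weight `≤ 0` -/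
theorem isCF_nonpos (N : ℕ) [NeZero N] {k : ℤ} (hk : k ≤ 0) {f : ℍ → ℂ}
    (hf : IsCF (Gamma0 N) k f) : f = 0 := by
  rcases hk.lt_or_eq with hk | rfl
  · exact isMF_neg N hk hf.isMF
  · obtain ⟨c, rfl⟩ := (isMF_zero_iff N f).mp hf.isMF
    have h0 : IsZeroAtImInfty ((fun _ : ℍ => c) ∣[(0 : ℤ)] (1 : SL(2, ℤ))) := hf.2.2 1
    rw [SlashAction.slash_one] at h0
    have hc : c = 0 := by
      have h1 : Filter.Tendsto (fun _ : ℍ => c) atImInfty (nhds 0) := h0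
      exact tendsto_nhds_unique tendsto_const_nhds h1
    subst hc
    rfl

end Fermat.Agent.S20
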