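import Mathlib

set_option autoImplicit false

open Filter Topology

noncomputable section

namespace Fermat.Agent.S20.T1H544

open PeriodPair

/-- A function analytic at `0` satisfying a singular first-order linear ODE
`z w'(z) A(z) = w(z) B(z)` with `n A(0) ≠ B(0)` for all natural `n` vanishes near `0`. -/
theorem eventually_eq_zero_of_singular_ode {w A B : ℂ → ℂ} (hw : AnalyticAt ℂ w 0)
    (hA : ContinuousAt A 0) (hB : ContinuousAt B 0)
    (h : ∀ᶠ z in 𝓝[≠] (0 : ℂ), z * deriv w z * A z = w z * B z)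
    (hAB : ∀ n : ℕ, (n : ℂ) * A 0 ≠ B 0) :
    ∀ᶠ z in 𝓝 (0 : ℂ), w z = 0 := by
  by_contra hne
  obtain ⟨n, g, hg, hg0, hwg⟩ := (hw.exists_eventuallyEq_pow_smul_nonzero_iff).mpr hne
  simp only [sub_zero, smul_eq_mul] at hwg
  -- derivative of `w` near `0`
  have hderiv : ∀ᶠ z in 𝓝 (0 : ℂ), deriv w z = n * z ^ (n - 1) * g z + z ^ n * deriv g z := by
    have h1 : ∀ᶠ z in 𝓝 (0 : ℂ), w =ᶠ[𝓝 z] fun y => y ^ n * g y :=
      (eventually_eventually_nhds.mpr hwg)
    have h2 : ∀ᶠ z in 𝓝 (0 : ℂ), AnalyticAt ℂ g z := hg.eventually_analyticAt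
    filter_upwards [h1, h2] with z hz1 hz2
    rw [hz1.deriv_eq]
    have hd : DifferentiableAt ℂ g z := hz2.differentiableAt
    have := ((hasDerivAt_pow n z).fun_mul hd.hasDerivAt).deriv
    simpa using this
  -- the key identity away from `0`
  have key : ∀ᶠ z in 𝓝[≠] (0 : ℂ), (n * g z + z * deriv g z) * A z = g z * B z := by
    filter_upwards [h, hwg.filter_mono nhdsWithin_le_nhds, hderiv.filter_mono nhdsWithin_le_nhds,
      self_mem_nhdsWithin] with z hz hzw hzd hz0
    have hz0' : z ≠ 0 := hz0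
    rw [hzw, hzd] at hz
    have hzn : z ^ n ≠ 0 := pow_ne_zero _ hz0'
    have hpow : z * (n * z ^ (n - 1)) = n * z ^ n := by
      rcases Nat.eq_zero_or_pos n with h0 | hpos
      · simp [h0]
      · have : z ^ n = z ^ (n - 1) * z := by
          rw [← pow_succ, Nat.sub_add_cancel hpos]
        rw [this]; ring
    apply mul_left_cancel₀ hzn
    calc z ^ n * ((n * g z + z * deriv g z) * A z)
        = (z * (n * z ^ (n - 1)) * g z + z * z ^ n * deriv g z) * A z := by rw [hpow]; ring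
      _ = z * (n * z ^ (n - 1) * g z + z ^ n * deriv g z) * A z := by ring
      _ = z ^ n * g z * B z := hz
      _ = z ^ n * (g z * B z) := by ring
  -- pass to the limit
  have hcontL : ContinuousAt (fun z => (n * g z + z * deriv g z) * A z) 0 := by
    have hg' : ContinuousAt (deriv g) 0 := hg.deriv.continuousAt
    have hgc : ContinuousAt g 0 := hg.continuousAt
    fun_prop
  have hcontR : ContinuousAt (fun z => g z * B z) 0 := by
    have hgc : ContinuousAt g 0 := hg.continuousAt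
    fun_prop
  have hlimL := hcontL.tendsto.mono_left (nhdsWithin_le_nhds (s := ({0}ᶜ : Set ℂ)))
  have hlimR := hcontR.tendsto.mono_left (nhdsWithin_le_nhds (s := ({0}ᶜ : Set ℂ)))
  have heq := tendsto_nhds_unique (hlimL.congr' key) hlimR
  simp only [zero_mul, add_zero] at heq
  apply hAB n
  apply mul_left_cancel₀ hg0
  linear_combination heq

/-- Near `0` (and away from it), no point lies in the lattice. -/
theorem eventually_notMem_lattice (L : PeriodPair) :
    ∀ᶠ z in 𝓝[≠] (0 : ℂ), z ∉ L.lattice := by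
  have h := L.compl_lattice_sdiff_singleton_mem_nhds 0
  filter_upwards [mem_nhdsWithin_of_mem_nhds h, self_mem_nhdsWithin] with z hz hz0
  intro hzL
  exact hz ⟨hzL, hz0⟩

/-- The Weierstrass ODE, cleared of denominators, near `0`. -/
theorem cleared_ode (L : PeriodPair) {z : ℂ} (hz0 : z ≠ 0) (hz : z ∉ L.lattice) :
    (z ^ 3 * ℘'[L - (0 : ℂ)] z - 2) ^ 2 =
      4 * (z ^ 2 * ℘[L - (0 : ℂ)] z + 1) ^ 3 - L.g₂ * z ^ 4 * (z ^ 2 * ℘[L - (0 : ℂ)] z + 1)
        - L.g₃ * z ^ 6 := by
  have h := L.derivWeierstrassP_sq z hz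
  have h1 := L.weierstrassPExcept_def (0 : L.lattice) z
  have h2 := L.derivWeierstrassPExcept_def (0 : L.lattice) z
  simp only [ZeroMemClass.coe_zero, sub_zero, ne_eq, OfNat.ofNat_ne_zero, not_false_eq_true,
    zero_pow, div_zero, zero_sub] at h1 h2
  have e1 : ℘[L] z = ℘[L - (0 : ℂ)] z + 1 / z ^ 2 := by rw [h1]; ring
  have e2 : ℘'[L] z = ℘'[L - (0 : ℂ)] z - 2 / z ^ 3 := by rw [h2]; ring
  rw [e1, e2] at h
  have hz2 : z ^ 2 ≠ 0 := pow_ne_zero _ hz0
  have hz3 : z ^ 3 ≠ 0 := pow_ne_zero _ hz0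
  field_simp at h
  linear_combination h

/-- If two period pairs have the same `g₂`, `g₃`, the regular parts of their `℘`-functions
agree near `0`. -/
theorem weierstrassPExcept_eventuallyEq (L L' : PeriodPair) (h2 : L.g₂ = L'.g₂)
    (h3 : L.g₃ = L'.g₃) :
    ∀ᶠ z in 𝓝 (0 : ℂ), ℘[L - (0 : ℂ)] z = ℘[L' - (0 : ℂ)] z := by
  set f := ℘[L - (0 : ℂ)] with hf
  set g := ℘[L' - (0 : ℂ)] with hg
  set f' := ℘'[L - (0 : ℂ)] with hf'
  set g' := ℘'[L' - (0 : ℂ)] with hg'
  have hfa : AnalyticAt ℂ f 0 := L.analyticAt_weierstrassPExcept 0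
  have hga : AnalyticAt ℂ g 0 := L'.analyticAt_weierstrassPExcept 0
  have hf'a : AnalyticAt ℂ f' 0 := L.analyticAt_derivWeierstrassPExcept 0
  have hg'a : AnalyticAt ℂ g' 0 := L'.analyticAt_derivWeierstrassPExcept 0
  have hwa : AnalyticAt ℂ (fun z => f z - g z) 0 := hfa.sub hga
  set A : ℂ → ℂ := fun z => z ^ 3 * (f' z + g' z) - 4 with hA
  set B : ℂ → ℂ := fun z => 4 * ((z ^ 2 * f z + 1) ^ 2 + (z ^ 2 * f z + 1) * (z ^ 2 * g z + 1)
    + (z ^ 2 * g z + 1) ^ 2) - L.g₂ * z ^ 4 with hB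
  have hAc : ContinuousAt A 0 := by
    have := hf'a.continuousAt
    have := hg'a.continuousAt
    fun_prop
  have hBc : ContinuousAt B 0 := by
    have := hfa.continuousAt
    have := hga.continuousAt
    fun_prop
  have hderivf : ∀ᶠ z in 𝓝 (0 : ℂ), deriv f z = f' z := by
    filter_upwards [L.compl_lattice_sdiff_singleton_mem_nhds 0] with z hz
    exact L.eqOn_deriv_weierstrassPExcept_derivWeierstrassPExcept 0 hz
  have hderivg : ∀ᶠ z in 𝓝 (0 : ℂ), deriv g z = g' z := by
    filter_upwards [L'.compl_lattice_sdiff_singleton_mem_nhds 0] with z hz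
    exact L'.eqOn_deriv_weierstrassPExcept_derivWeierstrassPExcept 0 hz
  have hderivw : ∀ᶠ z in 𝓝 (0 : ℂ), deriv (fun z => f z - g z) z = f' z - g' z := by
    filter_upwards [hderivf, hderivg, hfa.eventually_analyticAt, hga.eventually_analyticAt]
      with z h1 h2 h3 h4
    rw [deriv_fun_sub h3.differentiableAt h4.differentiableAt, h1, h2]
  have hode : ∀ᶠ z in 𝓝[≠] (0 : ℂ),
      z * deriv (fun z => f z - g z) z * A z = (f z - g z) * B z := by
    filter_upwards [eventually_notMem_lattice L, eventually_notMem_lattice L',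
      hderivw.filter_mono nhdsWithin_le_nhds, self_mem_nhdsWithin] with z hzL hzL' hd hz0
    have hz0' : z ≠ 0 := hz0
    have e1 := cleared_ode L hz0' hzL
    have e2 := cleared_ode L' hz0' hzL'
    rw [← h2, ← h3] at e2
    rw [hd]
    have hz2 : z ^ 2 ≠ 0 := pow_ne_zero _ hz0'
    apply mul_left_cancel₀ hz2
    simp only [hA, hB]
    linear_combination e1 - e2
  have hAB : ∀ n : ℕ, (n : ℂ) * A 0 ≠ B 0 := by
    intro n
    simp only [hA, hB]
    norm_num
    intro h
    have h' : ((n : ℂ) * 4 + 12) = 0 := by linear_combination -h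
    have h'' : ((n * 4 + 12 : ℕ) : ℂ) = 0 := by push_cast; exact h'
    have := Nat.cast_eq_zero.mp h''
    omega
  have := eventually_eq_zero_of_singular_ode hwa hAc hBc hode hAB
  filter_upwards [this] with z hz
  exact sub_eq_zero.mp hz

/-- The two `℘`-functions agree on a punctured neighbourhood of `0`. -/
theorem weierstrassP_eventuallyEq_zero (L L' : PeriodPair) (h2 : L.g₂ = L'.g₂)
    (h3 : L.g₃ = L'.g₃) :
    ∀ᶠ z in 𝓝[≠] (0 : ℂ), ℘[L] z = ℘[L'] z := by
  filter_upwards [(weierstrassPExcept_eventuallyEq L L' h2 h3).filter_mono nhdsWithin_le_nhds]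
    with z hz
  have h1 := L.weierstrassPExcept_add (0 : L.lattice) z
  have h1' := L'.weierstrassPExcept_add (0 : L'.lattice) z
  simp only [ZeroMemClass.coe_zero] at h1 h1'
  rw [← h1, ← h1', hz]

theorem countable_lattice (L : PeriodPair) : (L.lattice : Set ℂ).Countable := by
  have : Countable L.lattice := L.latticeEquivProd.toEquiv.countable_iff.mpr inferInstance
  exact Set.countable_coe_iff.mp this

theorem isPreconnected_compl_lattices (L L' : PeriodPair) :
    IsPreconnected ((L.lattice : Set ℂ) ∪ (L'.lattice : Set ℂ))ᶜ := by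
  refine (Set.Countable.isPathConnected_compl_of_one_lt_rank ?_
    ((countable_lattice L).union (countable_lattice L'))).isConnected.isPreconnected
  rw [Complex.rank_real_complex]
  norm_num

/-- The two `℘`-functions agree off the union of the two lattices. -/
theorem weierstrassP_eqOn (L L' : PeriodPair) (h2 : L.g₂ = L'.g₂) (h3 : L.g₃ = L'.g₃) :
    Set.EqOn ℘[L] ℘[L'] ((L.lattice : Set ℂ) ∪ (L'.lattice : Set ℂ))ᶜ := by
  have hev := weierstrassP_eventuallyEq_zero L L' h2 h3
  -- find a point near `0` around which the functions agree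
  have h1 : ∀ᶠ y in 𝓝[≠] (0 : ℂ), ∀ᶠ z in 𝓝 y, ℘[L] z = ℘[L'] z := by
    have := eventually_eventually_nhds.mpr (eventually_nhdsWithin_iff.mp hev)
    filter_upwards [this.filter_mono nhdsWithin_le_nhds, self_mem_nhdsWithin] with y hy hy0
    have hy0' : ∀ᶠ z in 𝓝 y, z ∈ ({0}ᶜ : Set ℂ) := isOpen_compl_singleton.mem_nhds hy0
    filter_upwards [hy, hy0'] with z hz hz0
    exact hz hz0
  obtain ⟨y, hy, hyL, hyL'⟩ :=
    (h1.and ((eventually_notMem_lattice L).and (eventually_notMem_lattice L'))).exists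
  have hyU : y ∈ ((L.lattice : Set ℂ) ∪ (L'.lattice : Set ℂ))ᶜ := by
    simp only [Set.mem_compl_iff, Set.mem_union, SetLike.mem_coe, not_or]
    exact ⟨hyL, hyL'⟩
  refine AnalyticOnNhd.eqOn_of_preconnected_of_eventuallyEq
    (L.analyticOnNhd_weierstrassP.mono ?_) (L'.analyticOnNhd_weierstrassP.mono ?_)
    (isPreconnected_compl_lattices L L') hyU hy
  · exact Set.compl_subset_compl.mpr Set.subset_union_left
  · exact Set.compl_subset_compl.mpr Set.subset_union_right

theorem lattice_le_of_g₂_g₃ (L L' : PeriodPair) (h2 : L.g₂ = L'.g₂) (h3 : L.g₃ = L'.g₃) :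
    L.lattice ≤ L'.lattice := by
  intro l hl
  by_contra hl'
  have hEq := weierstrassP_eqOn L L' h2 h3
  have hcongr : ℘[L] =ᶠ[𝓝[≠] l] ℘[L'] := by
    have hA := L.compl_lattice_sdiff_singleton_mem_nhds l
    have hB : (L'.lattice : Set ℂ)ᶜ ∈ 𝓝 l := L'.isClosed_lattice.isOpen_compl.mem_nhds hl'
    filter_upwards [mem_nhdsWithin_of_mem_nhds hA, mem_nhdsWithin_of_mem_nhds hB,
      self_mem_nhdsWithin] with z hzA hzB hz0
    apply hEq
    simp only [Set.mem_compl_iff, Set.mem_union, SetLike.mem_coe, not_or]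
    refine ⟨fun hzL => hzA ⟨hzL, hz0⟩, hzB⟩
  have hord := meromorphicOrderAt_congr hcongr
  rw [L.order_weierstrassP l hl] at hord
  have hnonneg := (L'.analyticOnNhd_weierstrassP l hl').meromorphicOrderAt_nonneg
  rw [← hord] at hnonneg
  exact absurd hnonneg (by decide)

end Fermat.Agent.S20.T1H544

namespace Fermat.Agent.S20

/-- **T1.** The invariants `g₂`, `g₃` determine the lattice. -/
theorem lattice_eq_of_g₂_g₃ (L L' : PeriodPair) (h2 : L.g₂ = L'.g₂) (h3 : L.g₃ = L'.g₃) :
    L.lattice = L'.lattice :=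
  le_antisymm (T1H544.lattice_le_of_g₂_g₃ L L' h2 h3)
    (T1H544.lattice_le_of_g₂_g₃ L' L h2.symm h3.symm)

end Fermat.Agent.S20
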