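import Mathlib
import Fermat.Agent.S20.T1Lattice
import Fermat.Agent.S20.T2_helper423
import Fermat.Agent.S20.JInjective

/-!
# `j` is injective modulo `SL(2,ℤ)`

Assembly of
* T1 (`Fermat.Agent.S20.lattice_eq_of_g₂_g₃`, helper544): `g₂, g₃` determine the lattice;
* T2 (`Fermat.Agent.S20.T2h423.G_pairOf`, helper423): `G_k(ℤ + ℤτ) = 2 ζ(k) E_k(τ)`;
* T3 conditional (`Fermat.Agent.S20.JInjective.exists_smul_eq_of_j_eq_of_G`, helper588).
-/

set_option autoImplicit false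

open UpperHalfPlane ModularForm MatrixGroups EisensteinSeries

noncomputable section

namespace Fermat.Agent.S20

/-- **T3** (Spec form): `j τ = j τ'` (written without denominators, with `Δ`) implies
`τ' ∈ SL(2,ℤ) τ`. -/
theorem exists_smul_eq_of_j_eq_h544 (τ τ' : ℍ)
    (h : E₄ τ ^ 3 * discriminant τ' = E₄ τ' ^ 3 * discriminant τ) :
    ∃ γ : SL(2, ℤ), γ • τ = τ' :=
  JInjective.exists_smul_eq_of_j_eq_of_G lattice_eq_of_g₂_g₃
    (fun τ _ hk => T2h423.G_pairOf τ hk) τ τ' h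

/-- **A1** (`E₆` form): if `j z = j w` (written without denominators) then `w ∈ SL(2,ℤ) • z`. -/
theorem j_inj (z w : ℍ) (h : E₄ z ^ 3 * E₆ w ^ 2 = E₄ w ^ 3 * E₆ z ^ 2) :
    ∃ γ : SL(2, ℤ), γ • z = w := by
  refine exists_smul_eq_of_j_eq_h544 z w ?_
  rw [discriminant_eq_E₄_cube_sub_E₆_sq z, discriminant_eq_E₄_cube_sub_E₆_sq w]
  linear_combination (-(1 : ℂ) / 1728) * h

end Fermat.Agent.S20
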