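import Fermat.Agent.S20.Core

/-!
# S20 core, piece C0 (helper559): basic API of `MF`, `SF`, `ev`

Exact statements of `Skeleton.lean` C0.1-C0.4 (captain helper20), proved sorry-free.
-/

set_option autoImplicit false

noncomputable section

namespace Fermat.Agent.S20.C0h559

open Fermat.Agent.S20
open UpperHalfPlane ModularForm CongruenceSubgroup MatrixGroups Filter Module
open scoped Manifold Topology Real

local notation "Sm" => ModularGroup.S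
local notation "Tm" => ModularGroup.T

/-! ## C0.1 : bundled forms versus function level -/

section Equiv

variable (Γ : Subgroup SL(2, ℤ)) [Γ.FiniteIndex]

lemma coe_mem_MF (k : ℤ) (f : ModularForm (Γ : Subgroup (GL (Fin 2) ℝ)) k) :
    (⇑f : ℍ → ℂ) ∈ MF Γ k := by
  refine ⟨ModularFormClass.holo f, fun γ hγ => ?_, fun γ => ModularFormClass.bdd_at_infty_slash f γ⟩
  rw [SL_slash]
  exact SlashInvariantForm.slash_action_eqn f _ ⟨γ, hγ, rfl⟩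

lemma coe_mem_SF (k : ℤ) (f : CuspForm (Γ : Subgroup (GL (Fin 2) ℝ)) k) :
    (⇑f : ℍ → ℂ) ∈ SF Γ k := by
  refine ⟨CuspFormClass.holo f, fun γ hγ => ?_, fun γ => CuspFormClass.zero_at_infty_slash f γ⟩
  rw [SL_slash]
  exact SlashInvariantForm.slash_action_eqn f _ ⟨γ, hγ, rfl⟩

/-- Bundle a function-level modular form. -/
def mkMF (k : ℤ) (f : ℍ → ℂ) (hf : f ∈ MF Γ k) : ModularForm (Γ : Subgroup (GL (Fin 2) ℝ)) k where
  toFun := f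
  slash_action_eq' := by
    rintro _ ⟨γ, hγ, rfl⟩
    exact (SL_slash (f := f) (k := k) γ).symm.trans (hf.2.1 γ hγ)
  holo' := hf.1
  bdd_at_cusps' {c} hc := by
    rw [Subgroup.IsArithmetic.isCusp_iff_isCusp_SL2Z] at hc
    rw [OnePoint.isBoundedAt_iff_forall_SL2Z hc]
    intro γ _
    exact hf.2.2 γ

/-- Bundle a function-level cusp form. -/
def mkSF (k : ℤ) (f : ℍ → ℂ) (hf : f ∈ SF Γ k) : CuspForm (Γ : Subgroup (GL (Fin 2) ℝ)) k where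
  toFun := f
  slash_action_eq' := by
    rintro _ ⟨γ, hγ, rfl⟩
    exact (SL_slash (f := f) (k := k) γ).symm.trans (hf.2.1 γ hγ)
  holo' := hf.1
  zero_at_cusps' {c} hc := by
    rw [Subgroup.IsArithmetic.isCusp_iff_isCusp_SL2Z] at hc
    rw [OnePoint.isZeroAt_iff_forall_SL2Z hc]
    intro γ _
    exact hf.2.2 γ

@[simp] lemma coe_mkMF (k : ℤ) (f : ℍ → ℂ) (hf : f ∈ MF Γ k) : ⇑(mkMF Γ k f hf) = f := rfl

@[simp] lemma coe_mkSF (k : ℤ) (f : ℍ → ℂ) (hf : f ∈ SF Γ k) : ⇑(mkSF Γ k f hf) = f := rfl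

/-- C0.1 -/
def MFequiv (k : ℤ) : ModularForm (Γ : Subgroup (GL (Fin 2) ℝ)) k ≃ₗ[ℂ] MF Γ k where
  toFun f := ⟨⇑f, coe_mem_MF Γ k f⟩
  invFun f := mkMF Γ k f.1 f.2
  map_add' f g := rfl
  map_smul' c f := rfl
  left_inv f := by ext z; rfl
  right_inv f := by ext z; rfl

/-- C0.1 -/
theorem MFequiv_coe (k : ℤ) (f : ModularForm (Γ : Subgroup (GL (Fin 2) ℝ)) k) :
    ((MFequiv Γ k f : MF Γ k) : ℍ → ℂ) = ⇑f := rfl

/-- C0.1 -/
def SFequiv (k : ℤ) : CuspForm (Γ : Subgroup (GL (Fin 2) ℝ)) k ≃ₗ[ℂ] SF Γ k where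
  toFun f := ⟨⇑f, coe_mem_SF Γ k f⟩
  invFun f := mkSF Γ k f.1 f.2
  map_add' f g := rfl
  map_smul' c f := rfl
  left_inv f := by ext z; rfl
  right_inv f := by ext z; rfl

/-- C0.1 -/
theorem SFequiv_coe (k : ℤ) (f : CuspForm (Γ : Subgroup (GL (Fin 2) ℝ)) k) :
    ((SFequiv Γ k f : SF Γ k) : ℍ → ℂ) = ⇑f := rfl

end Equiv

/-! ## C0.2 : products with level one forms -/

section Mul

variable {Γ : Subgroup SL(2, ℤ)}

/-- C0.2 (no finite index needed) -/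
theorem mul_mem_MF {a k : ℤ} {E f : ℍ → ℂ} (hE : E ∈ MF ⊤ a) (hf : f ∈ MF Γ k) :
    E * f ∈ MF Γ (a + k) := by
  refine ⟨hE.1.mul hf.1, fun γ hγ => ?_, fun γ => ?_⟩
  · rw [mul_slash_SL2, hE.2.1 γ (Subgroup.mem_top γ), hf.2.1 γ hγ]
  · rw [mul_slash_SL2]
    exact (hE.2.2 γ).mul (hf.2.2 γ)

/-- C0.2 -/
theorem mul_mem_SF {a k : ℤ} {E f : ℍ → ℂ} (hE : E ∈ MF ⊤ a) (hf : f ∈ SF Γ k) :
    E * f ∈ SF Γ (a + k) := by
  refine ⟨hE.1.mul hf.1, fun γ hγ => ?_, fun γ => ?_⟩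
  · rw [mul_slash_SL2, hE.2.1 γ (Subgroup.mem_top γ), hf.2.1 γ hγ]
  · rw [mul_slash_SL2]
    exact (hE.2.2 γ).mul_zeroAtFilter (hf.2.2 γ)

end Mul

/-! ## C0.3 : the vector of conjugates -/

section Ev

variable {Γ : Subgroup SL(2, ℤ)}

/-- C0.3 -/
theorem ev_mk {k : ℤ} {f : ℍ → ℂ} (hf : ∀ γ ∈ Γ, f ∣[k] γ = f) (g : SL(2, ℤ)) (τ : ℍ) :
    ev Γ k τ f (QuotientGroup.mk g) = (f ∣[k] g⁻¹) τ := by
  obtain ⟨h, hh⟩ := QuotientGroup.mk_out_eq_mul Γ g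
  rw [ev_apply, hh, mul_inv_rev, SlashAction.slash_mul, hf _ (Γ.inv_mem h.2)]

/-- C0.3 : equivariance of the vector of conjugates. -/
theorem ev_smul {k : ℤ} {f : ℍ → ℂ} (hf : ∀ γ ∈ Γ, f ∣[k] γ = f) (γ : SL(2, ℤ)) (τ : ℍ)
    (x : X Γ) : ev Γ k (γ • τ) f x = denom γ τ ^ k * ev Γ k τ f (γ⁻¹ • x) := by
  induction x using QuotientGroup.induction_on with
  | H g =>
    have h1 : (γ⁻¹ • (QuotientGroup.mk g : X Γ)) = QuotientGroup.mk (γ⁻¹ * g) := rfl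
    rw [h1, ev_mk hf, ev_mk hf, mul_inv_rev, inv_inv, SlashAction.slash_mul,
      SL_slash_apply (f ∣[k] g⁻¹) γ τ, mul_comm, mul_assoc, ← zpow_add₀ (denom_ne_zero _ τ)]
    simp

/-- C0.3 : in particular for `T` (`T • τ = τ + 1`). -/
theorem ev_T {k : ℤ} {f : ℍ → ℂ} (hf : ∀ γ ∈ Γ, f ∣[k] γ = f) (τ : ℍ) :
    ev Γ k (Tm • τ) f = shiftT Γ (ev Γ k τ f) := by
  ext x
  rw [ev_smul hf]
  have : denom (Tm : SL(2, ℤ)) τ = 1 := by
    simp [denom, ModularGroup.coe_T]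
  rw [this, one_zpow, one_mul]
  rfl

/-- C0.3 -/
theorem ev_mul {a k : ℤ} {E : ℍ → ℂ} (hE : E ∈ MF ⊤ a) (f : ℍ → ℂ) (τ : ℍ) :
    ev Γ (a + k) τ (E * f) = E τ • ev Γ k τ f := by
  ext x
  rw [ev_apply, mul_slash_SL2, hE.2.1 _ (Subgroup.mem_top _)]
  rfl

/-- C0.3 -/
theorem ev_eq_zero_iff {k : ℤ} {f : ℍ → ℂ} (hf : ∀ γ ∈ Γ, f ∣[k] γ = f) (τ : ℍ) :
    ev Γ k τ f = 0 ↔ ∀ γ : SL(2, ℤ), f (γ • τ) = 0 := by
  constructor
  · intro h γ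
    have h1 := congrFun h (QuotientGroup.mk γ⁻¹)
    rw [ev_mk hf, inv_inv, SL_slash_apply] at h1
    exact (mul_eq_zero.mp h1).resolve_right (zpow_ne_zero _ (denom_ne_zero _ _))
  · intro h
    ext x
    rw [ev_apply, SL_slash_apply, h]
    simp

end Ev

/-! ## C0.4 : small weights -/

section Small

variable (Γ : Subgroup SL(2, ℤ)) [Γ.FiniteIndex]

/-- C0.4 (Mathlib `ModularForm.isZero_of_neg_weight`) -/
theorem MF_eq_bot_of_neg {k : ℤ} (hk : k < 0) : MF Γ k = ⊥ := by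
  rw [eq_bot_iff]
  intro f hf
  have h := ModularForm.isZero_of_neg_weight hk (mkMF Γ k f hf)
  have h2 : ⇑(mkMF Γ k f hf) = ⇑(0 : ModularForm (Γ : Subgroup (GL (Fin 2) ℝ)) k) := by rw [h]
  rw [Submodule.mem_bot]
  simpa using h2

/-- C0.4 (Mathlib `ModularForm.eq_const_of_weight_zero`) -/
theorem MF_zero_eq_const {f : ℍ → ℂ} (hf : f ∈ MF Γ 0) : ∃ c : ℂ, f = fun _ => c := by
  obtain ⟨c, hc⟩ := ModularForm.eq_const_of_weight_zero (mkMF Γ 0 f hf)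
  exact ⟨c, hc⟩

/-- C0.4 -/
theorem SF_eq_bot_of_nonpos {k : ℤ} (hk : k ≤ 0) : SF Γ k = ⊥ := by
  rw [eq_bot_iff]
  intro f hf
  rw [Submodule.mem_bot]
  rcases hk.lt_or_eq with hk | rfl
  · have := MF_eq_bot_of_neg Γ hk
    have h2 : f ∈ MF Γ k := SF_le_MF Γ k hf
    rw [this, Submodule.mem_bot] at h2
    exact h2
  · obtain ⟨c, rfl⟩ := MF_zero_eq_const Γ (SF_le_MF Γ 0 hf)
    have h1 : IsZeroAtImInfty ((fun _ : ℍ => c) ∣[(0 : ℤ)] (1 : SL(2, ℤ))) := hf.2.2 1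
    rw [SlashAction.slash_one] at h1
    have h2 : Tendsto (fun _ : ℍ => c) atImInfty (𝓝 0) := h1
    have h3 : c = 0 := tendsto_nhds_unique tendsto_const_nhds h2
    subst h3
    rfl

/-- C0.4 -/
theorem MF_eq_bot_of_odd (hneg : -1 ∈ Γ) {k : ℤ} (hk : Odd k) : MF Γ k = ⊥ := by
  rw [eq_bot_iff]
  intro f hf
  have hneg' : (-1 : GL (Fin 2) ℝ) ∈ (Γ : Subgroup (GL (Fin 2) ℝ)) :=
    ⟨-1, hneg, by ext; simp⟩
  have h := ModularForm.eq_zero_of_neg_one_mem hneg' hk (mkMF Γ k f hf)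
  have h2 : ⇑(mkMF Γ k f hf) = ⇑(0 : ModularForm (Γ : Subgroup (GL (Fin 2) ℝ)) k) := by rw [h]
  rw [Submodule.mem_bot]
  simpa using h2

end Small

end Fermat.Agent.S20.C0h559
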