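import Mathlib

/-!
# S20 / A1 (helper234): a period lattice is determined by its Eisenstein sums `G n`, `n ≥ 3`

* `lattice_eq_of_G_eq` : if `L.G n = L'.G n` for all `n ≥ 3` then `L.lattice = L'.lattice`.
* `scale` : the period pair `(c ω₁, c ω₂)` for `c ≠ 0`, with
  `mem_lattice_scale`, `lattice_scale`, `G_scale`.

Mathlib-only.
-/

set_option autoImplicit false

namespace Fermat.Agent.S20.A1h234

open PeriodPair Filter Topology

/-- The set underlying a period lattice is countable. -/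
theorem countable_lattice (L : PeriodPair) : (L.lattice : Set ℂ).Countable := by
  have : Countable L.lattice := L.latticeEquivProd.injective.countable
  exact Set.countable_coe_iff.mp this

/-- The complement of the union of two period lattices is connected. -/
theorem isPreconnected_compl_union (L L' : PeriodPair) :
    IsPreconnected ((L.lattice : Set ℂ) ∪ (L'.lattice : Set ℂ))ᶜ := by
  have h : ((L.lattice : Set ℂ) ∪ (L'.lattice : Set ℂ)).Countable :=
    (countable_lattice L).union (countable_lattice L')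
  exact (h.isPathConnected_compl_of_one_lt_rank
    (Complex.rank_real_complex ▸ Nat.one_lt_ofNat)).isConnected.isPreconnected

/-- Near a point `l`, every other point lies outside `L.lattice ∪ L'.lattice`. -/
theorem eventually_notMem_union (L L' : PeriodPair) (l : ℂ) :
    ∀ᶠ z in 𝓝[≠] l, z ∈ ((L.lattice : Set ℂ) ∪ (L'.lattice : Set ℂ))ᶜ := by
  have h1 := L.compl_lattice_sdiff_singleton_mem_nhds l
  have h2 := L'.compl_lattice_sdiff_singleton_mem_nhds l
  have h3 : ∀ᶠ z in 𝓝 l, z ∈ ((L.lattice : Set ℂ) \ {l})ᶜ ∧ z ∈ ((L'.lattice : Set ℂ) \ {l})ᶜ :=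
    (Filter.eventually_of_mem h1 fun _ h => h).and (Filter.eventually_of_mem h2 fun _ h => h)
  rw [eventually_nhdsWithin_iff]
  filter_upwards [h3] with z hz hzl
  simp only [Set.mem_compl_iff, Set.mem_sdiff, Set.mem_singleton_iff, not_and, not_not,
    Set.mem_union, not_or] at hz ⊢
  exact ⟨fun h => hzl (hz.1 h), fun h => hzl (hz.2 h)⟩

/-- If all Eisenstein sums agree, `℘[L - 0]` and `℘[L' - 0]` agree near `0`. -/
theorem weierstrassPExcept_zero_eventuallyEq (L L' : PeriodPair)
    (h : ∀ n : ℕ, 3 ≤ n → L.G n = L'.G n) :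
    L.weierstrassPExcept 0 =ᶠ[𝓝 0] L'.weierstrassPExcept 0 := by
  have h1 := L.hasFPowerSeriesAt_weierstrassPExcept 0
  have h2 := L'.hasFPowerSeriesAt_weierstrassPExcept 0
  have hc : (fun i : ℕ ↦ if i = 0 then L.weierstrassPExcept 0 0
        else (i + 1) * L.sumInvPow 0 (i + 2)) =
      (fun i : ℕ ↦ if i = 0 then L'.weierstrassPExcept 0 0
        else (i + 1) * L'.sumInvPow 0 (i + 2)) := by
    funext i
    by_cases hi : i = 0
    · simp [hi]
    · simp only [hi, if_false, sumInvPow_zero]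
      rw [h (i + 2) (by omega)]
  rw [hc] at h1
  have e1 := h1.eventually_hasSum
  have e2 := h2.eventually_hasSum
  have : ∀ᶠ y in 𝓝 (0 : ℂ), L.weierstrassPExcept 0 (0 + y) = L'.weierstrassPExcept 0 (0 + y) := by
    filter_upwards [e1, e2] with y hy1 hy2
    exact hy1.unique hy2
  filter_upwards [this] with y hy
  simpa using hy

/-- If all Eisenstein sums agree, `℘[L]` and `℘[L']` agree near `0`
(as total functions, with the junk value `0` at `0`). -/
theorem weierstrassP_eventuallyEq_zero (L L' : PeriodPair)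
    (h : ∀ n : ℕ, 3 ≤ n → L.G n = L'.G n) :
    L.weierstrassP =ᶠ[𝓝 0] L'.weierstrassP := by
  filter_upwards [weierstrassPExcept_zero_eventuallyEq L L' h] with z hz
  have a1 := L.weierstrassPExcept_add (0 : L.lattice) z
  have a2 := L'.weierstrassPExcept_add (0 : L'.lattice) z
  simp only [ZeroMemClass.coe_zero] at a1 a2
  rw [← a1, ← a2, hz]

/-- If all Eisenstein sums agree, `℘[L]` and `℘[L']` agree away from the two lattices. -/
theorem weierstrassP_eqOn (L L' : PeriodPair) (h : ∀ n : ℕ, 3 ≤ n → L.G n = L'.G n) :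
    Set.EqOn L.weierstrassP L'.weierstrassP ((L.lattice : Set ℂ) ∪ (L'.lattice : Set ℂ))ᶜ := by
  have hev : ∀ᶠ z in 𝓝[≠] (0 : ℂ), z ∈ ((L.lattice : Set ℂ) ∪ (L'.lattice : Set ℂ))ᶜ ∧
      L.weierstrassP =ᶠ[𝓝 z] L'.weierstrassP :=
    (eventually_notMem_union L L' 0).and
      ((weierstrassP_eventuallyEq_zero L L' h).eventually_nhds.filter_mono nhdsWithin_le_nhds)
  obtain ⟨z₀, hz₀U, hz₀⟩ := hev.exists
  have hL : AnalyticOnNhd ℂ L.weierstrassP ((L.lattice : Set ℂ) ∪ (L'.lattice : Set ℂ))ᶜ :=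
    L.analyticOnNhd_weierstrassP.mono (Set.compl_subset_compl.mpr Set.subset_union_left)
  have hL' : AnalyticOnNhd ℂ L'.weierstrassP ((L.lattice : Set ℂ) ∪ (L'.lattice : Set ℂ))ᶜ :=
    L'.analyticOnNhd_weierstrassP.mono (Set.compl_subset_compl.mpr Set.subset_union_right)
  exact hL.eqOn_of_preconnected_of_eventuallyEq hL' (isPreconnected_compl_union L L') hz₀U hz₀

theorem lattice_le_of_G_eq (L L' : PeriodPair) (h : ∀ n : ℕ, 3 ≤ n → L.G n = L'.G n) :
    L.lattice ≤ L'.lattice := by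
  intro l hl
  by_contra hl'
  have hcongr : L.weierstrassP =ᶠ[𝓝[≠] l] L'.weierstrassP := by
    filter_upwards [eventually_notMem_union L L' l] with z hz
    exact weierstrassP_eqOn L L' h hz
  have h1 : meromorphicOrderAt L.weierstrassP l = -2 := L.order_weierstrassP l hl
  have h2 : 0 ≤ meromorphicOrderAt L'.weierstrassP l :=
    (L'.analyticOnNhd_weierstrassP l hl').meromorphicOrderAt_nonneg
  rw [← meromorphicOrderAt_congr hcongr, h1] at h2
  exact absurd h2 (by decide)

/-- **A1.** A period lattice is determined by its Eisenstein sums `G n`, `n ≥ 3`. -/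
theorem lattice_eq_of_G_eq (L L' : PeriodPair) (h : ∀ n : ℕ, 3 ≤ n → L.G n = L'.G n) :
    L.lattice = L'.lattice :=
  le_antisymm (lattice_le_of_G_eq L L' h) (lattice_le_of_G_eq L' L fun n hn => (h n hn).symm)

/-! ### A1b: scaling a period pair -/

/-- The period pair `(c ω₁, c ω₂)`, for `c ≠ 0`. -/
noncomputable def scale (c : ℂ) (hc : c ≠ 0) (L : PeriodPair) : PeriodPair where
  ω₁ := c * L.ω₁
  ω₂ := c * L.ω₂
  indep := by
    rw [LinearIndependent.pair_iff]
    intro s t hst
    apply LinearIndependent.pair_iff.mp L.indep s t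
    have h0 : c * (s • L.ω₁ + t • L.ω₂) = 0 := by
      rw [← hst]
      simp only [Complex.real_smul]
      ring
    exact (mul_eq_zero.mp h0).resolve_left hc

@[simp] theorem scale_ω₁ (c : ℂ) (hc : c ≠ 0) (L : PeriodPair) :
    (scale c hc L).ω₁ = c * L.ω₁ := rfl

@[simp] theorem scale_ω₂ (c : ℂ) (hc : c ≠ 0) (L : PeriodPair) :
    (scale c hc L).ω₂ = c * L.ω₂ := rfl

theorem mul_mem_lattice_scale (c : ℂ) (hc : c ≠ 0) (L : PeriodPair) {y : ℂ}
    (hy : y ∈ L.lattice) : c * y ∈ (scale c hc L).lattice := by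
  obtain ⟨m, n, rfl⟩ := mem_lattice.mp hy
  exact mem_lattice.mpr ⟨m, n, by simp only [scale_ω₁, scale_ω₂]; ring⟩

theorem inv_mul_mem_lattice_of_mem_scale (c : ℂ) (hc : c ≠ 0) (L : PeriodPair) {x : ℂ}
    (hx : x ∈ (scale c hc L).lattice) : c⁻¹ * x ∈ L.lattice := by
  obtain ⟨m, n, rfl⟩ := mem_lattice.mp hx
  refine mem_lattice.mpr ⟨m, n, ?_⟩
  simp only [scale_ω₁, scale_ω₂]
  field_simp

theorem mem_lattice_scale (c : ℂ) (hc : c ≠ 0) (L : PeriodPair) (x : ℂ) :
    x ∈ (scale c hc L).lattice ↔ ∃ y ∈ L.lattice, c * y = x := by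
  constructor
  · intro hx
    exact ⟨c⁻¹ * x, inv_mul_mem_lattice_of_mem_scale c hc L hx, by field_simp⟩
  · rintro ⟨y, hy, rfl⟩
    exact mul_mem_lattice_scale c hc L hy

open Pointwise in
theorem lattice_scale (c : ℂ) (hc : c ≠ 0) (L : PeriodPair) :
    (scale c hc L).lattice = c • L.lattice := by
  ext x
  rw [mem_lattice_scale, Submodule.mem_smul_pointwise_iff_exists]
  simp only [smul_eq_mul]

/-- Multiplication by `c` as a bijection `L.lattice ≃ (scale c hc L).lattice`. -/
noncomputable def scaleEquiv (c : ℂ) (hc : c ≠ 0) (L : PeriodPair) :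
    L.lattice ≃ (scale c hc L).lattice where
  toFun l := ⟨c * l, mul_mem_lattice_scale c hc L l.2⟩
  invFun x := ⟨c⁻¹ * x, inv_mul_mem_lattice_of_mem_scale c hc L x.2⟩
  left_inv l := by
    ext
    simp only
    field_simp
  right_inv x := by
    ext
    simp only
    field_simp

/-- **A1b.** Eisenstein sums of a scaled lattice. -/
theorem G_scale (c : ℂ) (hc : c ≠ 0) (L : PeriodPair) (n : ℕ) :
    (scale c hc L).G n = (c ^ n)⁻¹ * L.G n := by
  unfold PeriodPair.G
  rw [← (scaleEquiv c hc L).tsum_eq, ← tsum_mul_left]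
  refine tsum_congr fun l => ?_
  simp only [scaleEquiv, Equiv.coe_fn_mk, mul_pow, mul_inv]

/-- Variant of A1 up to homothety: if `L'.G n = (c ^ n)⁻¹ * L.G n` for all `n ≥ 3`,
then `L'.lattice` is `c` times `L.lattice`. -/
theorem lattice_eq_scale_of_G_eq (c : ℂ) (hc : c ≠ 0) (L L' : PeriodPair)
    (h : ∀ n : ℕ, 3 ≤ n → L'.G n = (c ^ n)⁻¹ * L.G n) :
    L'.lattice = (scale c hc L).lattice :=
  lattice_eq_of_G_eq L' (scale c hc L) fun n hn => by rw [h n hn, G_scale]

/-- Membership form of `lattice_eq_scale_of_G_eq`. -/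
theorem mem_lattice_iff_of_G_eq (c : ℂ) (hc : c ≠ 0) (L L' : PeriodPair)
    (h : ∀ n : ℕ, 3 ≤ n → L'.G n = (c ^ n)⁻¹ * L.G n) (x : ℂ) :
    x ∈ L'.lattice ↔ ∃ y ∈ L.lattice, c * y = x := by
  rw [lattice_eq_scale_of_G_eq c hc L L' h, mem_lattice_scale]

end Fermat.Agent.S20.A1h234
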