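import Mathlib
import Fermat.Agent.S20.A1_helper234

/-!
# S20 / A1c (helper234): homothetic lattices `ℤ + ℤ w = c (ℤ + ℤ z)` give `w ∈ SL(2,ℤ) z`

* `pairOf τ` : the period pair `(1, τ)`.
* `exists_smul_eq_of_coords` : coordinate form.
* `exists_smul_eq_of_lattice` : for arbitrary period pairs with `ω₁ = 1`, `ω₂ = z` / `w`.
* `exists_smul_eq_of_G_eq` : if `(pairOf w).G n = (c ^ n)⁻¹ * (pairOf z).G n` for all `n ≥ 3`
  then `w = γ • z` for some `γ : SL(2, ℤ)`.

Mathlib-only (+ `A1_helper234`).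
-/

set_option autoImplicit false

namespace Fermat.Agent.S20.A1h234

open UpperHalfPlane
open scoped MatrixGroups

/-- The period pair `(1, τ)` attached to `τ ∈ ℍ`. -/
noncomputable def pairOf (τ : ℍ) : PeriodPair where
  ω₁ := 1
  ω₂ := τ
  indep := by
    rw [LinearIndependent.pair_iff]
    intro s t h
    have him := congrArg Complex.im h
    have hre := congrArg Complex.re h
    simp only [Complex.real_smul, Complex.add_im, Complex.mul_im, Complex.ofReal_re,
      Complex.ofReal_im, zero_mul, add_zero,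
      UpperHalfPlane.coe_im, UpperHalfPlane.coe_re, zero_add, Complex.zero_im, Complex.add_re,
      Complex.mul_re, mul_one, sub_zero, Complex.zero_re] at him hre
    have ht : t = 0 := by
      rcases mul_eq_zero.mp him with h | h
      · exact h
      · exact absurd h τ.im_ne_zero
    subst ht
    simpa using hre

@[simp] theorem pairOf_ω₁ (τ : ℍ) : (pairOf τ).ω₁ = 1 := rfl

@[simp] theorem pairOf_ω₂ (τ : ℍ) : (pairOf τ).ω₂ = τ := rfl

/-- Coordinate form: if `w = c (m + n z)`, `1 = c (p + q z)`, `c = a + b w`, `c z = a' + b' w`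
with integers `m n p q a b a' b'`, then `w = γ • z` with `γ = !![n, m; q, p] ∈ SL(2, ℤ)`. -/
theorem exists_smul_eq_of_coords (z w : ℍ) (c : ℂ) (m n p q a b a' b' : ℤ)
    (hw : (w : ℂ) = c * (m + n * z)) (h1 : (1 : ℂ) = c * (p + q * z))
    (hc1 : c = a + b * w) (hcz : c * z = a' + b' * w) :
    ∃ γ : SL(2, ℤ), γ • z = w := by
  have hden : (p : ℂ) + q * z ≠ 0 := by
    intro h0
    rw [h0, mul_zero] at h1
    exact one_ne_zero h1
  -- `w (p + q z) = m + n z`
  have hmain : (w : ℂ) * (p + q * z) = m + n * z := by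
    linear_combination ((p : ℂ) + q * z) * hw - ((m : ℂ) + n * z) * h1
  -- `w = (m a + n a') + (m b + n b') w`
  have hw' : (w : ℂ) = (m * a + n * a') + (m * b + n * b') * w := by
    linear_combination hw + (m : ℂ) * hc1 + (n : ℂ) * hcz
  have h1' : (1 : ℂ) = (p * a + q * a') + (p * b + q * b') * w := by
    linear_combination h1 + (p : ℂ) * hc1 + (q : ℂ) * hcz
  have hv : (0 : ℝ) < w.im := w.im_pos
  have hy : (0 : ℝ) < z.im := z.im_pos
  -- integer relations
  have e1im := congrArg Complex.im hw'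
  have e1re := congrArg Complex.re hw'
  have e2im := congrArg Complex.im h1'
  have e2re := congrArg Complex.re h1'
  simp only [Complex.add_im, Complex.mul_im, Complex.add_re, Complex.mul_re, Complex.intCast_re,
    Complex.intCast_im, UpperHalfPlane.coe_im, UpperHalfPlane.coe_re, Complex.one_re,
    Complex.one_im, mul_zero, zero_mul, add_zero, sub_zero, zero_add] at e1im e1re e2im e2re
  have r1 : ((m * b + n * b' : ℤ) : ℝ) = 1 := by
    have : ((m : ℝ) * b + n * b' - 1) * w.im = 0 := by linear_combination -e1im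
    have := (mul_eq_zero.mp this).resolve_right hv.ne'
    push_cast
    linarith
  have r3 : ((p * b + q * b' : ℤ) : ℝ) = 0 := by
    have : ((p : ℝ) * b + q * b') * w.im = 0 := by linear_combination -e2im
    have := (mul_eq_zero.mp this).resolve_right hv.ne'
    push_cast
    linarith
  have r1' : ((m : ℝ) * b + n * b') = 1 := by exact_mod_cast r1
  have r3' : ((p : ℝ) * b + q * b') = 0 := by exact_mod_cast r3
  have r2 : ((m * a + n * a' : ℤ) : ℝ) = 0 := by
    push_cast
    have : (w.re : ℝ) = (m * a + n * a') + (m * b + n * b') * w.re := by linear_combination e1re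
    rw [r1'] at this
    linarith
  have r4 : ((p * a + q * a' : ℤ) : ℝ) = 1 := by
    push_cast
    have : (1 : ℝ) = (p * a + q * a') + (p * b + q * b') * w.re := by linear_combination e2re
    rw [r3'] at this
    linarith
  have i1 : m * b + n * b' = 1 := by exact_mod_cast r1
  have i2 : m * a + n * a' = 0 := by exact_mod_cast r2
  have i3 : p * b + q * b' = 0 := by exact_mod_cast r3
  have i4 : p * a + q * a' = 1 := by exact_mod_cast r4
  have hdet : (m * q - n * p) * (b * a' - a * b') = 1 := by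
    linear_combination (p * a + q * a') * i1 + i4 - (p * b + q * b') * i2
  have hunit : m * q - n * p = 1 ∨ m * q - n * p = -1 :=
    Int.eq_one_or_neg_one_of_mul_eq_one hdet
  -- positivity of `n p - m q`
  have mim := congrArg Complex.im hmain
  have mre := congrArg Complex.re hmain
  simp only [Complex.add_im, Complex.mul_im, Complex.add_re, Complex.mul_re, Complex.intCast_re,
    Complex.intCast_im, UpperHalfPlane.coe_im, UpperHalfPlane.coe_re, zero_mul,
    add_zero, sub_zero, zero_add] at mim mre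
  have hpos : ((n : ℝ) * p - m * q) * z.im = w.im * ((p + q * z.re) ^ 2 + (q * z.im) ^ 2) := by
    linear_combination -(p + q * z.re) * mim + (q * z.im) * mre
  have hsq : (0 : ℝ) < (p + q * z.re) ^ 2 + (q * z.im) ^ 2 := by
    rcases eq_or_ne (q : ℝ) 0 with hq | hq
    · have hp : (p : ℝ) ≠ 0 := by
        intro hp
        apply hden
        have hq' : q = 0 := by exact_mod_cast hq
        have hp' : p = 0 := by exact_mod_cast hp
        simp [hq', hp']
      have : (0 : ℝ) < p ^ 2 := by positivity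
      simpa [hq] using this
    · have : (0 : ℝ) < (q * z.im) ^ 2 := by
        have : (q : ℝ) * z.im ≠ 0 := mul_ne_zero hq hy.ne'
        positivity
      have h2 : (0 : ℝ) ≤ (p + q * z.re) ^ 2 := sq_nonneg _
      linarith
  have hposR : (0 : ℝ) < (n : ℝ) * p - m * q := by
    have : (0 : ℝ) < ((n : ℝ) * p - m * q) * z.im := by
      rw [hpos]
      exact mul_pos hv hsq
    exact (pos_iff_pos_of_mul_pos this).mpr hy
  have hposZ : 0 < n * p - m * q := by exact_mod_cast hposR
  have hdet1 : n * p - m * q = 1 := by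
    rcases hunit with h | h <;> omega
  obtain ⟨γ, h00, h01, h10, h11⟩ : ∃ γ : SL(2, ℤ), γ 0 0 = n ∧ γ 0 1 = m ∧ γ 1 0 = q ∧ γ 1 1 = p :=
    ⟨⟨!![n, m; q, p], by rw [Matrix.det_fin_two_of]; exact hdet1⟩, rfl, rfl, rfl, rfl⟩
  refine ⟨γ, ?_⟩
  apply UpperHalfPlane.ext
  rw [UpperHalfPlane.coe_specialLinearGroup_apply, h00, h01, h10, h11]
  simp only [algebraMap_int_eq, Int.coe_castRingHom, Complex.ofReal_intCast]
  rw [div_eq_iff (by rw [add_comm]; exact hden)]
  linear_combination -hmain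

/-- Homothetic lattices: if `L` has periods `(1, z)`, `L'` has periods `(1, w)` and
`L'.lattice = c • L.lattice` (membership form), then `w = γ • z` for some `γ : SL(2, ℤ)`. -/
theorem exists_smul_eq_of_lattice (z w : ℍ) (c : ℂ) (L L' : PeriodPair)
    (hL1 : L.ω₁ = 1) (hL2 : L.ω₂ = z) (hL'1 : L'.ω₁ = 1) (hL'2 : L'.ω₂ = w)
    (h : ∀ x : ℂ, x ∈ L'.lattice ↔ ∃ y ∈ L.lattice, c * y = x) :
    ∃ γ : SL(2, ℤ), γ • z = w := by
  obtain ⟨y₁, hy₁, hy₁w⟩ := (h w).mp (hL'2 ▸ L'.ω₂_mem_lattice)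
  obtain ⟨y₂, hy₂, hy₂1⟩ := (h 1).mp (hL'1 ▸ L'.ω₁_mem_lattice)
  obtain ⟨m, n, rfl⟩ := PeriodPair.mem_lattice.mp hy₁
  obtain ⟨p, q, rfl⟩ := PeriodPair.mem_lattice.mp hy₂
  obtain ⟨a, b, hab⟩ := PeriodPair.mem_lattice.mp ((h (c * 1)).mpr ⟨1, hL1 ▸ L.ω₁_mem_lattice, rfl⟩)
  obtain ⟨a', b', hab'⟩ :=
    PeriodPair.mem_lattice.mp ((h (c * z)).mpr ⟨z, hL2 ▸ L.ω₂_mem_lattice, rfl⟩)
  rw [hL1, hL2] at hy₁w hy₂1
  rw [hL'1, hL'2] at hab hab'
  refine exists_smul_eq_of_coords z w c m n p q a b a' b' ?_ ?_ ?_ ?_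
  · rw [← hy₁w]; ring
  · rw [← hy₂1]; ring
  · linear_combination -hab
  · linear_combination -hab'

/-- **A1c.** If the Eisenstein sums of `(1, w)` are those of `(1, z)` rescaled by `c`,
then `w ∈ SL(2, ℤ) • z`. -/
theorem exists_smul_eq_of_G_eq (z w : ℍ) (c : ℂ) (hc : c ≠ 0)
    (h : ∀ n : ℕ, 3 ≤ n → (pairOf w).G n = (c ^ n)⁻¹ * (pairOf z).G n) :
    ∃ γ : SL(2, ℤ), γ • z = w :=
  exists_smul_eq_of_lattice z w c (pairOf z) (pairOf w) rfl rfl rfl rfl
    (mem_lattice_iff_of_G_eq c hc (pairOf z) (pairOf w) h)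

/-- Version of `exists_smul_eq_of_G_eq` for arbitrary period pairs with periods `(1, z)`, `(1, w)`
(so that it applies to anybody's definition of `pairOf`). -/
theorem exists_smul_eq_of_G_eq' (z w : ℍ) (c : ℂ) (hc : c ≠ 0) (L L' : PeriodPair)
    (hL1 : L.ω₁ = 1) (hL2 : L.ω₂ = z) (hL'1 : L'.ω₁ = 1) (hL'2 : L'.ω₂ = w)
    (h : ∀ n : ℕ, 3 ≤ n → L'.G n = (c ^ n)⁻¹ * L.G n) :
    ∃ γ : SL(2, ℤ), γ • z = w :=
  exists_smul_eq_of_lattice z w c L L' hL1 hL2 hL'1 hL'2 (mem_lattice_iff_of_G_eq c hc L L' h)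

end Fermat.Agent.S20.A1h234
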