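import Mathlib
import Fermat.Agent.S20.A1c_helper234

/-!
# S20 / T2 (helper234, backup): `PeriodPair.G` of the lattice `ℤ + ℤ τ` is `2 ζ(k) E_k(τ)`

Mathlib-only (+ `A1c_helper234` for `pairOf`).
-/

set_option autoImplicit false

namespace Fermat.Agent.S20.A1h234

open UpperHalfPlane ModularForm EisensteinSeries
open scoped MatrixGroups

/-- `G k` of any period pair with periods `(1, τ)` as a sum over `ℤ × ℤ`. -/
theorem G_eq_tsum_prod (τ : ℍ) (L : PeriodPair) (h1 : L.ω₁ = 1) (h2 : L.ω₂ = τ) (k : ℕ) :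
    L.G k = ∑' x : ℤ × ℤ, (((x.1 : ℂ) + x.2 * τ) ^ k)⁻¹ := by
  unfold PeriodPair.G
  rw [← L.latticeEquivProd.symm.toEquiv.tsum_eq]
  refine tsum_congr fun x => ?_
  simp only [LinearEquiv.coe_toEquiv, L.latticeEquiv_symm_apply, h1, h2, mul_one]

/-- `G k` of any period pair with periods `(1, τ)` as the full Eisenstein sum. -/
theorem G_eq_tsum_eisSummand (τ : ℍ) (L : PeriodPair) (h1 : L.ω₁ = 1) (h2 : L.ω₂ = τ) (k : ℕ) :
    L.G k = ∑' v : Fin 2 → ℤ, eisSummand k v τ := by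
  rw [G_eq_tsum_prod τ L h1 h2 k,
    ← ((finTwoArrowEquiv ℤ).trans (Equiv.prodComm ℤ ℤ)).tsum_eq]
  refine tsum_congr fun v => ?_
  simp only [Equiv.trans_apply, Equiv.prodComm_apply, eisSummand, zpow_neg, zpow_natCast]
  rw [add_comm]
  rfl

/-- **T2** (general form): for any period pair with periods `(1, τ)`,
`G k = 2 ζ(k) E_k(τ)` for `k ≥ 3`. -/
theorem G_eq_two_zeta_mul_E (τ : ℍ) (L : PeriodPair) (h1 : L.ω₁ = 1) (h2 : L.ω₂ = τ)
    {k : ℕ} (hk : 3 ≤ k) :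
    L.G k = 2 * riemannZeta k * E hk τ := by
  rw [G_eq_tsum_eisSummand τ L h1 h2 k, tsum_eisSummand_eq_riemannZeta_mul_eisensteinSeries hk τ,
    show E hk τ = (1 / 2 : ℂ) • eisensteinSeriesSIF (N := 1) 0 k τ from rfl,
    eisensteinSeriesSIF_apply 0 k τ, smul_eq_mul]
  ring

/-- **T2.** `(pairOf τ).G k = 2 ζ(k) E_k(τ)` for `k ≥ 3`. -/
theorem G_pairOf (τ : ℍ) {k : ℕ} (hk : 3 ≤ k) :
    (pairOf τ).G k = 2 * riemannZeta k * E hk τ :=
  G_eq_two_zeta_mul_E τ (pairOf τ) rfl rfl hk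

theorem riemannZeta_natCast_ne_zero {k : ℕ} (hk : 3 ≤ k) : riemannZeta k ≠ 0 :=
  riemannZeta_ne_zero_of_one_lt_re <| by
    simp only [Complex.natCast_re]
    exact_mod_cast (by omega : 1 < k)

/-- `g₂ = 120 ζ(4) E₄`. -/
theorem g₂_pairOf (τ : ℍ) : (pairOf τ).g₂ = 120 * riemannZeta 4 * E₄ τ := by
  have := G_pairOf τ (k := 4) (by norm_num)
  unfold PeriodPair.g₂
  rw [this]
  push_cast
  ring

/-- `g₃ = 280 ζ(6) E₆`. -/
theorem g₃_pairOf (τ : ℍ) : (pairOf τ).g₃ = 280 * riemannZeta 6 * E₆ τ := by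
  have := G_pairOf τ (k := 6) (by norm_num)
  unfold PeriodPair.g₃
  rw [this]
  push_cast
  ring

end Fermat.Agent.S20.A1h234
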