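import Mathlib
import Fermat.Agent.S23.LevelOne
import Fermat.Agent.S20.T2_helper234

/-!
# S20 / A2 = T3 (helper234, backup): `j` is injective modulo `SL(2, ℤ)`

* `levelOne_homog` : a level-one modular form of weight `k` is an isobaric polynomial in
  `E₄, E₆`, in the form: `E₄ w = c⁴ E₄ z`, `E₆ w = c⁶ E₆ z` imply `f w = c ^ k f z`.
* `exists_scalar_of_j_eq` : `j z = j w` gives such a `c ≠ 0`.
* `levelOne_j_injective` : `E₄ z ^ 3 * Δ w = E₄ w ^ 3 * Δ z → ∃ γ : SL(2, ℤ), γ • z = w`.
-/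

set_option autoImplicit false

namespace Fermat.Agent.S20.A1h234

open UpperHalfPlane ModularForm EisensteinSeries ModularFormClass
open scoped MatrixGroups

/-- Auxiliary: every element of the span of weight-`k` monomial `q`-expansions is the
`q`-expansion of a level-one form which is `c`-homogeneous of degree `k`. -/
theorem exists_homog_of_mem_span (z w : ℍ) (c : ℂ) (hc : c ≠ 0)
    (h4 : E₄ w = c ^ 4 * E₄ z) (h6 : E₆ w = c ^ 6 * E₆ z) (k : ℤ) (P : PowerSeries ℂ)
    (hP : P ∈ Submodule.span ℂ (Fermat.Agent.S23.LevelOne.monoSet k)) :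
    ∃ g : ModularForm 𝒮ℒ k, qExpansion 1 g = P ∧ g w = c ^ k * g z := by
  induction hP using Submodule.span_induction with
  | mem x hx =>
    obtain ⟨a, b, hab, rfl⟩ := hx
    subst hab
    refine ⟨Fermat.Agent.S23.LevelOne.monoForm a b,
      Fermat.Agent.S23.LevelOne.qExpansion_monoForm a b, ?_⟩
    rw [Fermat.Agent.S23.LevelOne.monoForm_apply, Fermat.Agent.S23.LevelOne.monoForm_apply,
      h4, h6, zpow_add₀ hc]
    have e1 : c ^ (4 * (a : ℤ)) = (c ^ 4) ^ a := by
      rw [← zpow_natCast, ← zpow_natCast, ← zpow_mul]; norm_num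
    have e2 : c ^ (6 * (b : ℤ)) = (c ^ 6) ^ b := by
      rw [← zpow_natCast, ← zpow_natCast, ← zpow_mul]; norm_num
    rw [e1, e2]
    ring
  | zero => exact ⟨0, by simp [qExpansion_zero], by simp⟩
  | add x y _ _ hx hy =>
    obtain ⟨f, rfl, hf⟩ := hx
    obtain ⟨g, rfl, hg⟩ := hy
    refine ⟨f + g, by
      rw [FunLike.coe_add, ModularForm.qExpansion_add one_pos one_mem_strictPeriods_SL], ?_⟩
    simp only [add_apply, hf, hg]
    ring
  | smul a x _ hx =>
    obtain ⟨f, rfl, hf⟩ := hx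
    refine ⟨a • f, by
      rw [FunLike.coe_smul, ModularForm.qExpansion_smul one_pos one_mem_strictPeriods_SL], ?_⟩
    simp only [smul_apply, hf, smul_eq_mul]
    ring

/-- A level-one modular form is an isobaric polynomial in `E₄`, `E₆` (homogeneity form). -/
theorem levelOne_homog_zpow (z w : ℍ) (c : ℂ) (hc : c ≠ 0)
    (h4 : E₄ w = c ^ 4 * E₄ z) (h6 : E₆ w = c ^ 6 * E₆ z) (k : ℤ) (f : ModularForm 𝒮ℒ k) :
    f w = c ^ k * f z := by
  obtain ⟨g, hg, hgh⟩ := exists_homog_of_mem_span z w c hc h4 h6 k _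
    (Fermat.Agent.S23.LevelOne.levelOne_qExpansion_mem_span k f)
  have hfg : f - g = 0 := by
    rw [← ModularForm.qExpansion_eq_zero_iff one_pos one_mem_strictPeriods_SL,
      FunLike.coe_sub, ModularForm.qExpansion_sub one_pos one_mem_strictPeriods_SL, hg, sub_self]
  have : f = g := sub_eq_zero.mp hfg
  rw [this]
  exact hgh

/-- A level-one modular form is an isobaric polynomial in `E₄`, `E₆` (homogeneity form,
natural number weight). -/
theorem levelOne_homog (z w : ℍ) (c : ℂ) (hc : c ≠ 0)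
    (h4 : E₄ w = c ^ 4 * E₄ z) (h6 : E₆ w = c ^ 6 * E₆ z) (k : ℕ) (f : ModularForm 𝒮ℒ (k : ℤ)) :
    f w = c ^ k * f z := by
  rw [levelOne_homog_zpow z w c hc h4 h6 (k : ℤ) f, zpow_natCast]

/-- Pure algebra: choice of the scalar. -/
theorem exists_scalar_aux (A B A' B' : ℂ) (hΔ : A ^ 3 - B ^ 2 ≠ 0) (hΔ' : A' ^ 3 - B' ^ 2 ≠ 0)
    (h : A ^ 3 * B' ^ 2 = A' ^ 3 * B ^ 2) :
    ∃ c : ℂ, c ≠ 0 ∧ A' = c ^ 4 * A ∧ B' = c ^ 6 * B := by
  by_cases hA : A = 0
  · subst hA
    have hB : B ≠ 0 := by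
      intro hB; apply hΔ; rw [hB]; ring
    have hA' : A' = 0 := by
      have : A' ^ 3 * B ^ 2 = 0 := by rw [← h]; ring
      rcases mul_eq_zero.mp this with h1 | h1
      · exact pow_eq_zero_iff (by norm_num) |>.mp h1
      · exact absurd (pow_eq_zero_iff (by norm_num) |>.mp h1) hB
    subst hA'
    have hB' : B' ≠ 0 := by
      intro hB'; apply hΔ'; rw [hB']; ring
    obtain ⟨c, hc⟩ := IsAlgClosed.exists_pow_nat_eq (B' / B) (n := 6) (by norm_num)
    refine ⟨c, ?_, by simp, ?_⟩
    · rintro rfl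
      have : B' / B = 0 := by rw [← hc]; norm_num
      exact div_ne_zero hB' hB this
    · rw [hc]; field_simp
  · by_cases hB : B = 0
    · subst hB
      have hB' : B' = 0 := by
        have : A ^ 3 * B' ^ 2 = 0 := by rw [h]; ring
        rcases mul_eq_zero.mp this with h1 | h1
        · exact absurd (pow_eq_zero_iff (by norm_num) |>.mp h1) hA
        · exact pow_eq_zero_iff (by norm_num) |>.mp h1
      subst hB'
      have hA' : A' ≠ 0 := by
        intro hA'; apply hΔ'; rw [hA']; ring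
      obtain ⟨c, hc⟩ := IsAlgClosed.exists_pow_nat_eq (A' / A) (n := 4) (by norm_num)
      refine ⟨c, ?_, ?_, by simp⟩
      · rintro rfl
        have : A' / A = 0 := by rw [← hc]; norm_num
        exact div_ne_zero hA' hA this
      · rw [hc]; field_simp
    · have hA' : A' ≠ 0 := by
        intro hA'
        have : A ^ 3 * B' ^ 2 = 0 := by rw [h, hA']; ring
        rcases mul_eq_zero.mp this with h1 | h1
        · exact absurd (pow_eq_zero_iff (by norm_num) |>.mp h1) hA
        · have hB' : B' = 0 := pow_eq_zero_iff (by norm_num) |>.mp h1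
          apply hΔ'; rw [hA', hB']; ring
      obtain ⟨d, hd⟩ := IsAlgClosed.exists_pow_nat_eq (A' / A) (n := 4) (by norm_num)
      have hd0 : d ≠ 0 := by
        rintro rfl
        have : A' / A = 0 := by rw [← hd]; norm_num
        exact div_ne_zero hA' hA this
      have hA'eq : A' = d ^ 4 * A := by rw [hd]; field_simp
      -- `(B' - d^6 B) (B' + d^6 B) = 0`
      have hsq : (B' - d ^ 6 * B) * (B' + d ^ 6 * B) = 0 := by
        have h3 : A ^ 3 * (B' ^ 2 - d ^ 12 * B ^ 2) = 0 := by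
          rw [hA'eq] at h
          linear_combination h
        rcases mul_eq_zero.mp h3 with h1 | h1
        · exact absurd (pow_eq_zero_iff (by norm_num) |>.mp h1) hA
        · linear_combination h1
      rcases mul_eq_zero.mp hsq with h1 | h1
      · exact ⟨d, hd0, hA'eq, by linear_combination h1⟩
      · refine ⟨Complex.I * d, mul_ne_zero Complex.I_ne_zero hd0, ?_, ?_⟩
        · have hI4 : Complex.I ^ 4 = 1 := Complex.I_pow_four
          rw [mul_pow, hI4, one_mul]; exact hA'eq
        · have hI6 : Complex.I ^ 6 = -1 := by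
            have : Complex.I ^ 6 = Complex.I ^ 4 * Complex.I ^ 2 := by ring
            rw [this, Complex.I_pow_four, Complex.I_sq]; ring
          rw [mul_pow, hI6]
          linear_combination h1

/-- `j z = j w` gives `c ≠ 0` with `E₄ w = c⁴ E₄ z` and `E₆ w = c⁶ E₆ z`. -/
theorem exists_scalar_of_j_eq (z w : ℍ)
    (h : E₄ z ^ 3 * discriminant w = E₄ w ^ 3 * discriminant z) :
    ∃ c : ℂ, c ≠ 0 ∧ E₄ w = c ^ 4 * E₄ z ∧ E₆ w = c ^ 6 * E₆ z := by
  have hz := discriminant_eq_E₄_cube_sub_E₆_sq z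
  have hw := discriminant_eq_E₄_cube_sub_E₆_sq w
  have hz0 := discriminant_ne_zero z
  have hw0 := discriminant_ne_zero w
  refine exists_scalar_aux (E₄ z) (E₆ z) (E₄ w) (E₆ w) ?_ ?_ ?_
  · intro h0; apply hz0; rw [hz, h0]; simp
  · intro h0; apply hw0; rw [hw, h0]; simp
  · rw [hz, hw] at h
    linear_combination (-1728 : ℂ) * h

/-- **A2 = T3.** The `j`-invariant is injective modulo `SL(2, ℤ)`. -/
theorem levelOne_j_injective (z w : ℍ)
    (h : E₄ z ^ 3 * discriminant w = E₄ w ^ 3 * discriminant z) :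
    ∃ γ : SL(2, ℤ), γ • z = w := by
  obtain ⟨c, hc, h4, h6⟩ := exists_scalar_of_j_eq z w h
  refine exists_smul_eq_of_G_eq z w c⁻¹ (inv_ne_zero hc) fun n hn => ?_
  rw [G_pairOf w hn, G_pairOf z hn, levelOne_homog z w c hc h4 h6 n (E hn), inv_pow, inv_inv]
  ring

end Fermat.Agent.S20.A1h234
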