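import Mathlib

/-!
# S20 / A3 (helper537): proper discontinuity and stabilisers for `SL(2, ℤ)` acting on `ℍ`
-/

namespace Fermat.Agent.S20.A3h537

open UpperHalfPlane ModularForm CongruenceSubgroup MatrixGroups Matrix.SpecialLinearGroup
open Filter Topology Pointwise

/-- (PD) Every point of `ℍ` has a neighbourhood `U` such that any `γ ∈ SL(2, ℤ)` moving a point
of `U` to a point of `U` fixes `z₀`. -/
theorem exists_nhds_forall_smul_mem_imp_fix (z₀ : ℍ) :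
    ∃ U ∈ 𝓝 z₀, ∀ (γ : SL(2, ℤ)) (z : ℍ), z ∈ U → γ • z ∈ U → γ • z₀ = z₀ := by
  obtain ⟨K, hK, hKn⟩ := exists_compact_mem_nhds z₀
  have hfin : {g : GL (Fin 2) ℝ | g ∈ 𝒮ℒ ∧ (g • K ∩ K).Nonempty}.Finite :=
    (Subgroup.properlyDiscontinuousSMul_iff 𝒮ℒ).1 inferInstance hK hK
  have hW : ∀ g : GL (Fin 2) ℝ, ∃ W ∈ 𝓝 z₀, g • z₀ ≠ z₀ → ∀ z ∈ W, g • z ∉ W := by
    intro g
    by_cases hg : g • z₀ = z₀
    · exact ⟨Set.univ, univ_mem, fun h => (h hg).elim⟩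
    · obtain ⟨u, v, hu, hv, huv⟩ := t2_separation_nhds (Ne.symm hg)
      have hcont : ContinuousAt (fun z : ℍ => g • z) z₀ := (continuous_const_smul g).continuousAt
      refine ⟨u ∩ (fun z : ℍ => g • z) ⁻¹' v, inter_mem hu (hcont hv), fun _ z hz hgz => ?_⟩
      exact Set.disjoint_left.1 huv hgz.1 hz.2
  choose W hWn hWp using hW
  refine ⟨K ∩ ⋂ g ∈ hfin.toFinset, W g,
    inter_mem hKn ((Filter.biInter_finset_mem _).2 fun g _ => hWn g), ?_⟩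
  intro γ z hz hγz
  by_contra hne
  have hmem : (mapGL ℝ γ) ∈ {g : GL (Fin 2) ℝ | g ∈ 𝒮ℒ ∧ (g • K ∩ K).Nonempty} :=
    ⟨⟨γ, rfl⟩, ⟨γ • z, ⟨z, hz.1, rfl⟩, hγz.1⟩⟩
  have h1 : z ∈ W (mapGL ℝ γ) := Set.mem_iInter₂.1 hz.2 _ (hfin.mem_toFinset.2 hmem)
  have h2 : γ • z ∈ W (mapGL ℝ γ) := Set.mem_iInter₂.1 hγz.2 _ (hfin.mem_toFinset.2 hmem)
  exact hWp _ hne z h1 h2

/-- (ST) The automorphy factor of a stabilising element is a `k`-th root of unity whenever some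
level one form of weight `k` does not vanish at the point. -/
theorem denom_zpow_eq_one_of_fix {k : ℤ} (f : ModularForm 𝒮ℒ k) {z₀ : ℍ} (hf : f z₀ ≠ 0)
    (γ : SL(2, ℤ)) (hγ : γ • z₀ = z₀) : denom γ z₀ ^ k = 1 := by
  have h := SlashInvariantForm.slash_action_eqn'' (Γ := 𝒮ℒ) f (γ := mapGL ℝ γ) ⟨γ, rfl⟩ z₀
  have h' : f z₀ = denom (mapGL ℝ γ) z₀ ^ k * f z₀ := by
    have hsm : (mapGL ℝ γ) • z₀ = z₀ := hγ
    rw [hsm] at h
    exact h
  have h2 : (denom (mapGL ℝ γ) z₀ ^ k - 1) * f z₀ = 0 := by linear_combination -h'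
  rcases mul_eq_zero.1 h2 with h3 | h3
  · exact sub_eq_zero.1 h3
  · exact (hf h3).elim

/-- The fixed-point equation in coordinates. -/
theorem num_eq_mul_denom_of_fix {z₀ : ℍ} (γ : SL(2, ℤ)) (hγ : γ • z₀ = z₀) :
    ((γ 0 0 : ℤ) : ℂ) * z₀ + ((γ 0 1 : ℤ) : ℂ) =
      (z₀ : ℂ) * (((γ 1 0 : ℤ) : ℂ) * z₀ + ((γ 1 1 : ℤ) : ℂ)) := by
  have h := UpperHalfPlane.coe_specialLinearGroup_apply γ z₀
  rw [hγ] at h
  have hd : (((γ 1 0 : ℤ) : ℂ) * z₀ + ((γ 1 1 : ℤ) : ℂ)) ≠ 0 := by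
    have := UpperHalfPlane.denom_ne_zero (mapGL ℝ γ) z₀
    simpa [UpperHalfPlane.denom] using this
  simp only [algebraMap_int_eq, eq_intCast, Complex.ofReal_intCast] at h
  rw [eq_div_iff hd] at h
  linear_combination -h

theorem denom_eq_coe (γ : SL(2, ℤ)) (z₀ : ℍ) :
    denom γ z₀ = ((γ 1 0 : ℤ) : ℂ) * z₀ + ((γ 1 1 : ℤ) : ℂ) := by
  simp [UpperHalfPlane.denom]

/-- Two integers-linear combinations of `1, z₀` agree iff coefficients agree. -/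
theorem int_lin_eq {z₀ : ℍ} {a b a' b' : ℤ}
    (h : (a : ℂ) * z₀ + (b : ℂ) = (a' : ℂ) * z₀ + (b' : ℂ)) : a = a' ∧ b = b' := by
  have him := congrArg Complex.im h
  have hre := congrArg Complex.re h
  simp only [Complex.add_im, Complex.mul_im, Complex.intCast_re, Complex.intCast_im, zero_mul,
    add_zero, Complex.add_re, Complex.mul_re, sub_zero, UpperHalfPlane.coe_im,
    UpperHalfPlane.coe_re] at him hre
  have hpos : (0 : ℝ) < z₀.im := z₀.im_pos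
  have ha : (a : ℝ) = a' := by
    have : ((a : ℝ) - a') * z₀.im = 0 := by linear_combination him
    rcases mul_eq_zero.1 this with h1 | h1
    · linarith
    · exact absurd h1 hpos.ne'
  have hb : (b : ℝ) = b' := by
    rw [ha] at hre
    linarith
  exact ⟨by exact_mod_cast ha, by exact_mod_cast hb⟩

/-- The automorphy factor at `z₀` is injective on the stabiliser of `z₀`. -/
theorem eq_of_denom_eq_of_fix {z₀ : ℍ} (γ γ' : SL(2, ℤ)) (hγ : γ • z₀ = z₀) (hγ' : γ' • z₀ = z₀)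
    (hd : denom γ z₀ = denom γ' z₀) : γ = γ' := by
  rw [denom_eq_coe, denom_eq_coe] at hd
  obtain ⟨h10, h11⟩ := int_lin_eq hd
  have hn := num_eq_mul_denom_of_fix γ hγ
  have hn' := num_eq_mul_denom_of_fix γ' hγ'
  have hnum : ((γ 0 0 : ℤ) : ℂ) * z₀ + ((γ 0 1 : ℤ) : ℂ) =
      ((γ' 0 0 : ℤ) : ℂ) * z₀ + ((γ' 0 1 : ℤ) : ℂ) := by
    rw [hn, hn', hd]
  obtain ⟨h00, h01⟩ := int_lin_eq hnum
  ext i j
  fin_cases i <;> fin_cases j
  · exact h00
  · exact h01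
  · exact h10
  · exact h11

/-- If the squares of the automorphy factors of two stabilising elements agree, the two elements
act in the same way on `ℍ`. -/
theorem smul_eq_of_denom_sq_eq_of_fix {z₀ : ℍ} (γ γ' : SL(2, ℤ)) (hγ : γ • z₀ = z₀)
    (hγ' : γ' • z₀ = z₀) (hd : denom γ z₀ ^ 2 = denom γ' z₀ ^ 2) (z : ℍ) : γ • z = γ' • z := by
  rcases sq_eq_sq_iff_eq_or_eq_neg.1 hd with h | h
  · rw [eq_of_denom_eq_of_fix γ γ' hγ hγ' h]
  · have hneg : (-γ') • z₀ = z₀ := by rw [ModularGroup.SL_neg_smul]; exact hγ'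
    have hdn : denom γ z₀ = denom ((-γ' : SL(2, ℤ)) : GL (Fin 2) ℝ) z₀ := by
      rw [h, denom_eq_coe, denom_eq_coe]
      simp
      ring
    rw [eq_of_denom_eq_of_fix γ (-γ') hγ hneg hdn, ModularGroup.SL_neg_smul]

end Fermat.Agent.S20.A3h537
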