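import Fermat.Agent.S20.A3_helper537_LD
import Fermat.Agent.S20.A3_helper537_Stab

/-!
# S20 / A3 (helper537): simple zeros of `E₄`, `E₆` and of `E₄³ Δ(z₀) - E₄(z₀)³ Δ`

Everything is proved from the hypothesis that `j = E₄³ / Δ` is injective modulo `SL(2, ℤ)`
(`hinj`), by the local degree lemma + proper discontinuity + the automorphy character on the
stabiliser.
-/

namespace Fermat.Agent.S20.A3h537

open UpperHalfPlane ModularForm CongruenceSubgroup MatrixGroups Matrix.SpecialLinearGroup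
open Filter Topology
open scoped Manifold

local notation "Δ" => ModularForm.discriminant

/-- Holomorphic functions on `ℍ` are analytic after composing with `ofComplex`. -/
theorem analyticAt_comp_ofComplex_of_mdiff {f : ℍ → ℂ} (hf : MDiff f) (z : ℍ) :
    AnalyticAt ℂ (f ∘ ofComplex) (z : ℂ) :=
  (UpperHalfPlane.mdifferentiable_iff.1 hf).analyticAt
    (isOpen_upperHalfPlaneSet.mem_nhds z.im_pos)

theorem analyticAt_modularForm_comp_ofComplex {k : ℤ} (f : ModularForm 𝒮ℒ k) (z : ℍ) :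
    AnalyticAt ℂ (⇑f ∘ ofComplex) (z : ℂ) :=
  analyticAt_comp_ofComplex_of_mdiff f.holo' z

theorem analyticAt_discriminant_comp_ofComplex (z : ℍ) :
    AnalyticAt ℂ (Δ ∘ ofComplex) (z : ℂ) :=
  analyticAt_comp_ofComplex_of_mdiff CuspForm.discriminant.holo' z

/-- The `j`-function, as a function on `ℂ` (junk outside the upper half plane). -/
noncomputable def jC (w : ℂ) : ℂ := E₄ (ofComplex w) ^ 3 / Δ (ofComplex w)

theorem analyticAt_jC (z : ℍ) : AnalyticAt ℂ jC (z : ℂ) := by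
  have h4 : AnalyticAt ℂ (fun w : ℂ => E₄ (ofComplex w)) (z : ℂ) :=
    analyticAt_modularForm_comp_ofComplex E₄ z
  have hΔ : AnalyticAt ℂ (fun w : ℂ => Δ (ofComplex w)) (z : ℂ) :=
    analyticAt_discriminant_comp_ofComplex z
  exact (h4.pow 3).div hΔ (discriminant_ne_zero _)

theorem jC_eq_iff (v w : ℂ) :
    jC v = jC w ↔
      E₄ (ofComplex v) ^ 3 * Δ (ofComplex w) = E₄ (ofComplex w) ^ 3 * Δ (ofComplex v) := by
  unfold jC
  rw [div_eq_div_iff (discriminant_ne_zero _) (discriminant_ne_zero _)]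

/-- Counting lemma: near `z₀`, a fibre of `j` has at most `n` points if the squares of the
automorphy factors of the stabiliser of `z₀` are `n`-th roots of unity. -/
theorem card_le_of_fiber
    (hinj : ∀ z w : ℍ, E₄ z ^ 3 * Δ w = E₄ w ^ 3 * Δ z → ∃ γ : SL(2, ℤ), γ • z = w)
    {z₀ : ℍ} {n : ℕ} (hn : 0 < n)
    (hstab : ∀ γ : SL(2, ℤ), γ • z₀ = z₀ → (denom γ z₀ ^ 2) ^ n = 1) :
    ∃ U ∈ 𝓝 (z₀ : ℂ), ∀ (m : ℕ) (p : Fin m → ℂ), Function.Injective p → (∀ i, p i ∈ U) →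
      (∀ i j, jC (p i) = jC (p j)) → m ≤ n := by
  obtain ⟨U₀, hU₀, hPD⟩ := exists_nhds_forall_smul_mem_imp_fix z₀
  refine ⟨((↑) : ℍ → ℂ) '' U₀, (isOpenEmbedding_coe.image_mem_nhds).2 hU₀, ?_⟩
  intro m p hp hpU hj
  rcases Nat.eq_zero_or_pos m with rfl | hm
  · exact Nat.zero_le _
  choose q hqU hqp using hpU
  have hoc : ∀ i, ofComplex (p i) = q i := fun i => by rw [← hqp i, ofComplex_apply]
  have hqinj : Function.Injective q := by
    intro i j hij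
    apply hp
    rw [← hqp i, ← hqp j, hij]
  have hγ : ∀ i, ∃ γ : SL(2, ℤ), γ • q ⟨0, hm⟩ = q i := by
    intro i
    apply hinj
    have := (jC_eq_iff _ _).1 (hj ⟨0, hm⟩ i)
    rwa [hoc, hoc] at this
  choose γ hγq using hγ
  have hfix : ∀ i, γ i • z₀ = z₀ := fun i =>
    hPD (γ i) (q ⟨0, hm⟩) (hqU _) (by rw [hγq i]; exact hqU i)
  have hdinj : Function.Injective fun i => denom (γ i) z₀ ^ 2 := by
    intro i j hij
    apply hqinj
    rw [← hγq i, ← hγq j]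
    exact smul_eq_of_denom_sq_eq_of_fix (γ i) (γ j) (hfix i) (hfix j) hij _
  have hmem : ∀ i ∈ (Finset.univ : Finset (Fin m)),
      (fun i => denom (γ i) z₀ ^ 2) i ∈ Polynomial.nthRootsFinset n (1 : ℂ) := by
    intro i _
    rw [Polynomial.mem_nthRootsFinset hn]
    exact hstab (γ i) (hfix i)
  have hcard := Finset.card_le_card_of_injOn (fun i => denom (γ i) z₀ ^ 2) hmem
    (hdinj.injOn)
  have hroots : (Polynomial.nthRootsFinset n (1 : ℂ)).card ≤ n := by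
    unfold Polynomial.nthRootsFinset
    exact (Multiset.toFinset_card_le _).trans (Polynomial.card_nthRoots n 1)
  simpa using hcard.trans hroots

/-- The order of `j - j(z₀)` at `z₀` is at most `n` if the squares of the automorphy factors of
the stabiliser of `z₀` are `n`-th roots of unity. -/
theorem not_le_order_jC
    (hinj : ∀ z w : ℍ, E₄ z ^ 3 * Δ w = E₄ w ^ 3 * Δ z → ∃ γ : SL(2, ℤ), γ • z = w)
    {z₀ : ℍ} {n : ℕ} (hn : 0 < n)
    (hstab : ∀ γ : SL(2, ℤ), γ • z₀ = z₀ → (denom γ z₀ ^ 2) ^ n = 1) :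
    ¬ (((n + 1 : ℕ) : ℕ∞) ≤ analyticOrderAt (fun w => jC w - jC z₀) (z₀ : ℂ)) := by
  intro hle
  obtain ⟨U, hU, hcount⟩ := card_le_of_fiber hinj hn hstab
  obtain ⟨p, hp, hpU, hpj⟩ := exists_injective_fiber (analyticAt_jC z₀) hle hU
  have := hcount (n + 1) p hp hpU hpj
  omega

/-- Variant of `not_le_order_jC` with the factorisation spelled out. -/
theorem not_exists_factor_jC
    (hinj : ∀ z w : ℍ, E₄ z ^ 3 * Δ w = E₄ w ^ 3 * Δ z → ∃ γ : SL(2, ℤ), γ • z = w)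
    {z₀ : ℍ} {n : ℕ} (hn : 0 < n)
    (hstab : ∀ γ : SL(2, ℤ), γ • z₀ = z₀ → (denom γ z₀ ^ 2) ^ n = 1)
    (h : ℂ → ℂ) (hh : AnalyticAt ℂ h (z₀ : ℂ))
    (hfac : ∀ᶠ w in 𝓝 (z₀ : ℂ), jC w - jC z₀ = (w - z₀) ^ (n + 1) • h w) : False := by
  apply not_le_order_jC hinj hn hstab
  have hA : AnalyticAt ℂ (fun w => jC w - jC z₀) (z₀ : ℂ) :=
    (analyticAt_jC z₀).sub analyticAt_const
  rw [natCast_le_analyticOrderAt hA]
  exact ⟨h, hh, hfac⟩

/-- A function vanishing at `x` together with its derivative factors through `(w - x)^2`. -/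
theorem exists_factor_sq_of_deriv_eq_zero {f : ℂ → ℂ} {x : ℂ} (hf : AnalyticAt ℂ f x)
    (h0 : f x = 0) (h1 : deriv f x = 0) :
    ∃ h : ℂ → ℂ, AnalyticAt ℂ h x ∧ ∀ᶠ w in 𝓝 x, f w = (w - x) ^ 2 • h w := by
  have : ((2 : ℕ) : ℕ∞) ≤ analyticOrderAt f x := by
    rw [natCast_le_analyticOrderAt_iff_iteratedDeriv_eq_zero hf]
    intro i hi
    interval_cases i
    · simpa using h0
    · simpa using h1
  exact (natCast_le_analyticOrderAt hf).1 this

section stabilisers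

variable {z₀ : ℍ}

theorem denom_pow_four_of_fix (h4 : E₄ z₀ ≠ 0) (γ : SL(2, ℤ)) (hγ : γ • z₀ = z₀) :
    denom γ z₀ ^ 4 = 1 := by
  have := denom_zpow_eq_one_of_fix E₄ h4 γ hγ
  exact_mod_cast this

theorem denom_pow_six_of_fix (h6 : E₆ z₀ ≠ 0) (γ : SL(2, ℤ)) (hγ : γ • z₀ = z₀) :
    denom γ z₀ ^ 6 = 1 := by
  have := denom_zpow_eq_one_of_fix E₆ h6 γ hγ
  exact_mod_cast this

end stabilisers

theorem E₆_ne_zero_of_E₄_eq_zero {z : ℍ} (hz : E₄ z = 0) : E₆ z ≠ 0 := by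
  intro h6
  have h := discriminant_eq_E₄_cube_sub_E₆_sq z
  rw [hz, h6] at h
  exact discriminant_ne_zero z (by rw [h]; norm_num)

theorem E₄_ne_zero_of_E₆_eq_zero {z : ℍ} (hz : E₆ z = 0) : E₄ z ≠ 0 := by
  intro h4
  have h := discriminant_eq_E₄_cube_sub_E₆_sq z
  rw [hz, h4] at h
  exact discriminant_ne_zero z (by rw [h]; norm_num)

/-- **Simple zeros of `E₄`** (assuming `j` injective modulo `SL(2, ℤ)`). -/
theorem E₄_simple_zero
    (hinj : ∀ z w : ℍ, E₄ z ^ 3 * Δ w = E₄ w ^ 3 * Δ z → ∃ γ : SL(2, ℤ), γ • z = w)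
    (z : ℍ) (hz : E₄ z = 0) : deriv (⇑E₄ ∘ ofComplex) z ≠ 0 := by
  intro hd
  have h6 : E₆ z ≠ 0 := E₆_ne_zero_of_E₄_eq_zero hz
  have han : AnalyticAt ℂ (⇑E₄ ∘ ofComplex) (z : ℂ) := analyticAt_modularForm_comp_ofComplex E₄ z
  have h0 : (⇑E₄ ∘ ofComplex) (z : ℂ) = 0 := by simp [hz]
  obtain ⟨h, hh, hfac⟩ := exists_factor_sq_of_deriv_eq_zero han h0 hd
  have hΔ : AnalyticAt ℂ (fun w : ℂ => Δ (ofComplex w)) (z : ℂ) :=
    analyticAt_discriminant_comp_ofComplex z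
  have hstab : ∀ γ : SL(2, ℤ), γ • z = z → (denom γ z ^ 2) ^ 3 = 1 := by
    intro γ hγ
    rw [← pow_mul]
    exact denom_pow_six_of_fix h6 γ hγ
  refine not_exists_factor_jC hinj (n := 3) (by norm_num) hstab
    (fun w => (w - z) ^ 2 * h w ^ 3 / Δ (ofComplex w)) ?_ ?_
  · exact (((analyticAt_id.sub analyticAt_const).pow 2).mul (hh.pow 3)).div hΔ
      (discriminant_ne_zero _)
  · filter_upwards [hfac] with w hw
    have hjz : jC z = 0 := by simp [jC, hz]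
    have hw' : E₄ (ofComplex w) = (w - z) ^ 2 * h w := by simpa using hw
    rw [hjz, sub_zero, jC, hw']
    simp only [smul_eq_mul]
    ring

/-- **Simple zeros of `E₆`** (assuming `j` injective modulo `SL(2, ℤ)`). -/
theorem E₆_simple_zero
    (hinj : ∀ z w : ℍ, E₄ z ^ 3 * Δ w = E₄ w ^ 3 * Δ z → ∃ γ : SL(2, ℤ), γ • z = w)
    (z : ℍ) (hz : E₆ z = 0) : deriv (⇑E₆ ∘ ofComplex) z ≠ 0 := by
  intro hd
  have h4 : E₄ z ≠ 0 := E₄_ne_zero_of_E₆_eq_zero hz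
  have han : AnalyticAt ℂ (⇑E₆ ∘ ofComplex) (z : ℂ) := analyticAt_modularForm_comp_ofComplex E₆ z
  have h0 : (⇑E₆ ∘ ofComplex) (z : ℂ) = 0 := by simp [hz]
  obtain ⟨h, hh, hfac⟩ := exists_factor_sq_of_deriv_eq_zero han h0 hd
  have hΔ : AnalyticAt ℂ (fun w : ℂ => Δ (ofComplex w)) (z : ℂ) :=
    analyticAt_discriminant_comp_ofComplex z
  have hstab : ∀ γ : SL(2, ℤ), γ • z = z → (denom γ z ^ 2) ^ 2 = 1 := by
    intro γ hγ
    rw [← pow_mul]
    exact denom_pow_four_of_fix h4 γ hγ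
  have hj : ∀ w : ℂ, jC w = 1728 + E₆ (ofComplex w) ^ 2 / Δ (ofComplex w) := by
    intro w
    have h := discriminant_eq_E₄_cube_sub_E₆_sq (ofComplex w)
    have hne := discriminant_ne_zero (ofComplex w)
    unfold jC
    field_simp
    linear_combination -1728 * h
  refine not_exists_factor_jC hinj (n := 2) (by norm_num) hstab
    (fun w => (w - z) * h w ^ 2 / Δ (ofComplex w)) ?_ ?_
  · exact ((analyticAt_id.sub analyticAt_const).mul (hh.pow 2)).div hΔ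
      (discriminant_ne_zero _)
  · filter_upwards [hfac] with w hw
    have hw' : E₆ (ofComplex w) = (w - z) ^ 2 * h w := by simpa using hw
    rw [hj w, hj z, hw']
    simp only [ofComplex_apply, hz, smul_eq_mul]
    ring

/-- **Simple zeros of `E₄³ Δ(z₀) - E₄(z₀)³ Δ`** at a generic point `z₀`
(assuming `j` injective modulo `SL(2, ℤ)`). -/
theorem jform_simple_zero
    (hinj : ∀ z w : ℍ, E₄ z ^ 3 * Δ w = E₄ w ^ 3 * Δ z → ∃ γ : SL(2, ℤ), γ • z = w)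
    (z₀ : ℍ) (h4 : E₄ z₀ ≠ 0) (h6 : E₆ z₀ ≠ 0) :
    deriv ((fun z : ℍ ↦ E₄ z ^ 3 * Δ z₀ - E₄ z₀ ^ 3 * Δ z) ∘ ofComplex) z₀ ≠ 0 := by
  intro hd
  have hΔ : AnalyticAt ℂ (fun w : ℂ => Δ (ofComplex w)) (z₀ : ℂ) :=
    analyticAt_discriminant_comp_ofComplex z₀
  have hE : AnalyticAt ℂ (fun w : ℂ => E₄ (ofComplex w)) (z₀ : ℂ) :=
    analyticAt_modularForm_comp_ofComplex E₄ z₀
  have han : AnalyticAt ℂ ((fun z : ℍ ↦ E₄ z ^ 3 * Δ z₀ - E₄ z₀ ^ 3 * Δ z) ∘ ofComplex)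
      (z₀ : ℂ) :=
    ((hE.pow 3).mul analyticAt_const).sub (analyticAt_const.mul hΔ)
  have h0 : ((fun z : ℍ ↦ E₄ z ^ 3 * Δ z₀ - E₄ z₀ ^ 3 * Δ z) ∘ ofComplex) (z₀ : ℂ) = 0 := by
    simp
  obtain ⟨h, hh, hfac⟩ := exists_factor_sq_of_deriv_eq_zero han h0 hd
  have hstab : ∀ γ : SL(2, ℤ), γ • z₀ = z₀ → (denom γ z₀ ^ 2) ^ 1 = 1 := by
    intro γ hγ
    have e4 := denom_pow_four_of_fix h4 γ hγ
    have e6 := denom_pow_six_of_fix h6 γ hγ
    have : denom γ z₀ ^ 6 = denom γ z₀ ^ 4 * denom γ z₀ ^ 2 := by ring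
    rw [e6, e4, one_mul] at this
    rw [pow_one]
    exact this.symm
  refine not_exists_factor_jC hinj (n := 1) (by norm_num) hstab
    (fun w => h w / (Δ (ofComplex w) * Δ z₀)) ?_ ?_
  · exact hh.div (hΔ.mul analyticAt_const)
      (mul_ne_zero (discriminant_ne_zero _) (discriminant_ne_zero _))
  · filter_upwards [hfac] with w hw
    have hw' : E₄ (ofComplex w) ^ 3 * Δ z₀ - E₄ z₀ ^ 3 * Δ (ofComplex w) = (w - z₀) ^ 2 * h w := by
      simpa using hw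
    have hne := discriminant_ne_zero (ofComplex w)
    have hne0 := discriminant_ne_zero z₀
    unfold jC
    simp only [ofComplex_apply, smul_eq_mul]
    field_simp
    linear_combination hw'

/-- Zero set of `E₄`: any two zeros are `SL(2, ℤ)`-equivalent. -/
theorem E₄_zeros_same_orbit
    (hinj : ∀ z w : ℍ, E₄ z ^ 3 * Δ w = E₄ w ^ 3 * Δ z → ∃ γ : SL(2, ℤ), γ • z = w)
    {z w : ℍ} (hz : E₄ z = 0) (hw : E₄ w = 0) : ∃ γ : SL(2, ℤ), γ • z = w :=
  hinj z w (by rw [hz, hw]; ring)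

/-- Zero set of `E₆`: any two zeros are `SL(2, ℤ)`-equivalent. -/
theorem E₆_zeros_same_orbit
    (hinj : ∀ z w : ℍ, E₄ z ^ 3 * Δ w = E₄ w ^ 3 * Δ z → ∃ γ : SL(2, ℤ), γ • z = w)
    {z w : ℍ} (hz : E₆ z = 0) (hw : E₆ w = 0) : ∃ γ : SL(2, ℤ), γ • z = w := by
  apply hinj
  have h1 := discriminant_eq_E₄_cube_sub_E₆_sq z
  have h2 := discriminant_eq_E₄_cube_sub_E₆_sq w
  rw [hz] at h1
  rw [hw] at h2
  rw [h1, h2]
  ring

/-- Zero set of the generic form: trivial from `hinj`. -/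
theorem jform_zeros_same_orbit
    (hinj : ∀ z w : ℍ, E₄ z ^ 3 * Δ w = E₄ w ^ 3 * Δ z → ∃ γ : SL(2, ℤ), γ • z = w)
    {z₀ z : ℍ} (hz : E₄ z ^ 3 * Δ z₀ - E₄ z₀ ^ 3 * Δ z = 0) : ∃ γ : SL(2, ℤ), γ • z₀ = z :=
  hinj z₀ z (by linear_combination -hz)

end Fermat.Agent.S20.A3h537
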