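import Mathlib

/-!
# S20 / A3 (helper537): local degree lemma

If `g` is analytic at `x` and `g - g x` vanishes to order `≥ m` at `x`, then every neighbourhood
of `x` contains `m` pairwise distinct points at which `g` takes the same value.
-/

namespace Fermat.Agent.S20.A3h537

open Complex Filter Topology

/-- `m`-th root of a nonvanishing analytic germ, normalised at the base point. -/
theorem exists_analytic_root {h : ℂ → ℂ} {x : ℂ} (hh : AnalyticAt ℂ h x) (hx : h x ≠ 0)
    {m : ℕ} (hm : m ≠ 0) :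
    ∃ k : ℂ → ℂ, AnalyticAt ℂ k x ∧ k x = 1 ∧ ∀ᶠ z in 𝓝 x, h z = h x * k z ^ m := by
  have hm' : (m : ℂ) ≠ 0 := by exact_mod_cast hm
  refine ⟨fun z => Complex.exp (Complex.log (h z / h x) / m), ?_, ?_, ?_⟩
  · have h1 : AnalyticAt ℂ (fun z => h z / h x) x := hh.div analyticAt_const hx
    have h2 : h x / h x ∈ Complex.slitPlane := by
      rw [div_self hx]; exact Complex.one_mem_slitPlane
    have h3 : AnalyticAt ℂ (fun z => Complex.log (h z / h x)) x := h1.clog h2
    exact (h3.div analyticAt_const hm').cexp'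
  · simp [div_self hx]
  · have h1 : ContinuousAt (fun z => h z / h x) x := hh.continuousAt.div_const _
    have h2 : ∀ᶠ z in 𝓝 x, h z / h x ≠ 0 :=
      h1.eventually_ne (by rw [div_self hx]; exact one_ne_zero)
    filter_upwards [h2] with z hz
    rw [← Complex.exp_nat_mul, mul_div_cancel₀ _ hm', Complex.exp_log hz, mul_div_cancel₀ _ hx]

/-- Local degree lemma, exact finite order version. -/
theorem exists_injective_fiber_of_order_eq {g : ℂ → ℂ} {x : ℂ} (hg : AnalyticAt ℂ g x) {n : ℕ}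
    (hn : analyticOrderAt (fun z => g z - g x) x = n) {U : Set ℂ} (hU : U ∈ 𝓝 x) :
    ∃ p : Fin n → ℂ, Function.Injective p ∧ (∀ i, p i ∈ U) ∧ ∀ i j, g (p i) = g (p j) := by
  rcases Nat.eq_zero_or_pos n with rfl | hnpos
  · exact ⟨fun _ => x, fun i => i.elim0, fun i => i.elim0, fun i => i.elim0⟩
  have hn0 : n ≠ 0 := hnpos.ne'
  have hG : AnalyticAt ℂ (fun z => g z - g x) x := hg.sub analyticAt_const
  obtain ⟨h, hh, hhx, hfac⟩ := hG.analyticOrderAt_eq_natCast.1 hn
  obtain ⟨k, hk, hkx, hroot⟩ := exists_analytic_root hh hhx hn0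
  set φ : ℂ → ℂ := fun z => (z - x) * k z with hφ
  have hφan : AnalyticAt ℂ φ x := (analyticAt_id.sub analyticAt_const).mul hk
  have hφx : φ x = 0 := by simp [hφ]
  -- derivative of φ at x is 1
  have hderiv : HasDerivAt φ 1 x := by
    have h1 : HasDerivAt (fun z : ℂ => z - x) 1 x := (hasDerivAt_id x).sub_const x
    have h2 : HasDerivAt k (deriv k x) x := hk.differentiableAt.hasDerivAt
    have h3 : HasDerivAt (fun z : ℂ => (z - x) * k z) (1 * k x + (x - x) * deriv k x) x :=
      h1.mul h2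
    simpa [hkx, hφ] using h3
  have hnotconst : ¬ ∀ᶠ z in 𝓝 x, φ z = φ x := by
    intro hc
    have : deriv φ x = 0 := by
      have : φ =ᶠ[𝓝 x] fun _ => φ x := hc
      rw [this.deriv_eq]; simp
    rw [hderiv.deriv] at this
    exact one_ne_zero this
  have hopen : 𝓝 (φ x) ≤ map φ (𝓝 x) :=
    hφan.eventually_constant_or_nhds_le_map_nhds.resolve_left hnotconst
  -- the good neighbourhood
  have hV : {z | z ∈ U ∧ g z - g x = h x * φ z ^ n} ∈ 𝓝 x := by
    filter_upwards [hU, hfac, hroot] with z hzU hz1 hz2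
    refine ⟨hzU, ?_⟩
    rw [hz1, hz2, hφ]
    simp only [smul_eq_mul, mul_pow]
    ring
  have himg : φ '' {z | z ∈ U ∧ g z - g x = h x * φ z ^ n} ∈ 𝓝 (0 : ℂ) := by
    rw [← hφx]
    exact hopen (image_mem_map hV)
  obtain ⟨ε, hε, hball⟩ := Metric.mem_nhds_iff.1 himg
  set ζ : ℂ := Complex.exp (2 * Real.pi * Complex.I / n) with hζ
  have hprim : IsPrimitiveRoot ζ n := Complex.isPrimitiveRoot_exp n hn0
  have hζnorm : ‖ζ‖ = 1 := by
    have := hprim.pow_eq_one
    exact (norm_eq_one_of_pow_eq_one this hn0)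
  have hw : ∀ i : Fin n, ((ε / 2 : ℝ) : ℂ) * ζ ^ (i : ℕ) ∈
      φ '' {z | z ∈ U ∧ g z - g x = h x * φ z ^ n} := by
    intro i
    apply hball
    rw [Metric.mem_ball, dist_zero_right, norm_mul, norm_pow, hζnorm, one_pow, mul_one,
      Complex.norm_real, Real.norm_eq_abs, abs_of_pos (by positivity)]
    linarith
  choose p hpV hpφ using hw
  refine ⟨p, ?_, fun i => (hpV i).1, ?_⟩
  · intro i j hij
    have h1 : ((ε / 2 : ℝ) : ℂ) * ζ ^ (i : ℕ) = ((ε / 2 : ℝ) : ℂ) * ζ ^ (j : ℕ) := by
      rw [← hpφ i, ← hpφ j, hij]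
    have hε2 : ((ε / 2 : ℝ) : ℂ) ≠ 0 := by
      exact_mod_cast (by positivity : (ε / 2 : ℝ) ≠ 0)
    have h2 : ζ ^ (i : ℕ) = ζ ^ (j : ℕ) := mul_left_cancel₀ hε2 h1
    exact Fin.ext (hprim.pow_inj i.2 j.2 h2)
  · have key : ∀ i : Fin n, g (p i) = g x + h x * ((ε / 2 : ℝ) : ℂ) ^ n := by
      intro i
      have h1 := (hpV i).2
      rw [hpφ i, mul_pow, ← pow_mul, mul_comm (i : ℕ) n, pow_mul, hprim.pow_eq_one, one_pow,
        mul_one] at h1
      linear_combination h1
    intro i j
    rw [key i, key j]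

/-- **Local degree lemma.** If `g` is analytic at `x` and `g - g x` vanishes to order at least `m`
at `x`, then every neighbourhood of `x` contains `m` pairwise distinct points with the same
`g`-value. -/
theorem exists_injective_fiber {g : ℂ → ℂ} {x : ℂ} (hg : AnalyticAt ℂ g x) {m : ℕ}
    (hm : (m : ℕ∞) ≤ analyticOrderAt (fun z => g z - g x) x) {U : Set ℂ} (hU : U ∈ 𝓝 x) :
    ∃ p : Fin m → ℂ, Function.Injective p ∧ (∀ i, p i ∈ U) ∧ ∀ i j, g (p i) = g (p j) := by
  rcases h : analyticOrderAt (fun z => g z - g x) x with _ | n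
  · -- infinite order: `g` is locally constant
    have h' : analyticOrderAt (fun z => g z - g x) x = ⊤ := h
    rw [analyticOrderAt_eq_top] at h'
    have hV : {z | z ∈ U ∧ g z - g x = 0} ∈ 𝓝 x := by
      filter_upwards [hU, h'] with z h1 h2 using ⟨h1, h2⟩
    have hinf : Set.Infinite {z | z ∈ U ∧ g z - g x = 0} := infinite_of_mem_nhds x hV
    let e := hinf.natEmbedding
    refine ⟨fun i => (e i : ℂ), ?_, fun i => (e i).2.1, ?_⟩
    · intro i j hij
      have : e i = e j := Subtype.ext hij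
      exact Fin.ext (e.injective this)
    · intro i j
      have hi := (e i).2.2
      have hj := (e j).2.2
      linear_combination hi - hj
  · have hn : analyticOrderAt (fun z => g z - g x) x = (n : ℕ) := h
    rw [hn] at hm
    have hmn : m ≤ n := by exact_mod_cast hm
    obtain ⟨p, hp1, hp2, hp3⟩ := exists_injective_fiber_of_order_eq hg hn hU
    exact ⟨fun i => p (Fin.castLE hmn i), fun i j hij => Fin.castLE_injective hmn (hp1 hij),
      fun i => hp2 _, fun i j => hp3 _ _⟩

end Fermat.Agent.S20.A3h537
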