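/-
S20 long-shot: interface file (helper500).  SORRY-FREE: every package statement is a `Prop`-valued
`def`; package teams prove `theorem ... : <that Prop>` in their own files.

Packages:
* `RHStatement`   -- pure algebra: Riemann-Hurwitz + "dim of holomorphic differentials" for a finite
                     cover of the projective line given by valuations.
* `ANStatement N` -- analysis: the modular curve X_0(N) gives such a cover, and S_2 = its differentials.
* `COMBStatement N` -- finite combinatorics of SL2(Z)/Gamma0(N).
Assembly (`Fermat.Agent.S20.result_of_packages`) is proved in `Assembly.lean`.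
-/
import Mathlib
import Fermat.Prelude.Def_ModularCurve_GenusNumerics

set_option autoImplicit false

open scoped MatrixGroups

noncomputable section

namespace Fermat.Agent.S20

/-! ### Abstract covers of the projective line given by valuations -/

/-- Raw data of a "curve over `ℂ` with a finite map `x` to the projective line":
a field `V` (the function field), a coordinate `x : V`, a family of `ℤ ∪ {∞}`-valued
valuations `v P` indexed by the places `P : ι`, the center of each place on the
projective line (`OnePoint ℂ`, `∞` = the point at infinity) and the ramification index. -/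
structure CoverData (V : Type*) [Field V] [Algebra ℂ V] (ι : Type*) where
  /-- the coordinate function (for the modular curve: the `j`-function) -/
  x : V
  /-- the degree of the cover -/
  d : ℕ
  /-- the valuations (order of vanishing at the place `P`; `⊤` exactly at `0`) -/
  v : ι → V → WithTop ℤ
  /-- the image of the place on the projective line -/
  center : ι → OnePoint ℂ
  /-- the ramification index of the place over its center -/
  e : ι → ℕ

namespace CoverData

variable {V : Type*} [Field V] [Algebra ℂ V] {ι : Type*} (D : CoverData V ι)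

/-- The subfield `ℂ(x)` of `V`. -/
def baseField : IntermediateField ℂ V := IntermediateField.adjoin ℂ {D.x}

/-- The hypotheses on a `CoverData`. -/
structure Valid : Prop where
  d_pos : 0 < D.d
  /-- `[V : ℂ(x)] = d` -/
  finrank_eq : Module.finrank D.baseField V = D.d
  e_pos : ∀ P, 0 < D.e P
  /-- valuation axioms -/
  v_zero : ∀ P, D.v P 0 = ⊤
  v_eq_top : ∀ P h, D.v P h = ⊤ → h = 0
  v_mul : ∀ P g h, D.v P (g * h) = D.v P g + D.v P h
  v_add : ∀ P g h, min (D.v P g) (D.v P h) ≤ D.v P (g + h)
  v_const : ∀ P (c : ℂ), c ≠ 0 → D.v P (algebraMap ℂ V c) = 0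
  /-- (H1) behaviour of the coordinate at a place with finite center `a` -/
  v_x_sub : ∀ P (a : ℂ), D.center P = (a : OnePoint ℂ) →
    ∀ b : ℂ, D.v P (D.x - algebraMap ℂ V b) = if b = a then (D.e P : WithTop ℤ) else 0
  /-- (H1) behaviour of the coordinate at a place over infinity -/
  v_x_infty : ∀ P, D.center P = OnePoint.infty → D.v P D.x = ((-(D.e P : ℤ) : ℤ) : WithTop ℤ)
  /-- (H2) every fibre is finite and `∑ e_P = d` -/
  fibre : ∀ a : OnePoint ℂ, ∃ s : Finset ι, (∀ P, P ∈ s ↔ D.center P = a) ∧ ∑ P ∈ s, D.e P = D.d
  /-- (H3) residue fields are `ℂ` -/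
  residue : ∀ P h, 0 ≤ D.v P h → ∃ c : ℂ, 0 < D.v P (h - algebraMap ℂ V c)
  /-- (H4) local integrality: a function regular at all places over `a` is integral over the
  local ring of `ℂ(x)` at `a`: it is a root of a monic polynomial whose coefficients lie in
  `ℂ(x)` and are regular at all places over `a`. -/
  integral : ∀ (a : OnePoint ℂ) (h : V), (∀ P, D.center P = a → 0 ≤ D.v P h) →
    ∃ p : Polynomial V, p.Monic ∧ p.eval h = 0 ∧
      ∀ i, p.coeff i ∈ D.baseField ∧ ∀ P, D.center P = a → 0 ≤ D.v P (p.coeff i)
  /-- (H5) a function regular at all places is constant -/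
  const : ∀ h, (∀ P, 0 ≤ D.v P h) → ∃ c : ℂ, h = algebraMap ℂ V c

/-- The carrier of the space of holomorphic differentials `h·dx`:
`ord_P (h dx) = v_P h + (e_P - 1)` at finite places and `v_P h - e_P - 1` at infinite places. -/
def IsHolDiff (h : V) : Prop :=
  ∀ P, (D.center P ≠ OnePoint.infty → ((-(D.e P : ℤ) + 1 : ℤ) : WithTop ℤ) ≤ D.v P h) ∧
       (D.center P = OnePoint.infty → (((D.e P : ℤ) + 1 : ℤ) : WithTop ℤ) ≤ D.v P h)

/-- The space of holomorphic differentials of a valid cover, as a `ℂ`-subspace of `V`
(`h ↦ h·dx`). -/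
def holDiff (hD : D.Valid) : Submodule ℂ V where
  carrier := {h | D.IsHolDiff h}
  zero_mem' := fun P => by
    constructor <;> intro _ <;> rw [hD.v_zero P] <;> exact le_top
  add_mem' := by
    intro g h hg hh P
    exact ⟨fun hP => le_trans (le_min ((hg P).1 hP) ((hh P).1 hP)) (hD.v_add P g h),
      fun hP => le_trans (le_min ((hg P).2 hP) ((hh P).2 hP)) (hD.v_add P g h)⟩
  smul_mem' := by
    intro c h hh P
    rcases eq_or_ne c 0 with rfl | hc
    · simp only [zero_smul, hD.v_zero P]
      exact ⟨fun _ => le_top, fun _ => le_top⟩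
    · have : D.v P (c • h) = D.v P h := by
        rw [Algebra.smul_def, hD.v_mul, hD.v_const P c hc, zero_add]
      rw [this]
      exact hh P

end CoverData

/-- **Package RH** (pure algebra).  For every valid cover and every finite set `ram` of places
containing all ramified places:
`2 * dim (holomorphic differentials) + 2 * d = 2 + ∑_{P ∈ ram} (e_P - 1)`
(Riemann-Hurwitz: `2g - 2 = -2d + ∑ (e_P - 1)`, together with `dim Ω = g`).
The space is also asserted to be finite dimensional. -/
def RHStatement.{u, w} : Prop :=
  ∀ (V : Type u) [Field V] [Algebra ℂ V] (ι : Type w) (D : CoverData V ι) (hD : D.Valid)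
    (ram : Finset ι), (∀ P, P ∉ ram → D.e P = 1) →
    FiniteDimensional ℂ (D.holDiff hD) ∧
    2 * Module.finrank ℂ (D.holDiff hD) + 2 * D.d = 2 + ∑ P ∈ ram, (D.e P - 1)

/-! ### The coset space of `Γ₀(N)` -/

/-- Left cosets `g Γ₀(N)` in `SL(2,ℤ)`, with the left action of `SL(2,ℤ)`. -/
abbrev Q (N : ℕ) : Type := SL(2, ℤ) ⧸ CongruenceSubgroup.Gamma0 N

/-- Number of orbits of the cyclic group generated by `g` on the cosets. -/
def orbitCount (N : ℕ) (g : SL(2, ℤ)) : ℕ :=
  Nat.card (MulAction.orbitRel.Quotient (Subgroup.zpowers g) (Q N))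

/-- **Package COMB** (finite combinatorics).  With `d = [SL(2,ℤ) : Γ₀(N)]`:
`d = ψ(N)`; the involution `S` has `ν₂` fixed cosets, so `2·#orbits(S) = d + ν₂`;
`ST` (order 3 on cosets) has `ν₃` fixed cosets, so `3·#orbits(ST) = d + 2ν₃`;
`#orbits(T) = cuspCount N`. -/
def COMBStatement (N : ℕ) : Prop :=
  Nat.card (Q N) = ModularCurve.dedekindPsi N ∧
  2 * orbitCount N ModularGroup.S = Nat.card (Q N) + ModularCurve.nuTwo N ∧
  3 * orbitCount N (ModularGroup.S * ModularGroup.T) = Nat.card (Q N) + 2 * ModularCurve.nuThree N ∧
  orbitCount N ModularGroup.T = ModularCurve.cuspCount N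

/-- **Package AN** (analysis): the modular curve `X₀(N)` is a valid cover of the `j`-line of
degree `d = [SL(2,ℤ) : Γ₀(N)]`, ramified only above `j = 0, 1728, ∞` with ramification given by
the orbits of `ST`, `S`, `T` on the cosets, and `f ↦ f / j'` identifies `S₂(Γ₀(N))` with its
holomorphic differentials. -/
def ANStatement (N : ℕ) : Prop :=
  ∃ (V : Type) (_ : Field V) (_ : Algebra ℂ V) (ι : Type) (D : CoverData V ι) (hD : D.Valid)
    (ram : Finset ι),
    D.d = Nat.card (Q N) ∧
    (∀ P, P ∉ ram → D.e P = 1) ∧
    (∑ P ∈ ram, (D.e P - 1)) + orbitCount N ModularGroup.S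
        + orbitCount N (ModularGroup.S * ModularGroup.T) + orbitCount N ModularGroup.T
      = 3 * Nat.card (Q N) ∧
    Nonempty (CuspForm (CongruenceSubgroup.Gamma0 N) 2 ≃ₗ[ℂ] D.holDiff hD)

end Fermat.Agent.S20

end
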