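/-
S20 long-shot: assembly (helper500).  SORRY-FREE.
`result_of_packages`: the three package statements imply the frozen statement S20.
-/
import Fermat.Agent.S20.Interface

set_option autoImplicit false

open scoped MatrixGroups

namespace Fermat.Agent.S20

/-- The three packages imply the dimension formula. -/
theorem result_of_packages (N : ℕ) [NeZero N]
    (hRH : RHStatement.{0, 0}) (hAN : ANStatement N) (hCOMB : COMBStatement N) :
    (Module.finrank ℂ (CuspForm (CongruenceSubgroup.Gamma0 N) 2) : ℚ)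
      = ModularCurve.genusFormula N := by
  obtain ⟨V, instF, instA, ι, D, hD, ram, hd, hram, hsum, ⟨e⟩⟩ := hAN
  obtain ⟨hfin, hRH'⟩ := @hRH V instF instA ι D hD ram hram
  obtain ⟨hψ, hS, hST, hT⟩ := hCOMB
  have hdim : Module.finrank ℂ (CuspForm (CongruenceSubgroup.Gamma0 N) 2)
      = Module.finrank ℂ (D.holDiff hD) := e.finrank_eq
  rw [hdim]
  unfold ModularCurve.genusFormula
  rw [hd] at hRH'
  -- all quantities as rationals
  have h1 : (2 * (Module.finrank ℂ (D.holDiff hD) : ℚ) + 2 * (Nat.card (Q N) : ℚ))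
      = 2 + ((∑ P ∈ ram, (D.e P - 1) : ℕ) : ℚ) := by exact_mod_cast hRH'
  have h2 : (((∑ P ∈ ram, (D.e P - 1) : ℕ) : ℚ) + (orbitCount N ModularGroup.S : ℚ)
      + (orbitCount N (ModularGroup.S * ModularGroup.T) : ℚ) + (orbitCount N ModularGroup.T : ℚ))
      = 3 * (Nat.card (Q N) : ℚ) := by exact_mod_cast hsum
  have h3 : (2 * (orbitCount N ModularGroup.S : ℚ))
      = (Nat.card (Q N) : ℚ) + (ModularCurve.nuTwo N : ℚ) := by exact_mod_cast hS
  have h4 : (3 * (orbitCount N (ModularGroup.S * ModularGroup.T) : ℚ))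
      = (Nat.card (Q N) : ℚ) + 2 * (ModularCurve.nuThree N : ℚ) := by exact_mod_cast hST
  have h5 : (orbitCount N ModularGroup.T : ℚ) = (ModularCurve.cuspCount N : ℚ) := by
    exact_mod_cast hT
  have h6 : (Nat.card (Q N) : ℚ) = (ModularCurve.dedekindPsi N : ℚ) := by exact_mod_cast hψ
  rw [← h6, ← h5]
  linarith

end Fermat.Agent.S20
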