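import Fermat.Agent.S20.L1.Ramanujan

/-!
# Package A2: the Rankin–Cohen bracket `[E₄, E₆]₁` is a nonzero multiple of `Δ`

With `D = (2πi)⁻¹ d/dz`, Ramanujan's identities (file `L1/Ramanujan.lean`, helper140)
`D E₄ = (E₂ E₄ - E₆)/3`, `D E₆ = (E₂ E₆ - E₄²)/2` give
`2 E₄ · D E₆ - 3 D E₄ · E₆ = E₆² - E₄³ = -1728 Δ`, and `Δ` never vanishes.
(helper225)
-/

set_option autoImplicit false

open UpperHalfPlane ModularForm CongruenceSubgroup Matrix.SpecialLinearGroup EisensteinSeries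
open scoped MatrixGroups ModularForm Manifold

namespace Fermat.Agent.S20

open Derivative in
/-- The normalised bracket: `2 E₄ · D E₆ - 3 D E₄ · E₆ = -1728 Δ`. -/
theorem bracket_normalized_eq (z : ℍ) :
    2 * E₄ z * D (E₆ : ℍ → ℂ) z - 3 * D (E₄ : ℍ → ℂ) z * E₆ z
      = -1728 * ModularForm.discriminant z := by
  rw [L1.ramanujan_E₄, L1.ramanujan_E₆]
  have h := L1.E₄_cube_sub_E₆_sq z
  linear_combination -h

/-- The bracket with the plain derivative: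
`2 E₄ E₆' - 3 E₄' E₆ = -1728 · (2πi) · Δ`. -/
theorem bracket_eq (z : ℍ) :
    2 * E₄ z * deriv (⇑E₆ ∘ ofComplex) z - 3 * deriv (⇑E₄ ∘ ofComplex) z * E₆ z
      = -1728 * (2 * Real.pi * Complex.I) * ModularForm.discriminant z := by
  have h := bracket_normalized_eq z
  simp only [Derivative.normalizedDerivOfComplex] at h
  have hpi : (2 * (Real.pi : ℂ) * Complex.I) ≠ 0 := by
    simp [Real.pi_ne_zero]
  have h' : (2 * (Real.pi : ℂ) * Complex.I) *
      (2 * E₄ z * ((2 * (Real.pi : ℂ) * Complex.I)⁻¹ * deriv (⇑E₆ ∘ ofComplex) z) -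
        3 * ((2 * (Real.pi : ℂ) * Complex.I)⁻¹ * deriv (⇑E₄ ∘ ofComplex) z) * E₆ z)
      = (2 * (Real.pi : ℂ) * Complex.I) * (-1728 * ModularForm.discriminant z) := by
    rw [h]
  have e : (2 * (Real.pi : ℂ) * Complex.I) * (2 * (Real.pi : ℂ) * Complex.I)⁻¹ = 1 :=
    mul_inv_cancel₀ hpi
  linear_combination h' + (-(2 * E₄ z * deriv (⇑E₆ ∘ ofComplex) z)
    + 3 * deriv (⇑E₄ ∘ ofComplex) z * E₆ z) * e

/-- **A2**: `2 E₄ E₆' - 3 E₄' E₆` has no zero on `ℍ`. -/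
theorem bracket_ne_zero (z : ℍ) :
    2 * E₄ z * deriv (⇑E₆ ∘ ofComplex) z - 3 * deriv (⇑E₄ ∘ ofComplex) z * E₆ z ≠ 0 := by
  rw [bracket_eq]
  have hpi : (2 * (Real.pi : ℂ) * Complex.I) ≠ 0 := by
    simp [Real.pi_ne_zero]
  exact mul_ne_zero (mul_ne_zero (by norm_num) hpi) (ModularForm.discriminant_ne_zero z)

end Fermat.Agent.S20
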