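import Mathlib
import Fermat.Prelude.Def_ModularCurve_GenusNumerics

/-!
# Combinatorics of `SL(2,ℤ) ⧸ Γ₀(N)` : basic facts

Cosets `g Γ₀(N)` are classified by the first column of `g` modulo `N` up to units.
-/

set_option autoImplicit false

namespace Fermat.Agent.S20.Comb482

open Matrix MatrixGroups CongruenceSubgroup

/-- lower-left entry of `g⁻¹ * g'`. -/
theorem inv_mul_apply_one_zero (g g' : SL(2, ℤ)) :
    (g⁻¹ * g') 1 0 = g 0 0 * g' 1 0 - g 1 0 * g' 0 0 := by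
  rw [Matrix.SpecialLinearGroup.coe_mul, Matrix.SpecialLinearGroup.coe_inv,
    Matrix.adjugate_fin_two, Matrix.mul_apply, Fin.sum_univ_two]
  simp
  ring

theorem det_eq_one' (g : SL(2, ℤ)) : g 0 0 * g 1 1 - g 0 1 * g 1 0 = 1 := by
  have := g.2
  rw [Matrix.det_fin_two] at this
  exact this

theorem isCoprime_col (g : SL(2, ℤ)) : IsCoprime (g 0 0) (g 1 0) :=
  ⟨g 1 1, -g 0 1, by have := det_eq_one' g; linarith⟩

theorem Gamma0_mem_iff_dvd {N : ℕ} {A : SL(2, ℤ)} : A ∈ Gamma0 N ↔ (N : ℤ) ∣ A 1 0 := by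
  rw [Gamma0_mem, ZMod.intCast_zmod_eq_zero_iff_dvd]

/-- Two elements are in the same left coset of `Γ₀(N)` iff the "cross product" of the
first columns vanishes mod `N`. -/
theorem inv_mul_mem_Gamma0_iff {N : ℕ} (g g' : SL(2, ℤ)) :
    g⁻¹ * g' ∈ Gamma0 N ↔ (N : ℤ) ∣ g 0 0 * g' 1 0 - g 1 0 * g' 0 0 := by
  rw [Gamma0_mem_iff_dvd, inv_mul_apply_one_zero]

theorem mk_eq_mk_iff {N : ℕ} (g g' : SL(2, ℤ)) :
    (QuotientGroup.mk g : SL(2, ℤ) ⧸ Gamma0 N) = QuotientGroup.mk g' ↔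
      (N : ℤ) ∣ g 0 0 * g' 1 0 - g 1 0 * g' 0 0 := by
  rw [QuotientGroup.eq, inv_mul_mem_Gamma0_iff]

end Fermat.Agent.S20.Comb482
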