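import Mathlib
import Fermat.Prelude.Def_ModularCurve_GenusNumerics
import Fermat.Agent.S20.Comb482Basic

/-!
# Fixed points of `S` and `S * T` on `SL(2,ℤ) ⧸ Γ₀(N)`
-/

set_option autoImplicit false

namespace Fermat.Agent.S20.Comb482

open Matrix MatrixGroups CongruenceSubgroup ModularGroup

/-- The matrix `[x, -1; 1, 0]`. -/
def colRep (x : ℤ) : SL(2, ℤ) := ⟨!![x, -1; 1, 0], by simp [Matrix.det_fin_two_of]⟩

@[simp] theorem colRep_zero_zero (x : ℤ) : colRep x 0 0 = x := rfl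
@[simp] theorem colRep_one_zero (x : ℤ) : colRep x 1 0 = 1 := rfl

theorem S_mul_apply_zero_zero (g : SL(2, ℤ)) : (S * g) 0 0 = - g 1 0 := by
  rw [Matrix.SpecialLinearGroup.coe_mul, coe_S, Matrix.mul_apply, Fin.sum_univ_two]
  simp

theorem S_mul_apply_one_zero (g : SL(2, ℤ)) : (S * g) 1 0 = g 0 0 := by
  rw [Matrix.SpecialLinearGroup.coe_mul, coe_S, Matrix.mul_apply, Fin.sum_univ_two]
  simp

theorem T_mul_apply_zero_zero (g : SL(2, ℤ)) : (T * g) 0 0 = g 0 0 + g 1 0 := by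
  rw [Matrix.SpecialLinearGroup.coe_mul, coe_T, Matrix.mul_apply, Fin.sum_univ_two]
  simp

theorem T_mul_apply_one_zero (g : SL(2, ℤ)) : (T * g) 1 0 = g 1 0 := by
  rw [Matrix.SpecialLinearGroup.coe_mul, coe_T, Matrix.mul_apply, Fin.sum_univ_two]
  simp

theorem T_zpow_mul_apply_zero_zero (k : ℤ) (g : SL(2, ℤ)) :
    (T ^ k * g) 0 0 = g 0 0 + k * g 1 0 := by
  rw [Matrix.SpecialLinearGroup.coe_mul, coe_T_zpow, Matrix.mul_apply, Fin.sum_univ_two]
  simp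

theorem T_zpow_mul_apply_one_zero (k : ℤ) (g : SL(2, ℤ)) :
    (T ^ k * g) 1 0 = g 1 0 := by
  rw [Matrix.SpecialLinearGroup.coe_mul, coe_T_zpow, Matrix.mul_apply, Fin.sum_univ_two]
  simp

theorem smul_mk_eq {N : ℕ} (h g : SL(2, ℤ)) :
    h • (QuotientGroup.mk g : SL(2, ℤ) ⧸ Gamma0 N) = QuotientGroup.mk (h * g) := rfl

theorem S_smul_mk_eq_iff {N : ℕ} (g : SL(2, ℤ)) :
    S • (QuotientGroup.mk g : SL(2, ℤ) ⧸ Gamma0 N) = QuotientGroup.mk g ↔
      (N : ℤ) ∣ g 0 0 ^ 2 + g 1 0 ^ 2 := by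
  rw [smul_mk_eq, mk_eq_mk_iff, S_mul_apply_zero_zero, S_mul_apply_one_zero, ← dvd_neg]
  ring_nf

theorem ST_smul_mk_eq_iff {N : ℕ} (g : SL(2, ℤ)) :
    (S * T) • (QuotientGroup.mk g : SL(2, ℤ) ⧸ Gamma0 N) = QuotientGroup.mk g ↔
      (N : ℤ) ∣ g 0 0 ^ 2 + g 0 0 * g 1 0 + g 1 0 ^ 2 := by
  rw [smul_mk_eq, mk_eq_mk_iff, mul_assoc, S_mul_apply_zero_zero, S_mul_apply_one_zero,
    T_mul_apply_zero_zero, T_mul_apply_one_zero, ← dvd_neg]
  ring_nf

/-- General fixed-point count: if the fixed-point condition of `E` on `mk g` is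
`N ∣ a² + t a c + c²` (with `(a, c)` the first column of `g`), then the fixed points are in
bijection with the roots of `x² + t x + 1` in `ZMod N`. -/
theorem card_fixed_of_quadratic {N : ℕ} [NeZero N] (E : SL(2, ℤ)) (t : ℤ)
    (hE : ∀ g : SL(2, ℤ), E • (QuotientGroup.mk g : SL(2, ℤ) ⧸ Gamma0 N) = QuotientGroup.mk g ↔
      (N : ℤ) ∣ g 0 0 ^ 2 + t * (g 0 0 * g 1 0) + g 1 0 ^ 2) :
    Nat.card {q : SL(2, ℤ) ⧸ Gamma0 N // E • q = q} =
      Nat.card {x : ZMod N // x ^ 2 + (t : ZMod N) * x + 1 = 0} := by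
  symm
  have hx : ∀ x : {x : ZMod N // x ^ 2 + (t : ZMod N) * x + 1 = 0},
      E • (QuotientGroup.mk (colRep (ZMod.cast x.1 : ℤ)) : SL(2, ℤ) ⧸ Gamma0 N) =
        QuotientGroup.mk (colRep (ZMod.cast x.1 : ℤ)) := by
    intro x
    rw [hE, colRep_zero_zero, colRep_one_zero, ← ZMod.intCast_zmod_eq_zero_iff_dvd]
    push_cast
    simpa using x.2
  refine Nat.card_congr (Equiv.ofBijective
    (fun x => ⟨QuotientGroup.mk (colRep (ZMod.cast x.1 : ℤ)), hx x⟩) ⟨?_, ?_⟩)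
  · intro x y hxy
    have h1 := congrArg Subtype.val hxy
    simp only at h1
    rw [mk_eq_mk_iff, colRep_zero_zero, colRep_one_zero, colRep_zero_zero, colRep_one_zero,
      ← ZMod.intCast_zmod_eq_zero_iff_dvd] at h1
    push_cast at h1
    apply Subtype.ext
    linear_combination h1
  · rintro ⟨q, hq⟩
    induction q using QuotientGroup.induction_on with
    | H g =>
      have hdvd := (hE g).mp hq
      -- `c` is a unit mod `N`
      have hcop : IsCoprime (N : ℤ) (g 1 0) := by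
        have h0 : IsCoprime (g 0 0 ^ 2 + t * (g 0 0 * g 1 0) + g 1 0 ^ 2) (g 1 0) := by
          have h1 : IsCoprime (g 0 0 ^ 2) (g 1 0) := (isCoprime_col g).pow_left
          have h2 : g 0 0 ^ 2 + t * (g 0 0 * g 1 0) + g 1 0 ^ 2
              = g 0 0 ^ 2 + (t * g 0 0 + g 1 0) * g 1 0 := by ring
          rw [h2]
          exact h1.add_mul_right_left _
        exact h0.of_isCoprime_of_dvd_left hdvd
      have hunit : IsUnit ((g 1 0 : ℤ) : ZMod N) :=
        (ZMod.coe_int_isUnit_iff_isCoprime _ _).mpr hcop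
      obtain ⟨u, hu⟩ := hunit
      have hquad : ((g 0 0 : ℤ) : ZMod N) ^ 2 + (t : ZMod N) * ((g 0 0 : ℤ) * (g 1 0 : ℤ))
          + ((g 1 0 : ℤ) : ZMod N) ^ 2 = 0 := by
        have := (ZMod.intCast_zmod_eq_zero_iff_dvd _ N).mpr hdvd
        push_cast at this
        exact this
      set a : ZMod N := ((g 0 0 : ℤ) : ZMod N) with ha
      set c : ZMod N := ((g 1 0 : ℤ) : ZMod N) with hc
      have hcu : c * (↑u⁻¹ : ZMod N) = 1 := by rw [← hu]; exact u.mul_inv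
      have hroot : (a * ↑u⁻¹) ^ 2 + (t : ZMod N) * (a * ↑u⁻¹) + 1 = 0 := by
        have : (a * ↑u⁻¹) ^ 2 + (t : ZMod N) * (a * ↑u⁻¹) + 1
            = (a ^ 2 + (t : ZMod N) * (a * c) + c ^ 2) * (↑u⁻¹ : ZMod N) ^ 2 := by
          linear_combination (-(1 : ZMod N) - c * ↑u⁻¹ - (t : ZMod N) * a * ↑u⁻¹ ) * hcu
        rw [this, hquad, zero_mul]
      refine ⟨⟨a * ↑u⁻¹, hroot⟩, ?_⟩
      apply Subtype.ext
      show (QuotientGroup.mk (colRep (ZMod.cast (a * ↑u⁻¹ : ZMod N) : ℤ)) :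
        SL(2, ℤ) ⧸ Gamma0 N) = QuotientGroup.mk g
      rw [mk_eq_mk_iff, colRep_zero_zero, colRep_one_zero,
        ← ZMod.intCast_zmod_eq_zero_iff_dvd]
      push_cast
      linear_combination a * hcu

theorem card_fixedBy_S (N : ℕ) [NeZero N] :
    Nat.card {q : SL(2, ℤ) ⧸ Gamma0 N // S • q = q} = ModularCurve.nuTwo N := by
  rw [card_fixed_of_quadratic S 0 (fun g => by rw [S_smul_mk_eq_iff]; ring_nf)]
  unfold ModularCurve.nuTwo
  refine Nat.card_congr (Equiv.subtypeEquivRight fun x => ?_)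
  simp

theorem card_fixedBy_ST (N : ℕ) [NeZero N] :
    Nat.card {q : SL(2, ℤ) ⧸ Gamma0 N // (S * T) • q = q} = ModularCurve.nuThree N := by
  rw [card_fixed_of_quadratic (S * T) 1 (fun g => by rw [ST_smul_mk_eq_iff]; ring_nf)]
  unfold ModularCurve.nuThree
  refine Nat.card_congr (Equiv.subtypeEquivRight fun x => ?_)
  simp

end Fermat.Agent.S20.Comb482
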