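import Mathlib
import Fermat.Prelude.Def_ModularCurve_GenusNumerics

/-!
# Recursion for the Dedekind psi function
-/

set_option autoImplicit false

namespace Fermat.Agent.S20.Comb482

open ModularCurve

theorem dedekindPsi_mul_prime_of_dvd {M p : ℕ} (hM : M ≠ 0) (hp : p.Prime) (hpM : p ∣ M) :
    dedekindPsi (M * p) = p * dedekindPsi M := by
  unfold dedekindPsi
  have hset : (M * p).divisors.filter Squarefree = M.divisors.filter Squarefree := by
    ext d
    simp only [Finset.mem_filter, Nat.mem_divisors]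
    constructor
    · rintro ⟨⟨hd, -⟩, hsq⟩
      refine ⟨⟨?_, hM⟩, hsq⟩
      have h1 : d ∣ M ^ 2 := hd.trans (by rw [pow_two]; exact Nat.mul_dvd_mul_left M hpM)
      exact (hsq.dvd_pow_iff_dvd two_ne_zero).mp h1
    · rintro ⟨⟨hd, -⟩, hsq⟩
      exact ⟨⟨hd.mul_right p, mul_ne_zero hM hp.ne_zero⟩, hsq⟩
  rw [hset, Finset.mul_sum]
  refine Finset.sum_congr rfl fun d hd => ?_
  simp only [Finset.mem_filter, Nat.mem_divisors] at hd
  rw [mul_comm M p, Nat.mul_div_assoc p hd.1.1]

theorem dedekindPsi_mul_prime_of_not_dvd {M p : ℕ} (hM : M ≠ 0) (hp : p.Prime) (hpM : ¬ p ∣ M) :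
    dedekindPsi (M * p) = (p + 1) * dedekindPsi M := by
  unfold dedekindPsi
  have hset : (M * p).divisors.filter Squarefree =
      M.divisors.filter Squarefree ∪ (M.divisors.filter Squarefree).image (· * p) := by
    ext d
    simp only [Finset.mem_filter, Nat.mem_divisors, Finset.mem_union, Finset.mem_image]
    constructor
    · rintro ⟨⟨hd, -⟩, hsq⟩
      by_cases hpd : p ∣ d
      · right
        obtain ⟨d', rfl⟩ := hpd
        refine ⟨d', ⟨⟨?_, hM⟩, ?_⟩, mul_comm _ _⟩
        · rw [mul_comm M p] at hd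
          exact Nat.dvd_of_mul_dvd_mul_left hp.pos hd
        · exact hsq.of_mul_right
      · left
        refine ⟨⟨?_, hM⟩, hsq⟩
        have hcop : Nat.Coprime d p := ((Nat.Prime.coprime_iff_not_dvd hp).mpr hpd).symm
        exact hcop.dvd_of_dvd_mul_right hd
    · rintro (⟨⟨hd, -⟩, hsq⟩ | ⟨d', ⟨⟨hd, -⟩, hsq⟩, rfl⟩)
      · exact ⟨⟨hd.mul_right p, mul_ne_zero hM hp.ne_zero⟩, hsq⟩
      · refine ⟨⟨Nat.mul_dvd_mul_right hd p, mul_ne_zero hM hp.ne_zero⟩, ?_⟩
        have hcop : Nat.Coprime d' p :=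
          ((Nat.Prime.coprime_iff_not_dvd hp).mpr fun h => hpM (h.trans hd)).symm
        exact (Nat.squarefree_mul hcop).mpr ⟨hsq, hp.squarefree⟩
  have hdisj : Disjoint (M.divisors.filter Squarefree)
      ((M.divisors.filter Squarefree).image (· * p)) := by
    rw [Finset.disjoint_left]
    intro d hd hd'
    simp only [Finset.mem_filter, Nat.mem_divisors, Finset.mem_image] at hd hd'
    obtain ⟨d', -, rfl⟩ := hd'
    exact hpM ((dvd_mul_left p d').trans hd.1.1)
  rw [hset, Finset.sum_union hdisj, Finset.sum_image, add_mul, one_mul, Finset.mul_sum]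
  · congr 1
    · refine Finset.sum_congr rfl fun d hd => ?_
      simp only [Finset.mem_filter, Nat.mem_divisors] at hd
      rw [mul_comm M p, Nat.mul_div_assoc p hd.1.1]
    · refine Finset.sum_congr rfl fun d hd => ?_
      rw [Nat.mul_div_mul_right _ _ hp.pos]
  · intro x _ y _ hxy
    exact Nat.eq_of_mul_eq_mul_right hp.pos hxy

end Fermat.Agent.S20.Comb482
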