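import Mathlib
import Fermat.Prelude.Def_ModularCurve_GenusNumerics
import Fermat.Agent.S20.Comb482Basic
import Fermat.Agent.S20.Comb482Psi

/-!
# The index of `Γ₀(N)` in `SL(2,ℤ)` is `dedekindPsi N`
-/

set_option autoImplicit false

namespace Fermat.Agent.S20.Comb482

open Matrix MatrixGroups CongruenceSubgroup ModularCurve

theorem card_quotient_eq_card_range {K : Type*} [Group K] (H : Subgroup K) {β : Type*}
    (f : K → β) (hf : ∀ x y : K, f x = f y ↔ x⁻¹ * y ∈ H) :
    Nat.card (K ⧸ H) = Nat.card (Set.range f) := by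
  refine Nat.card_congr (Equiv.ofBijective
    (Quotient.lift (fun x => (⟨f x, x, rfl⟩ : Set.range f)) ?_) ⟨?_, ?_⟩)
  · intro x y hxy
    apply Subtype.ext
    exact (hf x y).mpr (QuotientGroup.leftRel_apply.mp hxy)
  · intro q q'
    induction q using QuotientGroup.induction_on with
    | H x =>
      induction q' using QuotientGroup.induction_on with
      | H y =>
        intro h
        have h' : f x = f y := congrArg Subtype.val h
        exact QuotientGroup.eq.mpr ((hf x y).mp h')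
  · rintro ⟨_, x, rfl⟩
    exact ⟨QuotientGroup.mk x, rfl⟩

theorem Gamma0_le_of_dvd {M N : ℕ} (h : M ∣ N) : Gamma0 N ≤ Gamma0 M := by
  intro g hg
  rw [Gamma0_mem_iff_dvd] at hg ⊢
  exact (Int.natCast_dvd_natCast.mpr h).trans hg

theorem Gamma0_one_eq_top : Gamma0 1 = ⊤ := by
  ext g
  simp only [Subgroup.mem_top, iff_true]
  rw [Gamma0_mem_iff_dvd]
  simp

/-- The invariant classifying cosets of `Γ₀(M p)` in `Γ₀(M)`: a point of `ℙ¹(𝔽_p)`. -/
noncomputable def relInv (M p : ℕ) (γ : Gamma0 M) : Option (ZMod p) :=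
  open Classical in
  if ((γ.1 0 0 : ℤ) : ZMod p) = 0 then none
  else some (((γ.1 1 0 / (M : ℤ) : ℤ) : ZMod p) * ((γ.1 0 0 : ℤ) : ZMod p)⁻¹)

theorem relInv_eq_iff {M p : ℕ} (hM : M ≠ 0) [Fact p.Prime] (γ γ' : Gamma0 M) :
    relInv M p γ = relInv M p γ' ↔
      γ⁻¹ * γ' ∈ (Gamma0 (M * p)).subgroupOf (Gamma0 M) := by
  have hp : p.Prime := Fact.out
  rw [Subgroup.mem_subgroupOf]
  have hcoe : ((γ⁻¹ * γ' : Gamma0 M) : SL(2, ℤ)) = (γ : SL(2, ℤ))⁻¹ * (γ' : SL(2, ℤ)) := rfl
  rw [hcoe, inv_mul_mem_Gamma0_iff]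
  set a : ℤ := γ.1 0 0 with ha
  set c : ℤ := γ.1 1 0 with hc
  set a' : ℤ := γ'.1 0 0 with ha'
  set c' : ℤ := γ'.1 1 0 with hc'
  have hMc : (M : ℤ) ∣ c := Gamma0_mem_iff_dvd.mp γ.2
  have hMc' : (M : ℤ) ∣ c' := Gamma0_mem_iff_dvd.mp γ'.2
  have hMz : (M : ℤ) ≠ 0 := by exact_mod_cast hM
  obtain ⟨c1, hc1⟩ := hMc
  obtain ⟨c1', hc1'⟩ := hMc'
  have hdiv : c / (M : ℤ) = c1 := by rw [hc1, Int.mul_ediv_cancel_left _ hMz]
  have hdiv' : c' / (M : ℤ) = c1' := by rw [hc1', Int.mul_ediv_cancel_left _ hMz]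
  have hcop : IsCoprime a c := isCoprime_col γ.1
  have hcop' : IsCoprime a' c' := isCoprime_col γ'.1
  -- reduce divisibility
  have hred : ((M * p : ℕ) : ℤ) ∣ a * c' - c * a' ↔
      (((a * c1' - c1 * a' : ℤ)) : ZMod p) = 0 := by
    rw [ZMod.intCast_zmod_eq_zero_iff_dvd, hc1, hc1']
    have : a * ((M : ℤ) * c1') - (M : ℤ) * c1 * a' = (M : ℤ) * (a * c1' - c1 * a') := by ring
    rw [this]
    push_cast
    exact mul_dvd_mul_iff_left hMz
  rw [hred]
  -- if p ∣ a then p ∤ c1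
  have hunit : ∀ (x y y1 : ℤ), IsCoprime x y → y = (M : ℤ) * y1 → ((x : ℤ) : ZMod p) = 0 →
      ((y1 : ℤ) : ZMod p) ≠ 0 := by
    intro x y y1 hxy hy hx hy1
    rw [ZMod.intCast_zmod_eq_zero_iff_dvd] at hx hy1
    have hpy : (p : ℤ) ∣ y := by rw [hy]; exact hy1.mul_left _
    have := hxy.isUnit_of_dvd' hx hpy
    rw [Int.isUnit_iff] at this
    rcases this with h | h
    · have : (p : ℤ) = 1 := h
      have := hp.one_lt
      omega
    · have : (p : ℤ) = -1 := h
      have := hp.pos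
      omega
  unfold relInv
  rw [← ha, ← hc, ← ha', ← hc', hdiv, hdiv']
  by_cases h0 : ((a : ℤ) : ZMod p) = 0 <;> by_cases h0' : ((a' : ℤ) : ZMod p) = 0
  · simp only [h0, h0', if_true]
    push_cast
    rw [h0, h0']
    simp
  · simp only [h0, h0', if_true, if_false]
    push_cast
    rw [h0]
    have := hunit a c c1 hcop hc1 h0
    simp [this, h0']
  · simp only [h0, h0', if_true, if_false]
    push_cast
    rw [h0']
    have := hunit a' c' c1' hcop' hc1' h0'
    simp [this, h0]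
  · simp only [h0, h0', if_false, Option.some.injEq]
    push_cast
    constructor
    · intro h
      have h2 : (c1 : ZMod p) = (c1' : ZMod p) * (a' : ZMod p)⁻¹ * (a : ZMod p) := by
        rw [← h]; field_simp
      rw [h2]; field_simp; ring
    · intro h
      field_simp
      linear_combination -h

theorem relInv_ne_none_of_dvd {M p : ℕ} [Fact p.Prime] (hpM : p ∣ M) (γ : Gamma0 M) :
    relInv M p γ ≠ none := by
  have hp : p.Prime := Fact.out
  unfold relInv
  have hMc : (M : ℤ) ∣ γ.1 1 0 := Gamma0_mem_iff_dvd.mp γ.2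
  have hpc : (p : ℤ) ∣ γ.1 1 0 := (Int.natCast_dvd_natCast.mpr hpM).trans hMc
  have hcop : IsCoprime (γ.1 0 0) (γ.1 1 0) := isCoprime_col γ.1
  have h0 : ((γ.1 0 0 : ℤ) : ZMod p) ≠ 0 := by
    intro h
    rw [ZMod.intCast_zmod_eq_zero_iff_dvd] at h
    have := hcop.isUnit_of_dvd' h hpc
    rw [Int.isUnit_iff] at this
    rcases this with h | h
    · have : (p : ℤ) = 1 := h
      have := hp.one_lt
      omega
    · have : (p : ℤ) = -1 := h
      have := hp.pos
      omega
  simp [h0]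

/-- the lower unipotent element `[1, 0; M t, 1]` of `Γ₀(M)`. -/
def lowerUnip (M : ℕ) (t : ℤ) : Gamma0 M :=
  ⟨⟨!![1, 0; (M : ℤ) * t, 1], by simp [Matrix.det_fin_two_of]⟩, by
    rw [Gamma0_mem_iff_dvd]
    exact ⟨t, rfl⟩⟩

theorem relInv_lowerUnip {M p : ℕ} (hM : M ≠ 0) [Fact p.Prime] (t : ZMod p) :
    relInv M p (lowerUnip M (ZMod.cast t : ℤ)) = some t := by
  have hp : p.Prime := Fact.out
  unfold relInv
  have h00 : (lowerUnip M (ZMod.cast t : ℤ)).1 0 0 = 1 := rfl
  have h10 : (lowerUnip M (ZMod.cast t : ℤ)).1 1 0 = (M : ℤ) * (ZMod.cast t : ℤ) := rfl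
  have hMz : (M : ℤ) ≠ 0 := by exact_mod_cast hM
  rw [h00, h10, Int.mul_ediv_cancel_left _ hMz]
  simp

theorem exists_relInv_eq_none {M p : ℕ} [Fact p.Prime] (hpM : ¬ p ∣ M) :
    ∃ γ : Gamma0 M, relInv M p γ = none := by
  have hp : p.Prime := Fact.out
  have hcop : IsCoprime (p : ℤ) (M : ℤ) := by
    rw [Int.isCoprime_iff_gcd_eq_one, Int.gcd_natCast_natCast]
    exact (Nat.Prime.coprime_iff_not_dvd hp).mpr hpM
  obtain ⟨g, hg0, hg1⟩ := hcop.exists_SL2_col 0
  refine ⟨⟨g, ?_⟩, ?_⟩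
  · rw [Gamma0_mem_iff_dvd, hg1]
  · unfold relInv
    have : ((g 0 0 : ℤ) : ZMod p) = 0 := by rw [hg0]; simp
    simp [this]

theorem relIndex_Gamma0_mul_prime {M p : ℕ} (hM : M ≠ 0) (hp : p.Prime) :
    (Gamma0 (M * p)).relIndex (Gamma0 M) = if p ∣ M then p else p + 1 := by
  haveI : Fact p.Prime := ⟨hp⟩
  haveI : NeZero p := ⟨hp.ne_zero⟩
  unfold Subgroup.relIndex Subgroup.index
  rw [card_quotient_eq_card_range _ (relInv M p) (relInv_eq_iff hM)]
  split_ifs with hpM
  · have hrange : Set.range (relInv M p) = Set.range (some : ZMod p → Option (ZMod p)) := by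
      ext x
      constructor
      · rintro ⟨γ, rfl⟩
        have := relInv_ne_none_of_dvd hpM γ
        obtain ⟨t, ht⟩ := Option.ne_none_iff_exists'.mp this
        exact ⟨t, ht.symm⟩
      · rintro ⟨t, rfl⟩
        exact ⟨_, relInv_lowerUnip hM t⟩
    rw [hrange, Nat.card_range_of_injective (Option.some_injective _), Nat.card_zmod]
  · have hrange : Set.range (relInv M p) = Set.univ := by
      ext x
      simp only [Set.mem_range, Set.mem_univ, iff_true]
      cases x with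
      | none => exact exists_relInv_eq_none hpM
      | some t => exact ⟨_, relInv_lowerUnip hM t⟩
    rw [hrange, Nat.card_congr (Equiv.Set.univ _), Nat.card_eq_fintype_card, Fintype.card_option,
      ZMod.card]

theorem index_Gamma0_mul_prime {M p : ℕ} (hM : M ≠ 0) (hp : p.Prime) :
    (Gamma0 (M * p)).index = (if p ∣ M then p else p + 1) * (Gamma0 M).index := by
  rw [← relIndex_Gamma0_mul_prime hM hp,
    Subgroup.relIndex_mul_index (Gamma0_le_of_dvd (dvd_mul_right M p))]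

/-- **(I1)** The index of `Γ₀(N)` in `SL(2,ℤ)` is the Dedekind psi function of `N`. -/
theorem index_Gamma0 (N : ℕ) [NeZero N] : (Gamma0 N).index = dedekindPsi N := by
  have hN : N ≠ 0 := NeZero.ne N
  induction N using Nat.strong_induction_on with
  | _ N ih =>
    by_cases h1 : N = 1
    · subst h1
      rw [Gamma0_one_eq_top, Subgroup.index_top, dedekindPsi_one]
    · have hp : (N.minFac).Prime := Nat.minFac_prime h1
      obtain ⟨M, hMN⟩ := Nat.minFac_dvd N
      have hM0 : M ≠ 0 := by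
        rintro rfl
        rw [mul_zero] at hMN
        exact hN hMN
      have hlt : M < N := by
        rw [hMN]
        calc M = 1 * M := (one_mul M).symm
          _ < N.minFac * M := Nat.mul_lt_mul_of_pos_right hp.one_lt (Nat.pos_of_ne_zero hM0)
      have hN' : N = M * N.minFac := by rw [mul_comm]; exact hMN
      haveI : NeZero M := ⟨hM0⟩
      have ihM := ih M hlt hM0
      rw [hN', index_Gamma0_mul_prime hM0 hp, ihM]
      split_ifs with hpM
      · rw [dedekindPsi_mul_prime_of_dvd hM0 hp hpM]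
      · rw [dedekindPsi_mul_prime_of_not_dvd hM0 hp hpM]

theorem card_quotient_Gamma0 (N : ℕ) [NeZero N] :
    Nat.card (SL(2, ℤ) ⧸ Gamma0 N) = dedekindPsi N :=
  index_Gamma0 N

end Fermat.Agent.S20.Comb482
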