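import Fermat.Agent.S20.Defs
import Fermat.Agent.S20.CuspCount360

/-!
# Package F: finite combinatorics on `SL(2,ℤ) ⧸ Γ₀(N) ≅ ℙ¹(ℤ/N)`

F4: the number of `⟨T⟩`-orbits on `SL(2,ℤ) ⧸ Γ₀(N)` is `cuspCount N`
(adapter to `CuspCount360.card_orbits_T` by helper360).
-/

set_option autoImplicit false

open CongruenceSubgroup Matrix.SpecialLinearGroup
open scoped MatrixGroups

namespace Fermat.Agent.S20

theorem numCusps_eq_cuspCount (N : ℕ) [NeZero N] : numCusps N = ModularCurve.cuspCount N :=
  CuspCount360.card_orbits_T N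

end Fermat.Agent.S20
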