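import Mathlib
import Fermat.Prelude.Def_ModularCurve_GenusNumerics

set_option autoImplicit false

open MatrixGroups CongruenceSubgroup

namespace Fermat.Agent.S20.FixedST

variable (N : ℕ) [NeZero N]

/-!
# Cosets of `Γ₀(N)` in `SL(2,ℤ)` fixed by `S` and by `S * T`

For `h_t = [[0,-1],[1,t]]` the coset `g Γ₀(N)` is fixed by left multiplication by `h_t` iff
`a² + t a c + c² ≡ 0 (mod N)` where `(a, c)` is the first column of `g`; then `c` is a unit mod
`N` and `u = a / c` is a root of `u² + t u + 1`.  This gives a bijection between fixed cosets and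
roots, whence `card_fixedBy_S` (`t = 0`) and `card_fixedBy_ST` (`t = 1`).
-/

/-- The element `[[0,-1],[1,t]]` of `SL(2,ℤ)`; `t = 0` is `S`, `t = 1` is `S * T`. -/
def hmat (t : ℤ) : SL(2, ℤ) :=
  ⟨!![0, -1; 1, t], by simp [Matrix.det_fin_two_of]⟩

/-- The matrix `[[u,-1],[1,0]]`. -/
def gmat (u : ℤ) : SL(2, ℤ) :=
  ⟨!![u, -1; 1, 0], by simp [Matrix.det_fin_two_of]⟩

lemma hmat_zero : hmat 0 = ModularGroup.S := by
  ext i j; fin_cases i <;> fin_cases j <;> rfl

lemma hmat_one : hmat 1 = ModularGroup.S * ModularGroup.T := by decide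

/-- lower-left entry of `g⁻¹ * h_t * g`. -/
lemma conj_hmat_apply (t : ℤ) (g : SL(2, ℤ)) :
    ((g⁻¹ * hmat t * g : SL(2, ℤ)) : Matrix (Fin 2) (Fin 2) ℤ) 1 0
      = g 0 0 ^ 2 + t * (g 0 0 * g 1 0) + g 1 0 ^ 2 := by
  rw [Matrix.SpecialLinearGroup.coe_mul, Matrix.SpecialLinearGroup.coe_mul,
    Matrix.SpecialLinearGroup.coe_inv, Matrix.adjugate_fin_two]
  simp [hmat, Matrix.mul_apply, Fin.sum_univ_two]
  ring

/-- lower-left entry of `g_u⁻¹ * g`. -/
lemma gmat_inv_mul_apply (u : ℤ) (g : SL(2, ℤ)) :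
    (((gmat u)⁻¹ * g : SL(2, ℤ)) : Matrix (Fin 2) (Fin 2) ℤ) 1 0 = u * g 1 0 - g 0 0 := by
  rw [Matrix.SpecialLinearGroup.coe_mul, Matrix.SpecialLinearGroup.coe_inv,
    Matrix.adjugate_fin_two]
  simp [gmat, Matrix.mul_apply, Fin.sum_univ_two]
  ring


omit [NeZero N] in
lemma smul_mk_eq_iff (t : ℤ) (g : SL(2, ℤ)) :
    hmat t • (g : SL(2, ℤ) ⧸ Gamma0 N) = g ↔
      ((g 0 0 : ZMod N) ^ 2 + (t : ZMod N) * ((g 0 0 : ZMod N) * (g 1 0 : ZMod N))
        + (g 1 0 : ZMod N) ^ 2 = 0) := by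
  rw [MulAction.Quotient.smul_mk, eq_comm, QuotientGroup.eq, Gamma0_mem, smul_eq_mul,
    ← mul_assoc, conj_hmat_apply]
  push_cast
  rfl

omit [NeZero N] in
lemma mk_gmat_eq_iff (u : ℤ) (g : SL(2, ℤ)) :
    ((gmat u : SL(2, ℤ)) : SL(2, ℤ) ⧸ Gamma0 N) = g ↔
      ((u : ZMod N) * (g 1 0 : ZMod N) - (g 0 0 : ZMod N) = 0) := by
  rw [QuotientGroup.eq, Gamma0_mem, gmat_inv_mul_apply]
  push_cast
  rfl

lemma gmat_apply_zero_zero (u : ℤ) : (gmat u : Matrix (Fin 2) (Fin 2) ℤ) 0 0 = u := rfl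

lemma gmat_apply_one_zero (u : ℤ) : (gmat u : Matrix (Fin 2) (Fin 2) ℤ) 1 0 = 1 := rfl

/-- The cosets of `Γ₀(N)` fixed by `[[0,-1],[1,t]]` are in bijection with the roots of
`u² + t u + 1` in `ZMod N`. -/
theorem card_fixedBy_hmat (t : ℤ) :
    Nat.card {q : SL(2, ℤ) ⧸ Gamma0 N // hmat t • q = q}
      = Nat.card {u : ZMod N // u ^ 2 + (t : ZMod N) * u + 1 = 0} := by
  symm
  have hcast : ∀ u : ZMod N, (((u.val : ℕ) : ℤ) : ZMod N) = u := fun u => by
    rw [Int.cast_natCast, ZMod.natCast_zmod_val]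
  refine Nat.card_congr (Equiv.ofBijective
    (fun u => ⟨((gmat (u.1.val : ℤ) : SL(2, ℤ)) : SL(2, ℤ) ⧸ Gamma0 N), ?_⟩) ⟨?_, ?_⟩)
  · rw [smul_mk_eq_iff, gmat_apply_zero_zero, gmat_apply_one_zero, hcast]
    have := u.2
    push_cast
    linear_combination this
  · rintro ⟨u, hu⟩ ⟨u', hu'⟩ h
    have h1 := (mk_gmat_eq_iff N _ _).mp (Subtype.ext_iff.mp h)
    rw [gmat_apply_zero_zero, gmat_apply_one_zero, hcast, hcast] at h1
    apply Subtype.ext
    show u = u'
    push_cast at h1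
    linear_combination h1
  · rintro ⟨q, hq⟩
    induction q using QuotientGroup.induction_on with
    | H g =>
      rw [smul_mk_eq_iff] at hq
      have hdet : (g 0 0 : ZMod N) * (g 1 1 : ZMod N) - (g 0 1 : ZMod N) * (g 1 0 : ZMod N) = 1 := by
        have := g.det_coe
        rw [Matrix.det_fin_two] at this
        have h2 := congrArg (Int.cast : ℤ → ZMod N) this
        push_cast at h2
        exact h2
      set A : ZMod N := (g 0 0 : ZMod N) with hA
      set B : ZMod N := (g 0 1 : ZMod N) with hB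
      set C : ZMod N := (g 1 0 : ZMod N) with hC
      set D : ZMod N := (g 1 1 : ZMod N) with hD
      set E : ZMod N := -((t : ZMod N) * A + C) * D ^ 2 - 2 * A * B * D + B ^ 2 * C with hE
      have hCE : C * E = 1 := by
        rw [hE]
        linear_combination (-D ^ 2) * hq + (A * D - B * C + 1) * hdet
      have hroot : (A * E) ^ 2 + (t : ZMod N) * (A * E) + 1 = 0 := by
        linear_combination E ^ 2 * hq + (-(t : ZMod N) * A * E - C * E - 1) * hCE
      refine ⟨⟨A * E, hroot⟩, ?_⟩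
      apply Subtype.ext
      show ((gmat ((A * E).val : ℤ) : SL(2, ℤ)) : SL(2, ℤ) ⧸ Gamma0 N) = g
      rw [mk_gmat_eq_iff, hcast]
      linear_combination A * hCE

/-- T7: the number of cosets of `Γ₀(N)` fixed by `S` is `nuTwo N`. -/
theorem card_fixedBy_S :
    Nat.card {q : SL(2, ℤ) ⧸ Gamma0 N // ModularGroup.S • q = q} = ModularCurve.nuTwo N := by
  rw [← hmat_zero, card_fixedBy_hmat, ModularCurve.nuTwo]
  refine Nat.card_congr (Equiv.subtypeEquivRight fun u => ?_)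
  simp

/-- T8: the number of cosets of `Γ₀(N)` fixed by `S * T` is `nuThree N`. -/
theorem card_fixedBy_ST :
    Nat.card {q : SL(2, ℤ) ⧸ Gamma0 N // (ModularGroup.S * ModularGroup.T) • q = q} =
      ModularCurve.nuThree N := by
  rw [← hmat_one, card_fixedBy_hmat, ModularCurve.nuThree]
  refine Nat.card_congr (Equiv.subtypeEquivRight fun u => ?_)
  simp

end Fermat.Agent.S20.FixedST
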