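import Fermat.Agent.S20.Defs
import Fermat.Agent.S20.FixedST572

/-!
# Package F2: `fixS N = nuTwo N`

The left coset `g Γ₀(N)` corresponds to the point `(a : c) ∈ ℙ¹(ℤ/N)` given by the first column of
`g`; it is fixed by `S` iff `a² + c² ≡ 0 mod N`, and then `c` is a unit and `x = a / c` is a root of
`x² + 1`.  The bijection is proved in `FixedST572.lean` (`FixedST.card_fixedBy_S`, helper572);
this file only restates it for the `fixS` of `Defs.lean`.
-/

set_option autoImplicit false

open CongruenceSubgroup Matrix.SpecialLinearGroup
open scoped MatrixGroups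

namespace Fermat.Agent.S20

theorem fixS_eq_nuTwo (N : ℕ) [NeZero N] : fixS N = ModularCurve.nuTwo N :=
  FixedST.card_fixedBy_S N

end Fermat.Agent.S20
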