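import Fermat.Agent.S20.Defs

/-!
# Package F: finite combinatorics on `SL(2,ℤ) ⧸ Γ₀(N) ≅ ℙ¹(ℤ/N)`

The left coset `g Γ₀(N)` corresponds to the point `(a : c) ∈ ℙ¹(ℤ/N)` given by the first column of `g`
(`g⁻¹ g' ∈ Γ₀(N) ↔ a c' - c a' ≡ 0 mod N`); every primitive pair mod `N` lifts to a coprime pair.

This file: the fixed points of `S * T` on `SL(2,ℤ) ⧸ Γ₀(N)` are in bijection with the roots of
`x² + x + 1` in `ℤ/N` (via `x ↦ [x, -1; 1, 0] Γ₀(N)`).
-/

set_option autoImplicit false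

open CongruenceSubgroup Matrix.SpecialLinearGroup
open scoped MatrixGroups

namespace Fermat.Agent.S20

namespace CountFixU

/-- The matrix `[a, -1; 1, 0]`, whose first column is `(a, 1)`. -/
def rep (a : ℤ) : SL(2, ℤ) := ⟨!![a, -1; 1, 0], by simp [Matrix.det_fin_two]⟩

@[simp] lemma rep_zero_zero (a : ℤ) : (rep a) 0 0 = a := rfl
@[simp] lemma rep_one_zero (a : ℤ) : (rep a) 1 0 = 1 := rfl

/-- Lower-left entry of `g⁻¹ * h`. -/
lemma inv_mul_apply_one_zero (g h : SL(2, ℤ)) :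
    (g⁻¹ * h) 1 0 = g 0 0 * h 1 0 - g 1 0 * h 0 0 := by
  rw [Matrix.SpecialLinearGroup.coe_mul, Matrix.SpecialLinearGroup.coe_inv,
    Matrix.adjugate_fin_two, Matrix.mul_apply, Fin.sum_univ_two]
  simp
  ring

/-- Two cosets of `Γ₀(N)` agree iff the first columns are proportional mod `N`. -/
lemma mk_eq_mk_iff (N : ℕ) (g h : SL(2, ℤ)) :
    (g : SL(2, ℤ) ⧸ Gamma0 N) = (h : SL(2, ℤ) ⧸ Gamma0 N) ↔
      (g 0 0 : ZMod N) * (h 1 0 : ZMod N) - (g 1 0 : ZMod N) * (h 0 0 : ZMod N) = 0 := by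
  rw [QuotientGroup.eq, Gamma0_mem, inv_mul_apply_one_zero]
  push_cast
  rfl

lemma ST_mul_zero_zero (g : SL(2, ℤ)) :
    (ModularGroup.S * ModularGroup.T * g) 0 0 = - g 1 0 := by
  rw [Matrix.SpecialLinearGroup.coe_mul, Matrix.SpecialLinearGroup.coe_mul, ModularGroup.coe_S,
    ModularGroup.coe_T]
  simp [Matrix.mul_apply, Fin.sum_univ_two]

lemma ST_mul_one_zero (g : SL(2, ℤ)) :
    (ModularGroup.S * ModularGroup.T * g) 1 0 = g 0 0 + g 1 0 := by
  rw [Matrix.SpecialLinearGroup.coe_mul, Matrix.SpecialLinearGroup.coe_mul, ModularGroup.coe_S,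
    ModularGroup.coe_T]
  simp [Matrix.mul_apply, Fin.sum_univ_two]

/-- The coset `g Γ₀(N)` is fixed by `S * T` iff `a² + a c + c² ≡ 0 mod N` for the first column
`(a, c)` of `g`. -/
lemma smul_mk_eq_iff (N : ℕ) (g : SL(2, ℤ)) :
    (ModularGroup.S * ModularGroup.T) • (g : SL(2, ℤ) ⧸ Gamma0 N) = (g : SL(2, ℤ) ⧸ Gamma0 N) ↔
      (g 0 0 : ZMod N) ^ 2 + (g 0 0 : ZMod N) * (g 1 0 : ZMod N) + (g 1 0 : ZMod N) ^ 2 = 0 := by
  have h1 : (ModularGroup.S * ModularGroup.T) • (g : SL(2, ℤ) ⧸ Gamma0 N)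
      = ((ModularGroup.S * ModularGroup.T * g : SL(2, ℤ)) : SL(2, ℤ) ⧸ Gamma0 N) := rfl
  rw [h1, mk_eq_mk_iff, ST_mul_zero_zero, ST_mul_one_zero]
  push_cast
  constructor
  · intro h
    linear_combination -h
  · intro h
    linear_combination -h

/-- The determinant relation of `g`, reduced mod `N`. -/
lemma det_cast (N : ℕ) (g : SL(2, ℤ)) :
    (g 0 0 : ZMod N) * (g 1 1 : ZMod N) - (g 0 1 : ZMod N) * (g 1 0 : ZMod N) = 1 := by
  have h := g.det_coe
  rw [Matrix.det_fin_two] at h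
  have := congrArg (Int.cast : ℤ → ZMod N) h
  push_cast at this
  exact this

/-- The map `x ↦ [x, -1; 1, 0] Γ₀(N)` from roots of `x² + x + 1` to fixed points of `S * T`. -/
noncomputable def toFix (N : ℕ) (x : {x : ZMod N // x ^ 2 + x + 1 = 0}) :
    {q : SL(2, ℤ) ⧸ Gamma0 N // (ModularGroup.S * ModularGroup.T) • q = q} :=
  ⟨(rep (x.1.cast : ℤ) : SL(2, ℤ) ⧸ Gamma0 N), by
    rw [smul_mk_eq_iff]
    simp only [rep_zero_zero, rep_one_zero, ZMod.intCast_cast, ZMod.cast_id', id_eq, Int.cast_one]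
    have := x.2
    linear_combination this⟩

lemma toFix_injective (N : ℕ) : Function.Injective (toFix N) := by
  intro x y h
  have h' := congrArg Subtype.val h
  simp only [toFix] at h'
  rw [mk_eq_mk_iff] at h'
  simp only [rep_zero_zero, rep_one_zero, ZMod.intCast_cast, ZMod.cast_id', id_eq,
    Int.cast_one] at h'
  apply Subtype.ext
  linear_combination h'

lemma toFix_surjective (N : ℕ) : Function.Surjective (toFix N) := by
  rintro ⟨q, hq⟩
  induction q using QuotientGroup.induction_on with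
  | H g =>
    rw [smul_mk_eq_iff] at hq
    have hdet := det_cast N g
    set a : ZMod N := (g 0 0 : ZMod N) with ha
    set b : ZMod N := (g 0 1 : ZMod N) with hb
    set c : ZMod N := (g 1 0 : ZMod N) with hc
    set d : ZMod N := (g 1 1 : ZMod N) with hd
    -- explicit inverse of `c`
    obtain ⟨u, hcu⟩ : ∃ u : ZMod N, c * u = 1 :=
      ⟨-(a + c) * d ^ 2 - 2 * b - b ^ 2 * c, by
        linear_combination (-d ^ 2) * hq + (a * d + b * c + 1) * hdet⟩
    refine ⟨⟨a * u, ?_⟩, ?_⟩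
    · linear_combination (u ^ 2) * hq + (-(a * u + 1 + c * u)) * hcu
    · apply Subtype.ext
      simp only [toFix]
      rw [mk_eq_mk_iff]
      simp only [rep_zero_zero, rep_one_zero, ZMod.intCast_cast, ZMod.cast_id', id_eq,
        Int.cast_one]
      linear_combination a * hcu

end CountFixU

theorem fixU_eq_nuThree (N : ℕ) [NeZero N] : fixU N = ModularCurve.nuThree N := by
  unfold fixU ModularCurve.nuThree
  exact (Nat.card_eq_of_bijective (CountFixU.toFix N)
    ⟨CountFixU.toFix_injective N, CountFixU.toFix_surjective N⟩).symm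

end Fermat.Agent.S20
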