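import Fermat.Agent.S20.Defs
import Fermat.Agent.S20.Comb.Index

/-!
# Package F1: `(Gamma0 N).index = dedekindPsi N`

Thin wrapper (helper284) around helper694's `Fermat.Agent.S20.Comb.index_Gamma0`
(sorry-free, valid for every `N`).
-/

set_option autoImplicit false

open CongruenceSubgroup Matrix.SpecialLinearGroup
open scoped MatrixGroups

namespace Fermat.Agent.S20

theorem index_eq_dedekindPsi (N : ℕ) [NeZero N] : (Gamma0 N).index = ModularCurve.dedekindPsi N :=
  Fermat.Agent.S20.Comb.index_Gamma0 N

end Fermat.Agent.S20
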