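import Mathlib
import Fermat.Prelude.Def_ModularCurve_GenusNumerics

/-!
# S20 (dim S₂(Γ₀(N)) = genus formula): shared definitions

Everything lives in `namespace Fermat.Agent.S20`.  Modular forms are handled as plain functions
`ℍ → ℂ` with predicates, so that products / quotients need no weight casts.
-/

set_option autoImplicit false

open UpperHalfPlane ModularForm CongruenceSubgroup Matrix.SpecialLinearGroup EisensteinSeries
open scoped MatrixGroups ModularForm Manifold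

namespace Fermat.Agent.S20

/-- `f` is the underlying function of a weight-`k` holomorphic modular form for `Γ ≤ SL(2,ℤ)`:
holomorphic, `Γ`-invariant, and every `SL(2,ℤ)`-translate is bounded at `i∞`. -/
def IsMF (Γ : Subgroup SL(2, ℤ)) (k : ℤ) (f : ℍ → ℂ) : Prop :=
  MDiff f ∧ (∀ γ ∈ Γ, f ∣[k] γ = f) ∧ ∀ g : SL(2, ℤ), IsBoundedAtImInfty (f ∣[k] g)

/-- Same with "zero at `i∞`": cusp forms. -/
def IsCF (Γ : Subgroup SL(2, ℤ)) (k : ℤ) (f : ℍ → ℂ) : Prop :=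
  MDiff f ∧ (∀ γ ∈ Γ, f ∣[k] γ = f) ∧ ∀ g : SL(2, ℤ), IsZeroAtImInfty (f ∣[k] g)

/-- Cusp forms of weight `k` for `Γ`, as a submodule of `ℍ → ℂ`. -/
def CFsub (Γ : Subgroup SL(2, ℤ)) (k : ℤ) : Submodule ℂ (ℍ → ℂ) where
  carrier := {f | IsCF Γ k f}
  add_mem' := by
    rintro f g ⟨hf1, hf2, hf3⟩ ⟨hg1, hg2, hg3⟩
    refine ⟨hf1.add hg1, fun γ hγ => ?_, fun γ => ?_⟩
    · rw [SlashAction.add_slash, hf2 γ hγ, hg2 γ hγ]
    · rw [SlashAction.add_slash]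
      exact (zeroAtImInftySubmodule ℂ).add_mem (hf3 γ) (hg3 γ)
  zero_mem' := by
    refine ⟨mdifferentiable_const, fun γ _ => SlashAction.zero_slash _ _, fun γ => ?_⟩
    rw [SlashAction.zero_slash]
    exact (zeroAtImInftySubmodule ℂ).zero_mem
  smul_mem' := by
    rintro c f ⟨hf1, hf2, hf3⟩
    refine ⟨hf1.const_smul c, fun γ hγ => ?_, fun γ => ?_⟩
    · rw [ModularForm.SL_smul_slash, hf2 γ hγ]
    · rw [ModularForm.SL_smul_slash]
      exact (zeroAtImInftySubmodule ℂ).smul_mem c (hf3 γ)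

@[simp] lemma mem_CFsub {Γ : Subgroup SL(2, ℤ)} {k : ℤ} {f : ℍ → ℂ} :
    f ∈ CFsub Γ k ↔ IsCF Γ k f := Iff.rfl

/-- The conjugate `f ∣[k] g⁻¹` attached to the left coset `q = gΓ` (well defined for
`Γ`-invariant `f`; we use the representative `q.out`). -/
noncomputable def conj (Γ : Subgroup SL(2, ℤ)) (k : ℤ) (f : ℍ → ℂ) (q : SL(2, ℤ) ⧸ Γ) : ℍ → ℂ :=
  f ∣[k] ((q.out : SL(2, ℤ))⁻¹)

/-- The elliptic point `ρ = e^{2πi/3} = -1/2 + (√3/2) i`, fixed by `S * T`. -/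
noncomputable def rho : ℍ := ⟨⟨-1 / 2, Real.sqrt 3 / 2⟩, by simp⟩

noncomputable instance instFintypeQuot (N : ℕ) [NeZero N] : Fintype (SL(2, ℤ) ⧸ Gamma0 N) :=
  Subgroup.fintypeQuotientOfFiniteIndex

noncomputable instance instDecEqQuot (N : ℕ) : DecidableEq (SL(2, ℤ) ⧸ Gamma0 N) :=
  Classical.decEq _

/-- number of fixed points of `S` on `SL(2,ℤ)/Γ₀(N)` -/
noncomputable def fixS (N : ℕ) : ℕ :=
  Nat.card {q : SL(2, ℤ) ⧸ Gamma0 N // ModularGroup.S • q = q}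

/-- number of fixed points of `S * T` on `SL(2,ℤ)/Γ₀(N)` -/
noncomputable def fixU (N : ℕ) : ℕ :=
  Nat.card {q : SL(2, ℤ) ⧸ Gamma0 N // (ModularGroup.S * ModularGroup.T) • q = q}

/-- number of orbits of `⟨T⟩` on `SL(2,ℤ)/Γ₀(N)` (= number of cusps of `Γ₀(N)`) -/
noncomputable def numCusps (N : ℕ) : ℕ :=
  Nat.card (MulAction.orbitRel.Quotient (Subgroup.zpowers ModularGroup.T) (SL(2, ℤ) ⧸ Gamma0 N))

/-- A homogeneous basis of the graded module `⊕_w M_w(Γ₀(N))` over `⊕_w M_w(SL(2,ℤ))`. -/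
structure IsHomBasis (N : ℕ) {ι : Type} [Fintype ι] (k : ι → ℤ) (F : ι → ℍ → ℂ) : Prop where
  mem : ∀ j, IsMF (Gamma0 N) (k j) (F j)
  span : ∀ (w : ℤ) (f : ℍ → ℂ), IsMF (Gamma0 N) w f →
    ∃ a : ι → ℍ → ℂ, (∀ j, IsMF ⊤ (w - k j) (a j)) ∧ f = ∑ j, a j * F j
  indep : ∀ (w : ℤ) (a : ι → ℍ → ℂ), (∀ j, IsMF ⊤ (w - k j) (a j)) →
    ∑ j, a j * F j = 0 → ∀ j, a j = 0

end Fermat.Agent.S20
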