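import Fermat.Agent.S20.Defs
import Fermat.Agent.S20.JInj
import Fermat.Agent.S20.Bracket

/-!
# Package A3: division lemmas (the substitute for Riemann–Roch)

* `exists_div_of_simple_zeros`: pure complex analysis.
* zeros of `E₆` = orbit of `i`, zeros of `E₄` = orbit of `ρ`, zeros of
  `P τ₀ := E₄³ E₆(τ₀)² - E₆² E₄(τ₀)³` = orbit of `τ₀` (by `j_inj`); all simple (by `bracket_ne_zero`:
  at a zero of `E₆`, `2 E₄ E₆' ≠ 0`; at a zero of `E₄`, `3 E₄' E₆ ≠ 0`; at a zero `z` of `P τ₀` with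
  `E₄ τ₀ E₆ τ₀ ≠ 0`: `E₄ z E₆ z ≠ 0` and `E₄ z E₆ z P'(z) = E₆(τ₀)² E₄(z)³ (3 E₄' E₆ - 2 E₄ E₆')(z)`).
* `div_E₆`, `div_E₄`, `div_P`, `div_Δ`: the quotient is again a modular form for the same `Γ`
  (invariance is clear; boundedness at cusps because `E₄, E₆ → 1`, `P τ₀ → -1728 Δ(τ₀) ≠ 0`
  and `Δ ~ q` at `i∞`).

Proved by helper399 (all statements of the skeleton kept verbatim; helper lemmas are prefixed `div_`).
Depends on `j_inj` (package A1) and `bracket_ne_zero` (package A2) only through their statements.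
-/

set_option autoImplicit false

open UpperHalfPlane ModularForm CongruenceSubgroup Matrix.SpecialLinearGroup EisensteinSeries
open Filter Asymptotics
open scoped MatrixGroups ModularForm Manifold Topology

namespace Fermat.Agent.S20

/-- Holomorphic division by a function with only simple zeros. -/
theorem exists_div_of_simple_zeros {P f : ℍ → ℂ} (hP : MDiff P) (hf : MDiff f)
    (hsimple : ∀ z : ℍ, P z = 0 → deriv (P ∘ ofComplex) z ≠ 0)
    (h0 : ∀ z : ℍ, P z = 0 → f z = 0) :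
    ∃ h : ℍ → ℂ, MDiff h ∧ f = P * h := by
  classical
  have hPd := UpperHalfPlane.mdifferentiable_iff.mp hP
  have hfd := UpperHalfPlane.mdifferentiable_iff.mp hf
  refine ⟨fun z => if P z = 0 then deriv (f ∘ ofComplex) z / deriv (P ∘ ofComplex) z
    else f z / P z, ?_, ?_⟩
  · intro τ
    rw [UpperHalfPlane.mdifferentiableAt_iff]
    have hτ : (τ : ℂ) ∈ upperHalfPlaneSet := τ.im_pos
    have hnhds : upperHalfPlaneSet ∈ 𝓝 (τ : ℂ) := isOpen_upperHalfPlaneSet.mem_nhds hτ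
    by_cases hPτ : P τ = 0
    · -- zero of P
      have hp : DifferentiableOn ℂ (dslope (P ∘ ofComplex) τ) upperHalfPlaneSet :=
        (Complex.differentiableOn_dslope hnhds).mpr hPd
      have hφ : DifferentiableOn ℂ (dslope (f ∘ ofComplex) τ) upperHalfPlaneSet :=
        (Complex.differentiableOn_dslope hnhds).mpr hfd
      have hp0 : dslope (P ∘ ofComplex) τ τ ≠ 0 := by
        rw [dslope_same]; exact hsimple τ hPτ
      have hpc : ContinuousAt (dslope (P ∘ ofComplex) τ) τ :=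
        (hp.differentiableAt hnhds).continuousAt
      have hev : ∀ᶠ z in 𝓝 (τ : ℂ), dslope (P ∘ ofComplex) τ z ≠ 0 :=
        hpc.eventually_ne hp0
      have hPτ' : (P ∘ ofComplex) (τ : ℂ) = 0 := by simp [ofComplex_apply, hPτ]
      have hfτ' : (f ∘ ofComplex) (τ : ℂ) = 0 := by simp [ofComplex_apply, h0 τ hPτ]
      have hEq : (fun z : ℂ => (fun z : ℍ => if P z = 0 then
            deriv (f ∘ ofComplex) z / deriv (P ∘ ofComplex) z else f z / P z) (ofComplex z))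
          =ᶠ[𝓝 (τ : ℂ)] fun z => dslope (f ∘ ofComplex) τ z / dslope (P ∘ ofComplex) τ z := by
        filter_upwards [hev, hnhds] with z hz hzU
        by_cases hzτ : z = τ
        · subst hzτ
          simp only [ofComplex_apply, hPτ, if_true, dslope_same]
        · have h1 : dslope (P ∘ ofComplex) τ z = (z - τ)⁻¹ * (P (ofComplex z)) := by
            rw [dslope_of_ne _ hzτ, slope_def_field, hPτ']
            simp [div_eq_inv_mul]
          have h2 : dslope (f ∘ ofComplex) τ z = (z - τ)⁻¹ * (f (ofComplex z)) := by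
            rw [dslope_of_ne _ hzτ, slope_def_field, hfτ']
            simp [div_eq_inv_mul]
          have hzne : z - τ ≠ 0 := sub_ne_zero.mpr hzτ
          have hPz : P (ofComplex z) ≠ 0 := by
            intro h; apply hz; rw [h1, h]; simp
          simp only [hPz, if_false]
          rw [h1, h2]
          field_simp
      have hd : DifferentiableAt ℂ
          (fun z => dslope (f ∘ ofComplex) τ z / dslope (P ∘ ofComplex) τ z) τ :=
        (hφ.differentiableAt hnhds).div (hp.differentiableAt hnhds) hp0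
      exact hd.congr_of_eventuallyEq hEq
    · -- P τ ≠ 0
      have hPc : ContinuousAt (P ∘ ofComplex) τ := (hPd.differentiableAt hnhds).continuousAt
      have hPτ' : (P ∘ ofComplex) (τ : ℂ) ≠ 0 := by simpa [ofComplex_apply] using hPτ
      have hev : ∀ᶠ z in 𝓝 (τ : ℂ), (P ∘ ofComplex) z ≠ 0 := hPc.eventually_ne hPτ'
      have hEq : (fun z : ℂ => (fun z : ℍ => if P z = 0 then
            deriv (f ∘ ofComplex) z / deriv (P ∘ ofComplex) z else f z / P z) (ofComplex z))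
          =ᶠ[𝓝 (τ : ℂ)] fun z => (f ∘ ofComplex) z / (P ∘ ofComplex) z := by
        filter_upwards [hev] with z hz
        have : P (ofComplex z) ≠ 0 := hz
        simp [this]
      have hd : DifferentiableAt ℂ (fun z => (f ∘ ofComplex) z / (P ∘ ofComplex) z) τ :=
        (hfd.differentiableAt hnhds).div (hPd.differentiableAt hnhds) hPτ'
      exact hd.congr_of_eventuallyEq hEq
  · ext z
    by_cases hPz : P z = 0
    · simp [hPz, h0 z hPz]
    · simp only [Pi.mul_apply, hPz, if_false]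
      field_simp

/-- level-one modular forms, as functions, are slash-invariant under all of `SL(2,ℤ)`. -/
lemma div_slash_levelOne {k : ℤ} (F : ModularForm 𝒮ℒ k) (g : SL(2, ℤ)) :
    (⇑F) ∣[k] g = ⇑F :=
  SlashInvariantForm.slash_action_eqn F (Matrix.SpecialLinearGroup.mapGL ℝ g) ⟨g, rfl⟩

/-- pointwise form of slash invariance -/
lemma div_smul_of_slash {k : ℤ} {f : ℍ → ℂ} {g : SL(2, ℤ)} (h : f ∣[k] g = f) (z : ℍ) :
    f (g • z) = denom g z ^ k * f z := by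
  have h := congrFun h z
  rw [ModularForm.SL_slash_apply] at h
  have hd : denom g z ≠ 0 := denom_ne_zero _ z
  have hd' : denom g z ^ k ≠ 0 := zpow_ne_zero _ hd
  rw [zpow_neg] at h
  rw [← h]
  field_simp

/-- converse: pointwise automorphy gives slash invariance -/
lemma div_slash_of_smul {k : ℤ} {f : ℍ → ℂ} {g : SL(2, ℤ)}
    (h : ∀ z : ℍ, f (g • z) = denom g z ^ k * f z) : f ∣[k] g = f := by
  ext z
  rw [ModularForm.SL_slash_apply, h z]
  have hd : denom g z ≠ 0 := denom_ne_zero _ z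
  have hd' : denom g z ^ k ≠ 0 := zpow_ne_zero _ hd
  rw [zpow_neg]
  field_simp

lemma div_levelOne_smul {k : ℤ} (F : ModularForm 𝒮ℒ k) (g : SL(2, ℤ)) (z : ℍ) :
    F (g • z) = denom g z ^ k * F z :=
  div_smul_of_slash (div_slash_levelOne F g) z

lemma div_E₆_I : E₆ UpperHalfPlane.I = 0 := by
  have hS : ModularGroup.S • UpperHalfPlane.I = UpperHalfPlane.I :=
    ModularGroup.stabilizer_I.mpr (by simp)
  have h := div_levelOne_smul E₆ ModularGroup.S UpperHalfPlane.I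
  rw [hS, ModularGroup.denom_S] at h
  have hI : ((UpperHalfPlane.I : ℍ) : ℂ) ^ (6 : ℤ) = -1 := by
    rw [UpperHalfPlane.coe_I]
    have : (Complex.I) ^ (6 : ℤ) = Complex.I ^ (6 : ℕ) := by norm_cast
    rw [this, show (6 : ℕ) = 4 + 2 by norm_num, pow_add, Complex.I_pow_four, Complex.I_sq]
    ring
  rw [hI] at h
  have h2 : (2 : ℂ) * E₆ UpperHalfPlane.I = 0 := by linear_combination h
  simpa using h2

lemma div_rho_eq : rho = UpperHalfPlane.ρ := rfl

lemma div_E₄_rho : E₄ rho = 0 := by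
  rw [div_rho_eq]
  have hST : (ModularGroup.S * ModularGroup.T) • UpperHalfPlane.ρ = UpperHalfPlane.ρ :=
    ModularGroup.stabilizer_ρ.mpr (by simp)
  have h := div_levelOne_smul E₄ (ModularGroup.S * ModularGroup.T) UpperHalfPlane.ρ
  rw [hST, ModularGroup.denom_apply] at h
  have h10 : ((ModularGroup.S * ModularGroup.T : SL(2, ℤ)) : Matrix (Fin 2) (Fin 2) ℤ) 1 0 = 1 := by
    simp [ModularGroup.coe_S, ModularGroup.coe_T, Matrix.mul_apply, Fin.sum_univ_two]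
  have h11 : ((ModularGroup.S * ModularGroup.T : SL(2, ℤ)) : Matrix (Fin 2) (Fin 2) ℤ) 1 1 = 1 := by
    simp [ModularGroup.coe_S, ModularGroup.coe_T, Matrix.mul_apply, Fin.sum_univ_two]
  rw [h10, h11] at h
  have hpow : ((1 : ℤ) * ((UpperHalfPlane.ρ : ℍ) : ℂ) + (1 : ℤ)) ^ (4 : ℤ)
      = - ((UpperHalfPlane.ρ : ℍ) : ℂ) - 1 := by
    have h2 := UpperHalfPlane.ρ_sq
    have : ((1 : ℤ) * ((UpperHalfPlane.ρ : ℍ) : ℂ) + (1 : ℤ)) ^ (4 : ℤ)
        = (((UpperHalfPlane.ρ : ℍ) : ℂ) + 1) ^ (4 : ℕ) := by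
      norm_cast
      simp
    rw [this]
    have h3 : (((UpperHalfPlane.ρ : ℍ) : ℂ) + 1) ^ 2 = (UpperHalfPlane.ρ : ℂ) := by
      linear_combination h2
    calc (((UpperHalfPlane.ρ : ℍ) : ℂ) + 1) ^ 4
        = ((((UpperHalfPlane.ρ : ℍ) : ℂ) + 1) ^ 2) ^ 2 := by ring
      _ = (UpperHalfPlane.ρ : ℂ) ^ 2 := by rw [h3]
      _ = _ := h2
  rw [hpow] at h
  have hne : ((UpperHalfPlane.ρ : ℍ) : ℂ) + 2 ≠ 0 := by
    intro h0
    have := congrArg Complex.re h0
    simp [UpperHalfPlane.ρ] at this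
    norm_num at this
  have h2 : (((UpperHalfPlane.ρ : ℍ) : ℂ) + 2) * E₄ UpperHalfPlane.ρ = 0 := by
    linear_combination h
  rcases mul_eq_zero.mp h2 with h3 | h3
  · exact absurd h3 hne
  · exact h3

theorem E₆_eq_zero_iff (z : ℍ) : E₆ z = 0 ↔ ∃ g : SL(2, ℤ), g • UpperHalfPlane.I = z := by
  constructor
  · intro hz
    apply j_inj
    rw [hz, div_E₆_I]; ring
  · rintro ⟨g, rfl⟩
    rw [div_levelOne_smul, div_E₆_I, mul_zero]

theorem E₄_eq_zero_iff (z : ℍ) : E₄ z = 0 ↔ ∃ g : SL(2, ℤ), g • rho = z := by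
  constructor
  · intro hz
    apply j_inj
    rw [hz, div_E₄_rho]; ring
  · rintro ⟨g, rfl⟩
    rw [div_levelOne_smul, div_E₄_rho, mul_zero]

/-- The weight-12 level-one form vanishing exactly on the orbit of `τ₀`. -/
noncomputable def Pform (τ₀ : ℍ) : ℍ → ℂ :=
  fun z => E₄ z ^ 3 * E₆ τ₀ ^ 2 - E₆ z ^ 2 * E₄ τ₀ ^ 3

lemma div_Pform_smul (τ₀ : ℍ) (g : SL(2, ℤ)) (z : ℍ) :
    Pform τ₀ (g • z) = denom g z ^ (12 : ℤ) * Pform τ₀ z := by
  simp only [Pform]
  rw [div_levelOne_smul E₄, div_levelOne_smul E₆]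
  have hd : denom g z ≠ 0 := denom_ne_zero _ z
  have e4 : (denom g z ^ (4 : ℤ)) ^ 3 = denom g z ^ (12 : ℤ) := by
    rw [← zpow_natCast, ← zpow_mul]; norm_num
  have e6 : (denom g z ^ (6 : ℤ)) ^ 2 = denom g z ^ (12 : ℤ) := by
    rw [← zpow_natCast, ← zpow_mul]; norm_num
  rw [mul_pow, mul_pow, e4, e6]
  ring

lemma div_Pform_mdiff (τ₀ : ℍ) : MDiff (Pform τ₀) := by
  have h4 : MDiff (⇑E₄) := ModularFormClass.holo E₄
  have h6 : MDiff (⇑E₆) := ModularFormClass.holo E₆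
  have : Pform τ₀ = (⇑E₄) ^ 3 * (fun _ => E₆ τ₀ ^ 2) - (⇑E₆) ^ 2 * (fun _ => E₄ τ₀ ^ 3) := by
    ext z; simp [Pform]
  rw [this]
  exact ((h4.pow 3).mul mdifferentiable_const).sub ((h6.pow 2).mul mdifferentiable_const)

/-- level one forms tend to their constant coefficient at `i∞`. -/
lemma div_tendsto_levelOne {k : ℤ} (F : ModularForm 𝒮ℒ k) :
    Tendsto (⇑F) atImInfty (𝓝 ((qExpansion 1 (⇑F)).coeff 0)) := by
  have hanal := ModularFormClass.analyticAt_cuspFunction_zero F one_pos one_mem_strictPeriods_SL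
  have hper := SlashInvariantFormClass.periodic_comp_ofComplex F one_mem_strictPeriods_SL
  have h0 : (qExpansion 1 (⇑F)).coeff 0 = cuspFunction 1 (⇑F) 0 := by
    simp [qExpansion_coeff]
  rw [h0]
  exact (hanal.continuousAt.tendsto.comp (qParam_tendsto_atImInfty one_pos)).congr
    (fun τ ↦ SlashInvariantFormClass.eq_cuspFunction F τ one_mem_strictPeriods_SL one_ne_zero)

lemma div_tendsto_E₄ : Tendsto (⇑E₄) atImInfty (𝓝 1) := by
  have := div_tendsto_levelOne E₄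
  rwa [E_qExpansion_coeff_zero _ ⟨2, rfl⟩] at this

lemma div_tendsto_E₆ : Tendsto (⇑E₆) atImInfty (𝓝 1) := by
  have := div_tendsto_levelOne E₆
  rwa [E_qExpansion_coeff_zero _ ⟨3, rfl⟩] at this

lemma div_tendsto_Pform (τ₀ : ℍ) :
    Tendsto (Pform τ₀) atImInfty (𝓝 (-1728 * ModularForm.discriminant τ₀)) := by
  have h : Tendsto (Pform τ₀) atImInfty (𝓝 (1 ^ 3 * E₆ τ₀ ^ 2 - 1 ^ 2 * E₄ τ₀ ^ 3)) :=
    ((div_tendsto_E₄.pow 3).mul_const _).sub ((div_tendsto_E₆.pow 2).mul_const _)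
  have e : (1 : ℂ) ^ 3 * E₆ τ₀ ^ 2 - 1 ^ 2 * E₄ τ₀ ^ 3 = -1728 * ModularForm.discriminant τ₀ := by
    rw [ModularForm.discriminant_eq_E₄_cube_sub_E₆_sq]; ring
  rwa [e] at h

lemma div_bdd_of_tendsto {P : ℍ → ℂ} {c : ℂ} (h : Tendsto P atImInfty (𝓝 c)) :
    IsBoundedAtImInfty P := by
  have : P =O[atImInfty] (fun _ => (1 : ℂ)) := h.isBigO_one ℂ
  simpa [IsBoundedAtImInfty, BoundedAtFilter, Pi.one_def] using this

theorem Pform_isMF (τ₀ : ℍ) : IsMF ⊤ 12 (Pform τ₀) := by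
  have hinv : ∀ g : SL(2, ℤ), Pform τ₀ ∣[(12 : ℤ)] g = Pform τ₀ :=
    fun g => div_slash_of_smul (div_Pform_smul τ₀ g)
  refine ⟨div_Pform_mdiff τ₀, fun γ _ => hinv γ, fun g => ?_⟩
  rw [hinv g]
  exact div_bdd_of_tendsto (div_tendsto_Pform τ₀)

theorem Pform_eq_zero_iff (τ₀ z : ℍ) : Pform τ₀ z = 0 ↔ ∃ g : SL(2, ℤ), g • τ₀ = z := by
  constructor
  · intro hz
    apply j_inj
    simp only [Pform] at hz
    linear_combination -hz
  · rintro ⟨g, rfl⟩
    have h0 : Pform τ₀ τ₀ = 0 := by simp only [Pform]; ring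
    rw [div_Pform_smul, h0, mul_zero]

lemma div_mdiff_slash {h : ℍ → ℂ} (hh : MDiff h) (k : ℤ) (g : SL(2, ℤ)) : MDiff (h ∣[k] g) := by
  rw [ModularForm.SL_slash]
  exact hh.slash k _

lemma div_ne_zero_of_tendsto {P : ℍ → ℂ} {c : ℂ} (hc : c ≠ 0)
    (hP : Tendsto P atImInfty (𝓝 c)) : P ≠ 0 := by
  rintro rfl
  exact hc (tendsto_nhds_unique hP tendsto_const_nhds)

/-- core of the division lemmas: invariance of the quotient. -/
lemma div_core {Γ : Subgroup SL(2, ℤ)} {k m : ℤ} {P f h : ℍ → ℂ}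
    (hPm : MDiff P) (hPinv : ∀ g : SL(2, ℤ), P ∣[m] g = P) (hPne : P ≠ 0)
    (hf : IsMF Γ k f) (hh : MDiff h) (hfac : f = P * h) :
    (∀ γ ∈ Γ, h ∣[k - m] γ = h) ∧ ∀ g : SL(2, ℤ), (f ∣[k] g) = P * (h ∣[k - m] g) := by
  have key : ∀ g : SL(2, ℤ), (f ∣[k] g) = P * (h ∣[k - m] g) := by
    intro g
    have hk : k = m + (k - m) := by ring
    conv_lhs => rw [hfac, hk]
    rw [ModularForm.mul_slash_SL2, hPinv g]
  refine ⟨fun γ hγ => ?_, key⟩
  have h1 : P * (h ∣[k - m] γ) = P * h := by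
    rw [← key γ, hf.2.1 γ hγ, hfac]
  have h2 : P * ((h ∣[k - m] γ) - h) = 0 := by
    rw [mul_sub, h1, sub_self]
  have hm : MDiff ((h ∣[k - m] γ) - h) := (div_mdiff_slash hh _ γ).sub hh
  rcases (UpperHalfPlane.mul_eq_zero_iff hPm hm).mp h2 with h3 | h3
  · exact absurd h3 hPne
  · exact sub_eq_zero.mp h3

/-- boundedness of the quotient when the divisor has a nonzero limit. -/
lemma div_bdd {P F H : ℍ → ℂ} {c : ℂ} (hc : c ≠ 0) (hP : Tendsto P atImInfty (𝓝 c))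
    (hF : IsBoundedAtImInfty F) (hfac : F = P * H) : IsBoundedAtImInfty H := by
  have hpos : 0 < ‖c‖ := norm_pos_iff.mpr hc
  have hev : ∀ᶠ z in atImInfty, ‖c‖ / 2 ≤ ‖P z‖ :=
    hP.norm.eventually_const_le (half_lt_self hpos)
  obtain ⟨C, hC⟩ := hF.bound
  refine IsBigO.of_bound (C / (‖c‖ / 2)) ?_
  filter_upwards [hev, hC] with z hz hCz
  have hPz : 0 < ‖P z‖ := lt_of_lt_of_le (half_pos hpos) hz
  have hFz : F z = P z * H z := congrFun hfac z
  have hH : ‖H z‖ = ‖F z‖ / ‖P z‖ := by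
    rw [hFz, norm_mul]; field_simp
  simp only [Pi.one_apply, norm_one, mul_one] at hCz ⊢
  rw [hH]
  have hC0 : 0 ≤ C := le_trans (norm_nonneg _) hCz
  calc ‖F z‖ / ‖P z‖ ≤ C / ‖P z‖ := by gcongr
    _ ≤ C / (‖c‖ / 2) := by gcongr

/-- generic division by a level-one form with nonzero limit at `i∞` and simple zeros. -/
lemma div_generic {Γ : Subgroup SL(2, ℤ)} {k m : ℤ} {P f : ℍ → ℂ} {c : ℂ}
    (hPm : MDiff P) (hPinv : ∀ g : SL(2, ℤ), P ∣[m] g = P)
    (hc : c ≠ 0) (hPlim : Tendsto P atImInfty (𝓝 c))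
    (hsimple : ∀ z : ℍ, P z = 0 → deriv (P ∘ ofComplex) z ≠ 0)
    (hf : IsMF Γ k f) (h0 : ∀ z : ℍ, P z = 0 → f z = 0) :
    ∃ h : ℍ → ℂ, IsMF Γ (k - m) h ∧ f = P * h := by
  obtain ⟨h, hh, hfac⟩ := exists_div_of_simple_zeros hPm hf.1 hsimple h0
  obtain ⟨hinv, hkey⟩ := div_core hPm hPinv (div_ne_zero_of_tendsto hc hPlim) hf hh hfac
  exact ⟨h, ⟨hh, hinv, fun g => div_bdd hc hPlim (hf.2.2 g) (hkey g)⟩, hfac⟩

/-- **Division by `E₆`**. -/
theorem div_E₆ {Γ : Subgroup SL(2, ℤ)} {k : ℤ} {f : ℍ → ℂ} (hf : IsMF Γ k f)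
    (h0 : ∀ g : SL(2, ℤ), f (g • UpperHalfPlane.I) = 0) :
    ∃ h : ℍ → ℂ, IsMF Γ (k - 6) h ∧ f = ⇑E₆ * h := by
  refine div_generic (ModularFormClass.holo E₆) (div_slash_levelOne E₆) one_ne_zero
    div_tendsto_E₆ (fun z hz => ?_) hf (fun z hz => ?_)
  · have hb := bracket_ne_zero z
    rw [hz, mul_zero, sub_zero] at hb
    exact right_ne_zero_of_mul hb
  · obtain ⟨g, rfl⟩ := (E₆_eq_zero_iff z).mp hz
    exact h0 g

/-- **Division by `E₄`**. -/
theorem div_E₄ {Γ : Subgroup SL(2, ℤ)} {k : ℤ} {f : ℍ → ℂ} (hf : IsMF Γ k f)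
    (h0 : ∀ g : SL(2, ℤ), f (g • rho) = 0) :
    ∃ h : ℍ → ℂ, IsMF Γ (k - 4) h ∧ f = ⇑E₄ * h := by
  refine div_generic (ModularFormClass.holo E₄) (div_slash_levelOne E₄) one_ne_zero
    div_tendsto_E₄ (fun z hz => ?_) hf (fun z hz => ?_)
  · have hb := bracket_ne_zero z
    rw [hz, mul_zero, zero_mul, zero_sub] at hb
    have hb' : 3 * deriv (⇑E₄ ∘ ofComplex) z * E₆ z ≠ 0 := neg_ne_zero.mp hb
    exact right_ne_zero_of_mul (left_ne_zero_of_mul hb')
  · obtain ⟨g, rfl⟩ := (E₄_eq_zero_iff z).mp hz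
    exact h0 g

lemma div_differentiableAt {f : ℍ → ℂ} (hf : MDiff f) (z : ℍ) :
    DifferentiableAt ℂ (f ∘ ofComplex) z :=
  UpperHalfPlane.mdifferentiableAt_iff.mp (hf z)

lemma div_deriv_Pform (τ₀ z : ℍ) :
    deriv (Pform τ₀ ∘ ofComplex) z =
      3 * E₄ z ^ 2 * deriv (⇑E₄ ∘ ofComplex) z * E₆ τ₀ ^ 2
        - 2 * E₆ z * deriv (⇑E₆ ∘ ofComplex) z * E₄ τ₀ ^ 3 := by
  have h4 := (div_differentiableAt (ModularFormClass.holo E₄) z).hasDerivAt
  have h6 := (div_differentiableAt (ModularFormClass.holo E₆) z).hasDerivAt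
  have hP : Pform τ₀ ∘ ofComplex = fun w =>
      (⇑E₄ ∘ ofComplex) w ^ 3 * E₆ τ₀ ^ 2 - (⇑E₆ ∘ ofComplex) w ^ 2 * E₄ τ₀ ^ 3 := by
    ext w; simp [Pform]
  have hd : HasDerivAt (fun w =>
      (⇑E₄ ∘ ofComplex) w ^ 3 * E₆ τ₀ ^ 2 - (⇑E₆ ∘ ofComplex) w ^ 2 * E₄ τ₀ ^ 3) _ (z : ℂ) :=
    ((h4.pow 3).mul_const (E₆ τ₀ ^ 2)).sub ((h6.pow 2).mul_const (E₄ τ₀ ^ 3))
  rw [hP, hd.deriv]
  simp only [Function.comp_apply, ofComplex_apply]
  push_cast
  ring

/-- **Division by `P τ₀`** at a non-elliptic point. -/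
theorem div_P {Γ : Subgroup SL(2, ℤ)} {k : ℤ} {f : ℍ → ℂ} {τ₀ : ℍ}
    (h4 : E₄ τ₀ ≠ 0) (h6 : E₆ τ₀ ≠ 0) (hf : IsMF Γ k f)
    (h0 : ∀ g : SL(2, ℤ), f (g • τ₀) = 0) :
    ∃ h : ℍ → ℂ, IsMF Γ (k - 12) h ∧ f = Pform τ₀ * h := by
  have hc : (-1728 * ModularForm.discriminant τ₀ : ℂ) ≠ 0 :=
    mul_ne_zero (by norm_num) (ModularForm.discriminant_ne_zero τ₀)
  refine div_generic (div_Pform_mdiff τ₀)
    (fun g => div_slash_of_smul (div_Pform_smul τ₀ g)) hc
    (div_tendsto_Pform τ₀) (fun z hz => ?_) hf (fun z hz => ?_)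
  · intro hP'
    rw [div_deriv_Pform] at hP'
    simp only [Pform] at hz
    have hΔ := ModularForm.discriminant_ne_zero z
    rw [ModularForm.discriminant_eq_E₄_cube_sub_E₆_sq] at hΔ
    have hA : E₄ z ≠ 0 := by
      intro hA
      rw [hA] at hz
      have hB : E₆ z = 0 := by
        have : E₆ z ^ 2 * E₄ τ₀ ^ 3 = 0 := by linear_combination -hz
        rcases mul_eq_zero.mp this with h | h
        · exact pow_eq_zero_iff (two_ne_zero) |>.mp h
        · exact absurd (pow_eq_zero_iff (three_ne_zero) |>.mp h) h4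
      apply hΔ
      rw [hA, hB]; norm_num
    have hb := bracket_ne_zero z
    have key : E₄ z ^ 3 * E₆ τ₀ ^ 2 *
        (2 * E₄ z * deriv (⇑E₆ ∘ ofComplex) z - 3 * deriv (⇑E₄ ∘ ofComplex) z * E₆ z) = 0 := by
      linear_combination (-(E₄ z * E₆ z)) * hP' + (2 * E₄ z * deriv (⇑E₆ ∘ ofComplex) z) * hz
    rcases mul_eq_zero.mp key with h | h
    · rcases mul_eq_zero.mp h with h | h
      · exact hA (pow_eq_zero_iff (three_ne_zero) |>.mp h)
      · exact h6 (pow_eq_zero_iff (two_ne_zero) |>.mp h)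
    · exact hb h
  · obtain ⟨g, rfl⟩ := (Pform_eq_zero_iff τ₀ z).mp hz
    exact h0 g

lemma div_mdiff_discriminant : MDiff ModularForm.discriminant :=
  ModularFormClass.holo CuspForm.discriminant

lemma div_slash_discriminant (g : SL(2, ℤ)) :
    ModularForm.discriminant ∣[(12 : ℤ)] g = ModularForm.discriminant :=
  SlashInvariantForm.slash_action_eqn CuspForm.discriminant
    (Matrix.SpecialLinearGroup.mapGL ℝ g) ⟨g, rfl⟩

/-- **Division by `Δ`**: if all translates of `f` are `O(exp(-2π Im τ))` at `i∞`. -/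
theorem div_Δ {Γ : Subgroup SL(2, ℤ)} {k : ℤ} {f : ℍ → ℂ} (hf : IsMF Γ k f)
    (h0 : ∀ g : SL(2, ℤ),
      (f ∣[k] g) =O[atImInfty] fun τ : ℍ => Real.exp (-2 * Real.pi * τ.im)) :
    ∃ h : ℍ → ℂ, IsMF Γ (k - 12) h ∧ f = ModularForm.discriminant * h := by
  have hne : ∀ z : ℍ, ModularForm.discriminant z ≠ 0 := ModularForm.discriminant_ne_zero
  obtain ⟨h, hh, hfac⟩ := exists_div_of_simple_zeros div_mdiff_discriminant hf.1
    (fun z hz => absurd hz (hne z)) (fun z hz => absurd hz (hne z))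
  have hΔne : ModularForm.discriminant ≠ 0 := fun h => hne UpperHalfPlane.I (congrFun h _)
  obtain ⟨hinv, hkey⟩ := div_core div_mdiff_discriminant div_slash_discriminant hΔne hf hh hfac
  refine ⟨h, ⟨hh, hinv, fun g => ?_⟩, hfac⟩
  have hO : (f ∣[k] g) =O[atImInfty] ModularForm.discriminant :=
    (h0 g).trans ModularForm.exp_isBigO_discriminant
  obtain ⟨C, hC⟩ := hO.bound
  refine IsBigO.of_bound C ?_
  filter_upwards [hC] with z hCz
  have hFz : (f ∣[k] g) z = ModularForm.discriminant z * (h ∣[k - 12] g) z := congrFun (hkey g) z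
  rw [hFz, norm_mul] at hCz
  have hpos : 0 < ‖ModularForm.discriminant z‖ := norm_pos_iff.mpr (hne z)
  simp only [Pi.one_apply, norm_one, mul_one]
  have : ‖ModularForm.discriminant z‖ * ‖(h ∣[k - 12] g) z‖ ≤ ‖ModularForm.discriminant z‖ * C := by
    linarith
  exact le_of_mul_le_mul_left this hpos

end Fermat.Agent.S20
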