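/-
S20 — Cramer duality package (helper620).

Abstract input: a "frame" of vector-valued modular forms `v j : X → ℍ → ℂ` (`X = SL(2,ℤ) ⧸ Γ`)
of weights `wt j`, indexed by `j : X`, whose matrix `Φ z = (v j x z)_{x,j}` is invertible at every
point of `ℍ` and such that `Δ · Φ⁻¹ → 0` at `i∞`.

Output: for every `k`, `CuspForm Γ k ≃ₗ[ℂ] Π j, ModularForm 𝒮ℒ (k + wt j - 12)`.
-/
import Mathlib

set_option autoImplicit false

open UpperHalfPlane ModularForm CongruenceSubgroup MatrixGroups Filter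
open scoped ModularForm Manifold Topology

noncomputable section

namespace Fermat.Agent.S20.Duality620

open Classical in
/-- The automorphy factor `c z + d` of `g ∈ SL(2,ℤ)`. -/
def dn (g : SL(2, ℤ)) (z : ℍ) : ℂ :=
  denom (Matrix.SpecialLinearGroup.toGL ((Matrix.SpecialLinearGroup.map (Int.castRingHom ℝ)) g)) z

lemma dn_ne_zero (g : SL(2, ℤ)) (z : ℍ) : dn g z ≠ 0 := by
  unfold dn
  exact UpperHalfPlane.denom_ne_zero _ z

lemma slash_apply' (k : ℤ) (f : ℍ → ℂ) (g : SL(2, ℤ)) (z : ℍ) :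
    (f ∣[k] g) z = f (g • z) * dn g z ^ (-k) := by
  rw [SL_slash_apply]; rfl

lemma apply_smul_eq (k : ℤ) (f : ℍ → ℂ) (g : SL(2, ℤ)) (z : ℍ) :
    f (g • z) = (f ∣[k] g) z * dn g z ^ k := by
  rw [slash_apply', mul_assoc, ← zpow_add₀ (dn_ne_zero g z)]
  simp

lemma discriminant_smul (g : SL(2, ℤ)) (z : ℍ) :
    discriminant (g • z) = discriminant z * dn g z ^ (12 : ℤ) := by
  have h : (discriminant ∣[(12 : ℤ)] g) = discriminant := by
    have := SlashInvariantFormClass.slash_action_eq CuspForm.discriminant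
      (Matrix.SpecialLinearGroup.mapGL ℝ g) ⟨g, rfl⟩
    rw [CuspForm.coe_discriminant] at this
    rw [SL_slash]
    exact this
  rw [apply_smul_eq 12 discriminant g z, h]


/-! ### Holomorphy of determinants and inverses of holomorphic matrix functions -/

section Holo

variable {n : Type} [Fintype n] [DecidableEq n]

lemma mdiff_det (M : ℍ → Matrix n n ℂ) (h : ∀ a b, MDiff (fun z => M z a b)) :
    MDiff (fun z => (M z).det) := by
  have key : (fun z => (M z).det) =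
      ∑ σ : Equiv.Perm n, (fun _ : ℍ => ((Equiv.Perm.sign σ : ℤ) : ℂ)) *
        ∏ i : n, (fun z => M z (σ i) i) := by
    funext z
    simp only [Matrix.det_apply, Finset.sum_apply, Pi.mul_apply, Finset.prod_apply]
    refine Finset.sum_congr rfl fun σ _ => ?_
    rw [Units.smul_def, zsmul_eq_mul]
  rw [key]
  refine MDifferentiable.sum fun σ _ => ?_
  exact mdifferentiable_const.mul (MDifferentiable.prod fun i _ => h _ _)

lemma mdiff_inv_apply (M : ℍ → Matrix n n ℂ) (h : ∀ a b, MDiff (fun z => M z a b))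
    (hdet : ∀ z, (M z).det ≠ 0) (a b : n) : MDiff (fun z => (M z)⁻¹ a b) := by
  have key : (fun z => (M z)⁻¹ a b) =
      (fun z => ((M z).updateRow b (Pi.single a 1)).det) / (fun z => (M z).det) := by
    funext z
    simp only [Pi.div_apply, Matrix.inv_def, Ring.inverse_eq_inv', Matrix.smul_apply,
      Matrix.adjugate_apply, smul_eq_mul]
    rw [div_eq_inv_mul]
  rw [key]
  refine MDifferentiable.div ?_ (mdiff_det M h) hdet
  refine mdiff_det _ fun c d => ?_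
  by_cases hc : c = b
  · subst hc
    simp only [Matrix.updateRow_self]
    exact mdifferentiable_const
  · simp only [Matrix.updateRow_ne hc]
    exact h c d

end Holo

/-! ### Frames -/

section Frame

variable {Γ : Subgroup SL(2, ℤ)} [Γ.FiniteIndex]

/-- The `Fintype` structure on the coset space used throughout this file (local instance). -/
abbrev instFintypeQuot : Fintype (SL(2, ℤ) ⧸ Γ) := Subgroup.fintypeQuotientOfFiniteIndex

/-- The `DecidableEq` structure on the coset space used throughout this file (local instance). -/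
abbrev instDecEqQuot : DecidableEq (SL(2, ℤ) ⧸ Γ) := Classical.decEq _

attribute [local instance] instFintypeQuot instDecEqQuot

variable (wt : SL(2, ℤ) ⧸ Γ → ℤ) (v : SL(2, ℤ) ⧸ Γ → SL(2, ℤ) ⧸ Γ → ℍ → ℂ)

/-- The fundamental matrix of a frame: rows are indexed by cosets `x`, columns by frame
elements `j`. -/
def Phi (z : ℍ) : Matrix (SL(2, ℤ) ⧸ Γ) (SL(2, ℤ) ⧸ Γ) ℂ := Matrix.of fun x j => v j x z

/-- A unimodular frame. -/
structure IsUFrame : Prop where
  holo : ∀ j x, MDiff (v j x)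
  bdd : ∀ j x, IsBoundedAtImInfty (v j x)
  slash : ∀ j (g : SL(2, ℤ)) x, v j x ∣[wt j] g = v j (g⁻¹ • x)
  det_ne : ∀ z, (Phi v z).det ≠ 0
  decay : ∀ j x, IsZeroAtImInfty (fun z => discriminant z * (Phi v z)⁻¹ j x)

variable {wt v}

lemma Phi_smul (hv : IsUFrame wt v) (g : SL(2, ℤ)) (z : ℍ) (x j : SL(2, ℤ) ⧸ Γ) :
    Phi v (g • z) x j = Phi v z (g⁻¹ • x) j * dn g z ^ (wt j) := by
  simp only [Phi, Matrix.of_apply]
  rw [apply_smul_eq (wt j) (v j x) g z, hv.slash]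

lemma inv_smul (hv : IsUFrame wt v) (g : SL(2, ℤ)) (z : ℍ) (j x : SL(2, ℤ) ⧸ Γ) :
    (Phi v (g • z))⁻¹ j x = dn g z ^ (-wt j) * (Phi v z)⁻¹ j (g⁻¹ • x) := by
  have hd := dn_ne_zero g z
  have key : (Phi v (g • z))⁻¹ =
      Matrix.of fun j x => dn g z ^ (-wt j) * (Phi v z)⁻¹ j (g⁻¹ • x) := by
    apply Matrix.inv_eq_left_inv
    ext j i
    simp only [Matrix.mul_apply, Matrix.of_apply]
    have h1 : ∀ x, dn g z ^ (-wt j) * (Phi v z)⁻¹ j (g⁻¹ • x) * Phi v (g • z) x i =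
        dn g z ^ (-wt j) * dn g z ^ (wt i) * ((Phi v z)⁻¹ j (g⁻¹ • x) * Phi v z (g⁻¹ • x) i) := by
      intro x
      rw [Phi_smul hv]
      ring
    simp_rw [h1]
    rw [← Finset.mul_sum]
    have h2 : ∑ x, (Phi v z)⁻¹ j (g⁻¹ • x) * Phi v z (g⁻¹ • x) i =
        ∑ y, (Phi v z)⁻¹ j y * Phi v z y i :=
      Equiv.sum_comp (MulAction.toPerm g⁻¹) fun y => (Phi v z)⁻¹ j y * Phi v z y i
    rw [h2, ← Matrix.mul_apply, Matrix.nonsing_inv_mul _ (isUnit_iff_ne_zero.mpr (hv.det_ne z))]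
    by_cases hji : j = i
    · subst hji
      rw [Matrix.one_apply_eq, mul_one, ← zpow_add₀ hd]
      simp
    · rw [Matrix.one_apply_ne hji, mul_zero]
  rw [key, Matrix.of_apply]

/-- The dual frame. -/
def Hd (v : SL(2, ℤ) ⧸ Γ → SL(2, ℤ) ⧸ Γ → ℍ → ℂ) (j x : SL(2, ℤ) ⧸ Γ) (z : ℍ) : ℂ :=
  discriminant z * (Phi v z)⁻¹ j x

lemma Hd_holo (hv : IsUFrame wt v) (j x : SL(2, ℤ) ⧸ Γ) : MDiff (Hd v j x) := by
  have h1 : MDiff (discriminant : ℍ → ℂ) := by
    rw [← CuspForm.coe_discriminant]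
    exact CuspForm.discriminant.holo'
  exact h1.mul (mdiff_inv_apply (Phi v) (fun a b => hv.holo b a) hv.det_ne j x)

lemma Hd_slash (hv : IsUFrame wt v) (j : SL(2, ℤ) ⧸ Γ) (g : SL(2, ℤ)) (x : SL(2, ℤ) ⧸ Γ) :
    Hd v j x ∣[12 - wt j] g = Hd v j (g⁻¹ • x) := by
  funext z
  have hd := dn_ne_zero g z
  rw [slash_apply']
  simp only [Hd]
  rw [discriminant_smul, inv_smul hv]
  have : dn g z ^ (12 : ℤ) * dn g z ^ (-wt j) * dn g z ^ (-(12 - wt j)) = 1 := by
    rw [← zpow_add₀ hd, ← zpow_add₀ hd]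
    have : (12 : ℤ) + -wt j + -(12 - wt j) = 0 := by ring
    rw [this, zpow_zero]
  linear_combination (discriminant z * (Phi v z)⁻¹ j (g⁻¹ • x)) * this

lemma Hd_zero (hv : IsUFrame wt v) (j x : SL(2, ℤ) ⧸ Γ) : IsZeroAtImInfty (Hd v j x) :=
  hv.decay j x

end Frame

/-! ### Asymptotic helpers -/

lemma isZero_mul_bdd {f g : ℍ → ℂ} (hf : IsZeroAtImInfty f) (hg : IsBoundedAtImInfty g) :
    IsZeroAtImInfty (f * g) := by
  have h1 : f =o[atImInfty] (fun _ => (1 : ℝ)) := (Asymptotics.isLittleO_one_iff ℝ).mpr hf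
  have h2 : g =O[atImInfty] (fun _ => (1 : ℝ)) := hg
  have h3 := h2.mul_isLittleO h1
  simp only [mul_one] at h3
  have h4 : Tendsto (fun x => g x * f x) atImInfty (𝓝 0) := (Asymptotics.isLittleO_one_iff ℝ).mp h3
  refine h4.congr fun x => ?_
  simp [mul_comm]

lemma isZero_bdd_mul {f g : ℍ → ℂ} (hf : IsBoundedAtImInfty f) (hg : IsZeroAtImInfty g) :
    IsZeroAtImInfty (f * g) := by
  rw [mul_comm]; exact isZero_mul_bdd hg hf

lemma isZero_finset_sum {ι : Type*} (s : Finset ι) (f : ι → ℍ → ℂ)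
    (h : ∀ i ∈ s, IsZeroAtImInfty (f i)) : IsZeroAtImInfty (∑ i ∈ s, f i) := by
  have : Tendsto (fun z => ∑ i ∈ s, f i z) atImInfty (𝓝 (∑ _i ∈ s, (0 : ℂ))) :=
    tendsto_finsetSum s fun i hi => h i hi
  simp only [Finset.sum_const_zero] at this
  refine this.congr fun z => ?_
  simp [Finset.sum_apply]

/-! ### Translates of a `Γ`-invariant function -/

section Vec

variable {Γ : Subgroup SL(2, ℤ)}

/-- The vector of translates of a function: `x = gΓ ↦ f ∣[k] g⁻¹` (using `Quotient.out`). -/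
def vecOf (k : ℤ) (f : ℍ → ℂ) (x : SL(2, ℤ) ⧸ Γ) : ℍ → ℂ :=
  f ∣[k] (Quotient.out x)⁻¹

lemma vecOf_mk {k : ℤ} {f : ℍ → ℂ} (hf : ∀ γ ∈ Γ, f ∣[k] γ = f) (g : SL(2, ℤ)) :
    vecOf k f (QuotientGroup.mk g : SL(2, ℤ) ⧸ Γ) = f ∣[k] g⁻¹ := by
  unfold vecOf
  obtain ⟨γ, hγ⟩ := QuotientGroup.mk_out_eq_mul Γ g
  have h1 : Quotient.out (QuotientGroup.mk g : SL(2, ℤ) ⧸ Γ) = g * γ := hγ
  rw [h1, mul_inv_rev, SlashAction.slash_mul, hf _ (inv_mem γ.2)]

lemma vecOf_slash {k : ℤ} {f : ℍ → ℂ} (hf : ∀ γ ∈ Γ, f ∣[k] γ = f) (g : SL(2, ℤ))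
    (x : SL(2, ℤ) ⧸ Γ) : (vecOf k f x) ∣[k] g = vecOf k f (g⁻¹ • x) := by
  induction x using QuotientGroup.induction_on with
  | H h =>
    rw [vecOf_mk hf, MulAction.Quotient.smul_mk, vecOf_mk hf, ← SlashAction.slash_mul]
    simp [mul_inv_rev]

lemma vecOf_one {k : ℤ} {f : ℍ → ℂ} (hf : ∀ γ ∈ Γ, f ∣[k] γ = f) :
    vecOf k f (QuotientGroup.mk 1 : SL(2, ℤ) ⧸ Γ) = f := by
  rw [vecOf_mk hf]; simp

lemma vecOf_add (k : ℤ) (f g : ℍ → ℂ) (x : SL(2, ℤ) ⧸ Γ) :
    vecOf k (f + g) x = vecOf k f x + vecOf k g x := by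
  unfold vecOf
  exact SlashAction.add_slash _ _ _ _

lemma vecOf_smul (k : ℤ) (c : ℂ) (f : ℍ → ℂ) (x : SL(2, ℤ) ⧸ Γ) :
    vecOf k (c • f) x = c • vecOf k f x := by
  unfold vecOf
  exact ModularForm.SL_smul_slash _ _ _ _

end Vec

/-! ### The trace pairing and the duality isomorphism -/

section Main

attribute [local instance] instFintypeQuot instDecEqQuot

variable {Γ : Subgroup SL(2, ℤ)} [Γ.FiniteIndex]
variable {wt : SL(2, ℤ) ⧸ Γ → ℤ} {v : SL(2, ℤ) ⧸ Γ → SL(2, ℤ) ⧸ Γ → ℍ → ℂ}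

omit [Γ.FiniteIndex] in
lemma cusp_inv {k : ℤ} (h : CuspForm (Γ : Subgroup (GL (Fin 2) ℝ)) k) :
    ∀ γ ∈ Γ, (h : ℍ → ℂ) ∣[k] γ = h := fun γ hγ => by
  rw [SL_slash]
  exact h.slash_action_eq' _ ⟨γ, hγ, rfl⟩

lemma level_one_inv {k : ℤ} (b : ModularForm 𝒮ℒ k) (g : SL(2, ℤ)) :
    (b : ℍ → ℂ) ∣[k] g = b := by
  rw [SL_slash]
  exact b.slash_action_eq' _ ⟨g, rfl⟩

lemma level_one_bdd {k : ℤ} (b : ModularForm 𝒮ℒ k) : IsBoundedAtImInfty (b : ℍ → ℂ) := by
  have := ModularFormClass.bdd_at_infty_slash b (1 : SL(2, ℤ))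
  rwa [level_one_inv] at this

/-- The trace pairing of a function with the `j`-th frame element. -/
def pairFun (v : SL(2, ℤ) ⧸ Γ → SL(2, ℤ) ⧸ Γ → ℍ → ℂ) (k : ℤ) (h : ℍ → ℂ)
    (j : SL(2, ℤ) ⧸ Γ) : ℍ → ℂ :=
  ∑ x, vecOf k h x * v j x

lemma pairFun_apply (k : ℤ) (h : ℍ → ℂ) (j : SL(2, ℤ) ⧸ Γ) (z : ℍ) :
    pairFun v k h j z = ∑ x, vecOf k h x z * v j x z := by
  simp [pairFun, Finset.sum_apply]

lemma pairFun_slash (hv : IsUFrame wt v) {k : ℤ} {h : ℍ → ℂ} (hh : ∀ γ ∈ Γ, h ∣[k] γ = h)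
    (j : SL(2, ℤ) ⧸ Γ) (g : SL(2, ℤ)) : pairFun v k h j ∣[k + wt j] g = pairFun v k h j := by
  unfold pairFun
  rw [SlashAction.sum_slash]
  simp_rw [mul_slash_SL2, vecOf_slash hh, hv.slash]
  exact Equiv.sum_comp (MulAction.toPerm g⁻¹) fun y => vecOf k h y * v j y

/-- The trace pairing of a cusp form of level `Γ` with a frame element is a level-one cusp form. -/
def pairCusp (hv : IsUFrame wt v) (k : ℤ) (h : CuspForm (Γ : Subgroup (GL (Fin 2) ℝ)) k)
    (j : SL(2, ℤ) ⧸ Γ) : CuspForm 𝒮ℒ (k + wt j) where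
  toFun := pairFun v k h j
  slash_action_eq' := by
    rintro _ ⟨g, rfl⟩
    have := pairFun_slash hv (cusp_inv h) j g
    rwa [SL_slash] at this
  holo' := by
    show MDiff (pairFun v k (⇑h) j)
    unfold pairFun
    refine MDifferentiable.sum fun x _ => ?_
    exact (h.holo'.slash k _).mul (hv.holo j x)
  zero_at_cusps' := by
    intro c hc
    rw [OnePoint.isZeroAt_iff_forall_SL2Z hc]
    intro g _
    show IsZeroAtImInfty (pairFun v k (⇑h) j ∣[k + wt j] g)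
    rw [pairFun_slash hv (cusp_inv h)]
    unfold pairFun
    refine isZero_finset_sum _ _ fun x _ => ?_
    exact isZero_mul_bdd (CuspFormClass.zero_at_infty_slash h _) (hv.bdd j x)

@[simp] lemma pairCusp_apply (hv : IsUFrame wt v) (k : ℤ)
    (h : CuspForm (Γ : Subgroup (GL (Fin 2) ℝ)) k) (j : SL(2, ℤ) ⧸ Γ) (z : ℍ) :
    pairCusp hv k h j z = ∑ x, vecOf k (⇑h) x z * v j x z :=
  pairFun_apply k h j z

/-- The duality map `h ↦ (Tr(h · v_j) / Δ)_j`. -/
def Psi (hv : IsUFrame wt v) (k : ℤ) :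
    CuspForm (Γ : Subgroup (GL (Fin 2) ℝ)) k →ₗ[ℂ]
      ((j : SL(2, ℤ) ⧸ Γ) → ModularForm 𝒮ℒ (k + wt j - 12)) where
  toFun h j := CuspForm.discriminantEquiv (pairCusp hv k h j)
  map_add' h₁ h₂ := by
    funext j
    ext z
    simp only [CuspForm.discriminantEquiv_apply, pairCusp_apply, Pi.add_apply,
      add_apply, FunLike.coe_add, vecOf_add]
    rw [← add_div, ← Finset.sum_add_distrib]
    congr 1
    refine Finset.sum_congr rfl fun x _ => ?_
    ring
  map_smul' c h := by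
    funext j
    ext z
    simp only [CuspForm.discriminantEquiv_apply, pairCusp_apply, Pi.smul_apply,
      smul_apply, FunLike.coe_smul, vecOf_smul, RingHom.id_apply, smul_eq_mul]
    rw [← mul_div_assoc, Finset.mul_sum]
    congr 1
    refine Finset.sum_congr rfl fun x _ => ?_
    ring

lemma Psi_apply (hv : IsUFrame wt v) (k : ℤ) (h : CuspForm (Γ : Subgroup (GL (Fin 2) ℝ)) k)
    (j : SL(2, ℤ) ⧸ Γ) (z : ℍ) :
    Psi hv k h j z = (∑ x, vecOf k (⇑h) x z * v j x z) / discriminant z := by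
  simp [Psi, CuspForm.discriminantEquiv_apply]

omit [Γ.FiniteIndex] in
lemma mul_slash_SL2' {k k1 k2 : ℤ} (hk : k = k1 + k2) (A : SL(2, ℤ)) (f g : ℍ → ℂ) :
    (f * g) ∣[k] A = f ∣[k1] A * g ∣[k2] A := by
  subst hk
  exact mul_slash_SL2 k1 k2 A f g

/-- The base point of the coset space. -/
def x₀ : SL(2, ℤ) ⧸ Γ := QuotientGroup.mk 1

/-- The function underlying the inverse of the duality map. -/
def invFun (v : SL(2, ℤ) ⧸ Γ → SL(2, ℤ) ⧸ Γ → ℍ → ℂ) (k : ℤ)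
    (b : (j : SL(2, ℤ) ⧸ Γ) → ModularForm 𝒮ℒ (k + wt j - 12)) (x : SL(2, ℤ) ⧸ Γ) : ℍ → ℂ :=
  ∑ j, (b j : ℍ → ℂ) * Hd v j x

lemma invFun_slash (hv : IsUFrame wt v) (k : ℤ)
    (b : (j : SL(2, ℤ) ⧸ Γ) → ModularForm 𝒮ℒ (k + wt j - 12)) (x : SL(2, ℤ) ⧸ Γ)
    (g : SL(2, ℤ)) : invFun v k b x ∣[k] g = invFun v k b (g⁻¹ • x) := by
  unfold invFun
  rw [SlashAction.sum_slash]
  refine Finset.sum_congr rfl fun j _ => ?_
  have hk : k = (k + wt j - 12) + (12 - wt j) := by ring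
  rw [mul_slash_SL2' hk, level_one_inv, Hd_slash hv]

lemma invFun_holo (hv : IsUFrame wt v) (k : ℤ)
    (b : (j : SL(2, ℤ) ⧸ Γ) → ModularForm 𝒮ℒ (k + wt j - 12)) (x : SL(2, ℤ) ⧸ Γ) :
    MDiff (invFun v k b x) := by
  unfold invFun
  refine MDifferentiable.sum fun j _ => ?_
  exact (b j).holo'.mul (Hd_holo hv j x)

lemma invFun_zero (hv : IsUFrame wt v) (k : ℤ)
    (b : (j : SL(2, ℤ) ⧸ Γ) → ModularForm 𝒮ℒ (k + wt j - 12)) (x : SL(2, ℤ) ⧸ Γ) :
    IsZeroAtImInfty (invFun v k b x) := by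
  unfold invFun
  refine isZero_finset_sum _ _ fun j _ => ?_
  exact isZero_bdd_mul (level_one_bdd (b j)) (Hd_zero hv j x)

omit [Γ.FiniteIndex] in
lemma smul_x₀ {γ : SL(2, ℤ)} (hγ : γ ∈ Γ) : γ⁻¹ • (x₀ : SL(2, ℤ) ⧸ Γ) = x₀ := by
  show (γ⁻¹ • (QuotientGroup.mk 1 : SL(2, ℤ) ⧸ Γ)) = QuotientGroup.mk 1
  rw [MulAction.Quotient.smul_mk, QuotientGroup.eq]
  simpa using hγ

/-- The inverse of the duality map, as a cusp form. -/
def invCusp (hv : IsUFrame wt v) (k : ℤ)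
    (b : (j : SL(2, ℤ) ⧸ Γ) → ModularForm 𝒮ℒ (k + wt j - 12)) :
    CuspForm (Γ : Subgroup (GL (Fin 2) ℝ)) k where
  toFun := invFun v k b x₀
  slash_action_eq' := by
    rintro _ ⟨γ, hγ, rfl⟩
    show (invFun v k b x₀) ∣[k] (γ : GL (Fin 2) ℝ) = invFun v k b x₀
    rw [← SL_slash, invFun_slash hv, smul_x₀ hγ]
  holo' := invFun_holo hv k b x₀
  zero_at_cusps' := by
    intro c hc
    rw [OnePoint.isZeroAt_iff_forall_SL2Z
      ((Subgroup.IsArithmetic.isCusp_iff_isCusp_SL2Z _).mp hc)]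
    intro g _
    show IsZeroAtImInfty ((invFun v k b x₀) ∣[k] g)
    rw [invFun_slash hv]
    exact invFun_zero hv k b _

lemma invCusp_coe (hv : IsUFrame wt v) (k : ℤ)
    (b : (j : SL(2, ℤ) ⧸ Γ) → ModularForm 𝒮ℒ (k + wt j - 12)) :
    (invCusp hv k b : ℍ → ℂ) = invFun v k b x₀ := rfl

lemma vecOf_invCusp (hv : IsUFrame wt v) (k : ℤ)
    (b : (j : SL(2, ℤ) ⧸ Γ) → ModularForm 𝒮ℒ (k + wt j - 12)) (x : SL(2, ℤ) ⧸ Γ) :
    vecOf k (invCusp hv k b : ℍ → ℂ) x = invFun v k b x := by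
  unfold vecOf
  rw [invCusp_coe, invFun_slash hv, inv_inv]
  congr 1
  show Quotient.out x • (QuotientGroup.mk 1 : SL(2, ℤ) ⧸ Γ) = x
  rw [MulAction.Quotient.smul_mk, smul_eq_mul, mul_one]
  exact QuotientGroup.out_eq' x

/-- `Ψ ∘ inv = id`. -/
lemma Psi_invCusp (hv : IsUFrame wt v) (k : ℤ)
    (b : (j : SL(2, ℤ) ⧸ Γ) → ModularForm 𝒮ℒ (k + wt j - 12)) :
    Psi hv k (invCusp hv k b) = b := by
  funext i
  ext z
  rw [Psi_apply]
  have hΔ := discriminant_ne_zero z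
  rw [div_eq_iff hΔ]
  simp_rw [vecOf_invCusp hv k b]
  simp only [invFun, Finset.sum_apply, Pi.mul_apply, Hd]
  have h1 : ∀ x, (∑ j, (b j) z * (discriminant z * (Phi v z)⁻¹ j x)) * v i x z =
      ∑ j, discriminant z * ((b j) z * ((Phi v z)⁻¹ j x * Phi v z x i)) := by
    intro x
    rw [Finset.sum_mul]
    refine Finset.sum_congr rfl fun j _ => ?_
    simp only [Phi, Matrix.of_apply]
    ring
  simp_rw [h1]
  rw [Finset.sum_comm]
  simp_rw [← Finset.mul_sum]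
  have h2 : ∀ j, ∑ x, (Phi v z)⁻¹ j x * Phi v z x i =
      (1 : Matrix (SL(2, ℤ) ⧸ Γ) (SL(2, ℤ) ⧸ Γ) ℂ) j i := by
    intro j
    rw [← Matrix.mul_apply, Matrix.nonsing_inv_mul _ (isUnit_iff_ne_zero.mpr (hv.det_ne z))]
  simp_rw [h2]
  rw [Finset.sum_eq_single i]
  · rw [Matrix.one_apply_eq]; ring
  · intro j _ hji
    rw [Matrix.one_apply_ne hji]; ring
  · intro hi; exact absurd (Finset.mem_univ i) hi

/-- `inv ∘ Ψ = id`. -/
lemma invCusp_Psi (hv : IsUFrame wt v) (k : ℤ) (h : CuspForm (Γ : Subgroup (GL (Fin 2) ℝ)) k) :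
    invCusp hv k (Psi hv k h) = h := by
  ext z
  show invFun v k (Psi hv k h) x₀ z = h z
  have hΔ := discriminant_ne_zero z
  simp only [invFun, Finset.sum_apply, Pi.mul_apply, Hd, Psi_apply]
  have h1 : ∀ j, (∑ x, vecOf k (⇑h) x z * v j x z) / discriminant z *
      (discriminant z * (Phi v z)⁻¹ j x₀) =
      ∑ x, vecOf k (⇑h) x z * (Phi v z x j * (Phi v z)⁻¹ j x₀) := by
    intro j
    have e1 : (∑ x, vecOf k (⇑h) x z * v j x z) / discriminant z *
        (discriminant z * (Phi v z)⁻¹ j x₀) =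
        (∑ x, vecOf k (⇑h) x z * v j x z) * (Phi v z)⁻¹ j x₀ := by
      field_simp
    rw [e1, Finset.sum_mul]
    refine Finset.sum_congr rfl fun x _ => ?_
    simp only [Phi, Matrix.of_apply]
    ring
  simp_rw [h1]
  rw [Finset.sum_comm]
  simp_rw [← Finset.mul_sum]
  have h2 : ∀ x, ∑ j, Phi v z x j * (Phi v z)⁻¹ j x₀ =
      (1 : Matrix (SL(2, ℤ) ⧸ Γ) (SL(2, ℤ) ⧸ Γ) ℂ) x x₀ := by
    intro x
    rw [← Matrix.mul_apply, Matrix.mul_nonsing_inv _ (isUnit_iff_ne_zero.mpr (hv.det_ne z))]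
  simp_rw [h2]
  rw [Finset.sum_eq_single x₀]
  · rw [Matrix.one_apply_eq, mul_one]
    have := vecOf_one (cusp_inv h)
    exact congrFun this z
  · intro x _ hx
    rw [Matrix.one_apply_ne hx, mul_zero]
  · intro hi; exact absurd (Finset.mem_univ _) hi

/-- **Cramer duality**: cusp forms of level `Γ` and weight `k` are parametrised by tuples of
level-one modular forms of weights `k + wt j - 12`. -/
def dualityEquiv (hv : IsUFrame wt v) (k : ℤ) :
    CuspForm (Γ : Subgroup (GL (Fin 2) ℝ)) k ≃ₗ[ℂ]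
      ((j : SL(2, ℤ) ⧸ Γ) → ModularForm 𝒮ℒ (k + wt j - 12)) :=
  { Psi hv k with
    invFun := invCusp hv k
    left_inv := invCusp_Psi hv k
    right_inv := Psi_invCusp hv k }

theorem finrank_cuspForm (hv : IsUFrame wt v) (k : ℤ) :
    Module.finrank ℂ (CuspForm (Γ : Subgroup (GL (Fin 2) ℝ)) k) =
      ∑ j : SL(2, ℤ) ⧸ Γ, Module.finrank ℂ (ModularForm 𝒮ℒ (k + wt j - 12)) := by
  rw [(dualityEquiv hv k).finrank_eq, Module.finrank_pi_fintype]

/-! ### Consequences -/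

lemma finrank_levelOne_zero : Module.finrank ℂ (ModularForm 𝒮ℒ (0 : ℤ)) = 1 :=
  Module.rank_eq_one_iff_finrank_eq_one.mp ModularForm.levelOne_weight_zero_rank_one

lemma finrank_levelOne_neg {k : ℤ} (hk : k < 0) : Module.finrank ℂ (ModularForm 𝒮ℒ k) = 0 := by
  have := ModularForm.levelOne_neg_weight_rank_zero hk
  exact Module.finrank_eq_zero_of_rank_eq_zero this

lemma finrank_levelOne_odd {k : ℤ} (hk : Odd k) : Module.finrank ℂ (ModularForm 𝒮ℒ k) = 0 := by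
  have := ModularForm.levelOne_odd_weight_rank_zero hk
  exact Module.finrank_eq_zero_of_rank_eq_zero this

omit [Γ.FiniteIndex] in
/-- Cusp forms of weight `≤ 0` vanish. -/
lemma cuspForm_eq_zero_of_nonpos [Γ.FiniteIndex] {k : ℤ} (hk : k ≤ 0)
    (h : CuspForm (Γ : Subgroup (GL (Fin 2) ℝ)) k) : h = 0 := by
  rcases hk.lt_or_eq with hk | rfl
  · -- negative weight
    let f : ModularForm (Γ : Subgroup (GL (Fin 2) ℝ)) k :=
      { toSlashInvariantForm := h.toSlashInvariantForm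
        holo' := h.holo'
        bdd_at_cusps' := fun hc g hg => (h.zero_at_cusps' hc g hg).boundedAtFilter }
    have hf : f = 0 := ModularForm.isZero_of_neg_weight hk f
    ext z
    have := congrArg (fun g : ModularForm _ k => g z) hf
    exact this
  · let f : ModularForm (Γ : Subgroup (GL (Fin 2) ℝ)) 0 :=
      { toSlashInvariantForm := h.toSlashInvariantForm
        holo' := h.holo'
        bdd_at_cusps' := fun hc g hg => (h.zero_at_cusps' hc g hg).boundedAtFilter }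
    obtain ⟨c, hc⟩ := ModularForm.eq_const_of_weight_zero f
    have hz : IsZeroAtImInfty (h : ℍ → ℂ) := by
      have := CuspFormClass.zero_at_infty_slash h (1 : SL(2, ℤ))
      simpa using this
    have hfh : (f : ℍ → ℂ) = h := rfl
    rw [hfh] at hc
    rw [hc] at hz
    have hc0 : c = 0 := by
      have h1 : Tendsto (Function.const ℍ c) atImInfty (𝓝 c) := tendsto_const_nhds
      exact tendsto_nhds_unique h1 hz
    ext z
    rw [hc, hc0]
    rfl

theorem wt_lt_twelve (hv : IsUFrame wt v) (j : SL(2, ℤ) ⧸ Γ) : wt j < 12 := by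
  by_contra hj
  rw [not_lt] at hj
  have h0 : Module.finrank ℂ (CuspForm (Γ : Subgroup (GL (Fin 2) ℝ)) (12 - wt j)) = 0 := by
    have : Subsingleton (CuspForm (Γ : Subgroup (GL (Fin 2) ℝ)) (12 - wt j)) :=
      ⟨fun a b => by
        rw [cuspForm_eq_zero_of_nonpos (by omega) a, cuspForm_eq_zero_of_nonpos (by omega) b]⟩
    exact Module.finrank_zero_of_subsingleton
  rw [finrank_cuspForm hv] at h0
  have h1 := (Finset.sum_eq_zero_iff.mp h0) j (Finset.mem_univ j)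
  have h2 : (12 - wt j + wt j - 12 : ℤ) = 0 := by ring
  rw [h2, finrank_levelOne_zero] at h1
  exact one_ne_zero h1

/-- **Main consequence**: `dim S₂(Γ)` is the number of frame elements of weight `10`. -/
theorem finrank_cuspForm_two (hv : IsUFrame wt v) :
    Module.finrank ℂ (CuspForm (Γ : Subgroup (GL (Fin 2) ℝ)) 2) =
      (Finset.univ.filter fun j : SL(2, ℤ) ⧸ Γ => wt j = 10).card := by
  rw [finrank_cuspForm hv, Finset.card_filter]
  refine Finset.sum_congr rfl fun j _ => ?_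
  have hj := wt_lt_twelve hv j
  split_ifs with h10
  · have : (2 + wt j - 12 : ℤ) = 0 := by omega
    rw [this, finrank_levelOne_zero]
  · rcases lt_or_gt_of_ne h10 with h | h
    · exact finrank_levelOne_neg (by omega)
    · have : (2 + wt j - 12 : ℤ) = 1 := by omega
      rw [this]
      exact finrank_levelOne_odd ⟨0, by norm_num⟩

/-- Instance-free version of `finrank_cuspForm_two`. -/
theorem finrank_cuspForm_two' (hv : IsUFrame wt v) :
    Module.finrank ℂ (CuspForm (Γ : Subgroup (GL (Fin 2) ℝ)) 2) =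
      Nat.card {j : SL(2, ℤ) ⧸ Γ // wt j = 10} := by
  rw [finrank_cuspForm_two hv, Nat.card_eq_fintype_card, Fintype.card_subtype]

end Main

end Fermat.Agent.S20.Duality620
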