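/-
S20 — adapter from the "homogeneous basis" data (helper860 / captain shapes) to the abstract
Cramer duality of `Duality620.lean` (helper620).

Inputs are taken in UNFOLDED form (no dependency on any skeleton `Defs`), so that the final
`finrank_cusp` of the primary chain is a short wrapper.
-/
import Fermat.Agent.S20.Duality620

set_option autoImplicit false
set_option linter.style.haveILetI false

open UpperHalfPlane ModularForm CongruenceSubgroup MatrixGroups Filter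
open scoped ModularForm Manifold Topology

noncomputable section

namespace Fermat.Agent.S20.Duality620

/-! ### Decay of `Δ · exp(-2πi e τ)` for `e < 1` -/

lemma discriminant_isBigO_exp :
    (discriminant : ℍ → ℂ) =O[atImInfty] fun τ : ℍ => Real.exp (-2 * Real.pi * τ.im) := by
  have h := CuspFormClass.exp_decay_atImInfty (h := 1) CuspForm.discriminant one_pos
    one_mem_strictPeriods_SL
  simpa using h

lemma discriminant_mul_exp_isZero {e : ℝ} (he : e < 1) :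
    IsZeroAtImInfty
      (fun τ : ℍ => discriminant τ * Complex.exp (-(2 * Real.pi * Complex.I * e * τ))) := by
  have h1 : (fun τ : ℍ => discriminant τ * Complex.exp (-(2 * Real.pi * Complex.I * e * τ)))
      =O[atImInfty] fun τ : ℍ => Real.exp (-2 * Real.pi * τ.im) * Real.exp (2 * Real.pi * e * τ.im) := by
    refine discriminant_isBigO_exp.mul ?_
    refine Asymptotics.IsBigO.of_bound 1 (Filter.Eventually.of_forall fun τ => ?_)
    rw [Complex.norm_exp, Real.norm_eq_abs, Real.abs_exp, one_mul]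
    apply le_of_eq
    congr 1
    simp [Complex.mul_re, Complex.mul_im]
  have h2 : Tendsto (fun τ : ℍ => Real.exp (-2 * Real.pi * τ.im) * Real.exp (2 * Real.pi * e * τ.im))
      atImInfty (𝓝 0) := by
    have h3 : ∀ τ : ℍ, Real.exp (-2 * Real.pi * τ.im) * Real.exp (2 * Real.pi * e * τ.im)
        = Real.exp (-(2 * Real.pi * (1 - e)) * τ.im) := by
      intro τ
      rw [← Real.exp_add]
      congr 1
      ring
    simp_rw [h3]
    have hc : 0 < 2 * Real.pi * (1 - e) := by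
      have := Real.pi_pos
      have : 0 < 1 - e := by linarith
      positivity
    have h4 : Tendsto (fun t : ℝ => Real.exp (-(2 * Real.pi * (1 - e)) * t)) atTop (𝓝 0) := by
      have := Real.tendsto_exp_neg_atTop_nhds_zero.comp
        (Filter.Tendsto.const_mul_atTop hc tendsto_id)
      refine this.congr fun t => ?_
      simp
    exact h4.comp tendsto_comap
  exact h1.trans_tendsto h2

/-! ### Decay of `Δ · Φ⁻¹` from a factorisation of `Φ` near `i∞` -/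

section DecayLemma

variable {n : Type} [Fintype n] [DecidableEq n]

lemma tendsto_matrix_inv_apply (U : ℍ → Matrix n n ℂ) (L : Matrix n n ℂ)
    (hU : ∀ j q, Tendsto (fun τ => U τ j q) atImInfty (𝓝 (L j q))) (hL : L.det ≠ 0) (a b : n) :
    Tendsto (fun τ => (U τ)⁻¹ a b) atImInfty (𝓝 (L⁻¹ a b)) := by
  have hU' : Tendsto U atImInfty (𝓝 L) :=
    tendsto_pi_nhds.mpr fun j => tendsto_pi_nhds.mpr fun q => hU j q
  have hc : ContinuousAt Ring.inverse L.det := by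
    have : (Ring.inverse : ℂ → ℂ) = Inv.inv := by
      funext x
      exact Ring.inverse_eq_inv x
    rw [this]
    exact continuousAt_inv₀ hL
  have h1 : Tendsto (fun τ => (U τ)⁻¹) atImInfty (𝓝 L⁻¹) :=
    (continuousAt_matrix_inv L hc).tendsto.comp hU'
  have h2 : Continuous fun M : Matrix n n ℂ => M a b :=
    (continuous_apply b).comp (continuous_apply a)
  exact (h2.tendsto _).comp h1

/-- If `Φ(τ)ᵀ = U(τ) · diag(exp(2πi e τ)) · B` with `U → L` invertible and `e < 1`,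
then `Δ · Φ⁻¹ → 0` at `i∞`. -/
theorem decay_of_factorisation (Φ : ℍ → Matrix n n ℂ) (e : n → ℝ) (B : Matrix n n ℂ)
    (U : ℍ → Matrix n n ℂ) (L : Matrix n n ℂ)
    (he : ∀ q, e q < 1)
    (hΦ : ∀ τ x j, Φ τ x j =
      ∑ q, U τ j q * Complex.exp (2 * Real.pi * Complex.I * e q * τ) * B q x)
    (hU : ∀ j q, Tendsto (fun τ => U τ j q) atImInfty (𝓝 (L j q)))
    (hL : L.det ≠ 0) (j x : n) :
    IsZeroAtImInfty (fun τ => discriminant τ * (Φ τ)⁻¹ j x) := by
  classical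
  set D : ℍ → Matrix n n ℂ := fun τ =>
    Matrix.diagonal fun q => Complex.exp (2 * Real.pi * Complex.I * e q * τ) with hD
  set D' : ℍ → Matrix n n ℂ := fun τ =>
    Matrix.diagonal fun q => Complex.exp (-(2 * Real.pi * Complex.I * e q * τ)) with hD'
  have hDD' : ∀ τ, D τ * D' τ = 1 := by
    intro τ
    simp only [hD, hD', Matrix.diagonal_mul_diagonal]
    rw [← Matrix.diagonal_one]
    congr 1
    funext q
    rw [← Complex.exp_add]
    simp
  have hDinv : ∀ τ, (D τ)⁻¹ = D' τ := fun τ => Matrix.inv_eq_right_inv (hDD' τ)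
  have hΦ' : ∀ τ, Φ τ = (U τ * D τ * B).transpose := by
    intro τ
    ext x j
    rw [hΦ, Matrix.transpose_apply, Matrix.mul_apply]
    refine Finset.sum_congr rfl fun q _ => ?_
    simp only [hD, Matrix.mul_diagonal]
  have hinv : ∀ τ, (Φ τ)⁻¹ j x = ∑ q, B⁻¹ x q * Complex.exp (-(2 * Real.pi * Complex.I * e q * τ))
      * (U τ)⁻¹ q j := by
    intro τ
    rw [hΦ', ← Matrix.transpose_nonsing_inv, Matrix.transpose_apply, Matrix.mul_inv_rev,
      Matrix.mul_inv_rev, hDinv, ← Matrix.mul_assoc, Matrix.mul_apply]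
    refine Finset.sum_congr rfl fun q _ => ?_
    simp only [hD', Matrix.mul_diagonal]
  have key : (fun τ => discriminant τ * (Φ τ)⁻¹ j x) =
      ∑ q : n, (fun τ : ℍ => B⁻¹ x q *
        ((discriminant τ * Complex.exp (-(2 * Real.pi * Complex.I * e q * τ))) * (U τ)⁻¹ q j)) := by
    funext τ
    rw [hinv, Finset.sum_apply, Finset.mul_sum]
    refine Finset.sum_congr rfl fun q _ => ?_
    ring
  rw [key]
  refine isZero_finset_sum _ _ fun q _ => ?_
  have h1 : Tendsto (fun τ : ℍ =>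
      (discriminant τ * Complex.exp (-(2 * Real.pi * Complex.I * e q * τ))) * (U τ)⁻¹ q j)
      atImInfty (𝓝 0) := by
    have h0 : Tendsto (fun τ : ℍ =>
        discriminant τ * Complex.exp (-(2 * Real.pi * Complex.I * e q * τ))) atImInfty (𝓝 0) :=
      discriminant_mul_exp_isZero (he q)
    have h := h0.mul (tendsto_matrix_inv_apply U L hU hL q j)
    simpa using h
  have h2 : Tendsto (fun τ : ℍ => B⁻¹ x q *
      ((discriminant τ * Complex.exp (-(2 * Real.pi * Complex.I * e q * τ))) * (U τ)⁻¹ q j))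
      atImInfty (𝓝 0) := by
    have h := h1.const_mul (B⁻¹ x q)
    simpa using h
  exact h2

end DecayLemma

/-! ### From a homogeneous basis (unfolded data) to a unimodular frame -/

section Adapter

variable {Γ : Subgroup SL(2, ℤ)} [Γ.FiniteIndex]

attribute [local instance] instFintypeQuot instDecEqQuot

variable {ι : Type} [Fintype ι] {k : ι → ℤ} {F : ι → ℍ → ℂ}

/-- The frame attached to a family `F` of forms of weights `k`, reindexed by the cosets. -/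
def frameOf (k : ι → ℤ) (F : ι → ℍ → ℂ) (eqv : ι ≃ SL(2, ℤ) ⧸ Γ) :
    (SL(2, ℤ) ⧸ Γ) → (SL(2, ℤ) ⧸ Γ) → ℍ → ℂ :=
  fun j x => vecOf (k (eqv.symm j)) (F (eqv.symm j)) x

omit [Γ.FiniteIndex] [Fintype ι] in
lemma frameOf_apply (eqv : ι ≃ SL(2, ℤ) ⧸ Γ) (j x : SL(2, ℤ) ⧸ Γ) (τ : ℍ) :
    frameOf k F eqv j x τ = (F (eqv.symm j) ∣[k (eqv.symm j)] (Quotient.out x)⁻¹) τ := rfl

omit [Fintype ι] in
theorem isUFrame_of_data
    (hmem : ∀ j, MDiff (F j) ∧ (∀ γ ∈ Γ, F j ∣[k j] γ = F j) ∧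
      ∀ g : SL(2, ℤ), IsBoundedAtImInfty (F j ∣[k j] g))
    (hindep : ∀ τ : ℍ, LinearIndependent ℂ
      (fun j : ι => fun q : SL(2, ℤ) ⧸ Γ => (F j ∣[k j] (Quotient.out q)⁻¹) τ))
    (eqv : ι ≃ SL(2, ℤ) ⧸ Γ)
    (e : (SL(2, ℤ) ⧸ Γ) → ℝ) (B : Matrix (SL(2, ℤ) ⧸ Γ) (SL(2, ℤ) ⧸ Γ) ℂ)
    (U : ℍ → Matrix ι (SL(2, ℤ) ⧸ Γ) ℂ) (L : Matrix ι (SL(2, ℤ) ⧸ Γ) ℂ)
    (he : ∀ q, e q < 1)
    (hfac : ∀ (τ : ℍ) (j : ι) (q : SL(2, ℤ) ⧸ Γ), (F j ∣[k j] (Quotient.out q)⁻¹) τ =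
      ∑ q', U τ j q' * Complex.exp (2 * Real.pi * Complex.I * e q' * τ) * B q' q)
    (hU : ∀ j q, Tendsto (fun τ : ℍ => U τ j q) atImInfty (𝓝 (L j q)))
    (hL : LinearIndependent ℂ (fun j : ι => L j)) :
    IsUFrame (fun x => k (eqv.symm x)) (frameOf k F eqv) where
  holo j x := (hmem (eqv.symm j)).1.slash _ _
  bdd j x := (hmem (eqv.symm j)).2.2 _
  slash j g x := vecOf_slash (hmem (eqv.symm j)).2.1 g x
  det_ne τ := by
    have h1 : LinearIndependent ℂ (fun j : SL(2, ℤ) ⧸ Γ => fun q : SL(2, ℤ) ⧸ Γ =>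
        (F (eqv.symm j) ∣[k (eqv.symm j)] (Quotient.out q)⁻¹) τ) :=
      (hindep τ).comp eqv.symm eqv.symm.injective
    have h2 : LinearIndependent ℂ (Phi (frameOf k F eqv) τ).col := h1
    have h3 := Matrix.linearIndependent_cols_iff_isUnit.mp h2
    exact ((Matrix.isUnit_iff_isUnit_det _).mp h3).ne_zero
  decay j x := by
    have hL' : (Matrix.of fun a b : SL(2, ℤ) ⧸ Γ => L (eqv.symm a) b).det ≠ 0 := by
      have h1 : LinearIndependent ℂ (fun j : SL(2, ℤ) ⧸ Γ => L (eqv.symm j)) :=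
        hL.comp eqv.symm eqv.symm.injective
      have h2 : LinearIndependent ℂ
          (Matrix.of fun a b : SL(2, ℤ) ⧸ Γ => L (eqv.symm a) b).row := h1
      have h3 := Matrix.linearIndependent_rows_iff_isUnit.mp h2
      exact ((Matrix.isUnit_iff_isUnit_det _).mp h3).ne_zero
    exact decay_of_factorisation (Phi (frameOf k F eqv)) e B
      (fun τ => Matrix.of fun a b : SL(2, ℤ) ⧸ Γ => U τ (eqv.symm a) b)
      (Matrix.of fun a b : SL(2, ℤ) ⧸ Γ => L (eqv.symm a) b) he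
      (fun τ x j => hfac τ (eqv.symm j) x)
      (fun j q => hU (eqv.symm j) q) hL' j x

end Adapter

/-! ### Final statements, generic in the `Fintype` instance on the coset space -/

section Final

variable {Γ : Subgroup SL(2, ℤ)} [Γ.FiniteIndex] [instF : Fintype (SL(2, ℤ) ⧸ Γ)]
variable {ι : Type} [Fintype ι] {k : ι → ℤ} {F : ι → ℍ → ℂ}

/-- A bijection between the index set of a basis and the coset space. -/
def equivOfCard (hcard : Fintype.card ι = Γ.index) : ι ≃ SL(2, ℤ) ⧸ Γ :=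
  haveI : Fintype (SL(2, ℤ) ⧸ Γ) := instFintypeQuot
  Fintype.equivOfCardEq (by
    rw [hcard, Subgroup.index_eq_card, Nat.card_eq_fintype_card])

/-- The data of a homogeneous basis (in unfolded form) give a unimodular frame. -/
theorem exists_isUFrame_of_data
    (hmem : ∀ j, MDiff (F j) ∧ (∀ γ ∈ Γ, F j ∣[k j] γ = F j) ∧
      ∀ g : SL(2, ℤ), IsBoundedAtImInfty (F j ∣[k j] g))
    (hindep : ∀ τ : ℍ, LinearIndependent ℂ
      (fun j : ι => fun q : SL(2, ℤ) ⧸ Γ => (F j ∣[k j] (Quotient.out q)⁻¹) τ))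
    (hcard : Fintype.card ι = Γ.index)
    (e : (SL(2, ℤ) ⧸ Γ) → ℝ) (B : Matrix (SL(2, ℤ) ⧸ Γ) (SL(2, ℤ) ⧸ Γ) ℂ)
    (U : ℍ → Matrix ι (SL(2, ℤ) ⧸ Γ) ℂ) (L : Matrix ι (SL(2, ℤ) ⧸ Γ) ℂ)
    (he : ∀ q, e q < 1)
    (hfac : ∀ (τ : ℍ) (j : ι) (q : SL(2, ℤ) ⧸ Γ), (F j ∣[k j] (Quotient.out q)⁻¹) τ =
      ∑ q', U τ j q' * Complex.exp (2 * Real.pi * Complex.I * e q' * τ) * B q' q)
    (hU : ∀ j q, Tendsto (fun τ : ℍ => U τ j q) atImInfty (𝓝 (L j q)))
    (hL : LinearIndependent ℂ (fun j : ι => L j)) :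
    IsUFrame (fun x => k ((equivOfCard hcard).symm x)) (frameOf k F (equivOfCard hcard)) := by
  obtain rfl : instF = instFintypeQuot := Subsingleton.elim _ _
  exact isUFrame_of_data hmem hindep (equivOfCard hcard) e B U L he hfac hU hL

/-- **Duality, unfolded form of `finrank_cusp`** (helper860 skeleton, package D). -/
theorem finrank_cusp_of_data
    (hmem : ∀ j, MDiff (F j) ∧ (∀ γ ∈ Γ, F j ∣[k j] γ = F j) ∧
      ∀ g : SL(2, ℤ), IsBoundedAtImInfty (F j ∣[k j] g))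
    (hindep : ∀ τ : ℍ, LinearIndependent ℂ
      (fun j : ι => fun q : SL(2, ℤ) ⧸ Γ => (F j ∣[k j] (Quotient.out q)⁻¹) τ))
    (hcard : Fintype.card ι = Γ.index)
    (e : (SL(2, ℤ) ⧸ Γ) → ℝ) (B : Matrix (SL(2, ℤ) ⧸ Γ) (SL(2, ℤ) ⧸ Γ) ℂ)
    (U : ℍ → Matrix ι (SL(2, ℤ) ⧸ Γ) ℂ) (L : Matrix ι (SL(2, ℤ) ⧸ Γ) ℂ)
    (he : ∀ q, e q < 1)
    (hfac : ∀ (τ : ℍ) (j : ι) (q : SL(2, ℤ) ⧸ Γ), (F j ∣[k j] (Quotient.out q)⁻¹) τ =
      ∑ q', U τ j q' * Complex.exp (2 * Real.pi * Complex.I * e q' * τ) * B q' q)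
    (hU : ∀ j q, Tendsto (fun τ : ℍ => U τ j q) atImInfty (𝓝 (L j q)))
    (hL : LinearIndependent ℂ (fun j : ι => L j)) (w : ℤ) :
    Module.finrank ℂ (CuspForm (Γ : Subgroup (GL (Fin 2) ℝ)) w) =
      ∑ j, Module.finrank ℂ (CuspForm 𝒮ℒ (w + k j)) := by
  have hv := exists_isUFrame_of_data hmem hindep hcard e B U L he hfac hU hL
  obtain rfl : instF = instFintypeQuot := Subsingleton.elim _ _
  letI : Fintype (SL(2, ℤ) ⧸ Γ) := instFintypeQuot
  rw [finrank_cuspForm hv w]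
  rw [← Equiv.sum_comp (equivOfCard hcard).symm
    (fun j => Module.finrank ℂ (CuspForm 𝒮ℒ (w + k j)))]
  refine Finset.sum_congr rfl fun x _ => ?_
  exact (CuspForm.discriminantEquiv.finrank_eq).symm

/-- The weights of a homogeneous basis are at most `11` (hence `≤ 10` once known to be even). -/
theorem wt_lt_twelve_of_data
    (hmem : ∀ j, MDiff (F j) ∧ (∀ γ ∈ Γ, F j ∣[k j] γ = F j) ∧
      ∀ g : SL(2, ℤ), IsBoundedAtImInfty (F j ∣[k j] g))
    (hindep : ∀ τ : ℍ, LinearIndependent ℂ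
      (fun j : ι => fun q : SL(2, ℤ) ⧸ Γ => (F j ∣[k j] (Quotient.out q)⁻¹) τ))
    (hcard : Fintype.card ι = Γ.index)
    (e : (SL(2, ℤ) ⧸ Γ) → ℝ) (B : Matrix (SL(2, ℤ) ⧸ Γ) (SL(2, ℤ) ⧸ Γ) ℂ)
    (U : ℍ → Matrix ι (SL(2, ℤ) ⧸ Γ) ℂ) (L : Matrix ι (SL(2, ℤ) ⧸ Γ) ℂ)
    (he : ∀ q, e q < 1)
    (hfac : ∀ (τ : ℍ) (j : ι) (q : SL(2, ℤ) ⧸ Γ), (F j ∣[k j] (Quotient.out q)⁻¹) τ =
      ∑ q', U τ j q' * Complex.exp (2 * Real.pi * Complex.I * e q' * τ) * B q' q)
    (hU : ∀ j q, Tendsto (fun τ : ℍ => U τ j q) atImInfty (𝓝 (L j q)))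
    (hL : LinearIndependent ℂ (fun j : ι => L j)) (j : ι) : k j < 12 := by
  have hv := exists_isUFrame_of_data hmem hindep hcard e B U L he hfac hU hL
  have := wt_lt_twelve hv (equivOfCard hcard j)
  simpa using this

/-- **`dim S₂(Γ)` is the number of basis elements of weight `10`.** -/
theorem finrank_cusp_two_of_data
    (hmem : ∀ j, MDiff (F j) ∧ (∀ γ ∈ Γ, F j ∣[k j] γ = F j) ∧
      ∀ g : SL(2, ℤ), IsBoundedAtImInfty (F j ∣[k j] g))
    (hindep : ∀ τ : ℍ, LinearIndependent ℂ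
      (fun j : ι => fun q : SL(2, ℤ) ⧸ Γ => (F j ∣[k j] (Quotient.out q)⁻¹) τ))
    (hcard : Fintype.card ι = Γ.index)
    (e : (SL(2, ℤ) ⧸ Γ) → ℝ) (B : Matrix (SL(2, ℤ) ⧸ Γ) (SL(2, ℤ) ⧸ Γ) ℂ)
    (U : ℍ → Matrix ι (SL(2, ℤ) ⧸ Γ) ℂ) (L : Matrix ι (SL(2, ℤ) ⧸ Γ) ℂ)
    (he : ∀ q, e q < 1)
    (hfac : ∀ (τ : ℍ) (j : ι) (q : SL(2, ℤ) ⧸ Γ), (F j ∣[k j] (Quotient.out q)⁻¹) τ =
      ∑ q', U τ j q' * Complex.exp (2 * Real.pi * Complex.I * e q' * τ) * B q' q)
    (hU : ∀ j q, Tendsto (fun τ : ℍ => U τ j q) atImInfty (𝓝 (L j q)))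
    (hL : LinearIndependent ℂ (fun j : ι => L j)) :
    Module.finrank ℂ (CuspForm (Γ : Subgroup (GL (Fin 2) ℝ)) 2) =
      (Finset.univ.filter fun j : ι => k j = 10).card := by
  classical
  have hv := exists_isUFrame_of_data hmem hindep hcard e B U L he hfac hU hL
  obtain rfl : instF = instFintypeQuot := Subsingleton.elim _ _
  letI : Fintype (SL(2, ℤ) ⧸ Γ) := instFintypeQuot
  rw [finrank_cuspForm_two hv]
  refine Finset.card_bij (fun x _ => (equivOfCard hcard).symm x) ?_ ?_ ?_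
  · intro x hx
    simpa using hx
  · intro x _ y _ hxy
    exact (equivOfCard hcard).symm.injective hxy
  · intro j hj
    refine ⟨equivOfCard hcard j, ?_, by simp⟩
    simpa using hj

end Final

end Fermat.Agent.S20.Duality620
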