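import Fermat.Agent.S20.Defs

/-!
# Linear-algebra and slash-action core for package C12 (`EigenCount.lean`)

Everything here is sorry-free and depends only on `Defs.lean`; the two black boxes
(`pointwise_indep`, `card_eq_index`) enter as hypotheses.
-/

set_option autoImplicit false

open UpperHalfPlane ModularForm CongruenceSubgroup Matrix.SpecialLinearGroup
open scoped MatrixGroups ModularForm Manifold

namespace Fermat.Agent.S20.EigenCountAux

/-! ## Trace of a permutation operator in an eigenbasis -/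

/-- If `v` is a linearly independent family of `#Q` vectors of `Q → ℂ`, each an eigenvector
(eigenvalue `ε j`) of the substitution operator `w ↦ w ∘ σ`, then `∑ ε j = #Fix σ`. -/
theorem sum_eigenvalues_eq_card_fixed {Q ι : Type} [Fintype Q] [DecidableEq Q] [Fintype ι]
    (σ : Q → Q) (v : ι → Q → ℂ) (hv : LinearIndependent ℂ v)
    (hcard : Fintype.card ι = Fintype.card Q) (ε : ι → ℂ)
    (heig : ∀ j q, v j (σ q) = ε j * v j q) :
    ∑ j, ε j = ((Finset.univ.filter fun q => σ q = q).card : ℂ) := by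
  classical
  rcases isEmpty_or_nonempty ι with hι | hι
  · have hQ : IsEmpty Q := by
      rw [← Fintype.card_eq_zero_iff, ← hcard, Fintype.card_eq_zero_iff]
      exact hι
    simp
  have hfin : Fintype.card ι = Module.finrank ℂ (Q → ℂ) := by
    rw [hcard, Module.finrank_pi]
  let b : Module.Basis ι ℂ (Q → ℂ) := basisOfLinearIndependentOfCardEqFinrank hv hfin
  have hb : ∀ j, b j = v j := fun j => by
    simp [b]
  let L : (Q → ℂ) →ₗ[ℂ] (Q → ℂ) := LinearMap.funLeft ℂ ℂ σ
  have hL : ∀ j, L (b j) = ε j • b j := by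
    intro j
    ext q
    simp only [L, LinearMap.funLeft_apply, hb, Pi.smul_apply, smul_eq_mul]
    exact heig j q
  have h1 : LinearMap.trace ℂ (Q → ℂ) L = ∑ j, ε j := by
    rw [LinearMap.trace_eq_matrix_trace ℂ b L, Matrix.trace]
    refine Finset.sum_congr rfl fun j _ => ?_
    rw [Matrix.diag_apply, LinearMap.toMatrix_apply, hL]
    simp
  have h2 : LinearMap.trace ℂ (Q → ℂ) L = ((Finset.univ.filter fun q => σ q = q).card : ℂ) := by
    rw [LinearMap.trace_eq_matrix_trace ℂ (Pi.basisFun ℂ Q) L, Matrix.trace]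
    rw [Finset.card_filter, Nat.cast_sum]
    refine Finset.sum_congr rfl fun q _ => ?_
    rw [Matrix.diag_apply, LinearMap.toMatrix_apply]
    simp only [Pi.basisFun_apply, Pi.basisFun_repr, L, LinearMap.funLeft_apply, Pi.single_apply]
    split_ifs <;> simp
  rw [← h1, h2]


/-! ## The `conj` API at a point -/

variable {Γ : Subgroup SL(2, ℤ)} {k : ℤ} {f : ℍ → ℂ}

/-- for `Γ`-invariant `f`, `f ∣[k] g⁻¹` only depends on the coset `g Γ`. -/
theorem slash_inv_eq_conj (hf : ∀ γ ∈ Γ, f ∣[k] γ = f) (g : SL(2, ℤ)) :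
    f ∣[k] g⁻¹ = conj Γ k f (g : SL(2, ℤ) ⧸ Γ) := by
  unfold conj
  set h : SL(2, ℤ) := ((g : SL(2, ℤ) ⧸ Γ)).out with hh
  have hmem : h⁻¹ * g ∈ Γ := by
    rw [← QuotientGroup.eq]
    exact QuotientGroup.out_eq' _
  have hmem' : (h⁻¹ * g)⁻¹ ∈ Γ := Γ.inv_mem hmem
  have : g⁻¹ = (h⁻¹ * g)⁻¹ * h⁻¹ := by group
  rw [this, SlashAction.slash_mul, hf _ hmem']

/-- the conjugate vector transforms by the permutation action of `SL(2,ℤ)` on cosets. -/
theorem conj_inv_smul_apply (hf : ∀ γ ∈ Γ, f ∣[k] γ = f) (g : SL(2, ℤ))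
    (q : SL(2, ℤ) ⧸ Γ) (τ : ℍ) :
    conj Γ k f (g⁻¹ • q) τ = conj Γ k f q (g • τ) * denom g τ ^ (-k) := by
  obtain ⟨h, rfl⟩ := QuotientGroup.mk_surjective q
  have h1 : g⁻¹ • (h : SL(2, ℤ) ⧸ Γ) = ((g⁻¹ * h : SL(2, ℤ)) : SL(2, ℤ) ⧸ Γ) := rfl
  rw [h1, ← slash_inv_eq_conj hf, ← slash_inv_eq_conj hf, mul_inv_rev, inv_inv,
    SlashAction.slash_mul, SL_slash_apply]


/-! ## The elliptic points -/

theorem S_smul_I : ModularGroup.S • UpperHalfPlane.I = UpperHalfPlane.I := by
  rw [UpperHalfPlane.modular_S_smul]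
  ext
  simp [UpperHalfPlane.coe_I]

theorem denom_S_I : denom (ModularGroup.S : SL(2, ℤ)) UpperHalfPlane.I = Complex.I := by
  rw [ModularGroup.denom_S]
  rfl

/-- the primitive cube root of unity `ρ` as a complex number -/
noncomputable def w : ℂ := ⟨-1 / 2, Real.sqrt 3 / 2⟩

theorem sqrt3_mul_self : Real.sqrt 3 * Real.sqrt 3 = 3 := Real.mul_self_sqrt (by norm_num)

theorem rho_coe : (rho : ℂ) = w := rfl

theorem U10 : (ModularGroup.S * ModularGroup.T : SL(2, ℤ)) 1 0 = 1 := by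
  rw [Matrix.SpecialLinearGroup.coe_mul]
  simp [ModularGroup.S, ModularGroup.T, Matrix.mul_apply, Fin.sum_univ_two]

theorem U11 : (ModularGroup.S * ModularGroup.T : SL(2, ℤ)) 1 1 = 1 := by
  rw [Matrix.SpecialLinearGroup.coe_mul]
  simp [ModularGroup.S, ModularGroup.T, Matrix.mul_apply, Fin.sum_univ_two]

theorem denom_U_rho :
    denom ((ModularGroup.S * ModularGroup.T : SL(2, ℤ)) : GL (Fin 2) ℝ) rho = w + 1 := by
  rw [ModularGroup.denom_apply, U10, U11, rho_coe]
  simp

theorem U_smul_rho : (ModularGroup.S * ModularGroup.T) • rho = rho := by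
  rw [mul_smul, UpperHalfPlane.modular_T_smul, UpperHalfPlane.modular_S_smul]
  ext
  simp only [UpperHalfPlane.coe_vadd]
  rw [rho_coe]
  have h3 := sqrt3_mul_self
  rw [inv_eq_iff_eq_inv, ← mul_eq_one_iff_eq_inv₀]
  · apply Complex.ext
    · simp [w]
      nlinarith
    · simp [w]
      ring
  · intro h
    have := congrArg Complex.re h
    simp [w] at this

theorem fixed_card_eq {N : ℕ} [NeZero N] [DecidableEq (SL(2, ℤ) ⧸ Gamma0 N)] (g : SL(2, ℤ)) :
    (Finset.univ.filter fun q : SL(2, ℤ) ⧸ Gamma0 N => g⁻¹ • q = q).card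
      = Nat.card {q : SL(2, ℤ) ⧸ Gamma0 N // g • q = q} := by
  classical
  rw [Nat.card_eq_fintype_card, Fintype.card_subtype]
  congr 1
  ext q
  simp only [Finset.mem_filter, Finset.mem_univ, true_and]
  rw [inv_smul_eq_iff, eq_comm]

/-! ## Eigenvalues -/

theorem I_zpow_neg_of_even (k : ℤ) (hk : Even k) :
    Complex.I ^ (-k) = if k % 4 = 0 then 1 else -1 := by
  obtain ⟨m, rfl⟩ := hk
  have h1 : -(m + m) = 2 * (-m) := by ring
  have h2 : Complex.I ^ (2 : ℤ) = -1 := by
    rw [zpow_ofNat]; exact Complex.I_sq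
  rw [h1, zpow_mul, h2]
  rcases Int.even_or_odd m with hm | hm
  · rw [Even.neg_one_zpow hm.neg, if_pos (by obtain ⟨t, rfl⟩ := hm; omega)]
  · rw [Odd.neg_one_zpow hm.neg, if_neg (by obtain ⟨t, rfl⟩ := hm; omega)]

theorem w_sq : w ^ 2 = ⟨-1 / 2, -(Real.sqrt 3 / 2)⟩ := by
  have h3 := sqrt3_mul_self
  apply Complex.ext
  · simp [w, pow_two]
    nlinarith
  · simp [w, pow_two]
    ring

theorem w_cube : w ^ 3 = 1 := by
  have h3 := sqrt3_mul_self
  rw [pow_succ, w_sq]
  apply Complex.ext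
  · simp [w]
    nlinarith
  · simp [w]
    ring

theorem w_add_one_sq : (w + 1) ^ 2 = w := by
  have h3 := sqrt3_mul_self
  apply Complex.ext
  · simp [w, pow_two]
    nlinarith
  · simp [w, pow_two]
    ring

theorem zeta_zpow_neg_of_even (k : ℤ) (hk : Even k) :
    (w + 1) ^ (-k) = if k % 6 = 0 then 1 else if k % 6 = 2 then w ^ 2 else w := by
  obtain ⟨m, rfl⟩ := hk
  have h1 : -(m + m) = 2 * (-m) := by ring
  have h2 : (w + 1) ^ (2 : ℤ) = w := by
    rw [zpow_ofNat]; exact w_add_one_sq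
  have h3 : w ^ (3 : ℤ) = 1 := by
    rw [zpow_ofNat]; exact w_cube
  have hw0 : w ≠ 0 := by
    intro h
    have := congrArg Complex.re h
    simp [w] at this
  rw [h1, zpow_mul, h2]
  have h4 : -m = 3 * ((-m) / 3) + (-m) % 3 := (Int.mul_ediv_add_emod _ _).symm
  have h5 : w ^ (-m) = w ^ ((-m) % 3) := by
    conv_lhs => rw [h4]
    rw [zpow_add₀ hw0, zpow_mul, h3, one_zpow, one_mul]
  rw [h5]
  have h6 : (-m) % 3 = 0 ∨ (-m) % 3 = 1 ∨ (-m) % 3 = 2 := by omega
  rcases h6 with h | h | h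
  · rw [h, if_pos (by omega), zpow_zero]
  · rw [h, if_neg (by omega), if_neg (by omega), zpow_one]
  · rw [h, if_neg (by omega), if_pos (by omega), zpow_ofNat]

/-! ## Counting -/

theorem count_core_four {ι : Type} [Fintype ι] (k : ι → ℤ) (d fix : ℕ)
    (hd : Fintype.card ι = d)
    (hsum : ∑ j, (if k j % 4 = 0 then (1 : ℂ) else -1) = (fix : ℂ)) :
    2 * (Finset.univ.filter fun j : ι => k j % 4 = 0).card = d + fix := by
  have h1 : ∀ j, (if k j % 4 = 0 then (1 : ℂ) else -1)
      = 2 * (if k j % 4 = 0 then (1 : ℂ) else 0) - 1 := by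
    intro j; split_ifs <;> norm_num
  simp only [h1] at hsum
  rw [Finset.sum_sub_distrib, ← Finset.mul_sum, Finset.sum_boole, Finset.sum_const,
    Finset.card_univ, hd] at hsum
  simp only [nsmul_eq_mul, mul_one] at hsum
  have h2 : ((2 * (Finset.univ.filter fun j : ι => k j % 4 = 0).card : ℕ) : ℂ)
      = ((d + fix : ℕ) : ℂ) := by
    push_cast
    linear_combination hsum
  exact_mod_cast h2

theorem count_core_six {ι : Type} [Fintype ι] (k : ι → ℤ) (hk : ∀ j, Even (k j)) (d fix : ℕ)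
    (hd : Fintype.card ι = d)
    (hsum : ∑ j, (if k j % 6 = 0 then (1 : ℂ) else if k j % 6 = 2 then w ^ 2 else w)
      = (fix : ℂ)) :
    3 * (Finset.univ.filter fun j : ι => k j % 6 = 0).card = d + 2 * fix ∧
    3 * (Finset.univ.filter fun j : ι => k j % 6 = 2).card + fix = d ∧
    3 * (Finset.univ.filter fun j : ι => k j % 6 = 4).card + fix = d := by
  set n₀ := (Finset.univ.filter fun j : ι => k j % 6 = 0).card with hn₀
  set n₂ := (Finset.univ.filter fun j : ι => k j % 6 = 2).card with hn₂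
  set n₄ := (Finset.univ.filter fun j : ι => k j % 6 = 4).card with hn₄
  have hcases : ∀ j, k j % 6 = 0 ∨ k j % 6 = 2 ∨ k j % 6 = 4 := by
    intro j
    obtain ⟨m, hm⟩ := hk j
    omega
  have s3 : Real.sqrt 3 ≠ 0 := by
    have := sqrt3_mul_self
    intro h
    rw [h] at this
    norm_num at this
  -- indicator sums
  have hA : ∑ j, (if k j % 6 = 0 then (1 : ℝ) else 0) = n₀ := by
    rw [Finset.sum_boole]
  have hB : ∑ j, (if k j % 6 = 2 then (1 : ℝ) else 0) = n₂ := by
    rw [Finset.sum_boole]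
  have hC : ∑ j, (if k j % 6 = 4 then (1 : ℝ) else 0) = n₄ := by
    rw [Finset.sum_boole]
  have hone : ∀ j, (1 : ℝ) = (if k j % 6 = 0 then (1 : ℝ) else 0)
      + (if k j % 6 = 2 then (1 : ℝ) else 0) + (if k j % 6 = 4 then (1 : ℝ) else 0) := by
    intro j
    rcases hcases j with h | h | h <;> simp [h]
  have hre : ∀ j, (if k j % 6 = 0 then (1 : ℂ) else if k j % 6 = 2 then w ^ 2 else w).re
      = (if k j % 6 = 0 then (1 : ℝ) else 0)
      - (1 / 2) * (if k j % 6 = 2 then (1 : ℝ) else 0)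
      - (1 / 2) * (if k j % 6 = 4 then (1 : ℝ) else 0) := by
    intro j
    rcases hcases j with h | h | h
    · simp [h]
    · simp [h, w_sq]
      norm_num
    · simp [h, w]
      norm_num
  have him : ∀ j, (if k j % 6 = 0 then (1 : ℂ) else if k j % 6 = 2 then w ^ 2 else w).im
      = (Real.sqrt 3 / 2) * ((if k j % 6 = 4 then (1 : ℝ) else 0)
        - (if k j % 6 = 2 then (1 : ℝ) else 0)) := by
    intro j
    rcases hcases j with h | h | h
    · simp [h]
    · simp [h, w_sq]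
    · simp [h, w]
  have hd' : (d : ℝ) = n₀ + n₂ + n₄ := by
    rw [← hA, ← hB, ← hC, ← Finset.sum_add_distrib, ← Finset.sum_add_distrib]
    rw [← hd, ← Finset.card_univ, Finset.card_eq_sum_ones, Nat.cast_sum]
    refine Finset.sum_congr rfl fun j _ => ?_
    rw [Nat.cast_one]
    exact hone j
  have hRe : (n₀ : ℝ) - (1 / 2) * n₂ - (1 / 2) * n₄ = fix := by
    have := congrArg Complex.re hsum
    rw [Complex.re_sum] at this
    simp only [hre] at this
    rw [Finset.sum_sub_distrib, Finset.sum_sub_distrib, ← Finset.mul_sum, ← Finset.mul_sum,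
      hA, hB, hC] at this
    simpa using this
  have hIm : (Real.sqrt 3 / 2) * ((n₄ : ℝ) - n₂) = 0 := by
    have := congrArg Complex.im hsum
    rw [Complex.im_sum] at this
    simp only [him] at this
    rw [← Finset.mul_sum, Finset.sum_sub_distrib, hB, hC] at this
    simpa using this
  have h42 : (n₄ : ℝ) = n₂ := by
    rcases mul_eq_zero.mp hIm with h | h
    · exfalso; apply s3; linarith
    · linarith
  refine ⟨?_, ?_, ?_⟩
  · have : ((3 * n₀ : ℕ) : ℝ) = ((d + 2 * fix : ℕ) : ℝ) := by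
      push_cast; linarith
    exact_mod_cast this
  · have : ((3 * n₂ + fix : ℕ) : ℝ) = ((d : ℕ) : ℝ) := by
      push_cast; linarith
    exact_mod_cast this
  · have : ((3 * n₄ + fix : ℕ) : ℝ) = ((d : ℕ) : ℝ) := by
      push_cast; linarith
    exact_mod_cast this

/-! ## Weights are even -/

theorem neg_one_mem_Gamma0 (N : ℕ) : (-1 : SL(2, ℤ)) ∈ Gamma0 N := by
  rw [Gamma0_mem]
  simp

theorem eq_zero_of_odd_weight {Γ : Subgroup SL(2, ℤ)} {k : ℤ} {f : ℍ → ℂ}
    (hneg : (-1 : SL(2, ℤ)) ∈ Γ) (hf : ∀ γ ∈ Γ, f ∣[k] γ = f) (hk : Odd k) : f = 0 := by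
  funext τ
  have h1 := congrFun (hf _ hneg) τ
  rw [SL_slash_apply, ModularGroup.SL_neg_smul, one_smul, ModularGroup.denom_apply] at h1
  have h2 : (((-1 : SL(2, ℤ)) 1 0 : ℤ) : ℂ) * (τ : ℂ) + (((-1 : SL(2, ℤ)) 1 1 : ℤ) : ℂ) = -1 := by
    simp
  rw [h2, Odd.neg_one_zpow hk.neg] at h1
  have h3 : f τ + f τ = 0 := by linear_combination -h1
  have h4 : (2 : ℂ) * f τ = 0 := by linear_combination h3
  simpa using h4

theorem isMF_one : IsMF ⊤ 0 (1 : ℍ → ℂ) := by
  refine ⟨mdifferentiable_const, fun γ _ => is_invariant_one γ, fun g => ?_⟩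
  rw [is_invariant_one]
  exact Filter.const_boundedAtFilter _ (1 : ℂ)

theorem isMF_zero (Γ : Subgroup SL(2, ℤ)) (k : ℤ) : IsMF Γ k (0 : ℍ → ℂ) := by
  refine ⟨mdifferentiable_const, fun γ _ => SlashAction.zero_slash _ _, fun g => ?_⟩
  rw [SlashAction.zero_slash]
  exact Filter.const_boundedAtFilter _ (0 : ℂ)

theorem ne_zero_of_isHomBasis {N : ℕ} {ι : Type} [Fintype ι] {k : ι → ℤ} {F : ι → ℍ → ℂ}
    (hB : IsHomBasis N k F) (j : ι) : F j ≠ 0 := by
  classical
  intro hF
  have h := hB.indep (k j) (fun j' => if j' = j then (1 : ℍ → ℂ) else 0) (fun j' => by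
    by_cases h : j' = j
    · subst h
      simp only [if_true, sub_self]
      exact isMF_one
    · simp only [if_neg h]
      exact isMF_zero _ _) (by
    apply Finset.sum_eq_zero
    intro j' _
    by_cases h : j' = j
    · subst h
      simp [hF]
    · simp [h]) j
  simp only [if_true] at h
  have := congrFun h UpperHalfPlane.I
  simp at this

theorem weight_even_aux {N : ℕ} {ι : Type} [Fintype ι] {k : ι → ℤ} {F : ι → ℍ → ℂ}
    (hB : IsHomBasis N k F) (j : ι) : Even (k j) := by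
  by_contra h
  rw [Int.not_even_iff_odd] at h
  exact ne_zero_of_isHomBasis hB j
    (eq_zero_of_odd_weight (neg_one_mem_Gamma0 N) (hB.mem j).2.1 h)

/-! ## Main statements, with the black boxes as hypotheses -/

section main

variable {N : ℕ} [NeZero N] {ι : Type} [Fintype ι] {k : ι → ℤ} {F : ι → ℍ → ℂ}

theorem card_eq_card_quot (hcard : Fintype.card ι = (Gamma0 N).index) :
    Fintype.card ι = Fintype.card (SL(2, ℤ) ⧸ Gamma0 N) := by
  rw [hcard, Subgroup.index, Nat.card_eq_fintype_card]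

theorem count_mod_four_aux
    (hinv : ∀ j, ∀ γ ∈ Gamma0 N, F j ∣[k j] γ = F j) (heven : ∀ j, Even (k j))
    (hindep : LinearIndependent ℂ (fun j : ι => fun q : SL(2, ℤ) ⧸ Gamma0 N =>
      conj (Gamma0 N) (k j) (F j) q UpperHalfPlane.I))
    (hcard : Fintype.card ι = (Gamma0 N).index) :
    2 * (Finset.univ.filter fun j : ι => k j % 4 = 0).card = (Gamma0 N).index + fixS N := by
  have h := sum_eigenvalues_eq_card_fixed
    (fun q : SL(2, ℤ) ⧸ Gamma0 N => (ModularGroup.S)⁻¹ • q) _ hindep (card_eq_card_quot hcard)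
    (fun j => Complex.I ^ (-(k j))) (fun j q => by
      rw [conj_inv_smul_apply (hinv j), S_smul_I, denom_S_I, mul_comm])
  rw [fixed_card_eq] at h
  apply count_core_four k _ _ hcard
  rw [fixS, ← h]
  refine Finset.sum_congr rfl fun j _ => ?_
  rw [I_zpow_neg_of_even _ (heven j)]

theorem count_mod_six_aux
    (hinv : ∀ j, ∀ γ ∈ Gamma0 N, F j ∣[k j] γ = F j) (heven : ∀ j, Even (k j))
    (hindep : LinearIndependent ℂ (fun j : ι => fun q : SL(2, ℤ) ⧸ Gamma0 N =>
      conj (Gamma0 N) (k j) (F j) q rho))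
    (hcard : Fintype.card ι = (Gamma0 N).index) :
    3 * (Finset.univ.filter fun j : ι => k j % 6 = 0).card = (Gamma0 N).index + 2 * fixU N ∧
    3 * (Finset.univ.filter fun j : ι => k j % 6 = 2).card + fixU N = (Gamma0 N).index ∧
    3 * (Finset.univ.filter fun j : ι => k j % 6 = 4).card + fixU N = (Gamma0 N).index := by
  have h := sum_eigenvalues_eq_card_fixed
    (fun q : SL(2, ℤ) ⧸ Gamma0 N => (ModularGroup.S * ModularGroup.T)⁻¹ • q) _ hindep
    (card_eq_card_quot hcard)
    (fun j => (w + 1) ^ (-(k j))) (fun j q => by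
      rw [conj_inv_smul_apply (hinv j), U_smul_rho, denom_U_rho, mul_comm])
  rw [fixed_card_eq] at h
  apply count_core_six k heven _ _ hcard
  rw [fixU, ← h]
  refine Finset.sum_congr rfl fun j _ => ?_
  rw [zeta_zpow_neg_of_even _ (heven j)]

end main

end Fermat.Agent.S20.EigenCountAux
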