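import Fermat.Agent.S20.PointIndep
import Fermat.Agent.S20.EigenCountAux

/-!
# Package C1/C2: counting generators by weight mod 4 and mod 6

At `τ = i`: `(conj f q) ∣[k] S = conj f (S⁻¹ • q)` and `S • i = i`, `denom S i = i`, so
`v_j(i) ∘ (S⁻¹ • ·) = i^(-k_j) • v_j(i)`.  Weights are even (`-1 ∈ Γ₀(N)`, generators are nonzero).
By `pointwise_indep` + `card_eq_index` the `v_j(i)` form a basis of `ℂ^Q`, so the trace of the
permutation operator `w ↦ w ∘ (S⁻¹ • ·)` is on the one hand `#Fix = fixS N` and on the other hand
`∑ i^(-k_j) = #{4 ∣ k_j} - #{4 ∤ k_j}`.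
Same at `ρ` with `U = S * T` (`U • ρ = ρ`, `denom U ρ = ρ + 1 = e^{πi/3}`), taking real and
imaginary parts of the trace.

All the work is in `EigenCountAux.lean` (sorry-free, black boxes as hypotheses).
-/

set_option autoImplicit false

open UpperHalfPlane ModularForm CongruenceSubgroup Matrix.SpecialLinearGroup EisensteinSeries
open scoped MatrixGroups ModularForm Manifold

namespace Fermat.Agent.S20

variable {N : ℕ} [NeZero N] {ι : Type} [Fintype ι] {k : ι → ℤ} {F : ι → ℍ → ℂ}

theorem weight_even (hB : IsHomBasis N k F) (j : ι) : Even (k j) :=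
  EigenCountAux.weight_even_aux hB j

theorem count_mod_four (hB : IsHomBasis N k F) :
    2 * (Finset.univ.filter fun j : ι => k j % 4 = 0).card = (Gamma0 N).index + fixS N :=
  EigenCountAux.count_mod_four_aux (fun j => (hB.mem j).2.1) (weight_even hB)
    (pointwise_indep hB UpperHalfPlane.I) (card_eq_index hB)

theorem count_mod_six_zero (hB : IsHomBasis N k F) :
    3 * (Finset.univ.filter fun j : ι => k j % 6 = 0).card = (Gamma0 N).index + 2 * fixU N :=
  (EigenCountAux.count_mod_six_aux (fun j => (hB.mem j).2.1) (weight_even hB)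
    (pointwise_indep hB rho) (card_eq_index hB)).1

theorem count_mod_six_two (hB : IsHomBasis N k F) :
    3 * (Finset.univ.filter fun j : ι => k j % 6 = 2).card + fixU N = (Gamma0 N).index :=
  (EigenCountAux.count_mod_six_aux (fun j => (hB.mem j).2.1) (weight_even hB)
    (pointwise_indep hB rho) (card_eq_index hB)).2.1

theorem count_mod_six_four (hB : IsHomBasis N k F) :
    3 * (Finset.univ.filter fun j : ι => k j % 6 = 4).card + fixU N = (Gamma0 N).index :=
  (EigenCountAux.count_mod_six_aux (fun j => (hB.mem j).2.1) (weight_even hB)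
    (pointwise_indep hB rho) (card_eq_index hB)).2.2

end Fermat.Agent.S20
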