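/-
S20 subtask T7 (helper859): the number of fixed points of `S` acting on the left cosets
`SL(2,ℤ) ⧸ Γ₀(N)` equals `nuTwo N = #{x : ZMod N // x² + 1 = 0}`.
-/
import Mathlib.NumberTheory.ModularForms.CongruenceSubgroups
import Mathlib.LinearAlgebra.Matrix.SpecialLinearGroup
import Mathlib.GroupTheory.Coset.Basic
import Mathlib.GroupTheory.GroupAction.Quotient
import Mathlib.Data.ZMod.Basic
import Mathlib.SetTheory.Cardinal.Finite
import Fermat.Prelude.Def_ModularCurve_GenusNumerics

set_option autoImplicit false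

open MatrixGroups CongruenceSubgroup Matrix

namespace Fermat.Agent.S20.H859

variable (N : ℕ)

/-- Two elements of `SL(2,ℤ)` define the same left coset of `Γ₀(N)` iff their first columns are
proportional modulo `N`. -/
lemma mk_eq_mk_iff (g h : SL(2, ℤ)) :
    (QuotientGroup.mk g : SL(2, ℤ) ⧸ Gamma0 N) = QuotientGroup.mk h ↔
      ((g 0 0 * h 1 0 - g 1 0 * h 0 0 : ℤ) : ZMod N) = 0 := by
  rw [QuotientGroup.eq, Gamma0_mem]
  have : (g⁻¹ * h) 1 0 = g 0 0 * h 1 0 - g 1 0 * h 0 0 := by
    rw [SpecialLinearGroup.coe_mul, SpecialLinearGroup.coe_inv, adjugate_fin_two,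
      Matrix.mul_apply, Fin.sum_univ_two]
    simp
    ring
  rw [this]

/-- The matrix `[[t, -1], [1, 0]]` of determinant one. -/
def colMat (t : ℤ) : SL(2, ℤ) := ⟨!![t, -1; 1, 0], by simp [Matrix.det_fin_two_of]⟩

@[simp] lemma colMat_zero_zero (t : ℤ) : colMat t 0 0 = t := rfl
@[simp] lemma colMat_one_zero (t : ℤ) : colMat t 1 0 = 1 := rfl

/-- The coset `g Γ₀(N)` is fixed by `S` iff `a² + c² ≡ 0 mod N` for the first column `(a, c)`. -/
lemma S_smul_mk_eq_iff (g : SL(2, ℤ)) :
    ModularGroup.S • (QuotientGroup.mk g : SL(2, ℤ) ⧸ Gamma0 N) = QuotientGroup.mk g ↔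
      ((g 0 0 : ℤ) : ZMod N) ^ 2 + ((g 1 0 : ℤ) : ZMod N) ^ 2 = 0 := by
  rw [MulAction.Quotient.smul_mk, smul_eq_mul, mk_eq_mk_iff]
  have h00 : (ModularGroup.S * g) 0 0 = - g 1 0 := by
    rw [SpecialLinearGroup.coe_mul, ModularGroup.coe_S, Matrix.mul_apply, Fin.sum_univ_two]
    simp
  have h10 : (ModularGroup.S * g) 1 0 = g 0 0 := by
    rw [SpecialLinearGroup.coe_mul, ModularGroup.coe_S, Matrix.mul_apply, Fin.sum_univ_two]
    simp
  rw [h00, h10]
  push_cast
  constructor
  · intro h
    linear_combination -h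
  · intro h
    linear_combination -h

/-- The map from roots of `x² + 1` in `ZMod N` to `S`-fixed cosets. -/
noncomputable def rootToFixed (x : {x : ZMod N // x ^ 2 + 1 = 0}) :
    {q : SL(2, ℤ) ⧸ Gamma0 N // ModularGroup.S • q = q} :=
  ⟨QuotientGroup.mk (colMat (ZMod.cast x.1 : ℤ)), by
    rw [S_smul_mk_eq_iff]
    simp only [colMat_zero_zero, colMat_one_zero, ZMod.intCast_cast, ZMod.cast_id', id_eq,
      Int.cast_one, one_pow]
    exact x.2⟩

lemma rootToFixed_injective : Function.Injective (rootToFixed N) := by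
  intro x y h
  have h' := congrArg Subtype.val h
  simp only [rootToFixed] at h'
  rw [mk_eq_mk_iff] at h'
  simp only [colMat_zero_zero, colMat_one_zero, mul_one, one_mul, Int.cast_sub,
    ZMod.intCast_cast, ZMod.cast_id', id_eq] at h'
  exact Subtype.ext (sub_eq_zero.mp h')

lemma rootToFixed_surjective : Function.Surjective (rootToFixed N) := by
  rintro ⟨q, hq⟩
  obtain ⟨g, rfl⟩ := QuotientGroup.mk_surjective q
  rw [S_smul_mk_eq_iff] at hq
  -- notation
  set A : ZMod N := ((g 0 0 : ℤ) : ZMod N) with hA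
  set B : ZMod N := ((g 0 1 : ℤ) : ZMod N) with hB
  set C : ZMod N := ((g 1 0 : ℤ) : ZMod N) with hC
  set D : ZMod N := ((g 1 1 : ℤ) : ZMod N) with hD
  have hdet : A * D - B * C = 1 := by
    have h1 : g 0 0 * g 1 1 - g 0 1 * g 1 0 = 1 := by
      have := g.det_coe
      rw [Matrix.det_fin_two] at this
      exact this
    have := congrArg (Int.cast : ℤ → ZMod N) h1
    push_cast at this
    exact this
  -- the inverse of `C`
  have hAu : A = C * (-(C * D + A * B)) := by
    linear_combination (-A) * hdet + D * hq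
  have hCw : C * (-(C * D + A * B) * D - B) = 1 := by
    linear_combination hdet - D * hAu
  have hroot : (A * (-(C * D + A * B) * D - B)) ^ 2 + 1 = 0 := by
    linear_combination (-(C * D + A * B) * D - B) ^ 2 * hq
      - (C * (-(C * D + A * B) * D - B) + 1) * hCw
  refine ⟨⟨A * (-(C * D + A * B) * D - B), hroot⟩, ?_⟩
  apply Subtype.ext
  simp only [rootToFixed]
  rw [mk_eq_mk_iff]
  simp only [colMat_zero_zero, colMat_one_zero, one_mul, Int.cast_sub, Int.cast_mul,
    ZMod.intCast_cast, ZMod.cast_id', id_eq]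
  change A * (-(C * D + A * B) * D - B) * C - A = 0
  linear_combination A * hCw

/-- **T7.** The number of `S`-fixed left cosets of `Γ₀(N)` in `SL(2,ℤ)` is `nuTwo N`. -/
theorem card_fixedBy_S :
    Nat.card {q : SL(2, ℤ) ⧸ Gamma0 N // ModularGroup.S • q = q} = ModularCurve.nuTwo N := by
  rw [ModularCurve.nuTwo]
  exact (Nat.card_congr (Equiv.ofBijective (rootToFixed N)
    ⟨rootToFixed_injective N, rootToFixed_surjective N⟩)).symm

/-! ### Fixed points of `S * T` -/

/-- The coset `g Γ₀(N)` is fixed by `S * T` iff `a² + a c + c² ≡ 0 mod N` for the first column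
`(a, c)`. -/
lemma ST_smul_mk_eq_iff (g : SL(2, ℤ)) :
    (ModularGroup.S * ModularGroup.T) • (QuotientGroup.mk g : SL(2, ℤ) ⧸ Gamma0 N) =
        QuotientGroup.mk g ↔
      ((g 0 0 : ℤ) : ZMod N) ^ 2 + ((g 0 0 : ℤ) : ZMod N) * ((g 1 0 : ℤ) : ZMod N)
        + ((g 1 0 : ℤ) : ZMod N) ^ 2 = 0 := by
  rw [MulAction.Quotient.smul_mk, smul_eq_mul, mk_eq_mk_iff]
  have hST : ((ModularGroup.S * ModularGroup.T : SL(2, ℤ)) : Matrix (Fin 2) (Fin 2) ℤ) =
      !![0, -1; 1, 1] := by
    rw [SpecialLinearGroup.coe_mul, ModularGroup.coe_S, ModularGroup.coe_T]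
    ext i j
    fin_cases i <;> fin_cases j <;> simp [Matrix.mul_apply, Fin.sum_univ_two]
  have h00 : (ModularGroup.S * ModularGroup.T * g) 0 0 = - g 1 0 := by
    rw [SpecialLinearGroup.coe_mul, hST, Matrix.mul_apply, Fin.sum_univ_two]
    simp
  have h10 : (ModularGroup.S * ModularGroup.T * g) 1 0 = g 0 0 + g 1 0 := by
    rw [SpecialLinearGroup.coe_mul, hST, Matrix.mul_apply, Fin.sum_univ_two]
    simp
  rw [h00, h10]
  push_cast
  constructor
  · intro h
    linear_combination -h
  · intro h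
    linear_combination -h

/-- The map from roots of `x² + x + 1` in `ZMod N` to `S * T`-fixed cosets. -/
noncomputable def rootToFixedST (x : {x : ZMod N // x ^ 2 + x + 1 = 0}) :
    {q : SL(2, ℤ) ⧸ Gamma0 N // (ModularGroup.S * ModularGroup.T) • q = q} :=
  ⟨QuotientGroup.mk (colMat (ZMod.cast x.1 : ℤ)), by
    rw [ST_smul_mk_eq_iff]
    simp only [colMat_zero_zero, colMat_one_zero, ZMod.intCast_cast, ZMod.cast_id', id_eq,
      Int.cast_one, one_pow, mul_one]
    exact x.2⟩

lemma rootToFixedST_injective : Function.Injective (rootToFixedST N) := by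
  intro x y h
  have h' := congrArg Subtype.val h
  simp only [rootToFixedST] at h'
  rw [mk_eq_mk_iff] at h'
  simp only [colMat_zero_zero, colMat_one_zero, mul_one, one_mul, Int.cast_sub,
    ZMod.intCast_cast, ZMod.cast_id', id_eq] at h'
  exact Subtype.ext (sub_eq_zero.mp h')

lemma rootToFixedST_surjective : Function.Surjective (rootToFixedST N) := by
  rintro ⟨q, hq⟩
  obtain ⟨g, rfl⟩ := QuotientGroup.mk_surjective q
  rw [ST_smul_mk_eq_iff] at hq
  set A : ZMod N := ((g 0 0 : ℤ) : ZMod N) with hA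
  set B : ZMod N := ((g 0 1 : ℤ) : ZMod N) with hB
  set C : ZMod N := ((g 1 0 : ℤ) : ZMod N) with hC
  set D : ZMod N := ((g 1 1 : ℤ) : ZMod N) with hD
  have hdet : A * D - B * C = 1 := by
    have h1 : g 0 0 * g 1 1 - g 0 1 * g 1 0 = 1 := by
      have := g.det_coe
      rw [Matrix.det_fin_two] at this
      exact this
    have := congrArg (Int.cast : ℤ → ZMod N) h1
    push_cast at this
    exact this
  have hAu : A = C * (-(A * D + C * D + A * B)) := by
    linear_combination (-A) * hdet + D * hq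
  have hCw : C * (-(A * D + C * D + A * B) * D - B) = 1 := by
    linear_combination hdet - D * hAu
  have hroot : (A * (-(A * D + C * D + A * B) * D - B)) ^ 2
      + A * (-(A * D + C * D + A * B) * D - B) + 1 = 0 := by
    linear_combination (-(A * D + C * D + A * B) * D - B) ^ 2 * hq
      - (C * (-(A * D + C * D + A * B) * D - B) + 1
          + A * (-(A * D + C * D + A * B) * D - B)) * hCw
  refine ⟨⟨A * (-(A * D + C * D + A * B) * D - B), hroot⟩, ?_⟩
  apply Subtype.ext
  simp only [rootToFixedST]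
  rw [mk_eq_mk_iff]
  simp only [colMat_zero_zero, colMat_one_zero, one_mul, Int.cast_sub, Int.cast_mul,
    ZMod.intCast_cast, ZMod.cast_id', id_eq]
  change A * (-(A * D + C * D + A * B) * D - B) * C - A = 0
  linear_combination A * hCw

/-- **T8.** The number of `S * T`-fixed left cosets of `Γ₀(N)` in `SL(2,ℤ)` is `nuThree N`. -/
theorem card_fixedBy_ST :
    Nat.card {q : SL(2, ℤ) ⧸ Gamma0 N // (ModularGroup.S * ModularGroup.T) • q = q} =
      ModularCurve.nuThree N := by
  rw [ModularCurve.nuThree]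
  exact (Nat.card_congr (Equiv.ofBijective (rootToFixedST N)
    ⟨rootToFixedST_injective N, rootToFixedST_surjective N⟩)).symm

end Fermat.Agent.S20.H859
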