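/-
S20 long shot, CORE piece C1.1 (`ker_ev`) -- helper292.

Kernel of the evaluation at the fibre over `z₀`: if `P` is a level one divisor for `z₀` and the
vector of conjugates of `f ∈ MF Γ k` vanishes at `z₀`, then `f = P * g` with `g ∈ MF Γ (k - w)`.
Uses leaf B (`Fermat.Agent.S20.B980.exists_eq_mul_of_vanishing`).  Also provides the two
directions of the dictionary `MF Γ k ↔ ModularForm Γ k` used here.
-/
import Fermat.Agent.S20.Core
import Fermat.Agent.S20.B_helper980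

set_option autoImplicit false

noncomputable section

namespace Fermat.Agent.S20.KerEv292

open Fermat.Agent.S20
open UpperHalfPlane ModularForm CongruenceSubgroup MatrixGroups Filter Matrix.SpecialLinearGroup
open scoped Manifold Topology Real

variable {Γ : Subgroup SL(2, ℤ)}

/-- A function-level modular form as a bundled Mathlib `ModularForm`. -/
def toModularForm [Γ.FiniteIndex] {k : ℤ} {f : ℍ → ℂ} (hf : f ∈ MF Γ k) :
    ModularForm (Γ : Subgroup (GL (Fin 2) ℝ)) k where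
  toFun := f
  slash_action_eq' := by
    intro γ hγ
    obtain ⟨γ', hγ', rfl⟩ := Subgroup.mem_map.1 hγ
    have := hf.2.1 γ' hγ'
    rwa [SL_slash] at this
  holo' := hf.1
  bdd_at_cusps' := by
    intro c hc
    have hc' : IsCusp c 𝒮ℒ := (Subgroup.IsArithmetic.isCusp_iff_isCusp_SL2Z _).1 hc
    exact (OnePoint.isBoundedAt_iff_forall_SL2Z hc').2 (fun γ _ => hf.2.2 γ)

@[simp]
lemma coe_toModularForm [Γ.FiniteIndex] {k : ℤ} {f : ℍ → ℂ} (hf : f ∈ MF Γ k) :
    (⇑(toModularForm hf) : ℍ → ℂ) = f := rfl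

/-- A level one function-level modular form as a bundled `ModularForm 𝒮ℒ w`. -/
def toModularFormTop {w : ℤ} {P : ℍ → ℂ} (hP : P ∈ MF (⊤ : Subgroup SL(2, ℤ)) w) :
    ModularForm 𝒮ℒ w where
  toFun := P
  slash_action_eq' := by
    intro γ hγ
    obtain ⟨γ', rfl⟩ := hγ
    have := hP.2.1 γ' (Subgroup.mem_top _)
    rwa [SL_slash] at this
  holo' := hP.1
  bdd_at_cusps' := by
    intro c hc
    exact (OnePoint.isBoundedAt_iff_forall_SL2Z hc).2 (fun γ _ => hP.2.2 γ)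

@[simp]
lemma coe_toModularFormTop {w : ℤ} {P : ℍ → ℂ} (hP : P ∈ MF (⊤ : Subgroup SL(2, ℤ)) w) :
    (⇑(toModularFormTop hP) : ℍ → ℂ) = P := rfl

/-- The underlying function of a bundled modular form is a function-level modular form. -/
lemma coe_mem_MF [Γ.FiniteIndex] {k : ℤ} (g : ModularForm (Γ : Subgroup (GL (Fin 2) ℝ)) k) :
    (⇑g : ℍ → ℂ) ∈ MF Γ k := by
  refine ⟨ModularFormClass.holo g, ?_, ?_⟩
  · intro γ hγ
    rw [SL_slash]
    exact SlashInvariantForm.slash_action_eqn g _ (Subgroup.mem_map_of_mem _ hγ)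
  · intro γ
    have hc : IsCusp (mapGL ℝ γ • (OnePoint.infty : OnePoint ℝ)) (Γ : Subgroup (GL (Fin 2) ℝ)) :=
      (Subgroup.IsArithmetic.isCusp_iff_isCusp_SL2Z _).2 (isCusp_SL2Z_iff'.2 ⟨γ, rfl⟩)
    have := ModularFormClass.bdd_at_cusps g hc (mapGL ℝ γ) rfl
    rwa [SL_slash]

/-- If the vector of conjugates of a `Γ`-invariant `f` vanishes at `τ`, then `f` vanishes on the
whole `SL(2, ℤ)`-orbit of `τ`. -/
lemma eq_zero_of_ev_eq_zero {k : ℤ} {f : ℍ → ℂ} (hf : ∀ γ ∈ Γ, f ∣[k] γ = f) {τ : ℍ}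
    (h0 : ev Γ k τ f = 0) (γ : SL(2, ℤ)) : f (γ • τ) = 0 := by
  have h1 : ev Γ k τ f (QuotientGroup.mk γ⁻¹) = 0 := by rw [h0]; rfl
  rw [ev_apply] at h1
  obtain ⟨h, hh⟩ := QuotientGroup.mk_out_eq_mul Γ γ⁻¹
  have h2 : ((QuotientGroup.mk γ⁻¹ : X Γ).out)⁻¹ = (h : SL(2, ℤ))⁻¹ * γ := by
    rw [hh]; group
  rw [h2, SlashAction.slash_mul, hf _ (Γ.inv_mem h.2), SL_slash_apply] at h1
  rcases mul_eq_zero.1 h1 with h3 | h3
  · exact h3
  · exact absurd h3 (zpow_ne_zero _ (denom_ne_zero _ _))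

/-- **C1.1**: kernel of the evaluation at the fibre over `z₀`. -/
theorem ker_ev [Γ.FiniteIndex] {z₀ : ℍ} {w : ℤ} {P : ℍ → ℂ} (hP : LevelOneDivisor z₀ w P)
    {k : ℤ} {f : ℍ → ℂ} (hf : f ∈ MF Γ k) (h0 : ev Γ k z₀ f = 0) :
    ∃ g ∈ MF Γ (k - w), f = P * g := by
  have hvan : ∀ z : ℍ, toModularFormTop hP.mem z = 0 → toModularForm hf z = 0 := by
    intro z hz
    obtain ⟨γ, rfl⟩ := (hP.zero_iff z).1 hz
    exact eq_zero_of_ev_eq_zero hf.2.1 h0 γ
  obtain ⟨g, hg⟩ := B980.exists_eq_mul_of_vanishing (Γ := Γ) (toModularFormTop hP.mem)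
    hP.simple hP.not_zero_at_infty (toModularForm hf) hvan
  exact ⟨⇑g, coe_mem_MF g, funext hg⟩

end Fermat.Agent.S20.KerEv292

end
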