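import Fermat.Agent.S20.Core

/-!
# S20, piece P3 : the degree relation `∑ wt j = 6 (μ - #T-orbits)` (helper361)

`FundSystem.sum_wt` of the skeleton, proved from explicit hypotheses which are the
skeleton statements C0.3 (`ev_smul`), P1.3 (`det_Theta`), P1.4 (`Theta_add`, `Theta_zero`)
and L0.4 (`weight_eq_zero_of_nonvanishing`).
-/

set_option autoImplicit false

noncomputable section

namespace Fermat.Agent.S20.P3helper361

open Fermat.Agent.S20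
open UpperHalfPlane ModularForm CongruenceSubgroup MatrixGroups Filter Module
open scoped Manifold Topology Real

local notation "Δ" => ModularForm.discriminant
local notation "Tm" => ModularGroup.T

/-! ## The hypotheses (exact skeleton shapes) -/

/-- C0.3 `ev_smul` of the skeleton. -/
def EvSmul (Γ : Subgroup SL(2, ℤ)) : Prop :=
  ∀ {k : ℤ} {f : ℍ → ℂ} (_ : ∀ γ ∈ Γ, f ∣[k] γ = f) (γ : SL(2, ℤ)) (τ : ℍ)
    (x : X Γ), ev Γ k (γ • τ) f x = denom γ τ ^ k * ev Γ k τ f (γ⁻¹ • x)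

/-- P1.3 `det_Theta` of the skeleton. -/
def DetTheta (Γ : Subgroup SL(2, ℤ)) : Prop :=
  ∀ s : ℂ, LinearMap.det (Theta Γ s) =
    Complex.exp (π * Complex.I * s * ((Nat.card (X Γ) : ℂ) -
      Nat.card (MulAction.orbitRel.Quotient (Subgroup.zpowers Tm) (X Γ))))

/-- P1.4 `Theta_add` of the skeleton. -/
def ThetaAdd (Γ : Subgroup SL(2, ℤ)) : Prop :=
  ∀ s t : ℂ, Theta Γ (s + t) = Theta Γ s ∘ₗ Theta Γ t

/-- P1.4 `Theta_zero` of the skeleton. -/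
def ThetaZero (Γ : Subgroup SL(2, ℤ)) : Prop :=
  Theta Γ 0 = LinearMap.id

/-- L0.4 `weight_eq_zero_of_nonvanishing` of the skeleton. -/
def WeightZero : Prop :=
  ∀ {k : ℤ} {f : ℍ → ℂ}, f ∈ MF ⊤ k → (∀ z, f z ≠ 0) → ¬ IsZeroAtImInfty f → k = 0

variable {Γ : Subgroup SL(2, ℤ)}

/-! ## The fundamental matrix -/

section FundMat

variable (𝔉 : FundSystem Γ) (e : 𝔉.J ≃ X Γ)

/-- The fundamental matrix: columns = vectors of conjugates of the `F j`, rows reindexed by `e`. -/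
def fundMat (τ : ℍ) : Matrix 𝔉.J 𝔉.J ℂ :=
  Matrix.of fun i j => ev Γ (𝔉.wt j) τ (𝔉.F j) (e i)

lemma fundMat_apply (τ : ℍ) (i j : 𝔉.J) :
    fundMat 𝔉 e τ i j = ev Γ (𝔉.wt j) τ (𝔉.F j) (e i) := rfl

/-- The permutation of `J` induced by `γ⁻¹` acting on `X Γ`. -/
def permOf (γ : SL(2, ℤ)) : Equiv.Perm 𝔉.J :=
  (e.trans (MulAction.toPerm γ⁻¹)).trans e.symm

lemma permOf_apply (γ : SL(2, ℤ)) (i : 𝔉.J) : e (permOf 𝔉 e γ i) = γ⁻¹ • e i := by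
  simp [permOf]

open Classical in
lemma det_fundMat_smul (hev : EvSmul Γ) (γ : SL(2, ℤ)) (τ : ℍ) :
    (fundMat 𝔉 e (γ • τ)).det =
      (∏ j, denom γ τ ^ 𝔉.wt j) * ((Equiv.Perm.sign (permOf 𝔉 e γ) : ℤ) : ℂ) *
        (fundMat 𝔉 e τ).det := by
  have h : fundMat 𝔉 e (γ • τ) =
      Matrix.of fun i j => (denom γ τ ^ 𝔉.wt j) *
        ((fundMat 𝔉 e τ).submatrix (permOf 𝔉 e γ) id) i j := by
    ext i j
    simp only [fundMat_apply, Matrix.of_apply, Matrix.submatrix_apply, id_eq, permOf_apply]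
    exact hev (𝔉.mem j).2.1 γ τ (e i)
  rw [h, Matrix.det_mul_row, Matrix.det_permute]
  ring

lemma prod_zpow_eq_zpow_sum {ι : Type*} (s : Finset ι) (a : ℂ) (ha : a ≠ 0) (f : ι → ℤ) :
    ∏ j ∈ s, a ^ f j = a ^ ∑ j ∈ s, f j := by
  classical
  induction s using Finset.induction_on with
  | empty => simp
  | insert i s hi ih => rw [Finset.prod_insert hi, Finset.sum_insert hi, zpow_add₀ ha, ih]

open Classical in
/-- Transformation law of the squared determinant. -/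
lemma sq_det_fundMat_smul (hev : EvSmul Γ) (γ : SL(2, ℤ)) (τ : ℍ) :
    (fundMat 𝔉 e (γ • τ)).det ^ 2 =
      denom γ τ ^ (2 * ∑ j, 𝔉.wt j) * (fundMat 𝔉 e τ).det ^ 2 := by
  rw [det_fundMat_smul 𝔉 e hev, prod_zpow_eq_zpow_sum _ _ (denom_ne_zero _ _)]
  have hs : (((Equiv.Perm.sign (permOf 𝔉 e γ) : ℤ) : ℂ)) ^ 2 = 1 := by
    rcases Int.units_eq_one_or (Equiv.Perm.sign (permOf 𝔉 e γ)) with h | h <;> simp [h]
  rw [mul_pow, mul_pow, hs, mul_one, ← zpow_natCast, ← zpow_mul]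
  congr 2
  push_cast
  ring

/-- The linear equivalence `(X Γ → ℂ) ≃ (J → ℂ)` of reindexing along `e`. -/
def reidx : (X Γ → ℂ) ≃ₗ[ℂ] (𝔉.J → ℂ) := LinearEquiv.funCongrLeft ℂ ℂ e

lemma reidx_apply (v : X Γ → ℂ) (i : 𝔉.J) : reidx 𝔉 e v i = v (e i) := rfl

open Classical in
lemma det_ne_zero_of_linearIndependent (v : 𝔉.J → X Γ → ℂ) (hv : LinearIndependent ℂ v) :
    (Matrix.of fun i j => v j (e i) : Matrix 𝔉.J 𝔉.J ℂ).det ≠ 0 := by
  have h1 : LinearIndependent ℂ (fun j => reidx 𝔉 e (v j)) :=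
    hv.map' (reidx 𝔉 e : (X Γ → ℂ) →ₗ[ℂ] (𝔉.J → ℂ)) (LinearEquiv.ker _)
  have h2 : (Matrix.of fun i j => v j (e i) : Matrix 𝔉.J 𝔉.J ℂ).col =
      fun j => reidx 𝔉 e (v j) := by
    ext j i
    rfl
  have h3 : IsUnit (Matrix.of fun i j => v j (e i) : Matrix 𝔉.J 𝔉.J ℂ) := by
    rw [← Matrix.linearIndependent_cols_iff_isUnit, h2]
    exact h1
  exact ((Matrix.isUnit_iff_isUnit_det _).mp h3).ne_zero

open Classical in
lemma det_fundMat_ne_zero (τ : ℍ) : (fundMat 𝔉 e τ).det ≠ 0 :=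
  det_ne_zero_of_linearIndependent 𝔉 e _ (𝔉.indep τ)

/-- The matrix of normalised conjugates. -/
def jetMatFun (τ : ℍ) : Matrix 𝔉.J 𝔉.J ℂ :=
  Matrix.of fun i j => jetFun Γ (𝔉.wt j) (𝔉.F j) τ (e i)

/-- The matrix of jets. -/
def jetMat : Matrix 𝔉.J 𝔉.J ℂ :=
  Matrix.of fun i j => 𝔉.jet j (e i)

open Classical in
lemma det_jetMat_ne_zero : (jetMat 𝔉 e).det ≠ 0 :=
  det_ne_zero_of_linearIndependent 𝔉 e _ 𝔉.jet_indep

open Classical in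
lemma tendsto_det_jetMatFun :
    Tendsto (fun τ => (jetMatFun 𝔉 e τ).det) atImInfty (𝓝 (jetMat 𝔉 e).det) := by
  have h : Tendsto (jetMatFun 𝔉 e) atImInfty (𝓝 (jetMat 𝔉 e)) := by
    refine (tendsto_pi_nhds (f := fun (τ : ℍ) (i : 𝔉.J) (j : 𝔉.J) => jetMatFun 𝔉 e τ i j)
      (g := fun (i : 𝔉.J) (j : 𝔉.J) => jetMat 𝔉 e i j)).mpr fun i => ?_
    refine tendsto_pi_nhds.mpr fun j => ?_
    exact (tendsto_pi_nhds.mp (𝔉.hasJet j)) (e i)
  exact ((continuous_id.matrix_det).tendsto _).comp h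

lemma Theta_jetFun (hadd : ThetaAdd Γ) (hzero : ThetaZero Γ) (k : ℤ) (f : ℍ → ℂ) (τ : ℍ) :
    Theta Γ (τ : ℂ) (jetFun Γ k f τ) = ev Γ k τ f := by
  have h := hadd (τ : ℂ) (-(τ : ℂ))
  rw [add_neg_cancel, hzero] at h
  have h' := congrArg (fun L : (X Γ → ℂ) →ₗ[ℂ] (X Γ → ℂ) => L (ev Γ k τ f)) h
  simpa [jetFun] using h'.symm

open Classical in
lemma det_fundMat_eq (hadd : ThetaAdd Γ) (hzero : ThetaZero Γ) (τ : ℍ) :
    (fundMat 𝔉 e τ).det = LinearMap.det (Theta Γ (τ : ℂ)) * (jetMatFun 𝔉 e τ).det := by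
  set L' : (𝔉.J → ℂ) →ₗ[ℂ] (𝔉.J → ℂ) :=
    (reidx 𝔉 e : (X Γ → ℂ) →ₗ[ℂ] (𝔉.J → ℂ)) ∘ₗ Theta Γ (τ : ℂ) ∘ₗ
      ((reidx 𝔉 e).symm : (𝔉.J → ℂ) →ₗ[ℂ] (X Γ → ℂ)) with hL'
  have hdet : LinearMap.det L' = LinearMap.det (Theta Γ (τ : ℂ)) := LinearMap.det_conj _ _
  have hmat : fundMat 𝔉 e τ = LinearMap.toMatrix' L' * jetMatFun 𝔉 e τ := by
    ext i j
    have h1 : (LinearMap.toMatrix' L' * jetMatFun 𝔉 e τ) i j =
        (LinearMap.toMatrix' L').mulVec (fun l => jetMatFun 𝔉 e τ l j) i := rfl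
    rw [h1, LinearMap.toMatrix'_mulVec]
    have h2 : (fun l => jetMatFun 𝔉 e τ l j) =
        reidx 𝔉 e (jetFun Γ (𝔉.wt j) (𝔉.F j) τ) := rfl
    rw [h2, hL']
    simp only [LinearMap.coe_comp, LinearEquiv.coe_coe, Function.comp_apply,
      LinearEquiv.symm_apply_apply]
    rw [Theta_jetFun hadd hzero]
    rfl
  rw [hmat, Matrix.det_mul, LinearMap.det_toMatrix', hdet]

end FundMat

/-! ## The level one form `G = det² · Δ ^ (c - μ)` -/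

section Main

variable (𝔉 : FundSystem Γ) (e : 𝔉.J ≃ X Γ)

variable (Γ) in
/-- `mExp = #T-orbits - μ`. -/
def mExp : ℤ :=
  (Nat.card (MulAction.orbitRel.Quotient (Subgroup.zpowers Tm) (X Γ)) : ℤ) - Nat.card (X Γ)

open Classical in
/-- The level one form `det² · Δ ^ (c - μ)`. -/
def Gfun (τ : ℍ) : ℂ := (fundMat 𝔉 e τ).det ^ 2 * (Δ τ) ^ (mExp Γ)

open Classical in
lemma Gfun_ne_zero (τ : ℍ) : Gfun 𝔉 e τ ≠ 0 :=
  mul_ne_zero (pow_ne_zero _ (det_fundMat_ne_zero 𝔉 e τ))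
    (zpow_ne_zero _ (discriminant_ne_zero τ))

lemma discriminant_slash (γ : SL(2, ℤ)) : (Δ ∣[(12 : ℤ)] γ) = Δ :=
  SlashInvariantForm.slash_action_generators_SL2Z discriminant_S_invariant
    discriminant_T_invariant γ

lemma discriminant_smul (γ : SL(2, ℤ)) (τ : ℍ) : Δ (γ • τ) = denom γ τ ^ (12 : ℤ) * Δ τ := by
  have h := congrFun (discriminant_slash γ) τ
  rw [SL_slash_apply] at h
  have hd : denom γ τ ≠ 0 := denom_ne_zero _ _
  rw [← h, mul_comm (Δ (γ • τ)), ← mul_assoc, ← zpow_add₀ hd]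
  simp

open Classical in
lemma Gfun_smul (hev : EvSmul Γ) (γ : SL(2, ℤ)) (τ : ℍ) :
    Gfun 𝔉 e (γ • τ) = denom γ τ ^ (2 * ∑ j, 𝔉.wt j + 12 * mExp Γ) * Gfun 𝔉 e τ := by
  have hd : denom γ τ ≠ 0 := denom_ne_zero _ _
  rw [Gfun, Gfun, sq_det_fundMat_smul 𝔉 e hev, discriminant_smul, mul_zpow, ← zpow_mul,
    zpow_add₀ hd]
  ring

open Classical in
lemma Gfun_slash (hev : EvSmul Γ) (γ : SL(2, ℤ)) :
    (Gfun 𝔉 e) ∣[(2 * ∑ j, 𝔉.wt j + 12 * mExp Γ : ℤ)] γ = Gfun 𝔉 e := by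
  ext τ
  have hd : denom γ τ ≠ 0 := denom_ne_zero _ _
  rw [SL_slash_apply, Gfun_smul 𝔉 e hev, mul_comm, ← mul_assoc, ← zpow_add₀ hd]
  simp

lemma mdiff_det {n : Type*} [Fintype n] [DecidableEq n] (A : ℍ → Matrix n n ℂ)
    (hA : ∀ i j, MDiff (fun τ => A τ i j)) : MDiff (fun τ => (A τ).det) := by
  rw [UpperHalfPlane.mdifferentiable_iff]
  have hA' : ∀ i j, DifferentiableOn ℂ (fun z => A (ofComplex z) i j) {z | 0 < z.im} :=
    fun i j => UpperHalfPlane.mdifferentiable_iff.mp (hA i j)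
  have h : ((fun τ => (A τ).det) ∘ ofComplex) =
      fun z => ∑ σ : Equiv.Perm n, ((Equiv.Perm.sign σ : ℤ) : ℂ) * ∏ i, A (ofComplex z) (σ i) i := by
    ext z
    simp only [Function.comp_apply, Matrix.det_apply]
    refine Finset.sum_congr rfl fun σ _ => ?_
    rw [Units.smul_def, zsmul_eq_mul]
  rw [h]
  refine DifferentiableOn.fun_sum fun σ _ => ?_
  refine DifferentiableOn.const_mul ?_ _
  exact DifferentiableOn.fun_finsetProd fun i _ => hA' (σ i) i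

lemma mdiff_fundMat_entry (i j : 𝔉.J) : MDiff (fun τ => fundMat 𝔉 e τ i j) :=
  ((𝔉.mem j).1.slash (𝔉.wt j) _ : MDiff ((𝔉.F j) ∣[𝔉.wt j] (((e i).out)⁻¹ : SL(2, ℤ))))

open Classical in
lemma mdiff_Gfun : MDiff (Gfun 𝔉 e) := by
  have h1 : MDiff (fun τ => (fundMat 𝔉 e τ).det) := mdiff_det _ (mdiff_fundMat_entry 𝔉 e)
  rw [UpperHalfPlane.mdifferentiable_iff] at h1 ⊢
  have hΔ : DifferentiableOn ℂ ((Δ : ℍ → ℂ) ∘ ofComplex) {z | 0 < z.im} :=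
    UpperHalfPlane.mdifferentiable_iff.mp CuspForm.discriminant.holo'
  have h : Gfun 𝔉 e ∘ ofComplex = fun z =>
      (((fun τ => (fundMat 𝔉 e τ).det) ∘ ofComplex) z) ^ 2 *
        (((Δ : ℍ → ℂ) ∘ ofComplex) z) ^ (mExp Γ) := rfl
  rw [h]
  exact (h1.pow 2).mul (hΔ.zpow (Or.inl fun z _ => discriminant_ne_zero _))

open Classical in
lemma Gfun_eq (hadd : ThetaAdd Γ) (hzero : ThetaZero Γ) (hdet : DetTheta Γ) (τ : ℍ) :
    Gfun 𝔉 e τ = (jetMatFun 𝔉 e τ).det ^ 2 *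
      (∏' n : ℕ, (1 - eta_q n (τ : ℂ)) ^ 24) ^ (mExp Γ) := by
  rw [Gfun, det_fundMat_eq 𝔉 e hadd hzero, hdet, discriminant_eq_q_prod, mul_zpow, mul_pow]
  have hq : (Complex.exp (π * Complex.I * (τ : ℂ) * ((Nat.card (X Γ) : ℂ) -
      Nat.card (MulAction.orbitRel.Quotient (Subgroup.zpowers Tm) (X Γ))))) ^ 2 *
      (Function.Periodic.qParam 1 (τ : ℂ)) ^ (mExp Γ) = 1 := by
    rw [Function.Periodic.qParam, ← Complex.exp_int_mul, ← Complex.exp_nat_mul,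
      ← Complex.exp_add]
    have : ((2 : ℕ) : ℂ) * (π * Complex.I * (τ : ℂ) * ((Nat.card (X Γ) : ℂ) -
        Nat.card (MulAction.orbitRel.Quotient (Subgroup.zpowers Tm) (X Γ)))) +
        ((mExp Γ : ℤ) : ℂ) * (2 * π * Complex.I * (τ : ℂ) / ((1 : ℝ) : ℂ)) = 0 := by
      simp only [mExp]
      push_cast
      ring
    rw [this, Complex.exp_zero]
  calc _ = ((Complex.exp (π * Complex.I * (τ : ℂ) * ((Nat.card (X Γ) : ℂ) -
      Nat.card (MulAction.orbitRel.Quotient (Subgroup.zpowers Tm) (X Γ))))) ^ 2 *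
      (Function.Periodic.qParam 1 (τ : ℂ)) ^ (mExp Γ)) * ((jetMatFun 𝔉 e τ).det ^ 2 *
      (∏' n : ℕ, (1 - eta_q n (τ : ℂ)) ^ 24) ^ (mExp Γ)) := by ring
    _ = _ := by rw [hq, one_mul]

open Classical in
lemma tendsto_Gfun (hadd : ThetaAdd Γ) (hzero : ThetaZero Γ) (hdet : DetTheta Γ) :
    Tendsto (Gfun 𝔉 e) atImInfty (𝓝 ((jetMat 𝔉 e).det ^ 2)) := by
  have h1 := (tendsto_det_jetMatFun 𝔉 e).pow 2
  have h2 := (tendsto_atImInfty_tprod_one_sub_eta_q_pow).zpow₀ (mExp Γ)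
    (Or.inl one_ne_zero)
  have h3 := h1.mul h2
  rw [one_zpow, mul_one] at h3
  refine h3.congr fun τ => ?_
  exact (Gfun_eq 𝔉 e hadd hzero hdet τ).symm

/-- **P3** (`FundSystem.sum_wt` of the skeleton), from explicit hypotheses. -/
theorem sum_wt_of [Γ.FiniteIndex] (hev : EvSmul Γ) (hdet : DetTheta Γ) (hadd : ThetaAdd Γ)
    (hzero : ThetaZero Γ) (hw : WeightZero) (𝔉 : FundSystem Γ) :
    ∑ j, 𝔉.wt j + 6 * Nat.card (MulAction.orbitRel.Quotient (Subgroup.zpowers Tm) (X Γ)) =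
      6 * Nat.card (X Γ) := by
  classical
  obtain ⟨e⟩ : Nonempty (𝔉.J ≃ X Γ) := by
    have h : Nat.card 𝔉.J = Nat.card (X Γ) := by
      rw [Nat.card_eq_fintype_card]; exact 𝔉.card_eq
    exact ⟨((Finite.equivFin 𝔉.J).trans (finCongr h)).trans (Finite.equivFin (X Γ)).symm⟩
  have hlim := tendsto_Gfun 𝔉 e hadd hzero hdet
  have hmem : Gfun 𝔉 e ∈ MF ⊤ (2 * ∑ j, 𝔉.wt j + 12 * mExp Γ) := by
    refine ⟨mdiff_Gfun 𝔉 e, fun γ _ => Gfun_slash 𝔉 e hev γ, fun γ => ?_⟩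
    rw [Gfun_slash 𝔉 e hev γ]
    exact hlim.isBigO_one ℝ
  have hnz : ¬ IsZeroAtImInfty (Gfun 𝔉 e) := by
    intro h0
    have := tendsto_nhds_unique hlim h0
    exact pow_ne_zero 2 (det_jetMat_ne_zero 𝔉 e) this
  have hk := hw hmem (Gfun_ne_zero 𝔉 e) hnz
  simp only [mExp] at hk
  linarith

end Main

end Fermat.Agent.S20.P3helper361
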