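import Fermat.Prelude.Def_ModularCurve_GenusNumerics
import Fermat.Agent.S20.Core
import Fermat.Agent.S20.C0_helper516
import Fermat.Agent.S20.C1_helper980
import Fermat.Agent.S20.L0_helper980
import Fermat.Agent.S20.F2_helper658
import Fermat.Agent.S20.P1_helper225
import Fermat.Agent.S20.P2_helper280
import Fermat.Agent.S20.P3_helper361
import Fermat.Agent.S20.P4_helper479
import Fermat.Agent.S20.P5Asm_helper398
import Fermat.Agent.S20.H428.HomBasis
import Fermat.Agent.S20.H800.Fund

/-!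
# S20 : `dim S₂(Γ₀(N)) = genusFormula N` — INDEPENDENT SECOND PROOF (frame route, no S21)

Final glue of the frame route (captain helper20).  `M(Γ₀(N)) = ⨁ₖ M_k(Γ₀(N))` is a free graded
module over `ℂ[E₄, E₆]` with a homogeneous basis (H428), which is a fundamental system
(unimodular frame, H800 + jets 759 + division 980/292 + level one zeros 703/140/544/234/588);
the weights of the frame are then counted mod 4 and mod 6 (P1 225, P2 280), summed (P3 361),
bounded by duality (P4 479), and the linear system is solved (P5 398) with the combinatorics of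
`SL(2,ℤ)/Γ₀(N)` (H872, CuspCount360).
-/

set_option autoImplicit false
open CuspForm
open Fermat.Agent.S20

namespace Fermat.Agent.S20.FrameRoute

open UpperHalfPlane ModularForm CongruenceSubgroup MatrixGroups Filter Module

/-- leaf F in the shape used by the frame route -/
theorem exists_form_injective_ev_glue (N : ℕ) [NeZero N] :
    ∃ f₀ ∈ MF (Gamma0 N) 12, ∃ z₀ : ℍ, Function.Injective (ev (Gamma0 N) 12 z₀ f₀) := by
  obtain ⟨f₀, z₀, hmem, -, hinj⟩ := exists_form_distinct_conj_raw N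
  exact ⟨f₀, hmem, z₀, hinj⟩

theorem neg_one_mem_Gamma0_glue (N : ℕ) : (-1 : SL(2, ℤ)) ∈ Gamma0 N := by
  rw [Gamma0_mem]; simp

/-- C2-C4 : existence of a fundamental system for `Γ₀(N)`. -/
theorem exists_fundSystem_Gamma0_glue (N : ℕ) [NeZero N] : Nonempty (FundSystem (Gamma0 N)) := by
  obtain ⟨ι, hι, k, F, hB⟩ := H428.exists_homBasis N
  have B : H800.GradedBasis (Gamma0 N) k F :=
    H800.GradedBasis.of_fintype (fun j => hB.mem j) (fun w f hf => hB.span w f hf)
      (fun w c hc h0 => hB.indep w c hc h0)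
  exact H800.fundSystem_of_gradedBasis (neg_one_mem_Gamma0_glue N) B
    (exists_form_injective_ev_glue N)

theorem result_frameRoute (N : ℕ) [NeZero N] :
    (Module.finrank ℂ (CuspForm (CongruenceSubgroup.Gamma0 N) 2) : ℚ) = ModularCurve.genusFormula N := by
  have hneg := neg_one_mem_Gamma0_glue N
  obtain ⟨𝔉⟩ := exists_fundSystem_Gamma0_glue N
  have hMFneg : ∀ {k : ℤ}, k < 0 → MF (Gamma0 N) k = ⊥ :=
    fun hk => C0h516.MF_eq_bot_of_neg _ hk
  have heven : ∀ j, 0 ≤ 𝔉.wt j ∧ Even (𝔉.wt j) :=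
    fun j => P2h280.FundSystem.wt_even_nonneg hMFneg hneg 𝔉 j
  have hSF : ∀ k : ℤ, k ≤ 0 → SF (Gamma0 N) k = ⊥ :=
    fun k hk => C0h516.SF_eq_bot_of_nonpos _ hk
  refine P5helper398.S20_of_core N (C0h516.SFequiv (Gamma0 N) 2) 𝔉 heven ?_ ?_ ?_ ?_ ?_ ?_
  · -- P2.1
    exact P2h280.FundSystem.card_wt_mod_four hMFneg
      (fun hf γ τ x => C0h516.ev_smul hf γ τ x)
      (fun σ hσ ε hε => P1h225.finrank_invariants_of_sq_eq_one σ hσ ε hε) hneg 𝔉
  · -- P2.2
    exact P2h280.FundSystem.card_wt_mod_six hMFneg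
      (fun hf γ τ x => C0h516.ev_smul hf γ τ x)
      (fun σ hσ ε hε => P1h225.finrank_invariants_of_cube_eq_one σ hσ ε hε) hneg 𝔉
  · -- P3
    exact P3helper361.sum_wt_of (fun hf γ τ x => C0h516.ev_smul hf γ τ x)
      (P1h225.det_Theta _) (P1h225.Theta_add _) (P1h225.Theta_zero _)
      (fun hf h0 hinf => C980.weight_eq_zero_of_nonvanishing hf h0 hinf) 𝔉
  · -- P4.1
    exact fun j => P4h479.wt_le_ten 𝔉 hSF (fun j => (heven j).2) j
  · -- P4.2
    exact P4h479.finrank_SF_two 𝔉
      (fun k f hf => C980.exists_eq_discriminant_mul_top hf)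
      (fun k hk => C0h516.MF_eq_bot_of_neg _ hk)
      (fun f hf => C0h516.MF_zero_eq_const _ hf) hSF (fun j => (heven j).2)
  · -- P4.3
    exact P4h479.card_wt_zero 𝔉 (fun k hk => C0h516.MF_eq_bot_of_neg _ hk)
      (fun f hf => C0h516.MF_zero_eq_const _ hf)
      (fun k hk => C0h516.MF_eq_bot_of_neg _ hk)

end Fermat.Agent.S20.FrameRoute
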