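import Fermat.Agent.S20.Core
import Fermat.Prelude.Def_ModularCurve_GenusNumerics

/-!
# S20, piece P5 (helper398): numerics and assembly

From the consequences P2, P3, P4 of a fundamental system (taken as explicit hypotheses, in the
exact shapes of the skeleton) we derive the abstract dimension formula, and from it the final
statement, given the leaves (combinatorics, `SFequiv`, existence of a fundamental system).
-/

set_option autoImplicit false

noncomputable section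

namespace Fermat.Agent.S20.P5helper398

open Fermat.Agent.S20
open UpperHalfPlane ModularForm CongruenceSubgroup MatrixGroups Filter Module

local notation "Sm" => ModularGroup.S
local notation "Tm" => ModularGroup.T

section Numerics

variable {J : Type} [Fintype J] (wt : J → ℤ)

/-- number of indices of weight `k`. -/
def cnt (k : ℤ) : ℕ := (Finset.univ.filter fun j => wt j = k).card

lemma card_filter_eq_sum (p : J → Prop) [DecidablePred p] :
    ((Finset.univ.filter p).card : ℤ) = ∑ j, if p j then (1 : ℤ) else 0 := by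
  rw [Finset.card_filter]; push_cast; rfl

omit [Fintype J] in
lemma wt_cases (h0 : ∀ j, 0 ≤ wt j ∧ Even (wt j)) (h10 : ∀ j, wt j ≤ 10) (j : J) :
    wt j = 0 ∨ wt j = 2 ∨ wt j = 4 ∨ wt j = 6 ∨ wt j = 8 ∨ wt j = 10 := by
  obtain ⟨h, r, hr⟩ := h0 j
  have := h10 j
  omega

/-- The pure numerics: the six linear relations determine the number of weight `10` generators. -/
theorem cnt_ten (h0 : ∀ j, 0 ≤ wt j ∧ Even (wt j)) (h10 : ∀ j, wt j ≤ 10)
    (μ e₂ e₃ c : ℕ)
    (h21 : 2 * (Finset.univ.filter fun j => wt j % 4 = 0).card = μ + e₂)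
    (h220 : 3 * (Finset.univ.filter fun j => wt j % 6 = 0).card = μ + 2 * e₃)
    (h222 : 3 * (Finset.univ.filter fun j => wt j % 6 = 2).card + e₃ = μ)
    (h224 : 3 * (Finset.univ.filter fun j => wt j % 6 = 4).card + e₃ = μ)
    (h3 : ∑ j, wt j + 6 * (c : ℤ) = 6 * (μ : ℤ))
    (h43 : (Finset.univ.filter fun j => wt j = 0).card = 1) :
    ((Finset.univ.filter fun j => wt j = 10).card : ℚ) =
      1 + (μ : ℚ) / 12 - (e₂ : ℚ) / 4 - (e₃ : ℚ) / 3 - (c : ℚ) / 2 := by
  have hc := wt_cases wt h0 h10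
  -- indicator sums
  have e4 : ((Finset.univ.filter fun j => wt j % 4 = 0).card : ℤ)
      = (cnt wt 0 : ℤ) + cnt wt 4 + cnt wt 8 := by
    simp only [cnt, card_filter_eq_sum, ← Finset.sum_add_distrib]
    refine Finset.sum_congr rfl fun j _ => ?_
    rcases hc j with h | h | h | h | h | h <;> simp [h]
  have e60 : ((Finset.univ.filter fun j => wt j % 6 = 0).card : ℤ)
      = (cnt wt 0 : ℤ) + cnt wt 6 := by
    simp only [cnt, card_filter_eq_sum, ← Finset.sum_add_distrib]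
    refine Finset.sum_congr rfl fun j _ => ?_
    rcases hc j with h | h | h | h | h | h <;> simp [h]
  have e62 : ((Finset.univ.filter fun j => wt j % 6 = 2).card : ℤ)
      = (cnt wt 2 : ℤ) + cnt wt 8 := by
    simp only [cnt, card_filter_eq_sum, ← Finset.sum_add_distrib]
    refine Finset.sum_congr rfl fun j _ => ?_
    rcases hc j with h | h | h | h | h | h <;> simp [h]
  have e64 : ((Finset.univ.filter fun j => wt j % 6 = 4).card : ℤ)
      = (cnt wt 4 : ℤ) + cnt wt 10 := by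
    simp only [cnt, card_filter_eq_sum, ← Finset.sum_add_distrib]
    refine Finset.sum_congr rfl fun j _ => ?_
    rcases hc j with h | h | h | h | h | h <;> simp [h]
  have es : ∑ j, wt j = 2 * (cnt wt 2 : ℤ) + 4 * cnt wt 4 + 6 * cnt wt 6 + 8 * cnt wt 8
      + 10 * cnt wt 10 := by
    simp only [cnt, card_filter_eq_sum, Finset.mul_sum, ← Finset.sum_add_distrib]
    refine Finset.sum_congr rfl fun j _ => ?_
    rcases hc j with h | h | h | h | h | h <;> simp [h]
  have h43' : (cnt wt 0 : ℤ) = 1 := by simp only [cnt]; exact_mod_cast h43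
  have h21' : 2 * ((cnt wt 0 : ℤ) + cnt wt 4 + cnt wt 8) = μ + e₂ := by
    rw [← e4]; exact_mod_cast h21
  have h220' : 3 * ((cnt wt 0 : ℤ) + cnt wt 6) = μ + 2 * e₃ := by
    rw [← e60]; exact_mod_cast h220
  have h222' : 3 * ((cnt wt 2 : ℤ) + cnt wt 8) + e₃ = μ := by
    rw [← e62]; exact_mod_cast h222
  have h224' : 3 * ((cnt wt 4 : ℤ) + cnt wt 10) + e₃ = μ := by
    rw [← e64]; exact_mod_cast h224
  rw [es] at h3
  have key : 12 * (cnt wt 10 : ℤ) = 12 + μ - 3 * e₂ - 4 * e₃ - 6 * c := by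
    linarith
  have keyQ : 12 * (cnt wt 10 : ℚ) = 12 + μ - 3 * e₂ - 4 * e₃ - 6 * c := by
    exact_mod_cast key
  change ((cnt wt 10 : ℕ) : ℚ) = _
  linarith

end Numerics

variable {Γ : Subgroup SL(2, ℤ)}

/-- P5, for a given fundamental system, from the statements P2.0, P2.1, P2.2, P3, P4.1, P4.2,
P4.3 of the skeleton (explicit hypotheses, exact shapes). -/
theorem finrank_SF_two_of_fundSystem (𝔉 : FundSystem Γ)
    (hP20 : ∀ j : 𝔉.J, 0 ≤ 𝔉.wt j ∧ Even (𝔉.wt j))
    (hP21 : 2 * (Finset.univ.filter fun j => 𝔉.wt j % 4 = 0).card =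
      Nat.card (X Γ) + Nat.card {x : X Γ // Sm • x = x})
    (hP22 : 3 * (Finset.univ.filter fun j => 𝔉.wt j % 6 = 0).card =
        Nat.card (X Γ) + 2 * Nat.card {x : X Γ // (Sm * Tm) • x = x} ∧
      3 * (Finset.univ.filter fun j => 𝔉.wt j % 6 = 2).card
        + Nat.card {x : X Γ // (Sm * Tm) • x = x} = Nat.card (X Γ) ∧
      3 * (Finset.univ.filter fun j => 𝔉.wt j % 6 = 4).card
        + Nat.card {x : X Γ // (Sm * Tm) • x = x} = Nat.card (X Γ))
    (hP3 : ∑ j, 𝔉.wt j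
        + 6 * Nat.card (MulAction.orbitRel.Quotient (Subgroup.zpowers Tm) (X Γ)) =
      6 * Nat.card (X Γ))
    (hP41 : ∀ j : 𝔉.J, 𝔉.wt j ≤ 10)
    (hP42 : finrank ℂ (SF Γ 2) = (Finset.univ.filter fun j => 𝔉.wt j = 10).card)
    (hP43 : (Finset.univ.filter fun j => 𝔉.wt j = 0).card = 1) :
    (finrank ℂ (SF Γ 2) : ℚ) = 1 + (Nat.card (X Γ) : ℚ) / 12
      - (Nat.card {x : X Γ // Sm • x = x} : ℚ) / 4
      - (Nat.card {x : X Γ // (Sm * Tm) • x = x} : ℚ) / 3
      - (Nat.card (MulAction.orbitRel.Quotient (Subgroup.zpowers Tm) (X Γ)) : ℚ) / 2 := by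
  rw [hP42]
  exact cnt_ten 𝔉.wt hP20 hP41 _ _ _ _ hP21 hP22.1 hP22.2.1 hP22.2.2 hP3 hP43

/-- P5 in the shape of the skeleton (`Skel.finrank_SF_two`), with `exists_fundSystem` and the
statements P2-P4 as explicit hypotheses. -/
theorem finrank_SF_two_of (hfs : Nonempty (FundSystem Γ))
    (hP20 : ∀ (𝔉 : FundSystem Γ) (j : 𝔉.J), 0 ≤ 𝔉.wt j ∧ Even (𝔉.wt j))
    (hP21 : ∀ 𝔉 : FundSystem Γ, 2 * (Finset.univ.filter fun j => 𝔉.wt j % 4 = 0).card =
      Nat.card (X Γ) + Nat.card {x : X Γ // Sm • x = x})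
    (hP22 : ∀ 𝔉 : FundSystem Γ, 3 * (Finset.univ.filter fun j => 𝔉.wt j % 6 = 0).card =
        Nat.card (X Γ) + 2 * Nat.card {x : X Γ // (Sm * Tm) • x = x} ∧
      3 * (Finset.univ.filter fun j => 𝔉.wt j % 6 = 2).card
        + Nat.card {x : X Γ // (Sm * Tm) • x = x} = Nat.card (X Γ) ∧
      3 * (Finset.univ.filter fun j => 𝔉.wt j % 6 = 4).card
        + Nat.card {x : X Γ // (Sm * Tm) • x = x} = Nat.card (X Γ))
    (hP3 : ∀ 𝔉 : FundSystem Γ, ∑ j, 𝔉.wt j
        + 6 * Nat.card (MulAction.orbitRel.Quotient (Subgroup.zpowers Tm) (X Γ)) =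
      6 * Nat.card (X Γ))
    (hP41 : ∀ (𝔉 : FundSystem Γ) (j : 𝔉.J), 𝔉.wt j ≤ 10)
    (hP42 : ∀ 𝔉 : FundSystem Γ,
      finrank ℂ (SF Γ 2) = (Finset.univ.filter fun j => 𝔉.wt j = 10).card)
    (hP43 : ∀ 𝔉 : FundSystem Γ, (Finset.univ.filter fun j => 𝔉.wt j = 0).card = 1) :
    (finrank ℂ (SF Γ 2) : ℚ) = 1 + (Nat.card (X Γ) : ℚ) / 12
      - (Nat.card {x : X Γ // Sm • x = x} : ℚ) / 4
      - (Nat.card {x : X Γ // (Sm * Tm) • x = x} : ℚ) / 3
      - (Nat.card (MulAction.orbitRel.Quotient (Subgroup.zpowers Tm) (X Γ)) : ℚ) / 2 := by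
  obtain ⟨𝔉⟩ := hfs
  exact finrank_SF_two_of_fundSystem 𝔉 (hP20 𝔉) (hP21 𝔉) (hP22 𝔉) (hP3 𝔉) (hP41 𝔉) (hP42 𝔉)
    (hP43 𝔉)

/-- ASSEMBLY: the statement of S20 from the abstract dimension formula for `Γ₀(N)`, the
identification `CuspForm ≃ SF` and the four combinatorial leaves. -/
theorem S20_assembled_of (N : ℕ) [NeZero N]
    (e : CuspForm (CongruenceSubgroup.Gamma0 N) 2 ≃ₗ[ℂ] SF (Gamma0 N) 2)
    (hdim : (finrank ℂ (SF (Gamma0 N) 2) : ℚ) = 1 + (Nat.card (X (Gamma0 N)) : ℚ) / 12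
      - (Nat.card {x : X (Gamma0 N) // Sm • x = x} : ℚ) / 4
      - (Nat.card {x : X (Gamma0 N) // (Sm * Tm) • x = x} : ℚ) / 3
      - (Nat.card (MulAction.orbitRel.Quotient (Subgroup.zpowers Tm) (X (Gamma0 N))) : ℚ) / 2)
    (hX : Nat.card (X (Gamma0 N)) = ModularCurve.dedekindPsi N)
    (hS : Nat.card {x : X (Gamma0 N) // Sm • x = x} = ModularCurve.nuTwo N)
    (hST : Nat.card {x : X (Gamma0 N) // (Sm * Tm) • x = x} = ModularCurve.nuThree N)
    (hT : Nat.card (MulAction.orbitRel.Quotient (Subgroup.zpowers Tm) (X (Gamma0 N))) =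
      ModularCurve.cuspCount N) :
    (Module.finrank ℂ (CuspForm (CongruenceSubgroup.Gamma0 N) 2) : ℚ)
      = ModularCurve.genusFormula N := by
  rw [e.finrank_eq, hdim, hX, hS, hST, hT]
  rfl

end Fermat.Agent.S20.P5helper398
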