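import Fermat.Agent.S20.Defs
import Fermat.Agent.S20.P5_helper398
import Fermat.Agent.S20.H872.Index
import Fermat.Agent.S20.CuspCount360

/-!
# S20, final glue for the primary chain (helper398, backup of package E)

`S20_of_homBasis`: the frozen statement S20 from a homogeneous basis together with the
conclusions of the packages C12 (`weight_even`, `count_mod_*`), C5 (`sum_weights`),
D (`finrank_cusp`) and G (Bridge), all taken as explicit hypotheses in the exact shapes of the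
skeleton.  The combinatorial leaves are discharged by the landed files.
-/

set_option autoImplicit false

noncomputable section

namespace Fermat.Agent.S20.GlueE398

open Fermat.Agent.S20
open UpperHalfPlane ModularForm CongruenceSubgroup MatrixGroups Module

/-- dimension of the level one cusp forms of weight `w`. -/
def dS (w : ℤ) : ℕ := Module.finrank ℂ (CuspForm 𝒮ℒ w)

lemma dS_of_lt {w : ℤ} (h : w < 12) : dS w = 0 :=
  Module.finrank_eq_zero_of_rank_eq_zero (CuspForm.rank_eq_zero_of_weight_lt_twelve h)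

lemma dS_twelve : dS 12 = 1 :=
  Module.finrank_eq_of_rank_eq (n := 1) (by simpa using CuspForm.rank_eq_one_of_weight_eq_twelve)

section Basis

variable {N : ℕ} [NeZero N] {ι : Type} [Fintype ι] {k : ι → ℤ} {F : ι → ℍ → ℂ}

/-- constants are level one forms of weight `0`. -/
lemma isMF_top_const
    (htop : ∀ (w : ℤ) (f : ℍ → ℂ), IsMF ⊤ w f ↔ ∃ g : ModularForm 𝒮ℒ w, ⇑g = f) (c : ℂ) :
    IsMF ⊤ 0 (fun _ : ℍ => c) :=
  (htop 0 _).2 ⟨ModularForm.const c, by ext z; simp⟩

lemma isMF_top_zero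
    (htop : ∀ (w : ℤ) (f : ℍ → ℂ), IsMF ⊤ w f ↔ ∃ g : ModularForm 𝒮ℒ w, ⇑g = f) (w : ℤ) :
    IsMF ⊤ w (0 : ℍ → ℂ) :=
  (htop w _).2 ⟨0, by ext z; simp⟩

lemma isMF_top_neg
    (htop : ∀ (w : ℤ) (f : ℍ → ℂ), IsMF ⊤ w f ↔ ∃ g : ModularForm 𝒮ℒ w, ⇑g = f) {w : ℤ}
    (hw : w < 0) {f : ℍ → ℂ} (hf : IsMF ⊤ w f) : f = 0 := by
  obtain ⟨g, rfl⟩ := (htop w f).1 hf
  exact ModularFormClass.levelOne_neg_weight_eq_zero hw g

omit [NeZero N] in
/-- the generators are nonzero. -/
lemma gen_ne_zero (hB : IsHomBasis N k F)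
    (htop : ∀ (w : ℤ) (f : ℍ → ℂ), IsMF ⊤ w f ↔ ∃ g : ModularForm 𝒮ℒ w, ⇑g = f) (j : ι) :
    F j ≠ 0 := by
  classical
  intro h0
  have h := hB.indep (k j) (fun i => if i = j then (fun _ => (1 : ℂ)) else 0) (fun i => by
      by_cases hi : i = j
      · subst hi
        simp only [if_true, sub_self]
        exact isMF_top_const htop 1
      · simp only [hi, if_false]
        exact isMF_top_zero htop _) (by
      rw [Finset.sum_eq_single j]
      · simp [h0]
      · intro i _ hi; simp [hi]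
      · intro hj; exact absurd (Finset.mem_univ j) hj) j
  simp only [if_true] at h
  have := congrFun h UpperHalfPlane.I
  simp at this

omit [NeZero N] in
lemma weight_nonneg (hB : IsHomBasis N k F)
    (htop : ∀ (w : ℤ) (f : ℍ → ℂ), IsMF ⊤ w f ↔ ∃ g : ModularForm 𝒮ℒ w, ⇑g = f)
    (hMneg : ∀ {w : ℤ}, w < 0 → ∀ {f : ℍ → ℂ}, IsMF (Gamma0 N) w f → f = 0) (j : ι) :
    0 ≤ k j := by
  by_contra hneg
  exact gen_ne_zero hB htop j (hMneg (not_le.mp hneg) (hB.mem j))

omit [NeZero N] in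
lemma weight_le_ten (heven : ∀ j, Even (k j))
    (hD : ∀ w : ℤ, Module.finrank ℂ (CFsub (Gamma0 N) w)
      = ∑ j, Module.finrank ℂ (CuspForm 𝒮ℒ (w + k j)))
    (hCnonpos : ∀ {w : ℤ}, w ≤ 0 → ∀ {f : ℍ → ℂ}, IsCF (Gamma0 N) w f → f = 0) (j : ι) :
    k j ≤ 10 := by
  by_contra hgt
  have h12 : 12 ≤ k j := by
    obtain ⟨r, hr⟩ := heven j
    omega
  have hbot : CFsub (Gamma0 N) (12 - k j) = ⊥ := by
    rw [eq_bot_iff]
    intro f hf
    rw [Submodule.mem_bot]
    exact hCnonpos (by omega) hf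
  have h1 := hD (12 - k j)
  rw [hbot, finrank_bot] at h1
  have h2 : ∑ i, dS (12 - k j + k i) = 0 := h1.symm
  have h3 : dS (12 - k j + k j) = 0 :=
    (Finset.sum_eq_zero_iff.mp h2) j (Finset.mem_univ j)
  rw [show 12 - k j + k j = 12 by ring, dS_twelve] at h3
  exact one_ne_zero h3

lemma card_weight_zero (hB : IsHomBasis N k F)
    (htop : ∀ (w : ℤ) (f : ℍ → ℂ), IsMF ⊤ w f ↔ ∃ g : ModularForm 𝒮ℒ w, ⇑g = f)
    (hM0 : ∀ f : ℍ → ℂ, IsMF (Gamma0 N) 0 f ↔ ∃ c : ℂ, f = fun _ => c)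
    (hMneg : ∀ {w : ℤ}, w < 0 → ∀ {f : ℍ → ℂ}, IsMF (Gamma0 N) w f → f = 0) :
    (Finset.univ.filter fun j => k j = 0).card = 1 := by
  classical
  have hnn := weight_nonneg hB htop hMneg
  -- existence
  have hex : ∃ j, k j = 0 := by
    by_contra hno'
    have hno : ∀ j, k j ≠ 0 := fun j hj => hno' ⟨j, hj⟩
    obtain ⟨a, ha, hsum⟩ := hB.span 0 (fun _ => 1) ((hM0 _).2 ⟨1, rfl⟩)
    have ha0 : ∀ j, a j = 0 := fun j =>
      isMF_top_neg htop (by have := hnn j; have := hno j; omega) (ha j)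
    have : (fun _ : ℍ => (1 : ℂ)) = 0 := by
      rw [hsum]
      exact Finset.sum_eq_zero fun j _ => by rw [ha0 j, zero_mul]
    have := congrFun this UpperHalfPlane.I
    simp at this
  obtain ⟨j₀, hj₀⟩ := hex
  rw [Finset.card_eq_one]
  refine ⟨j₀, ?_⟩
  ext j
  simp only [Finset.mem_filter, Finset.mem_univ, true_and, Finset.mem_singleton]
  refine ⟨fun hj => ?_, fun hj => hj ▸ hj₀⟩
  by_contra hne
  -- both `F j` and `F j₀` are constants
  have hFj : IsMF (Gamma0 N) 0 (F j) := hj ▸ hB.mem j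
  have hFj₀ : IsMF (Gamma0 N) 0 (F j₀) := hj₀ ▸ hB.mem j₀
  obtain ⟨c, hc⟩ := (hM0 _).1 hFj
  obtain ⟨c₀, hc₀⟩ := (hM0 _).1 hFj₀
  have h := hB.indep 0
    (fun i => if i = j then (fun _ => c₀) else if i = j₀ then (fun _ => -c) else 0)
    (fun i => by
      by_cases hi : i = j
      · subst hi
        simp only [if_true, hj, sub_zero]
        exact isMF_top_const htop c₀
      · by_cases hi₀ : i = j₀
        · subst hi₀
          simp only [hi, if_false, if_true, hj₀, sub_zero]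
          exact isMF_top_const htop (-c)
        · simp only [hi, hi₀, if_false]
          exact isMF_top_zero htop _)
    (by
      rw [Finset.sum_eq_add_of_mem j j₀ (Finset.mem_univ _) (Finset.mem_univ _) hne]
      · simp only [if_true, hne, Ne.symm hne, if_false]
        rw [hc, hc₀]
        ext z
        simp only [Pi.add_apply, Pi.mul_apply, Pi.zero_apply]
        ring
      · intro i _ hi
        simp [hi.1, hi.2]) j
  simp only [if_true] at h
  have hc₀0 : c₀ = 0 := congrFun h UpperHalfPlane.I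
  apply gen_ne_zero hB htop j₀
  rw [hc₀, hc₀0]
  rfl

omit [NeZero N] in
/-- The dimension of `S₂` is the number of generators of weight `10`. -/
lemma finrank_CFsub_two (h10 : ∀ j, k j ≤ 10)
    (hD : ∀ w : ℤ, Module.finrank ℂ (CFsub (Gamma0 N) w)
      = ∑ j, Module.finrank ℂ (CuspForm 𝒮ℒ (w + k j))) :
    Module.finrank ℂ (CFsub (Gamma0 N) 2) = (Finset.univ.filter fun j => k j = 10).card := by
  classical
  rw [hD 2, Finset.card_filter]
  refine Finset.sum_congr rfl fun j _ => ?_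
  by_cases hj : k j = 10
  · rw [if_pos hj, hj]
    exact dS_twelve
  · rw [if_neg hj]
    have : k j < 10 := lt_of_le_of_ne (h10 j) hj
    exact dS_of_lt (by omega)

/-- **Final glue**: S20 from a homogeneous basis and the package statements. -/
theorem S20_of_homBasis (N : ℕ) [NeZero N] {ι : Type} [Fintype ι] {k : ι → ℤ}
    {F : ι → ℍ → ℂ} (hB : IsHomBasis N k F)
    (heven : ∀ j, Even (k j))
    (h4 : 2 * (Finset.univ.filter fun j : ι => k j % 4 = 0).card
      = (Gamma0 N).index + fixS N)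
    (h60 : 3 * (Finset.univ.filter fun j : ι => k j % 6 = 0).card
      = (Gamma0 N).index + 2 * fixU N)
    (h62 : 3 * (Finset.univ.filter fun j : ι => k j % 6 = 2).card + fixU N
      = (Gamma0 N).index)
    (h64 : 3 * (Finset.univ.filter fun j : ι => k j % 6 = 4).card + fixU N
      = (Gamma0 N).index)
    (hsum : ∑ j, k j = 6 * (((Gamma0 N).index : ℤ) - numCusps N))
    (hD : ∀ w : ℤ, Module.finrank ℂ (CFsub (Gamma0 N) w)
      = ∑ j, Module.finrank ℂ (CuspForm 𝒮ℒ (w + k j)))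
    (hbridge : Module.finrank ℂ (CuspForm (Gamma0 N) 2)
      = Module.finrank ℂ (CFsub (Gamma0 N) 2))
    (htop : ∀ (w : ℤ) (f : ℍ → ℂ), IsMF ⊤ w f ↔ ∃ g : ModularForm 𝒮ℒ w, ⇑g = f)
    (hM0 : ∀ f : ℍ → ℂ, IsMF (Gamma0 N) 0 f ↔ ∃ c : ℂ, f = fun _ => c)
    (hMneg : ∀ {w : ℤ}, w < 0 → ∀ {f : ℍ → ℂ}, IsMF (Gamma0 N) w f → f = 0)
    (hCnonpos : ∀ {w : ℤ}, w ≤ 0 → ∀ {f : ℍ → ℂ}, IsCF (Gamma0 N) w f → f = 0) :
    (Module.finrank ℂ (CuspForm (CongruenceSubgroup.Gamma0 N) 2) : ℚ)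
      = ModularCurve.genusFormula N := by
  have h0 := weight_nonneg hB htop hMneg
  have h10 := weight_le_ten heven hD hCnonpos
  have h43 := card_weight_zero hB htop hM0 hMneg
  have hcnt := P5helper398.cnt_ten k (fun j => ⟨h0 j, heven j⟩) h10
    (Gamma0 N).index (fixS N) (fixU N) (numCusps N) h4 h60 h62 h64
    (by rw [hsum]; ring) h43
  rw [hbridge, finrank_CFsub_two h10 hD, hcnt,
    H872.index_Gamma0 N (NeZero.ne N)]
  have hS : fixS N = ModularCurve.nuTwo N := H872.card_fixed_S N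
  have hU : fixU N = ModularCurve.nuThree N := H872.card_fixed_ST N
  have hT : numCusps N = ModularCurve.cuspCount N := CuspCount360.card_orbits_T N
  rw [hS, hU, hT]
  rfl

end Basis

end Fermat.Agent.S20.GlueE398
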