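import Fermat.Agent.S20.P4_helper479
import Fermat.Agent.S20.C0_helper516
import Fermat.Agent.S20.L0_helper980
import Fermat.Agent.S20.P2_helper280

/-!
# S20, P4 (duality by Cramer) — exact Skeleton signatures

The three statements P4.1–P4.3 of the frame skeleton, with all hypotheses of
`Fermat.Agent.S20.P4h479` discharged from the landed C0/L0/P2 modules.
-/

set_option autoImplicit false

namespace Fermat.Agent.S20.P4x479

open Fermat.Agent.S20
open UpperHalfPlane ModularForm CongruenceSubgroup MatrixGroups Filter Module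

variable {Γ : Subgroup SL(2, ℤ)} [Γ.FiniteIndex]

/-- every weight of a fundamental system is even (`-1 ∈ Γ`). -/
theorem wt_even (hneg : -1 ∈ Γ) (𝔉 : FundSystem Γ) (j : 𝔉.J) : Even (𝔉.wt j) :=
  (P2h280.FundSystem.wt_even_nonneg (fun hk => C0h516.MF_eq_bot_of_neg Γ hk) hneg 𝔉 j).2

/-- P4.1 -/
theorem FundSystem.wt_le_ten (hneg : -1 ∈ Γ) (𝔉 : FundSystem Γ) (j : 𝔉.J) : 𝔉.wt j ≤ 10 :=
  P4h479.wt_le_ten 𝔉 (fun _ hk => C0h516.SF_eq_bot_of_nonpos Γ hk) (wt_even hneg 𝔉) j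

/-- P4.2 -/
theorem FundSystem.finrank_SF_two (hneg : -1 ∈ Γ) (𝔉 : FundSystem Γ) :
    finrank ℂ (SF Γ 2) = (Finset.univ.filter fun j => 𝔉.wt j = 10).card :=
  P4h479.finrank_SF_two 𝔉
    (fun _ _ hf => C980.exists_eq_discriminant_mul_top hf)
    (fun _ hk => C0h516.MF_eq_bot_of_neg ⊤ hk)
    (fun _ hf => C0h516.MF_zero_eq_const ⊤ hf)
    (fun _ hk => C0h516.SF_eq_bot_of_nonpos Γ hk) (wt_even hneg 𝔉)

/-- P4.3 -/
theorem FundSystem.card_wt_zero (𝔉 : FundSystem Γ) :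
    (Finset.univ.filter fun j => 𝔉.wt j = 0).card = 1 :=
  P4h479.card_wt_zero 𝔉
    (fun _ hk => C0h516.MF_eq_bot_of_neg Γ hk)
    (fun _ hf => C0h516.MF_zero_eq_const Γ hf)
    (fun _ hk => C0h516.MF_eq_bot_of_neg ⊤ hk)

end Fermat.Agent.S20.P4x479
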