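import Fermat.Agent.S20.Core
import Fermat.Agent.S20.C0_helper516
import Fermat.Agent.S20.C1_helper980
import Fermat.Agent.S20.P1_helper225
import Fermat.Agent.S20.P2_helper280
import Fermat.Agent.S20.P3_helper361
import Fermat.Agent.S20.P5Asm_helper398
import Fermat.Agent.S20.P4Exact_helper479

/-!
# S20 — frame route: the frozen statement from the existence of a fundamental system

`finrank_cuspForm_of_fundSystem`: for `N ≠ 0`, any `FundSystem (Gamma0 N)` gives
`dim S₂(Γ₀(N)) = genusFormula N`.  All of P1–P5 are discharged from landed modules; the only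
remaining input of the frame route is `Nonempty (FundSystem (Gamma0 N))` (Skeleton C2–C4).
-/

set_option autoImplicit false

namespace Fermat.Agent.S20.Glue479

open Fermat.Agent.S20
open UpperHalfPlane ModularForm CongruenceSubgroup MatrixGroups Filter Module

theorem neg_one_mem_Gamma0 (N : ℕ) : (-1 : SL(2, ℤ)) ∈ Gamma0 N := by
  rw [Gamma0_mem]; simp

/-- The frozen S20 statement, from a fundamental system for `Γ₀(N)`. -/
theorem finrank_cuspForm_of_fundSystem (N : ℕ) [NeZero N] (𝔉 : FundSystem (Gamma0 N)) :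
    (Module.finrank ℂ (CuspForm (CongruenceSubgroup.Gamma0 N) 2) : ℚ)
      = ModularCurve.genusFormula N := by
  have hneg := neg_one_mem_Gamma0 N
  refine P5helper398.S20_of_core N (C0h516.SFequiv (Gamma0 N) 2) 𝔉 ?_ ?_ ?_ ?_ ?_ ?_ ?_
  · -- P2.0
    exact fun j => P2h280.FundSystem.wt_even_nonneg (fun hk => C0h516.MF_eq_bot_of_neg _ hk) hneg 𝔉 j
  · -- P2.1
    exact P2h280.FundSystem.card_wt_mod_four (fun hk => C0h516.MF_eq_bot_of_neg _ hk)
      (fun hf γ τ x => C0h516.ev_smul hf γ τ x)
      (fun σ hσ ε hε => P1h225.finrank_invariants_of_sq_eq_one σ hσ ε hε) hneg 𝔉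
  · -- P2.2
    exact P2h280.FundSystem.card_wt_mod_six (fun hk => C0h516.MF_eq_bot_of_neg _ hk)
      (fun hf γ τ x => C0h516.ev_smul hf γ τ x)
      (fun σ hσ ε hε => P1h225.finrank_invariants_of_cube_eq_one σ hσ ε hε) hneg 𝔉
  · -- P3
    exact P3helper361.sum_wt_of (fun hf γ τ x => C0h516.ev_smul hf γ τ x)
      (P1h225.det_Theta _) (P1h225.Theta_add _) (P1h225.Theta_zero _)
      (fun hf h0 hinf => C980.weight_eq_zero_of_nonvanishing hf h0 hinf) 𝔉
  · -- P4.1
    exact P4x479.FundSystem.wt_le_ten hneg 𝔉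
  · -- P4.2
    exact P4x479.FundSystem.finrank_SF_two hneg 𝔉
  · -- P4.3
    exact P4x479.FundSystem.card_wt_zero 𝔉

end Fermat.Agent.S20.Glue479
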