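/-
S20 / T5 (helper703): level-one zero sets of `E₄`, `E₆` and of the "generic" weight-12 form
`E₄(z₀)^3 Δ - Δ(z₀) E₄^3`, together with simplicity of these zeros.

Everything here is proved from Mathlib alone, *relative to* the two inputs
* `JInjective`   (T3: `j(τ) = j(τ')` implies `τ' ∈ SL(2,ℤ) τ`), and
* `RamanujanE₄`, `RamanujanE₆`, `RamanujanDisc` (T4: Ramanujan's identities),
which are taken as explicit hypotheses, so that this file has no gaps.
-/
import Mathlib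

set_option autoImplicit false

open UpperHalfPlane ModularForm MatrixGroups CongruenceSubgroup EisensteinSeries
open scoped Manifold ModularForm

noncomputable section

namespace Fermat.Agent.S20.T5h703

/-- `ρ = e^{2πi/3}`, the fixed point of `S * T`. (Definitionally Mathlib's `UpperHalfPlane.ρ`.) -/
def rho : ℍ := ⟨⟨-1 / 2, Real.sqrt 3 / 2⟩, by positivity⟩

lemma rho_eq : rho = UpperHalfPlane.ρ := rfl

/-- Input T3: `j` is injective modulo `SL(2,ℤ)`. -/
def JInjective : Prop :=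
  ∀ τ τ' : ℍ, E₄ τ ^ 3 * discriminant τ' = E₄ τ' ^ 3 * discriminant τ →
    ∃ γ : SL(2, ℤ), γ • τ = τ'

/-- Input T4a: Ramanujan's identity for `E₄`. -/
def RamanujanE₄ : Prop :=
  Derivative.normalizedDerivOfComplex (⇑E₄) = (3 : ℂ)⁻¹ • (E2 * ⇑E₄ - ⇑E₆)

/-- Input T4b: Ramanujan's identity for `E₆`. -/
def RamanujanE₆ : Prop :=
  Derivative.normalizedDerivOfComplex (⇑E₆) = (2 : ℂ)⁻¹ • (E2 * ⇑E₆ - ⇑E₄ * ⇑E₄)

/-- Input T4c: Ramanujan's identity for `Δ`. -/
def RamanujanDisc : Prop :=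
  Derivative.normalizedDerivOfComplex discriminant = E2 * discriminant

/-! ### The transformation law at a point -/

/-- The modular transformation law, evaluated at a point. -/
lemma levelOne_smul_apply {k : ℤ} (f : ModularForm 𝒮ℒ k) (γ : SL(2, ℤ)) (z : ℍ) :
    f (γ • z) = (denom γ z) ^ k * f z := by
  have : SlashInvariantFormClass (ModularForm 𝒮ℒ k) Γ(1) k := Gamma_one_coe_eq_SL ▸ inferInstance
  exact SlashInvariantForm.slash_action_eqn_SL'' f (mem_Gamma_one γ) z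

lemma discriminant_smul_apply (γ : SL(2, ℤ)) (z : ℍ) :
    discriminant (γ • z) = (denom γ z) ^ (12 : ℤ) * discriminant z :=
  levelOne_smul_apply (CuspForm.discriminant : ModularForm 𝒮ℒ 12) γ z

lemma levelOne_smul_eq_zero_iff {k : ℤ} (f : ModularForm 𝒮ℒ k) (γ : SL(2, ℤ)) (z : ℍ) :
    f (γ • z) = 0 ↔ f z = 0 := by
  rw [levelOne_smul_apply, mul_eq_zero]
  constructor
  · rintro (h | h)
    · exact absurd h (zpow_ne_zero _ (denom_ne_zero _ _))
    · exact h
  · exact fun h => Or.inr h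

/-! ### `E₆(i) = 0` and `E₄(ρ) = 0` -/

lemma S_smul_I : ModularGroup.S • (I : ℍ) = I := by
  rw [modular_S_smul]
  ext
  simp

theorem E₆_I : E₆ I = 0 := by
  have h := levelOne_smul_apply E₆ ModularGroup.S I
  rw [S_smul_I, ModularGroup.denom_S] at h
  have h6 : ((I : ℍ) : ℂ) ^ (6 : ℤ) = -1 := by
    rw [UpperHalfPlane.coe_I]
    have : (Complex.I) ^ (6 : ℤ) = Complex.I ^ (6 : ℕ) := by norm_cast
    rw [this, show (6 : ℕ) = 4 + 2 by norm_num, pow_add, Complex.I_pow_four, Complex.I_sq]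
    ring
  rw [h6] at h
  have : (2 : ℂ) * E₆ I = 0 := by linear_combination h
  simpa using this

lemma rho_coe : ((rho : ℍ) : ℂ) = ⟨-1 / 2, Real.sqrt 3 / 2⟩ := rfl

lemma rho_mul_one_add : ((rho : ℍ) : ℂ) * (1 + (rho : ℂ)) = -1 := by
  have h := UpperHalfPlane.ρ_sq
  rw [← rho_eq] at h
  linear_combination h

lemma ST_smul_rho : (ModularGroup.S * ModularGroup.T) • rho = rho := by
  rw [mul_smul, modular_T_smul, modular_S_smul]
  ext
  simp only [UpperHalfPlane.coe_vadd]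
  have h := rho_mul_one_add
  rw [inv_eq_iff_eq_inv]
  exact eq_inv_of_mul_eq_one_left (by push_cast; linear_combination -h)

lemma denom_ST (z : ℍ) :
    denom (ModularGroup.S * ModularGroup.T : SL(2, ℤ)) z = (z : ℂ) + 1 := by
  rw [ModularGroup.denom_apply]
  simp [Matrix.SpecialLinearGroup.coe_mul, ModularGroup.coe_S, ModularGroup.coe_T]

lemma rho_add_one_pow_four : (((rho : ℍ) : ℂ) + 1) ^ (4 : ℤ) = -1 - (rho : ℂ) := by
  have h := rho_mul_one_add
  have h4 : (((rho : ℍ) : ℂ) + 1) ^ (4 : ℤ) = (((rho : ℍ) : ℂ) + 1) ^ (4 : ℕ) := by norm_cast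
  rw [h4]
  linear_combination ((rho : ℂ) ^ 2 + 3 * (rho : ℂ) + 2) * h

lemma two_add_rho_ne : (2 : ℂ) + (rho : ℂ) ≠ 0 := by
  intro h
  have := congrArg Complex.re h
  rw [rho_coe] at this
  simp at this
  norm_num at this

theorem E₄_rho : E₄ rho = 0 := by
  have h := levelOne_smul_apply E₄ (ModularGroup.S * ModularGroup.T) rho
  rw [ST_smul_rho, denom_ST, rho_add_one_pow_four] at h
  have : ((2 : ℂ) + (rho : ℂ)) * E₄ rho = 0 := by linear_combination h
  rcases mul_eq_zero.mp this with h1 | h1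
  · exact absurd h1 two_add_rho_ne
  · exact h1

/-! ### `E₄` and `E₆` have no common zero -/

lemma E₄_ne_zero_of_E₆_eq_zero (z : ℍ) (hz : E₆ z = 0) : E₄ z ≠ 0 := by
  intro h4
  have h := discriminant_eq_E₄_cube_sub_E₆_sq z
  rw [hz, h4] at h
  exact discriminant_ne_zero z (by rw [h]; norm_num)

lemma E₆_ne_zero_of_E₄_eq_zero (z : ℍ) (hz : E₄ z = 0) : E₆ z ≠ 0 :=
  fun h6 => E₄_ne_zero_of_E₆_eq_zero z h6 hz

/-! ### Zero sets (relative to T3) -/

/-- T5a. -/
theorem E₆_eq_zero_iff (hJ : JInjective) (z : ℍ) :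
    E₆ z = 0 ↔ ∃ γ : SL(2, ℤ), γ • I = z := by
  constructor
  · intro hz
    apply hJ
    rw [discriminant_eq_E₄_cube_sub_E₆_sq z, discriminant_eq_E₄_cube_sub_E₆_sq I, hz, E₆_I]
    ring
  · rintro ⟨γ, rfl⟩
    exact (levelOne_smul_eq_zero_iff E₆ γ I).mpr E₆_I

/-- T5b. -/
theorem E₄_eq_zero_iff (hJ : JInjective) (z : ℍ) :
    E₄ z = 0 ↔ ∃ γ : SL(2, ℤ), γ • rho = z := by
  constructor
  · intro hz
    apply hJ
    rw [hz, E₄_rho]
    ring
  · rintro ⟨γ, rfl⟩
    exact (levelOne_smul_eq_zero_iff E₄ γ rho).mpr E₄_rho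

/-- T5d, zero set of the generic form. -/
theorem generic_zero_iff (hJ : JInjective) (z₀ z : ℍ) :
    E₄ z₀ ^ 3 * discriminant z - discriminant z₀ * E₄ z ^ 3 = 0 ↔
      ∃ γ : SL(2, ℤ), γ • z₀ = z := by
  constructor
  · intro h
    apply hJ
    linear_combination h
  · rintro ⟨γ, rfl⟩
    rw [discriminant_smul_apply, levelOne_smul_apply E₄ γ z₀]
    have h12 : (denom γ z₀) ^ (12 : ℤ) = ((denom γ z₀) ^ (4 : ℤ)) ^ 3 := by
      rw [← zpow_natCast, ← zpow_mul]
      norm_num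
    rw [h12]
    ring

/-! ### Simple zeros (relative to T4) -/

lemma deriv_eq_two_pi_I_mul (F : ℍ → ℂ) (z : ℍ) :
    deriv (F ∘ ofComplex) z =
      (2 * Real.pi * Complex.I) * Derivative.normalizedDerivOfComplex F z := by
  have h : (2 * (Real.pi : ℂ) * Complex.I) ≠ 0 := by
    simp [Real.pi_ne_zero]
  rw [Derivative.normalizedDerivOfComplex, ← mul_assoc, mul_inv_cancel₀ h, one_mul]

lemma two_pi_I_ne_zero : (2 * (Real.pi : ℂ) * Complex.I) ≠ 0 := by
  simp [Real.pi_ne_zero]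

/-- T5c for `E₆`. -/
theorem deriv_E₆_ne_zero (hR : RamanujanE₆) (z : ℍ) (hz : E₆ z = 0) :
    deriv (⇑E₆ ∘ ofComplex) z ≠ 0 := by
  rw [deriv_eq_two_pi_I_mul, hR]
  refine mul_ne_zero two_pi_I_ne_zero ?_
  have h4 := E₄_ne_zero_of_E₆_eq_zero z hz
  simp only [Pi.smul_apply, Pi.sub_apply, Pi.mul_apply, hz, mul_zero, zero_sub, smul_eq_mul]
  exact mul_ne_zero (by norm_num) (neg_ne_zero.mpr (mul_ne_zero h4 h4))

/-- T5c for `E₄`. -/
theorem deriv_E₄_ne_zero (hR : RamanujanE₄) (z : ℍ) (hz : E₄ z = 0) :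
    deriv (⇑E₄ ∘ ofComplex) z ≠ 0 := by
  rw [deriv_eq_two_pi_I_mul, hR]
  refine mul_ne_zero two_pi_I_ne_zero ?_
  have h6 := E₆_ne_zero_of_E₄_eq_zero z hz
  simp only [Pi.smul_apply, Pi.sub_apply, Pi.mul_apply, hz, mul_zero, zero_sub, smul_eq_mul]
  exact mul_ne_zero (by norm_num) (neg_ne_zero.mpr h6)

lemma hasDerivAt_comp_ofComplex {k : ℤ} (f : ModularForm 𝒮ℒ k) (z : ℍ) :
    HasDerivAt (⇑f ∘ ofComplex) (deriv (⇑f ∘ ofComplex) z) z :=
  (UpperHalfPlane.mdifferentiableAt_iff.mp (f.holo' z)).hasDerivAt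

lemma hasDerivAt_discriminant_comp_ofComplex (z : ℍ) :
    HasDerivAt (discriminant ∘ ofComplex) (deriv (discriminant ∘ ofComplex) z) z :=
  (UpperHalfPlane.mdifferentiableAt_iff.mp (CuspForm.discriminant.holo' z)).hasDerivAt

/-- T5d, simplicity of the zeros of the generic form. -/
theorem generic_deriv_ne_zero (hR4 : RamanujanE₄) (hRΔ : RamanujanDisc)
    (z₀ z : ℍ) (h4 : E₄ z₀ ≠ 0) (h6 : E₆ z₀ ≠ 0)
    (hz : E₄ z₀ ^ 3 * discriminant z - discriminant z₀ * E₄ z ^ 3 = 0) :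
    deriv ((fun w : ℍ => E₄ z₀ ^ 3 * discriminant w - discriminant z₀ * E₄ w ^ 3) ∘ ofComplex) z
      ≠ 0 := by
  have hΔ := hasDerivAt_discriminant_comp_ofComplex z
  have hE := hasDerivAt_comp_ofComplex E₄ z
  have hP : HasDerivAt
      ((fun w : ℍ => E₄ z₀ ^ 3 * discriminant w - discriminant z₀ * E₄ w ^ 3) ∘ ofComplex)
      (E₄ z₀ ^ 3 * deriv (discriminant ∘ ofComplex) z -
        discriminant z₀ * (3 * (E₄ z) ^ 2 * deriv (⇑E₄ ∘ ofComplex) z)) z := by
    have := (hΔ.const_mul (E₄ z₀ ^ 3)).sub ((hE.pow 3).const_mul (discriminant z₀))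
    refine (this.congr_deriv ?_).congr_of_eventuallyEq (Filter.Eventually.of_forall fun y => ?_)
    · simp
    · simp
  rw [hP.deriv, deriv_eq_two_pi_I_mul, deriv_eq_two_pi_I_mul, hR4, hRΔ]
  simp only [Pi.smul_apply, Pi.sub_apply, Pi.mul_apply, smul_eq_mul]
  have hΔz := discriminant_ne_zero z
  have hΔz₀ := discriminant_ne_zero z₀
  have hE4z : E₄ z ≠ 0 := by
    intro h
    rw [h] at hz
    have : E₄ z₀ ^ 3 * discriminant z = 0 := by linear_combination hz
    rcases mul_eq_zero.mp this with h' | h'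
    · exact h4 (pow_eq_zero_iff (by norm_num) |>.mp h')
    · exact hΔz h'
  have hE6z : E₆ z ≠ 0 := by
    intro h
    have e1 := discriminant_eq_E₄_cube_sub_E₆_sq z
    have e2 := discriminant_eq_E₄_cube_sub_E₆_sq z₀
    rw [h] at e1
    rw [e1, e2] at hz
    have : E₆ z₀ ^ 2 * E₄ z ^ 3 = 0 := by linear_combination 1728 * hz
    rcases mul_eq_zero.mp this with h' | h'
    · exact h6 (pow_eq_zero_iff (by norm_num) |>.mp h')
    · exact hE4z (pow_eq_zero_iff (by norm_num) |>.mp h')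
  have key : E₄ z₀ ^ 3 * (2 * ↑Real.pi * Complex.I * (E2 z * discriminant z)) -
      discriminant z₀ * (3 * E₄ z ^ 2 * (2 * ↑Real.pi * Complex.I * (3⁻¹ * (E2 z * E₄ z - E₆ z))))
      = (2 * ↑Real.pi * Complex.I) * (discriminant z₀ * E₄ z ^ 2 * E₆ z) := by
    linear_combination (2 * ↑Real.pi * Complex.I * E2 z) * hz
  rw [key]
  exact mul_ne_zero two_pi_I_ne_zero (mul_ne_zero (mul_ne_zero hΔz₀ (pow_ne_zero _ hE4z)) hE6z)

end Fermat.Agent.S20.T5h703
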