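/-
S20 / T5 + L1 (helper703): UNCONDITIONAL level-one zero sets and the three `LevelOneDivisor`
instances of the core skeleton (L1.1, L1.2, L1.3).

Inputs: `JInj.lean` (j injective, helper544 et al.), `L1/Exports.lean` (Ramanujan + simple zeros,
helper140), `Core.lean` (definitions, helper20), and `T5_helper703.lean` (zero sets relative to
j-injectivity).
-/
import Fermat.Agent.S20.T5_helper703
import Fermat.Agent.S20.JInj
import Fermat.Agent.S20.L1.Exports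
import Fermat.Agent.S20.Core

set_option autoImplicit false

open UpperHalfPlane ModularForm MatrixGroups CongruenceSubgroup EisensteinSeries Filter
open scoped Manifold ModularForm Topology

noncomputable section

namespace Fermat.Agent.S20.T5h703

local notation "Δ" => ModularForm.discriminant

/-- T3, in the packaged form used in `T5_helper703.lean`. -/
theorem jInjective : JInjective := fun τ τ' h => exists_smul_eq_of_j_eq_h544 τ τ' h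

/-- T5a (unconditional): the zeros of `E₆` are exactly the orbit of `i`. -/
theorem E₆_eq_zero_iff_orbit (z : ℍ) : E₆ z = 0 ↔ ∃ γ : SL(2, ℤ), γ • I = z :=
  E₆_eq_zero_iff jInjective z

/-- T5b (unconditional): the zeros of `E₄` are exactly the orbit of `ρ`. -/
theorem E₄_eq_zero_iff_orbit (z : ℍ) : E₄ z = 0 ↔ ∃ γ : SL(2, ℤ), γ • rho = z :=
  E₄_eq_zero_iff jInjective z

/-- T5b with Mathlib's `UpperHalfPlane.ρ`. -/
theorem E₄_eq_zero_iff_orbit' (z : ℍ) : E₄ z = 0 ↔ ∃ γ : SL(2, ℤ), γ • UpperHalfPlane.ρ = z :=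
  E₄_eq_zero_iff jInjective z

/-- T5d (unconditional, Spec form). -/
theorem generic_zero_iff_orbit (z₀ z : ℍ) :
    E₄ z₀ ^ 3 * discriminant z - discriminant z₀ * E₄ z ^ 3 = 0 ↔
      ∃ γ : SL(2, ℤ), γ • z₀ = z :=
  generic_zero_iff jInjective z₀ z

/-- T5d (unconditional, skeleton form). -/
theorem generic_zero_iff_orbit' (z₀ z : ℍ) :
    E₄ z ^ 3 * Δ z₀ - E₄ z₀ ^ 3 * Δ z = 0 ↔ ∃ γ : SL(2, ℤ), γ • z₀ = z := by
  rw [← generic_zero_iff_orbit z₀ z]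
  constructor <;> intro h <;> linear_combination -h

/-! ### Membership in `MF ⊤ k` -/

lemma levelOne_mem_MF {k : ℤ} (f : ModularForm 𝒮ℒ k) : (⇑f : ℍ → ℂ) ∈ MF ⊤ k := by
  refine ⟨f.holo', fun γ _ => L1.levelOne_slash_eq f γ, fun γ => ?_⟩
  rw [L1.levelOne_slash_eq f γ]
  exact L1.levelOne_isBoundedAtImInfty f

lemma E₄_mem_MF : (⇑E₄ : ℍ → ℂ) ∈ MF ⊤ 4 := levelOne_mem_MF E₄

lemma E₆_mem_MF : (⇑E₆ : ℍ → ℂ) ∈ MF ⊤ 6 := levelOne_mem_MF E₆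

lemma discriminant_mem_MF : (Δ : ℍ → ℂ) ∈ MF ⊤ 12 :=
  levelOne_mem_MF (CuspForm.discriminant : ModularForm 𝒮ℒ 12)

lemma E₄_cube_mem_MF : (fun z : ℍ => E₄ z ^ 3) ∈ MF ⊤ 12 := by
  have h := levelOne_mem_MF (ModularForm.mcast (by decide : (3 : ℕ) • (4 : ℤ) = 12) (E₄.pow 3))
  have e : (⇑(ModularForm.mcast (by decide : (3 : ℕ) • (4 : ℤ) = 12) (E₄.pow 3)) : ℍ → ℂ)
      = fun z : ℍ => E₄ z ^ 3 := by
    rw [ModularForm.coe_mcast, ModularForm.coe_pow]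
    rfl
  rwa [e] at h

lemma generic_mem_MF (z₀ : ℍ) : (fun z : ℍ => E₄ z ^ 3 * Δ z₀ - E₄ z₀ ^ 3 * Δ z) ∈ MF ⊤ 12 := by
  have h1 := (MF ⊤ 12).smul_mem (Δ z₀) E₄_cube_mem_MF
  have h2 := (MF ⊤ 12).smul_mem (E₄ z₀ ^ 3) discriminant_mem_MF
  have h3 := (MF ⊤ 12).sub_mem h1 h2
  have e : (Δ z₀ • (fun z : ℍ => E₄ z ^ 3) - E₄ z₀ ^ 3 • (Δ : ℍ → ℂ))
      = fun z : ℍ => E₄ z ^ 3 * Δ z₀ - E₄ z₀ ^ 3 * Δ z := by
    funext z
    simp only [Pi.sub_apply, Pi.smul_apply, smul_eq_mul]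
    ring
  rwa [e] at h3

/-! ### Behaviour at `i∞` -/

lemma not_isZeroAtImInfty_of_tendsto {f : ℍ → ℂ} {c : ℂ} (hc : c ≠ 0)
    (h : Tendsto f atImInfty (𝓝 c)) : ¬ IsZeroAtImInfty f := by
  intro h0
  exact hc (tendsto_nhds_unique h h0)

lemma tendsto_generic (z₀ : ℍ) :
    Tendsto (fun z : ℍ => E₄ z ^ 3 * Δ z₀ - E₄ z₀ ^ 3 * Δ z) atImInfty (𝓝 (Δ z₀)) := by
  have h1 : Tendsto (fun z : ℍ => E₄ z ^ 3 * Δ z₀) atImInfty (𝓝 (1 ^ 3 * Δ z₀)) :=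
    (L1.tendsto_E₄.pow 3).mul_const _
  have h2 : Tendsto (fun z : ℍ => E₄ z₀ ^ 3 * Δ z) atImInfty (𝓝 (E₄ z₀ ^ 3 * 0)) :=
    (discriminant_isZeroAtImInfty : Tendsto Δ atImInfty (𝓝 0)).const_mul _
  have h3 := h1.sub h2
  simpa using h3

/-! ### The three level-one divisors (skeleton L1.1, L1.2, L1.3) -/

/-- L1.1 -/
theorem levelOneDivisor_E₆ : LevelOneDivisor UpperHalfPlane.I 6 ⇑E₆ where
  mem := E₆_mem_MF
  zero_iff := E₆_eq_zero_iff_orbit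
  simple := L1.deriv_E₆_ne_zero
  not_zero_at_infty := not_isZeroAtImInfty_of_tendsto one_ne_zero L1.tendsto_E₆

/-- L1.2 (with `rho` of this file, which is definitionally `UpperHalfPlane.ρ`). -/
theorem levelOneDivisor_E₄ : LevelOneDivisor rho 4 ⇑E₄ where
  mem := E₄_mem_MF
  zero_iff := E₄_eq_zero_iff_orbit
  simple := L1.deriv_E₄_ne_zero
  not_zero_at_infty := not_isZeroAtImInfty_of_tendsto one_ne_zero L1.tendsto_E₄

/-- L1.2 with Mathlib's `UpperHalfPlane.ρ`. -/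
theorem levelOneDivisor_E₄' : LevelOneDivisor UpperHalfPlane.ρ 4 ⇑E₄ := levelOneDivisor_E₄

/-- L1.3 -/
theorem levelOneDivisor_generic (z₀ : ℍ) (h4 : E₄ z₀ ≠ 0) (h6 : E₆ z₀ ≠ 0) :
    LevelOneDivisor z₀ 12 (fun z => E₄ z ^ 3 * Δ z₀ - E₄ z₀ ^ 3 * Δ z) where
  mem := generic_mem_MF z₀
  zero_iff := generic_zero_iff_orbit' z₀
  simple := fun z hz =>
    (L1.deriv_ne_zero_iff_D_ne_zero _ z).mpr (L1.D_jDiff_ne_zero' h4 h6 hz)
  not_zero_at_infty :=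
    not_isZeroAtImInfty_of_tendsto (discriminant_ne_zero z₀) (tendsto_generic z₀)

/-- Every point of `ℍ` carries a level-one divisor (of weight `6`, `4` or `12`): the three cases
`E₆ z₀ = 0`, `E₄ z₀ = 0`, and the generic one, packaged. -/
theorem exists_levelOneDivisor (z₀ : ℍ) :
    ∃ (w : ℤ) (P : ℍ → ℂ), (w = 4 ∨ w = 6 ∨ w = 12) ∧ LevelOneDivisor z₀ w P := by
  by_cases h6 : E₆ z₀ = 0
  · obtain ⟨γ, hγ⟩ := (E₆_eq_zero_iff_orbit z₀).mp h6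
    refine ⟨6, ⇑E₆, Or.inr (Or.inl rfl), ?_⟩
    refine ⟨E₆_mem_MF, fun z => ?_, L1.deriv_E₆_ne_zero,
      not_isZeroAtImInfty_of_tendsto one_ne_zero L1.tendsto_E₆⟩
    rw [E₆_eq_zero_iff_orbit z]
    constructor
    · rintro ⟨g, rfl⟩
      exact ⟨g * γ⁻¹, by rw [← hγ, mul_smul, inv_smul_smul]⟩
    · rintro ⟨g, rfl⟩
      exact ⟨g * γ, by rw [← hγ, mul_smul]⟩
  by_cases h4 : E₄ z₀ = 0
  · obtain ⟨γ, hγ⟩ := (E₄_eq_zero_iff_orbit z₀).mp h4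
    refine ⟨4, ⇑E₄, Or.inl rfl, ?_⟩
    refine ⟨E₄_mem_MF, fun z => ?_, L1.deriv_E₄_ne_zero,
      not_isZeroAtImInfty_of_tendsto one_ne_zero L1.tendsto_E₄⟩
    rw [E₄_eq_zero_iff_orbit z]
    constructor
    · rintro ⟨g, rfl⟩
      exact ⟨g * γ⁻¹, by rw [← hγ, mul_smul, inv_smul_smul]⟩
    · rintro ⟨g, rfl⟩
      exact ⟨g * γ, by rw [← hγ, mul_smul]⟩
  · exact ⟨12, _, Or.inr (Or.inr rfl), levelOneDivisor_generic z₀ h4 h6⟩

end Fermat.Agent.S20.T5h703
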