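import Fermat.Agent.S20.Core
import Fermat.Agent.S20.B_helper980

/-!
# S20 (frame route, captain helper20) — package C1.2–C1.5: jets at the cusps

Exact Skeleton statements `exists_hasJet`, `hasJet_mul`, `ker_jet`, `mem_SF_iff_jet`
(namespace `Fermat.Agent.S20.Jets759`), proved from `Core.lean` and the landed leaf
`B_helper980.lean` (division by `Δ`).
-/

set_option autoImplicit false
set_option linter.unusedSectionVars false

noncomputable section

namespace Fermat.Agent.S20.Jets759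

open Fermat.Agent.S20
open UpperHalfPlane ModularForm CongruenceSubgroup MatrixGroups Filter Module Asymptotics
open scoped Manifold Topology Real

local notation "Δ" => ModularForm.discriminant
local notation "Tm" => ModularGroup.T

/-- The character `j ↦ exp (2πi m j / h)`. -/
def chi (h : ℕ) (m : ℤ) (j : ℕ) : ℂ := Complex.exp (2 * π * Complex.I * m * j / h)

lemma chi_eq_pow (h : ℕ) (m : ℤ) (j : ℕ) : chi h m j = (chi h m 1) ^ j := by
  unfold chi
  rw [← Complex.exp_nat_mul]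
  congr 1
  push_cast
  ring

lemma chi_zero_right (h : ℕ) (m : ℤ) : chi h m 0 = 1 := by
  simp [chi]

lemma chi_per (h : ℕ) (hh : 0 < h) (m : ℤ) : chi h m h = 1 := by
  unfold chi
  have hh' : (h : ℂ) ≠ 0 := by exact_mod_cast hh.ne'
  rw [show 2 * (π : ℂ) * Complex.I * m * h / h = m * (2 * π * Complex.I) by
    field_simp]
  exact Complex.exp_int_mul_two_pi_mul_I m

lemma chi_add (h : ℕ) (m n : ℤ) (j : ℕ) : chi h (m + n) j = chi h m j * chi h n j := by
  unfold chi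
  rw [← Complex.exp_add]
  congr 1
  push_cast
  ring

lemma chi_succ (h : ℕ) (m : ℤ) (j : ℕ) : chi h m (j + 1) = chi h m j * chi h m 1 := by
  rw [chi_eq_pow h m (j + 1), chi_eq_pow h m j, pow_succ]

lemma chi_neg_mul_chi (h : ℕ) (m : ℤ) (j : ℕ) : chi h (-m) j * chi h m j = 1 := by
  rw [← chi_add]
  simp [chi]

lemma chi_one_ne_one (h : ℕ) (hh : 0 < h) (m : ℤ) (hm : ¬ (h : ℤ) ∣ m) : chi h m 1 ≠ 1 := by
  unfold chi
  intro h1
  rw [Complex.exp_eq_one_iff] at h1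
  obtain ⟨n, hn⟩ := h1
  apply hm
  refine ⟨n, ?_⟩
  have hh' : (h : ℂ) ≠ 0 := by exact_mod_cast hh.ne'
  have h2 : (m : ℂ) = (h : ℂ) * n := by
    have hpi : (2 * (π : ℂ) * Complex.I) ≠ 0 := Complex.two_pi_I_ne_zero
    have : 2 * (π : ℂ) * Complex.I * m = h * (n * (2 * π * Complex.I)) := by
      rw [← hn]; field_simp; push_cast; ring
    have h3 : (2 * (π : ℂ) * Complex.I) * m = (2 * π * Complex.I) * (h * n) := by
      rw [this]; ring
    exact mul_left_cancel₀ hpi h3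
  exact_mod_cast h2

lemma sum_chi (h : ℕ) (hh : 0 < h) (m : ℤ) :
    ∑ j ∈ Finset.range h, chi h m j = if (h : ℤ) ∣ m then (h : ℂ) else 0 := by
  split_ifs with hm
  · obtain ⟨n, rfl⟩ := hm
    have : ∀ j ∈ Finset.range h, chi h (h * n) j = 1 := by
      intro j _
      unfold chi
      have hh' : (h : ℂ) ≠ 0 := by exact_mod_cast hh.ne'
      rw [show 2 * (π : ℂ) * Complex.I * ((h * n : ℤ) : ℂ) * j / h
        = ((n * j : ℤ) : ℂ) * (2 * π * Complex.I) by push_cast; field_simp]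
      exact Complex.exp_int_mul_two_pi_mul_I _
    rw [Finset.sum_congr rfl this]
    simp
  · have h1 := chi_one_ne_one h hh m hm
    have : ∑ j ∈ Finset.range h, chi h m j = ∑ j ∈ Finset.range h, (chi h m 1) ^ j :=
      Finset.sum_congr rfl fun j _ => chi_eq_pow h m j
    rw [this, geom_sum_eq h1, ← chi_eq_pow, chi_per h hh, sub_self, zero_div]

/-- symmetric in the two arguments -/
lemma chi_symm (h : ℕ) (a i : ℕ) : chi h (a : ℤ) i = chi h (i : ℤ) a := by
  unfold chi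
  congr 1
  push_cast
  ring

lemma chi_neg_symm (h : ℕ) (a i : ℕ) : chi h (-(a : ℤ)) i = chi h (-(i : ℤ)) a := by
  unfold chi
  congr 1
  push_cast
  ring

variable (Γ : Subgroup SL(2, ℤ)) [Γ.FiniteIndex]

instance : Finite (X Γ) := Subgroup.finite_quotient_of_finiteIndex

lemma per_pos : 0 < per Γ := orderOf_pos _

lemma per_ne_zero : ((per Γ : ℕ) : ℂ) ≠ 0 := by exact_mod_cast (per_pos Γ).ne'

lemma T_pow_per_smul (x : X Γ) : (Tm ^ per Γ) • x = x := by
  have h := pow_orderOf_eq_one (MulAction.toPermHom SL(2, ℤ) (X Γ) Tm)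
  rw [← map_pow] at h
  have := congrArg (fun σ : Equiv.Perm (X Γ) => σ x) h
  simpa [per] using this

lemma shiftT_apply (v : X Γ → ℂ) (x : X Γ) : shiftT Γ v x = v (Tm⁻¹ • x) := rfl

lemma shiftT_pow_apply (i : ℕ) (v : X Γ → ℂ) (x : X Γ) :
    ((shiftT Γ) ^ i) v x = v ((Tm ^ i)⁻¹ • x) := by
  induction i generalizing v x with
  | zero => simp
  | succ n ih =>
    rw [pow_succ, Module.End.mul_apply, ih, shiftT_apply, pow_succ, mul_inv_rev, mul_smul]

lemma shiftT_pow_per : (shiftT Γ) ^ (per Γ) = 1 := by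
  ext v x
  rw [shiftT_pow_apply]
  simp only [Module.End.one_apply]
  congr 1
  rw [inv_smul_eq_iff, T_pow_per_smul]

lemma proj_eq (a : ℕ) : proj Γ a = ((per Γ : ℂ))⁻¹ • ∑ i ∈ Finset.range (per Γ),
    chi (per Γ) (-(a : ℤ)) i • (shiftT Γ) ^ i := by
  unfold proj chi
  congr 1
  refine Finset.sum_congr rfl fun i _ => ?_
  congr 2
  push_cast
  ring

lemma chi_one_mul_chi_neg_succ (h : ℕ) (a i : ℕ) :
    chi h (a : ℤ) 1 * chi h (-(a : ℤ)) (i + 1) = chi h (-(a : ℤ)) i := by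
  unfold chi
  rw [← Complex.exp_add]
  congr 1
  push_cast
  ring

lemma chi_mul_chi_one (h : ℕ) (a n : ℕ) :
    chi h (a : ℤ) n * chi h (a : ℤ) 1 = chi h (a : ℤ) (n + 1) := by
  unfold chi
  rw [← Complex.exp_add]
  congr 1
  push_cast
  ring

/-- `shiftT * proj a = ζ^a • proj a`. -/
lemma shiftT_mul_proj (a : ℕ) : shiftT Γ * proj Γ a = chi (per Γ) a 1 • proj Γ a := by
  have hpos := per_pos Γ
  have key : ∀ i : ℕ, shiftT Γ * (chi (per Γ) (-(a : ℤ)) i • (shiftT Γ) ^ i)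
      = chi (per Γ) a 1 • (chi (per Γ) (-(a : ℤ)) (i + 1) • (shiftT Γ) ^ (i + 1)) := by
    intro i
    rw [mul_smul_comm, ← pow_succ', smul_smul, chi_one_mul_chi_neg_succ]
  have h1 := Finset.sum_range_succ (fun i => chi (per Γ) (-(a : ℤ)) i • (shiftT Γ) ^ i) (per Γ)
  have h2 := Finset.sum_range_succ' (fun i => chi (per Γ) (-(a : ℤ)) i • (shiftT Γ) ^ i) (per Γ)
  rw [h1] at h2
  have h3 : chi (per Γ) (-(a : ℤ)) (per Γ) • (shiftT Γ) ^ (per Γ)
      = chi (per Γ) (-(a : ℤ)) 0 • (shiftT Γ) ^ 0 := by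
    rw [chi_per (per Γ) hpos, chi_zero_right, shiftT_pow_per, pow_zero]
  rw [h3] at h2
  have h4 := (add_right_cancel h2).symm
  have main : shiftT Γ * ∑ i ∈ Finset.range (per Γ), chi (per Γ) (-(a : ℤ)) i • (shiftT Γ) ^ i
      = chi (per Γ) a 1 • ∑ i ∈ Finset.range (per Γ), chi (per Γ) (-(a : ℤ)) i • (shiftT Γ) ^ i := by
    rw [Finset.mul_sum, Finset.sum_congr rfl fun i _ => key i, ← Finset.smul_sum, h4]
  rw [proj_eq, mul_smul_comm, main, smul_comm]

lemma shiftT_pow_mul_proj (a j : ℕ) :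
    (shiftT Γ) ^ j * proj Γ a = chi (per Γ) a j • proj Γ a := by
  induction j with
  | zero => simp [chi_zero_right]
  | succ n ih =>
    rw [pow_succ, mul_assoc, shiftT_mul_proj, mul_smul_comm, ih, smul_smul, mul_comm,
      chi_mul_chi_one]

lemma proj_mul_proj (a b : ℕ) (ha : a < per Γ) (hb : b < per Γ) :
    proj Γ a * proj Γ b = if a = b then proj Γ a else 0 := by
  have hpos := per_pos Γ
  have hne := per_ne_zero Γ
  conv_lhs => rw [proj_eq Γ a]
  rw [smul_mul_assoc, Finset.sum_mul]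
  have key : ∀ i ∈ Finset.range (per Γ), (chi (per Γ) (-(a : ℤ)) i • (shiftT Γ) ^ i) * proj Γ b
      = chi (per Γ) ((b : ℤ) - a) i • proj Γ b := by
    intro i _
    rw [smul_mul_assoc, shiftT_pow_mul_proj, smul_smul, ← chi_add]
    congr 2
    ring
  rw [Finset.sum_congr rfl key, ← Finset.sum_smul, sum_chi (per Γ) hpos, smul_smul]
  have hdvd : (((per Γ : ℕ) : ℤ) ∣ (b : ℤ) - a) ↔ a = b := by
    constructor
    · intro hd
      have h1 : ((b : ℤ) - a) = 0 := by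
        apply Int.eq_zero_of_abs_lt_dvd hd
        rw [abs_lt]
        constructor <;> omega
      omega
    · rintro rfl
      simp
  by_cases hab : a = b
  · subst hab
    rw [if_pos (hdvd.mpr rfl), if_pos rfl, inv_mul_cancel₀ hne, one_smul]
  · rw [if_neg (fun hd => hab (hdvd.mp hd)), if_neg hab, mul_zero, zero_smul]

lemma sum_proj : ∑ a ∈ Finset.range (per Γ), proj Γ a = 1 := by
  have hpos := per_pos Γ
  have hne := per_ne_zero Γ
  simp_rw [proj_eq Γ]
  rw [← Finset.smul_sum, Finset.sum_comm]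
  have key : ∀ i ∈ Finset.range (per Γ),
      ∑ a ∈ Finset.range (per Γ), chi (per Γ) (-(a : ℤ)) i • (shiftT Γ) ^ i
      = (if i = 0 then ((per Γ : ℕ) : ℂ) else 0) • (shiftT Γ) ^ i := by
    intro i hi
    rw [← Finset.sum_smul]
    congr 1
    rw [Finset.sum_congr rfl fun a _ => chi_neg_symm (per Γ) a i, sum_chi (per Γ) hpos]
    have hi' := Finset.mem_range.mp hi
    have hdvd : (((per Γ : ℕ) : ℤ) ∣ -(i : ℤ)) ↔ i = 0 := by
      constructor
      · intro hd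
        have h1 : (-(i : ℤ)) = 0 := by
          apply Int.eq_zero_of_abs_lt_dvd hd
          rw [abs_lt]
          constructor <;> omega
        omega
      · rintro rfl
        simp
    simp only [hdvd]
  rw [Finset.sum_congr rfl key]
  rw [Finset.sum_eq_single 0]
  · rw [if_pos rfl, pow_zero, smul_smul, inv_mul_cancel₀ hne, one_smul]
  · intro i _ hi
    simp [hi]
  · intro h0
    exact absurd (Finset.mem_range.mpr hpos) h0

section analytic

/-- `E θ τ = exp (2πi θ τ)`. -/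
def E (θ : ℝ) (τ : ℍ) : ℂ := Complex.exp (2 * π * Complex.I * θ * τ)

lemma E_ne_zero (θ : ℝ) (τ : ℍ) : E θ τ ≠ 0 := Complex.exp_ne_zero _

lemma E_zero (τ : ℍ) : E 0 τ = 1 := by simp [E]

lemma E_add (θ₁ θ₂ : ℝ) (τ : ℍ) : E (θ₁ + θ₂) τ = E θ₁ τ * E θ₂ τ := by
  unfold E
  rw [← Complex.exp_add]
  congr 1
  push_cast
  ring

lemma E_neg_mul_E (θ : ℝ) (τ : ℍ) : E (-θ) τ * E θ τ = 1 := by
  rw [← E_add, neg_add_cancel, E_zero]

lemma norm_E (θ : ℝ) (τ : ℍ) : ‖E θ τ‖ = Real.exp (-2 * π * θ * τ.im) := by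
  unfold E
  rw [Complex.norm_exp]
  congr 1
  simp [Complex.mul_re, Complex.mul_im]

lemma mdiff_E (θ : ℝ) : MDiff (E θ) := by
  rw [UpperHalfPlane.mdifferentiable_iff]
  have h1 : DifferentiableOn ℂ (fun z : ℂ => Complex.exp (2 * π * Complex.I * θ * z))
      {z | 0 < z.im} := by
    apply Differentiable.differentiableOn
    fun_prop
  refine h1.congr fun z hz => ?_
  simp only [Function.comp_apply, E]
  rw [ofComplex_apply_of_im_pos hz]

lemma coe_T_smul (τ : ℍ) : ((Tm • τ : ℍ) : ℂ) = τ + 1 := by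
  have := ModularGroup.coe_T_zpow_smul_eq (z := τ) (n := 1)
  simpa using this

lemma im_T_smul' (τ : ℍ) : (Tm • τ).im = τ.im := ModularGroup.im_T_smul τ

lemma E_T_smul (θ : ℝ) (τ : ℍ) :
    E θ (Tm • τ) = E θ τ * Complex.exp (2 * π * Complex.I * θ) := by
  unfold E
  rw [coe_T_smul, ← Complex.exp_add]
  congr 1
  ring

lemma E_one_T_smul (τ : ℍ) : E 1 (Tm • τ) = E 1 τ := by
  rw [E_T_smul]
  have : Complex.exp (2 * π * Complex.I * ((1 : ℝ) : ℂ)) = 1 := by
    simp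
  rw [this, mul_one]

lemma tendsto_E_zero {θ : ℝ} (hθ : 0 < θ) : Tendsto (E θ) atImInfty (𝓝 0) := by
  rw [tendsto_zero_iff_norm_tendsto_zero]
  simp_rw [norm_E]
  have h1 : Tendsto (fun τ : ℍ => τ.im) atImInfty atTop := tendsto_comap
  have h2 : Tendsto (fun y : ℝ => -2 * π * θ * y) atTop atBot := by
    apply Filter.Tendsto.const_mul_atTop_of_neg _ tendsto_id
    have := Real.pi_pos
    nlinarith [mul_pos Real.pi_pos hθ]
  exact Real.tendsto_exp_atBot.comp (h2.comp h1)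

/-- Periodicity in the form required by Mathlib. -/
lemma periodic_comp_ofComplex {φ : ℍ → ℂ} (hper : ∀ τ, φ (Tm • τ) = φ τ) :
    Function.Periodic (φ ∘ ofComplex) (1 : ℝ) := by
  intro w
  by_cases hw : 0 < Complex.im w
  · have hw' : 0 < Complex.im (w + (1 : ℝ)) := by simpa using hw
    simp only [Function.comp_apply, ofComplex_apply_of_im_pos hw', ofComplex_apply_of_im_pos hw]
    rw [← hper ⟨w, hw⟩]
    congr 1
    apply UpperHalfPlane.ext
    rw [coe_T_smul]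
    simp
  · have hw' : Complex.im (w + (1 : ℝ)) ≤ 0 := by simpa using not_lt.mp hw
    simp only [Function.comp_apply, ofComplex_apply_of_im_nonpos hw',
      ofComplex_apply_of_im_nonpos (not_lt.mp hw)]

/-- A `1`-periodic holomorphic function bounded at `i∞` has a limit there. -/
lemma tendsto_of_periodic {φ : ℍ → ℂ} (hper : ∀ τ, φ (Tm • τ) = φ τ) (hhol : MDiff φ)
    (hbdd : IsBoundedAtImInfty φ) : Tendsto φ atImInfty (𝓝 (valueAtInfty φ)) := by
  have hp := periodic_comp_ofComplex hper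
  have h1 := UpperHalfPlane.exp_decay_sub_atImInfty (h := 1) one_pos hp hhol hbdd
  have h2 : Tendsto (fun τ : ℍ => Real.exp (-2 * π * τ.im / 1)) atImInfty (𝓝 0) := by
    have h3 : Tendsto (fun τ : ℍ => τ.im) atImInfty atTop := tendsto_comap
    have h4 : Tendsto (fun y : ℝ => -2 * π * y / 1) atTop atBot := by
      simp only [div_one]
      apply Filter.Tendsto.const_mul_atTop_of_neg _ tendsto_id
      nlinarith [Real.pi_pos]
    exact Real.tendsto_exp_atBot.comp (h4.comp h3)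
  have h5 := h1.trans_tendsto h2
  have h6 := h5.add_const (valueAtInfty φ)
  simpa using h6

/-- A `1`-periodic holomorphic function vanishing at `i∞` decays exponentially. -/
lemma isBigO_of_periodic {φ : ℍ → ℂ} (hper : ∀ τ, φ (Tm • τ) = φ τ) (hhol : MDiff φ)
    (hzero : IsZeroAtImInfty φ) : φ =O[atImInfty] fun τ : ℍ => Real.exp (-2 * π * τ.im) := by
  have hp := periodic_comp_ofComplex hper
  have := hzero.exp_decay_atImInfty (h := 1) one_pos hp hhol hzero.isBoundedAtImInfty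
  simpa using this


/-- Key lemma: a holomorphic function on `ℍ`, bounded at `i∞`, with
`u (τ + 1) = e^{2πiθ} u τ`, `0 ≤ θ < 1`: then `e^{-2πiθτ} u τ` has a limit at `i∞`. -/
lemma twisted_aux {u : ℍ → ℂ} {θ : ℝ} (hθ1 : θ < 1)
    (hhol : MDiff u) (hbdd : IsBoundedAtImInfty u)
    (hper : ∀ τ, u (Tm • τ) = Complex.exp (2 * π * Complex.I * θ) * u τ) :
    (∀ τ, (fun τ : ℍ => E (-θ) τ * u τ) (Tm • τ) = (fun τ : ℍ => E (-θ) τ * u τ) τ) ∧
    MDiff (fun τ : ℍ => E (-θ) τ * u τ) ∧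
    IsBoundedAtImInfty (fun τ : ℍ => E (-θ) τ * u τ) := by
  have hwper : ∀ τ, (fun τ : ℍ => E (-θ) τ * u τ) (Tm • τ) = (fun τ : ℍ => E (-θ) τ * u τ) τ := by
    intro τ
    simp only
    rw [E_T_smul, hper]
    have : Complex.exp (2 * π * Complex.I * ((-θ : ℝ) : ℂ))
        * Complex.exp (2 * π * Complex.I * θ) = 1 := by
      rw [← Complex.exp_add]
      have : 2 * (π : ℂ) * Complex.I * ((-θ : ℝ) : ℂ) + 2 * π * Complex.I * θ = 0 := by
        push_cast; ring
      rw [this, Complex.exp_zero]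
    linear_combination (E (-θ) τ * u τ) * this
  have hwhol : MDiff (fun τ : ℍ => E (-θ) τ * u τ) := (mdiff_E (-θ)).mul hhol
  refine ⟨hwper, hwhol, ?_⟩
  -- φ₁ = E 1 * w is periodic, holomorphic, zero at i∞
  have hφper : ∀ τ, (fun τ : ℍ => E 1 τ * (E (-θ) τ * u τ)) (Tm • τ)
      = (fun τ : ℍ => E 1 τ * (E (-θ) τ * u τ)) τ := fun τ => by
    have := hwper τ
    simp only at this ⊢
    rw [E_one_T_smul, this]
  have hφhol : MDiff (fun τ : ℍ => E 1 τ * (E (-θ) τ * u τ)) := (mdiff_E 1).mul hwhol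
  have hφeq : (fun τ : ℍ => E 1 τ * (E (-θ) τ * u τ)) = fun τ => E (1 - θ) τ * u τ := by
    funext τ
    rw [← mul_assoc, ← E_add]
    congr 2
  have hφzero : IsZeroAtImInfty (fun τ : ℍ => E 1 τ * (E (-θ) τ * u τ)) := by
    rw [hφeq]
    have h1 : ZeroAtFilter atImInfty (E (1 - θ)) := tendsto_E_zero (sub_pos.mpr hθ1)
    exact h1.mul_boundedAtFilter hbdd
  have hdecay := isBigO_of_periodic hφper hφhol hφzero
  -- w = E (-1) * φ₁
  have hE : (E (-1)) =O[atImInfty] fun τ : ℍ => Real.exp (2 * π * τ.im) := by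
    apply IsBigO.of_bound'
    filter_upwards with τ
    rw [norm_E, Real.norm_eq_abs, abs_of_pos (Real.exp_pos _)]
    apply le_of_eq
    congr 1
    ring
  have h2 := hE.mul hdecay
  have h3 : (fun τ : ℍ => Real.exp (2 * π * τ.im) * Real.exp (-2 * π * τ.im))
      = fun _ => (1 : ℝ) := by
    funext τ
    rw [← Real.exp_add]
    have : 2 * π * τ.im + -2 * π * τ.im = 0 := by ring
    rw [this, Real.exp_zero]
  rw [h3] at h2
  have h4 : (fun τ : ℍ => E (-1) τ * (E 1 τ * (E (-θ) τ * u τ)))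
      = fun τ : ℍ => E (-θ) τ * u τ := by
    funext τ
    rw [← mul_assoc, E_neg_mul_E, one_mul]
  rw [h4] at h2
  exact h2

lemma exists_tendsto_twisted {u : ℍ → ℂ} {θ : ℝ} (hθ1 : θ < 1)
    (hhol : MDiff u) (hbdd : IsBoundedAtImInfty u)
    (hper : ∀ τ, u (Tm • τ) = Complex.exp (2 * π * Complex.I * θ) * u τ) :
    ∃ L, Tendsto (fun τ : ℍ => E (-θ) τ * u τ) atImInfty (𝓝 L) := by
  obtain ⟨h1, h2, h3⟩ := twisted_aux hθ1 hhol hbdd hper
  exact ⟨_, tendsto_of_periodic h1 h2 h3⟩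

lemma isBigO_of_twisted_tendsto_zero {u : ℍ → ℂ} {θ : ℝ} (hθ0 : 0 ≤ θ) (hθ1 : θ < 1)
    (hhol : MDiff u) (hbdd : IsBoundedAtImInfty u)
    (hper : ∀ τ, u (Tm • τ) = Complex.exp (2 * π * Complex.I * θ) * u τ)
    (h0 : Tendsto (fun τ : ℍ => E (-θ) τ * u τ) atImInfty (𝓝 0)) :
    u =O[atImInfty] fun τ : ℍ => Real.exp (-2 * π * τ.im) := by
  obtain ⟨h1, h2, _⟩ := twisted_aux hθ1 hhol hbdd hper
  have hdecay := isBigO_of_periodic h1 h2 h0
  have hE : (E θ) =O[atImInfty] fun _ : ℍ => (1 : ℝ) := by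
    apply IsBigO.of_bound'
    filter_upwards with τ
    rw [norm_E, norm_one]
    apply Real.exp_le_one_iff.mpr
    have := τ.im_pos
    have := Real.pi_pos
    nlinarith [mul_nonneg (mul_nonneg Real.pi_pos.le hθ0) τ.im_pos.le]
  have h3 := hE.mul hdecay
  have h4 : (fun τ : ℍ => E θ τ * (E (-θ) τ * u τ)) = u := by
    funext τ
    rw [← mul_assoc, mul_comm (E θ τ), E_neg_mul_E, one_mul]
  rw [h4] at h3
  simpa using h3

end analytic

section modular

variable {Γ : Subgroup SL(2, ℤ)} [Γ.FiniteIndex]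

/-- `ev` at the coset of `g` (for `Γ`-invariant `f`). -/
lemma ev_mk' {k : ℤ} {f : ℍ → ℂ} (hf : ∀ γ ∈ Γ, f ∣[k] γ = f) (g : SL(2, ℤ)) (τ : ℍ) :
    ev Γ k τ f (QuotientGroup.mk g) = (f ∣[k] g⁻¹) τ := by
  obtain ⟨γ, hγ⟩ := QuotientGroup.mk_out_eq_mul Γ g
  rw [ev_apply]
  show (f ∣[k] ((QuotientGroup.mk g : SL(2, ℤ) ⧸ Γ).out)⁻¹) τ = _
  rw [hγ, mul_inv_rev, SlashAction.slash_mul, hf _ (inv_mem γ.2)]

lemma slash_eq_ev {k : ℤ} {f : ℍ → ℂ} (hf : ∀ γ ∈ Γ, f ∣[k] γ = f) (g : SL(2, ℤ)) :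
    f ∣[k] g = fun τ => ev Γ k τ f (QuotientGroup.mk g⁻¹) := by
  funext τ
  rw [ev_mk' hf, inv_inv]

lemma denom_T (τ : ℍ) : denom (Tm : SL(2, ℤ)) τ = 1 := by
  rw [ModularGroup.denom_apply]
  simp [ModularGroup.T]

lemma slash_T_apply (k : ℤ) (φ : ℍ → ℂ) (τ : ℍ) : (φ ∣[k] Tm) τ = φ (Tm • τ) := by
  rw [SL_slash_apply, denom_T, one_zpow, mul_one]

/-- `ev` at `T • τ`. -/
lemma ev_T' {k : ℤ} {f : ℍ → ℂ} (hf : ∀ γ ∈ Γ, f ∣[k] γ = f) (τ : ℍ) :
    ev Γ k (Tm • τ) f = shiftT Γ (ev Γ k τ f) := by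
  funext x
  rw [shiftT_apply, ev_apply, ← slash_T_apply k (f ∣[k] (x.out)⁻¹) τ, ← SlashAction.slash_mul]
  have hx : Tm⁻¹ • x = QuotientGroup.mk (Tm⁻¹ * x.out) := by
    conv_lhs => rw [← QuotientGroup.out_eq' x]
    rfl
  rw [hx, ev_mk' hf, mul_inv_rev, inv_inv]

/-- `ev` of a product with a level one form. -/
lemma ev_mul' {a k : ℤ} {E₀ : ℍ → ℂ} (hE : E₀ ∈ MF ⊤ a) (f : ℍ → ℂ) (τ : ℍ) :
    ev Γ (a + k) τ (E₀ * f) = E₀ τ • ev Γ k τ f := by
  funext x
  rw [ev_apply, mul_slash_SL2, hE.2.1 _ (Subgroup.mem_top _)]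
  rfl

/-- linear functionals of the vector of conjugates are holomorphic and bounded at `i∞`. -/
lemma mdiff_bdd_functional {k : ℤ} {f : ℍ → ℂ} (hf : f ∈ MF Γ k)
    (ℓ : (X Γ → ℂ) →ₗ[ℂ] ℂ) :
    MDiff (fun τ : ℍ => ℓ (ev Γ k τ f)) ∧ IsBoundedAtImInfty (fun τ : ℍ => ℓ (ev Γ k τ f)) := by
  classical
  have : Fintype (X Γ) := Fintype.ofFinite _
  have hrep : (fun τ : ℍ => ℓ (ev Γ k τ f))
      = ∑ y : X Γ, ℓ (Pi.single y 1) • (f ∣[k] (y.out)⁻¹) := by
    funext τ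
    rw [LinearMap.pi_apply_eq_sum_univ ℓ (ev Γ k τ f), Finset.sum_apply]
    refine Finset.sum_congr rfl fun y _ => ?_
    rw [Pi.smul_apply, smul_eq_mul, smul_eq_mul, ev_apply, mul_comm]
    congr 2
    funext z
    simp [Pi.single_apply, eq_comm]
  rw [hrep]
  constructor
  · have : ∀ y ∈ (Finset.univ : Finset (X Γ)),
        MDiff (ℓ (Pi.single y 1) • (f ∣[k] (y.out)⁻¹)) := by
      intro y _
      exact (hf.1.slash k _).const_smul _
    exact MDifferentiable.sum this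
  · have : ∀ y ∈ (Finset.univ : Finset (X Γ)),
        ℓ (Pi.single y 1) • (f ∣[k] (y.out)⁻¹) ∈ boundedFilterSubmodule ℂ atImInfty := by
      intro y _
      exact (boundedFilterSubmodule ℂ atImInfty).smul_mem _ (hf.2.2 _)
    exact (boundedFilterSubmodule ℂ atImInfty).sum_mem this

/-- the twist exponent `a / h`. -/
def th (Γ : Subgroup SL(2, ℤ)) (a : ℕ) : ℝ := (a : ℝ) / (per Γ : ℝ)

variable (Γ) in
lemma th_nonneg (a : ℕ) : 0 ≤ th Γ a := by
  unfold th
  positivity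

variable (Γ) in
lemma th_lt_one {a : ℕ} (ha : a < per Γ) : th Γ a < 1 := by
  unfold th
  rw [div_lt_one (by exact_mod_cast per_pos Γ)]
  exact_mod_cast ha

variable (Γ) in
lemma th_pos {a : ℕ} (ha : 0 < a) : 0 < th Γ a := by
  unfold th
  have := per_pos Γ
  positivity

variable (Γ) in
lemma th_zero : th Γ 0 = 0 := by simp [th]

variable (Γ) in
lemma chi_eq_exp_th (a : ℕ) :
    chi (per Γ) a 1 = Complex.exp (2 * π * Complex.I * ((th Γ a : ℝ) : ℂ)) := by
  unfold chi th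
  congr 1
  push_cast
  ring

variable (Γ) in
lemma Theta_coeff (a : ℕ) (τ : ℍ) :
    Complex.exp (2 * π * Complex.I * a * (-(τ : ℂ)) / per Γ) = E (-(th Γ a)) τ := by
  unfold E th
  congr 1
  push_cast
  ring

variable (Γ) in
lemma jetFun_eq (k : ℤ) (f : ℍ → ℂ) (τ : ℍ) :
    jetFun Γ k f τ = ∑ a ∈ Finset.range (per Γ), E (-(th Γ a)) τ • proj Γ a (ev Γ k τ f) := by
  unfold jetFun Theta
  rw [LinearMap.sum_apply]
  refine Finset.sum_congr rfl fun a _ => ?_
  rw [LinearMap.smul_apply, Theta_coeff]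

variable (Γ) in
lemma proj_mul_shiftT (a : ℕ) : proj Γ a * shiftT Γ = chi (per Γ) a 1 • proj Γ a := by
  have hc : Commute (shiftT Γ) (proj Γ a) := by
    rw [proj_eq]
    refine Commute.smul_right (Commute.sum_right _ _ _ fun i _ => ?_) _
    exact Commute.smul_right ((Commute.refl _).pow_right i) _
  rw [← hc.eq, shiftT_mul_proj]

variable (Γ) in
lemma proj_proj_apply {a b : ℕ} (ha : a < per Γ) (hb : b < per Γ) (v : X Γ → ℂ) :
    proj Γ a (proj Γ b v) = if a = b then proj Γ a v else 0 := by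
  have := congrArg (fun L : Module.End ℂ (X Γ → ℂ) => L v) (proj_mul_proj Γ a b ha hb)
  simp only [Module.End.mul_apply] at this
  rw [this]
  split_ifs <;> simp

variable (Γ) in
lemma sum_proj_apply (v : X Γ → ℂ) : ∑ a ∈ Finset.range (per Γ), proj Γ a v = v := by
  have := congrArg (fun L : Module.End ℂ (X Γ → ℂ) => L v) (sum_proj Γ)
  simpa [LinearMap.sum_apply] using this

variable (Γ) in
lemma proj_jetFun (k : ℤ) (f : ℍ → ℂ) (τ : ℍ) {a : ℕ} (ha : a < per Γ) :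
    proj Γ a (jetFun Γ k f τ) = E (-(th Γ a)) τ • proj Γ a (ev Γ k τ f) := by
  rw [jetFun_eq, map_sum]
  rw [Finset.sum_eq_single a]
  · rw [map_smul, proj_proj_apply Γ ha ha, if_pos rfl]
  · intro b hb hba
    rw [map_smul, proj_proj_apply Γ ha (Finset.mem_range.mp hb), if_neg (Ne.symm hba), smul_zero]
  · intro h
    exact absurd (Finset.mem_range.mpr ha) h

/-- the components of `proj a (ev τ f)`: holomorphic, bounded, twisted-periodic. -/
lemma comp_props {k : ℤ} {f : ℍ → ℂ} (hf : f ∈ MF Γ k) (a : ℕ) (x : X Γ) :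
    MDiff (fun τ : ℍ => proj Γ a (ev Γ k τ f) x) ∧
    IsBoundedAtImInfty (fun τ : ℍ => proj Γ a (ev Γ k τ f) x) ∧
    ∀ τ : ℍ, (fun τ : ℍ => proj Γ a (ev Γ k τ f) x) (Tm • τ)
      = Complex.exp (2 * π * Complex.I * ((th Γ a : ℝ) : ℂ))
        * (fun τ : ℍ => proj Γ a (ev Γ k τ f) x) τ := by
  obtain ⟨h1, h2⟩ := mdiff_bdd_functional hf ((LinearMap.proj x).comp (proj Γ a))
  refine ⟨h1, h2, fun τ => ?_⟩
  simp only
  rw [ev_T' hf.2.1, ← Module.End.mul_apply, proj_mul_shiftT, LinearMap.smul_apply,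
    Pi.smul_apply, smul_eq_mul, chi_eq_exp_th]

/-- **C1.2** : jets exist. -/
theorem exists_hasJet {k : ℤ} {f : ℍ → ℂ} (hf : f ∈ MF Γ k) : ∃ v, HasJet Γ k f v := by
  have key : ∀ (a : ℕ) (x : X Γ), ∃ L : ℂ, a < per Γ →
      Tendsto (fun τ : ℍ => E (-(th Γ a)) τ * proj Γ a (ev Γ k τ f) x) atImInfty (𝓝 L) := by
    intro a x
    by_cases ha : a < per Γ
    · obtain ⟨h1, h2, h3⟩ := comp_props hf a x
      obtain ⟨L, hL⟩ := exists_tendsto_twisted (th_lt_one Γ ha) h1 h2 h3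
      exact ⟨L, fun _ => hL⟩
    · exact ⟨0, fun h => absurd h ha⟩
  choose L hL using key
  refine ⟨fun x => ∑ a ∈ Finset.range (per Γ), L a x, ?_⟩
  unfold HasJet
  rw [tendsto_pi_nhds]
  intro x
  have h1 : (fun τ : ℍ => jetFun Γ k f τ x)
      = fun τ : ℍ => ∑ a ∈ Finset.range (per Γ), E (-(th Γ a)) τ * proj Γ a (ev Γ k τ f) x := by
    funext τ
    rw [jetFun_eq, Finset.sum_apply]
    rfl
  rw [h1]
  exact tendsto_finsetSum _ fun a ha => hL a x (Finset.mem_range.mp ha)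

omit [Γ.FiniteIndex] in
lemma tendsto_levelOne {a : ℤ} {E₀ : ℍ → ℂ} (hE : E₀ ∈ MF ⊤ a) :
    Tendsto E₀ atImInfty (𝓝 (valueAtInfty E₀)) := by
  refine tendsto_of_periodic (fun τ => ?_) hE.1 ?_
  · rw [← slash_T_apply a E₀ τ, hE.2.1 _ (Subgroup.mem_top _)]
  · have := hE.2.2 1
    rwa [SlashAction.slash_one] at this

/-- **C1.3** : jets of products with level one forms. -/
theorem hasJet_mul {a k : ℤ} {E₀ f : ℍ → ℂ} (hE : E₀ ∈ MF ⊤ a) {v : X Γ → ℂ}
    (hv : HasJet Γ k f v) : HasJet Γ (a + k) (E₀ * f) (valueAtInfty E₀ • v) := by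
  unfold HasJet at hv ⊢
  have h1 : jetFun Γ (a + k) (E₀ * f) = fun τ => E₀ τ • jetFun Γ k f τ := by
    funext τ
    unfold jetFun
    rw [ev_mul' hE, map_smul]
  rw [h1]
  exact (tendsto_levelOne hE).smul hv

/-- continuity of the components of `proj a`. -/
lemma tendsto_proj_comp {ι : Type*} {l : Filter ι} {F : ι → X Γ → ℂ} {v : X Γ → ℂ}
    (hF : Tendsto F l (𝓝 v)) (a : ℕ) (x : X Γ) :
    Tendsto (fun i => proj Γ a (F i) x) l (𝓝 (proj Γ a v x)) := by
  have hc : Continuous ((LinearMap.proj x).comp (proj Γ a) : (X Γ → ℂ) →ₗ[ℂ] ℂ) :=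
    LinearMap.continuous_of_finiteDimensional _
  exact (hc.tendsto v).comp hF

/-- the vector of conjugates in terms of the jet function. -/
lemma ev_eq_sum (k : ℤ) (f : ℍ → ℂ) (τ : ℍ) :
    ev Γ k τ f = ∑ a ∈ Finset.range (per Γ), E (th Γ a) τ • proj Γ a (jetFun Γ k f τ) := by
  conv_lhs => rw [← sum_proj_apply Γ (ev Γ k τ f)]
  refine Finset.sum_congr rfl fun a ha => ?_
  rw [proj_jetFun Γ k f τ (Finset.mem_range.mp ha), smul_smul, mul_comm, E_neg_mul_E, one_smul]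

/-- the vector of conjugates tends to `proj 0` of the jet. -/
lemma tendsto_ev {k : ℤ} {f : ℍ → ℂ} {v : X Γ → ℂ} (hv : HasJet Γ k f v) (x : X Γ) :
    Tendsto (fun τ : ℍ => ev Γ k τ f x) atImInfty (𝓝 (proj Γ 0 v x)) := by
  have h1 : (fun τ : ℍ => ev Γ k τ f x) = fun τ : ℍ =>
      ∑ a ∈ Finset.range (per Γ), E (th Γ a) τ * proj Γ a (jetFun Γ k f τ) x := by
    funext τ
    conv_lhs => rw [ev_eq_sum k f τ]
    rw [Finset.sum_apply]
    rfl
  have h2 : proj Γ 0 v x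
      = ∑ a ∈ Finset.range (per Γ), (if a = 0 then proj Γ 0 v x else 0) := by
    rw [Finset.sum_ite_eq' (Finset.range (per Γ)) 0 (fun _ => proj Γ 0 v x),
      if_pos (Finset.mem_range.mpr (per_pos Γ))]
  rw [h1, h2]
  refine tendsto_finsetSum _ fun a _ => ?_
  have hp := tendsto_proj_comp hv a x
  by_cases ha : a = 0
  · subst ha
    rw [if_pos rfl]
    have : (fun τ : ℍ => E (th Γ 0) τ * proj Γ 0 (jetFun Γ k f τ) x)
        = fun τ : ℍ => proj Γ 0 (jetFun Γ k f τ) x := by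
      funext τ
      rw [th_zero, E_zero, one_mul]
    rw [this]
    exact hp
  · rw [if_neg ha]
    have hE := tendsto_E_zero (th_pos Γ (Nat.pos_of_ne_zero ha))
    have := hE.mul hp
    rwa [zero_mul] at this

/-- **C1.5** : cusp forms have jets in the kernel of `proj 0` and conversely. -/
theorem mem_SF_iff_jet {k : ℤ} {f : ℍ → ℂ} (hf : f ∈ MF Γ k) {v : X Γ → ℂ}
    (hv : HasJet Γ k f v) : f ∈ SF Γ k ↔ proj Γ 0 v = 0 := by
  constructor
  · intro hS
    funext x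
    have h1 := tendsto_ev hv x
    have h2 : Tendsto (fun τ : ℍ => ev Γ k τ f x) atImInfty (𝓝 0) := hS.2.2 _
    exact tendsto_nhds_unique h1 h2
  · intro h0
    refine ⟨hf.1, hf.2.1, fun γ => ?_⟩
    rw [slash_eq_ev hf.2.1 γ]
    have h1 := tendsto_ev hv (QuotientGroup.mk γ⁻¹)
    rw [h0] at h1
    exact h1

/-- Bundling a function-level modular form. -/
def toModularForm {k : ℤ} {f : ℍ → ℂ} (hf : f ∈ MF Γ k) :
    ModularForm (Γ : Subgroup (GL (Fin 2) ℝ)) k where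
  toFun := f
  slash_action_eq' γ hγ := by
    obtain ⟨γ₀, hγ₀, rfl⟩ := hγ
    exact hf.2.1 γ₀ hγ₀
  holo' := hf.1
  bdd_at_cusps' {c} hc := by
    rw [Subgroup.IsArithmetic.isCusp_iff_isCusp_SL2Z] at hc
    rw [OnePoint.isBoundedAt_iff_forall_SL2Z hc]
    intro γ _
    exact hf.2.2 γ

lemma toModularForm_apply {k : ℤ} {f : ℍ → ℂ} (hf : f ∈ MF Γ k) (z : ℍ) :
    toModularForm hf z = f z := rfl

lemma coe_mem_MF {k : ℤ} (g : ModularForm (Γ : Subgroup (GL (Fin 2) ℝ)) k) :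
    (⇑g : ℍ → ℂ) ∈ MF Γ k := by
  refine ⟨ModularFormClass.holo g, fun γ hγ => ?_, fun γ => ?_⟩
  · exact SlashInvariantFormClass.slash_action_eq g _ (Subgroup.mem_map_of_mem _ hγ)
  · exact ModularFormClass.bdd_at_infty_slash g γ

/-- **C1.4** : kernel of the jet map. -/
theorem ker_jet {k : ℤ} {f : ℍ → ℂ} (hf : f ∈ MF Γ k) (h0 : HasJet Γ k f 0) :
    ∃ g ∈ MF Γ (k - 12), f = Δ * g := by
  -- every component of every `proj a (ev τ f)` decays exponentially
  have hcomp : ∀ a ∈ Finset.range (per Γ), ∀ x : X Γ,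
      (fun τ : ℍ => proj Γ a (ev Γ k τ f) x)
        =O[atImInfty] fun τ : ℍ => Real.exp (-2 * π * τ.im) := by
    intro a ha x
    have ha' := Finset.mem_range.mp ha
    obtain ⟨h1, h2, h3⟩ := comp_props hf a x
    refine isBigO_of_twisted_tendsto_zero (th_nonneg Γ a) (th_lt_one Γ ha') h1 h2 h3 ?_
    have hp := tendsto_proj_comp h0 a x
    have h4 : (fun τ : ℍ => proj Γ a (jetFun Γ k f τ) x)
        = fun τ : ℍ => E (-(th Γ a)) τ * proj Γ a (ev Γ k τ f) x := by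
      funext τ
      rw [proj_jetFun Γ k f τ ha']
      rfl
    rw [h4] at hp
    simpa using hp
  have hev : ∀ x : X Γ, (fun τ : ℍ => ev Γ k τ f x)
      =O[atImInfty] fun τ : ℍ => Real.exp (-2 * π * τ.im) := by
    intro x
    have h1 : (fun τ : ℍ => ev Γ k τ f x)
        = fun τ : ℍ => ∑ a ∈ Finset.range (per Γ), proj Γ a (ev Γ k τ f) x := by
      funext τ
      conv_lhs => rw [← sum_proj_apply Γ (ev Γ k τ f)]
      rw [Finset.sum_apply]
    rw [h1]
    have h2 := IsBigO.sum fun a ha => hcomp a ha x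
    refine h2.congr_left fun τ => ?_
    rw [Finset.sum_apply]
  have hslash : ∀ γ : SL(2, ℤ), (⇑(toModularForm hf) ∣[k] γ)
      =O[atImInfty] fun τ : ℍ => Real.exp (-2 * π * τ.im) := by
    intro γ
    have : (⇑(toModularForm hf) ∣[k] γ) = fun τ => ev Γ k τ f (QuotientGroup.mk γ⁻¹) :=
      slash_eq_ev hf.2.1 γ
    rw [this]
    exact hev _
  obtain ⟨g, hg⟩ := B980.exists_eq_discriminant_mul (toModularForm hf) hslash
  refine ⟨⇑g, coe_mem_MF g, ?_⟩
  funext z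
  exact hg z

end modular

end Fermat.Agent.S20.Jets759
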