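import Fermat.Agent.S20.H428.HomBasis

/-!
# Package B: `⊕_w M_w(Γ₀(N))` is a free graded module over `ℂ[E₄,E₆] = ⊕_w M_w(SL(2,ℤ))`

Skeleton file of the primary S20 chain (helper860).  The proof is helper428's
`Fermat.Agent.S20.H428.exists_homBasis` (`Fermat/Agent/S20/H428/HomBasis.lean`).
-/

set_option autoImplicit false

open UpperHalfPlane ModularForm CongruenceSubgroup Matrix.SpecialLinearGroup EisensteinSeries
open scoped MatrixGroups ModularForm Manifold

namespace Fermat.Agent.S20

/-- **B**: existence of a finite homogeneous basis. -/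
theorem exists_homBasis (N : ℕ) [NeZero N] :
    ∃ (ι : Type) (_ : Fintype ι) (k : ι → ℤ) (F : ι → ℍ → ℂ), IsHomBasis N k F :=
  H428.exists_homBasis N

end Fermat.Agent.S20
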