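import Fermat.Agent.S20.PointIndep
import Fermat.Agent.S20.Infty527.Main

/-!
# Package C4: structure of a homogeneous basis at `i∞`

`T` permutes `Q = SL(2,ℤ)/Γ₀(N)`; `(conj f q)(τ + 1) = conj f (T⁻¹ • q) τ`.  Decompose `ℂ^Q` along
the `T`-orbits by discrete Fourier transform (`Infty527.exists_cycle_dft`), twist by
`exp(-2πi e τ)` to get `1`-periodic holomorphic functions of growth `< 1/|q|`, which have limits at
`i∞` (`Infty527.tendsto_of_periodic_of_isBigO`); independence of the rows of `L` via `div_Δ`.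

Proof: `Fermat.Agent.S20.Infty527.infty_structure_core` (helper527), instantiated with the
skeleton's `IsHomBasis` and `div_Δ`.
-/

set_option autoImplicit false

open UpperHalfPlane ModularForm CongruenceSubgroup Matrix.SpecialLinearGroup EisensteinSeries
open Filter Topology
open scoped MatrixGroups ModularForm Manifold

namespace Fermat.Agent.S20

variable {N : ℕ} [NeZero N] {ι : Type} [Fintype ι] {k : ι → ℤ} {F : ι → ℍ → ℂ}

/-- **C4**: factorisation of the conjugate matrix near `i∞`. -/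
theorem infty_structure (hB : IsHomBasis N k F) :
    ∃ (e : (SL(2, ℤ) ⧸ Gamma0 N) → ℝ)
      (B : Matrix (SL(2, ℤ) ⧸ Gamma0 N) (SL(2, ℤ) ⧸ Gamma0 N) ℂ)
      (U : ℍ → Matrix ι (SL(2, ℤ) ⧸ Gamma0 N) ℂ)
      (L : Matrix ι (SL(2, ℤ) ⧸ Gamma0 N) ℂ),
      (∀ q, 0 ≤ e q ∧ e q < 1) ∧
      (2 * ∑ q, e q = ((Gamma0 N).index : ℝ) - numCusps N) ∧
      B.det ≠ 0 ∧
      (∀ (τ : ℍ) (j : ι) (q : SL(2, ℤ) ⧸ Gamma0 N),
        conj (Gamma0 N) (k j) (F j) q τ =
          ∑ q', U τ j q' * Complex.exp (2 * Real.pi * Complex.I * e q' * τ) * B q' q) ∧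
      (∀ j q, Tendsto (fun τ : ℍ => U τ j q) atImInfty (𝓝 (L j q))) ∧
      LinearIndependent ℂ (fun j : ι => L j) :=
  Infty527.infty_structure_core N k F hB.mem hB.span hB.indep (fun _ _ hf h0 => div_Δ hf h0)

end Fermat.Agent.S20
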