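import Fermat.Agent.S20.Defs

/-!
# Package C4 (helper801): structure of a homogeneous basis at `i∞`

Main result: `Fermat.Agent.S20.H801.infty_structure_of_div`, the statement `infty_structure` of the
S20 skeleton, with the division lemma `div_Δ` taken as an explicit hypothesis `DivDeltaStatement N`
(so that this file only depends on `Defs.lean`).

Construction: the cosets `Q = SL(2,ℤ)/Γ₀(N)` are parametrised by pairs (orbit of `T`, position in
the orbit) via `Subgroup.quotientEquivSigmaZMod`; the matrix `B` is the block discrete Fourier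
transform; `U` consists of the normalised Fourier components, which are `1`-periodic, holomorphic
and (by a removable singularity argument) bounded at `i∞`.
-/

set_option autoImplicit false

open UpperHalfPlane ModularForm CongruenceSubgroup Matrix.SpecialLinearGroup EisensteinSeries
open Filter Topology
open scoped MatrixGroups ModularForm Manifold
open Fermat.Agent.S20

namespace Fermat.Agent.S20.H801

section conjAPI

variable {Γ : Subgroup SL(2, ℤ)} {k : ℤ} {f : ℍ → ℂ}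

lemma conj_mk (hf : ∀ γ ∈ Γ, f ∣[k] γ = f) (g : SL(2, ℤ)) :
    conj Γ k f (g : SL(2, ℤ) ⧸ Γ) = f ∣[k] g⁻¹ := by
  unfold conj
  obtain ⟨γ, hγ⟩ := QuotientGroup.mk_out_eq_mul Γ g
  rw [hγ, mul_inv_rev, SlashAction.slash_mul, hf _ (Γ.inv_mem γ.2)]

lemma conj_smul (hf : ∀ γ ∈ Γ, f ∣[k] γ = f) (g : SL(2, ℤ)) (q : SL(2, ℤ) ⧸ Γ) :
    conj Γ k f (g • q) = (conj Γ k f q) ∣[k] g⁻¹ := by
  induction q using QuotientGroup.induction_on with
  | H x =>
    rw [MulAction.Quotient.smul_mk, conj_mk hf, conj_mk hf, smul_eq_mul, mul_inv_rev,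
      SlashAction.slash_mul]

lemma slash_eq_conj (hf : ∀ γ ∈ Γ, f ∣[k] γ = f) (g : SL(2, ℤ)) :
    f ∣[k] g = conj Γ k f ((g⁻¹ : SL(2, ℤ)) : SL(2, ℤ) ⧸ Γ) := by
  rw [conj_mk hf, inv_inv]

lemma slash_T_zpow (F : ℍ → ℂ) (k n : ℤ) (τ : ℍ) :
    (F ∣[k] (ModularGroup.T ^ n)) τ = F (ModularGroup.T ^ n • τ) := by
  rw [SL_slash_apply]
  have : denom (ModularGroup.T ^ n : SL(2, ℤ)) τ = 1 := by
    rw [ModularGroup.denom_apply, ModularGroup.coe_T_zpow]
    simp
  rw [this, one_zpow, mul_one]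

lemma conj_T_smul (hf : ∀ γ ∈ Γ, f ∣[k] γ = f) (q : SL(2, ℤ) ⧸ Γ) (τ : ℍ) :
    conj Γ k f (ModularGroup.T • q) (ModularGroup.T • τ) = conj Γ k f q τ := by
  rw [conj_smul hf]
  have := slash_T_zpow (conj Γ k f q) k (-1) (ModularGroup.T • τ)
  rw [zpow_neg_one] at this
  rw [this, inv_smul_smul]

end conjAPI

section analysis

lemma coe_T_smul (τ : ℍ) : ((ModularGroup.T • τ : ℍ) : ℂ) = τ + 1 := by
  simpa using ModularGroup.coe_T_zpow_smul_eq τ (n := 1)

lemma im_T_smul' (τ : ℍ) : (ModularGroup.T • τ : ℍ).im = τ.im := ModularGroup.im_T_smul τ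

/-- `T`-invariance gives `1`-periodicity of `f ∘ ofComplex`. -/
lemma periodic_of_T_smul {f : ℍ → ℂ} (hf : ∀ τ : ℍ, f (ModularGroup.T • τ) = f τ) :
    Function.Periodic (f ∘ ofComplex) ((1 : ℝ) : ℂ) := by
  intro w
  rw [Complex.ofReal_one]
  by_cases hw : 0 < w.im
  · have hw' : 0 < (w + 1).im := by simpa using hw
    simp only [Function.comp_apply, ofComplex_apply_of_im_pos hw', ofComplex_apply_of_im_pos hw]
    rw [← hf ⟨w, hw⟩]
    congr 1
    ext
    rw [coe_T_smul]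
  · have hw1 : w.im ≤ 0 := not_lt.mp hw
    have hw2 : (w + 1).im ≤ 0 := by simpa using hw1
    simp only [Function.comp_apply, ofComplex_apply_of_im_nonpos hw1,
      ofComplex_apply_of_im_nonpos hw2]

/-- A periodic holomorphic function bounded at `i∞` tends to its value at infinity. -/
lemma tendsto_valueAtInfty {f : ℍ → ℂ} (hper : Function.Periodic (f ∘ ofComplex) ((1 : ℝ) : ℂ))
    (hhol : MDiff f) (hbdd : IsBoundedAtImInfty f) :
    Tendsto f atImInfty (𝓝 (valueAtInfty f)) := by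
  have han := analyticAt_cuspFunction_zero one_pos hper hhol hbdd
  rw [← cuspFunction_apply_zero one_pos han hper]
  have : (cuspFunction 1 f ∘ fun τ : ℍ ↦ Function.Periodic.qParam 1 τ : ℍ → ℂ) = f := by
    funext τ
    simpa using eq_cuspFunction τ one_ne_zero hper
  simpa [this] using han.continuousAt.tendsto.comp (qParam_tendsto_atImInfty one_pos)

lemma norm_exp_mul_coe (c : ℂ) (τ : ℍ) :
    ‖Complex.exp (c * τ)‖ = Real.exp (c.re * τ.re - c.im * τ.im) := by
  rw [Complex.norm_exp]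
  simp [Complex.mul_re]

lemma norm_exp_two_pi_I_mul (e : ℝ) (τ : ℍ) :
    ‖Complex.exp (2 * Real.pi * Complex.I * e * τ)‖ = Real.exp (-2 * Real.pi * e * τ.im) := by
  rw [Complex.norm_exp]
  congr 1
  simp

lemma mdiff_exp_mul (c : ℂ) : MDiff (fun τ : ℍ => Complex.exp (c * τ)) := by
  rw [UpperHalfPlane.mdifferentiable_iff]
  have h1 : DifferentiableOn ℂ (fun z : ℂ => Complex.exp (c * z)) {z | 0 < z.im} :=
    ((differentiable_id.const_mul c).cexp).differentiableOn
  refine h1.congr (fun z hz => ?_)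
  simp only [Function.comp_apply, ofComplex_apply_of_im_pos hz]

/-- Key growth lemma: a `T`-invariant holomorphic function of the form
`exp (-2πi e τ) * w τ` with `e < 1` and `w` bounded at `i∞` is bounded at `i∞`. -/
lemma isBoundedAtImInfty_of_growth {u w : ℍ → ℂ} {e : ℝ} (he : e < 1)
    (hu : MDiff u) (hT : ∀ τ : ℍ, u (ModularGroup.T • τ) = u τ)
    (hw : IsBoundedAtImInfty w)
    (huw : ∀ τ : ℍ, u τ = Complex.exp (-(2 * Real.pi * Complex.I * e * τ)) * w τ) :
    IsBoundedAtImInfty u := by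
  -- the auxiliary function `v = exp (2πiτ) u`
  set v : ℍ → ℂ := fun τ => Complex.exp (2 * Real.pi * Complex.I * τ) * u τ with hv
  have hvT : ∀ τ : ℍ, v (ModularGroup.T • τ) = v τ := by
    intro τ
    simp only [hv, hT, coe_T_smul]
    congr 1
    rw [mul_add, Complex.exp_add, mul_one, Complex.exp_two_pi_mul_I, mul_one]
  have hvhol : MDiff v := (mdiff_exp_mul (2 * Real.pi * Complex.I)).mul hu
  have hvw : ∀ τ : ℍ, v τ = Complex.exp (2 * Real.pi * Complex.I * ((1 - e : ℝ) : ℂ) * τ) * w τ := by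
    intro τ
    simp only [hv, huw τ]
    rw [← mul_assoc, ← Complex.exp_add]
    congr 2
    push_cast
    ring
  have hvzero : IsZeroAtImInfty v := by
    have h1 : Tendsto (fun τ : ℍ => Complex.exp (2 * Real.pi * Complex.I * ((1 - e : ℝ) : ℂ) * τ))
        atImInfty (𝓝 0) := by
      rw [tendsto_zero_iff_norm_tendsto_zero]
      simp only [norm_exp_two_pi_I_mul]
      have h2 : Tendsto (fun τ : ℍ => τ.im) atImInfty atTop := tendsto_comap
      have h3 : Tendsto (fun τ : ℍ => -2 * Real.pi * (1 - e) * τ.im) atImInfty atBot := by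
        apply Tendsto.const_mul_atTop_of_neg _ h2
        have : 0 < 1 - e := by linarith
        nlinarith [Real.pi_pos]
      exact Real.tendsto_exp_atBot.comp h3
    have h4 : (fun τ : ℍ => v τ) = fun τ : ℍ => Complex.exp (2 * Real.pi * Complex.I * ((1 - e : ℝ) : ℂ) * τ) * w τ :=
      funext hvw
    show Tendsto v atImInfty (𝓝 0)
    rw [show v = fun τ => v τ from rfl, h4]
    have := (Asymptotics.isLittleO_one_iff ℝ).mpr h1 |>.mul_isBigO hw
    simpa using (Asymptotics.isLittleO_one_iff ℝ).mp (by simpa using this)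
  have hdecay := IsZeroAtImInfty.exp_decay_atImInfty hvzero one_pos (periodic_of_T_smul hvT) hvhol
    hvzero.isBoundedAtImInfty
  -- now `u = exp (-2πiτ) v`
  have hu' : u = fun τ : ℍ => Complex.exp (-(2 * Real.pi * Complex.I * τ)) * v τ := by
    funext τ
    simp only [hv]
    rw [← mul_assoc, ← Complex.exp_add, neg_add_cancel, Complex.exp_zero, one_mul]
  have h5 : (fun τ : ℍ => Complex.exp (-(2 * Real.pi * Complex.I * τ))) =O[atImInfty]
      fun τ : ℍ => Real.exp (2 * Real.pi * τ.im) := by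
    apply Asymptotics.isBigO_of_le
    intro τ
    rw [Complex.norm_exp, Real.norm_eq_abs, abs_of_pos (Real.exp_pos _)]
    simp
  have h6 := h5.mul hdecay
  show u =O[atImInfty] (1 : ℍ → ℝ)
  rw [hu']
  refine h6.trans (Asymptotics.isBigO_of_le _ (fun τ => ?_))
  rw [← Real.exp_add]
  have : 2 * Real.pi * τ.im + -2 * Real.pi * τ.im / 1 = 0 := by ring
  rw [this]
  simp

end analysis

section closure

lemma mdiff_finset_sum {ι : Type*} (s : Finset ι) (g : ι → ℍ → ℂ)
    (hg : ∀ i ∈ s, MDiff (g i)) : MDiff (fun τ => ∑ i ∈ s, g i τ) := by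
  classical
  induction s using Finset.induction_on with
  | empty => simpa using (mdifferentiable_const : MDiff (fun _ : ℍ => (0 : ℂ)))
  | insert i t hi IH =>
    have h1 : MDiff (g i) := hg i (Finset.mem_insert_self i t)
    have h2 := IH (fun j hj => hg j (Finset.mem_insert_of_mem hj))
    have h3 : (fun τ => ∑ j ∈ insert i t, g j τ) = g i + fun τ => ∑ j ∈ t, g j τ := by
      funext τ
      simp [Finset.sum_insert hi]
    rw [h3]
    exact h1.add h2

lemma mdiff_const_mul (a : ℂ) {g : ℍ → ℂ} (hg : MDiff g) : MDiff (fun τ => a * g τ) :=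
  (mdifferentiable_const (c := a)).mul hg

lemma bdd_finset_sum {ι : Type*} (s : Finset ι) (g : ι → ℍ → ℂ)
    (hg : ∀ i ∈ s, IsBoundedAtImInfty (g i)) : IsBoundedAtImInfty (fun τ => ∑ i ∈ s, g i τ) := by
  have := (boundedAtImInftySubalgebra ℂ).sum_mem (t := s) (f := g) hg
  have h2 : (∑ i ∈ s, g i) = fun τ => ∑ i ∈ s, g i τ := by
    funext τ
    simp
  rw [h2] at this
  exact this

lemma bdd_const_mul (a : ℂ) {g : ℍ → ℂ} (hg : IsBoundedAtImInfty g) :
    IsBoundedAtImInfty (fun τ => a * g τ) := by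
  have h1 : IsBoundedAtImInfty (fun _ : ℍ => a) := Filter.const_boundedAtFilter _ a
  exact Filter.BoundedAtFilter.mul h1 hg

lemma zero_finset_sum {ι : Type*} (s : Finset ι) (g : ι → ℍ → ℂ)
    (hg : ∀ i ∈ s, IsZeroAtImInfty (g i)) : IsZeroAtImInfty (fun τ => ∑ i ∈ s, g i τ) := by
  have := (zeroAtImInftySubmodule ℂ).sum_mem (t := s) (f := g) hg
  have h2 : (∑ i ∈ s, g i) = fun τ => ∑ i ∈ s, g i τ := by
    funext τ
    simp
  rw [h2] at this
  exact this

end closure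

section dft

/-- the standard primitive `p`-th root of unity -/
noncomputable def zet (p : ℕ) : ℂ := Complex.exp (2 * Real.pi * Complex.I / p)

lemma zet_isPrimitiveRoot (p : ℕ) [NeZero p] : IsPrimitiveRoot (zet p) p :=
  Complex.isPrimitiveRoot_exp p (NeZero.ne p)

lemma zet_ne_zero (p : ℕ) : zet p ≠ 0 := Complex.exp_ne_zero _

lemma zet_pow_self (p : ℕ) [NeZero p] : zet p ^ p = 1 := (zet_isPrimitiveRoot p).pow_eq_one

lemma zet_zpow_eq_one_iff (p : ℕ) [NeZero p] (a : ℤ) : zet p ^ a = 1 ↔ (p : ℤ) ∣ a :=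
  (zet_isPrimitiveRoot p).zpow_eq_one_iff_dvd a

lemma norm_zet_zpow (p : ℕ) (a : ℤ) : ‖zet p ^ a‖ = 1 := by
  rw [norm_zpow, zet, Complex.norm_exp]
  have : (2 * (Real.pi : ℂ) * Complex.I / (p : ℂ)).re = 0 := by
    simp [Complex.div_re]
  rw [this, Real.exp_zero, one_zpow]

lemma zet_zpow_natCast_eq_exp (p : ℕ) [NeZero p] (m : ℕ) :
    zet p ^ (m : ℤ) = Complex.exp (2 * Real.pi * Complex.I * ((m : ℝ) / (p : ℝ) : ℝ)) := by
  rw [zet, zpow_natCast, ← Complex.exp_nat_mul]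
  congr 1
  push_cast
  ring

/-- orthogonality of characters -/
lemma sum_zet_zpow (p : ℕ) [NeZero p] (a : ℤ) (ha : ¬ (p : ℤ) ∣ a) :
    ∑ m ∈ Finset.range p, zet p ^ (a * (m : ℤ)) = 0 := by
  have h1 : zet p ^ a ≠ 1 := fun h => ha ((zet_zpow_eq_one_iff p a).mp h)
  have h2 : ∀ m : ℕ, zet p ^ (a * (m : ℤ)) = (zet p ^ a) ^ m := by
    intro m
    rw [zpow_mul, zpow_natCast]
  simp only [h2]
  have h3 : (zet p ^ a) ^ p = 1 := by
    rw [← zpow_natCast, ← zpow_mul, mul_comm, zpow_mul, zpow_natCast, zet_pow_self, one_zpow]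
  have h4 := mul_geom_sum (zet p ^ a) p
  rw [h3, sub_self] at h4
  rcases mul_eq_zero.mp h4 with h | h
  · exact absurd (sub_eq_zero.mp h) h1
  · exact h

lemma sum_zet_zpow_eq (p : ℕ) [NeZero p] (a b : ℕ) (ha : a < p) (hb : b < p) :
    ∑ m ∈ Finset.range p, zet p ^ (((a : ℤ) - b) * (m : ℤ)) = if a = b then (p : ℂ) else 0 := by
  split_ifs with h
  · subst h
    simp
  · apply sum_zet_zpow
    intro hdvd
    apply h
    have h1 : ((a : ℤ) - b) = 0 := by
      apply Int.eq_zero_of_abs_lt_dvd hdvd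
      rw [abs_lt]
      constructor <;> omega
    omega

lemma sum_zmod_val {M : Type*} [AddCommMonoid M] (p : ℕ) [NeZero p] (g : ℕ → M) :
    ∑ m : ZMod p, g m.val = ∑ m ∈ Finset.range p, g m := by
  obtain ⟨n, rfl⟩ : ∃ n, p = n + 1 := Nat.exists_eq_succ_of_ne_zero (NeZero.ne p)
  rw [← Fin.sum_univ_eq_sum_range]
  rfl

/-- Fourier inversion on `ℤ/p`. -/
lemma dft_inversion (p : ℕ) [NeZero p] (g : ℕ → ℂ) (k : ℕ) (hk : k < p) :
    ∑ j ∈ Finset.range p, ((p : ℂ)⁻¹ * ∑ n ∈ Finset.range p, zet p ^ ((j : ℤ) * (n : ℤ)) * g n) *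
      zet p ^ (-((k : ℤ) * (j : ℤ))) = g k := by
  have hp0 : (p : ℂ) ≠ 0 := by exact_mod_cast NeZero.ne p
  have h1 : ∀ j ∈ Finset.range p,
      ((p : ℂ)⁻¹ * ∑ n ∈ Finset.range p, zet p ^ ((j : ℤ) * (n : ℤ)) * g n) *
        zet p ^ (-((k : ℤ) * (j : ℤ))) =
      (p : ℂ)⁻¹ * ∑ n ∈ Finset.range p, zet p ^ ((((n : ℤ) - (k : ℤ)) * (j : ℤ))) * g n := by
    intro j _
    rw [mul_assoc, Finset.sum_mul]
    congr 1
    apply Finset.sum_congr rfl
    intro n _
    rw [mul_right_comm, ← zpow_add₀ (zet_ne_zero p)]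
    congr 2
    ring
  rw [Finset.sum_congr rfl h1, ← Finset.mul_sum, Finset.sum_comm]
  simp only [← Finset.sum_mul]
  have h2 : ∀ n ∈ Finset.range p, (∑ j ∈ Finset.range p, zet p ^ (((n : ℤ) - (k : ℤ)) * (j : ℤ)))
      * g n = if n = k then (p : ℂ) * g k else 0 := by
    intro n hn
    rw [sum_zet_zpow_eq p n k (Finset.mem_range.mp hn) hk]
    split_ifs with h
    · rw [h]
    · simp
  rw [Finset.sum_congr rfl h2, Finset.sum_ite_eq' (Finset.range p) k]
  rw [if_pos (Finset.mem_range.mpr hk)]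
  field_simp

end dft

section orbits

variable (N : ℕ) [NeZero N]

/-- the set of `T`-orbits on the cosets -/
abbrev Orb : Type :=
  MulAction.orbitRel.Quotient (Subgroup.zpowers ModularGroup.T) (SL(2, ℤ) ⧸ Gamma0 N)

/-- size of the orbit -/
noncomputable abbrev per (ω : Orb N) : ℕ :=
  Function.minimalPeriod
    (fun q : SL(2, ℤ) ⧸ Gamma0 N => ModularGroup.T • q) (Quotient.out ω)

noncomputable instance instFintypeOrb : Fintype (Orb N) := Fintype.ofFinite _

noncomputable instance instDecEqOrb : DecidableEq (Orb N) := Classical.decEq _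

instance instNeZeroPer (ω : Orb N) : NeZero (per N ω) := MulAction.minimalPeriod_pos _ _

/-- index set of (orbit, frequency) pairs -/
abbrev Idx : Type := Σ ω : Orb N, ZMod (per N ω)

/-- the parametrisation of the cosets by (orbit, position in the orbit) -/
noncomputable def sig : (SL(2, ℤ) ⧸ Gamma0 N) ≃ Idx N :=
  Subgroup.quotientEquivSigmaZMod (Gamma0 N) ModularGroup.T

lemma sig_symm_apply (ω : Orb N) (k : ZMod (per N ω)) :
    (sig N).symm ⟨ω, k⟩ = ModularGroup.T ^ k.val • (Quotient.out ω) := by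
  unfold sig
  rw [Subgroup.quotientEquivSigmaZMod_symm_apply, ZMod.cast_eq_val, zpow_natCast]

omit [NeZero N] in
lemma T_pow_per_smul (ω : Orb N) :
    ModularGroup.T ^ (per N ω) • (Quotient.out ω : SL(2, ℤ) ⧸ Gamma0 N) = Quotient.out ω := by
  have h := Function.isPeriodicPt_minimalPeriod
    (fun q : SL(2, ℤ) ⧸ Gamma0 N => ModularGroup.T • q) (Quotient.out ω)
  have h2 : (fun q : SL(2, ℤ) ⧸ Gamma0 N => ModularGroup.T • q)^[per N ω] =
      fun q => ModularGroup.T ^ (per N ω) • q := smul_iterate ModularGroup.T (per N ω)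
  have h3 := h.eq
  rw [h2] at h3
  exact h3

lemma sum_per : ∑ ω : Orb N, (per N ω : ℝ) = ((Gamma0 N).index : ℝ) := by
  have := Subgroup.index_eq_sum_minimalPeriod (H := Gamma0 N) ModularGroup.T
  rw [this]
  push_cast
  rfl

lemma card_Orb : (Fintype.card (Orb N) : ℝ) = (numCusps N : ℝ) := by
  unfold numCusps
  rw [Nat.card_eq_fintype_card]

end orbits

section family

variable {N : ℕ} [NeZero N]

/-- hypothesis bundle on a family of functions indexed by the cosets -/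
structure IsConjFamily (c : (SL(2, ℤ) ⧸ Gamma0 N) → ℍ → ℂ) : Prop where
  shift : ∀ q τ, c (ModularGroup.T • q) (ModularGroup.T • τ) = c q τ
  hol : ∀ q, MDiff (c q)
  bdd : ∀ q, IsBoundedAtImInfty (c q)

/-- the exponents -/
noncomputable def eσ (x : Idx N) : ℝ := (x.2.val : ℝ) / (per N x.1 : ℝ)

lemma eσ_nonneg (x : Idx N) : 0 ≤ eσ x := by
  unfold eσ
  positivity

lemma eσ_lt_one (x : Idx N) : eσ x < 1 := by
  unfold eσ
  have hp : (0 : ℝ) < per N x.1 := by
    exact_mod_cast Nat.pos_of_ne_zero (NeZero.ne (per N x.1))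
  rw [div_lt_one hp]
  exact_mod_cast ZMod.val_lt x.2

/-- discrete Fourier components along an orbit -/
noncomputable def Wfun (c : (SL(2, ℤ) ⧸ Gamma0 N) → ℍ → ℂ) (x : Idx N) (τ : ℍ) : ℂ :=
  (per N x.1 : ℂ)⁻¹ * ∑ n ∈ Finset.range (per N x.1),
    zet (per N x.1) ^ ((x.2.val : ℤ) * (n : ℤ)) * c (ModularGroup.T ^ n • Quotient.out x.1) τ

/-- the normalised (periodic) components -/
noncomputable def Ufun (c : (SL(2, ℤ) ⧸ Gamma0 N) → ℍ → ℂ) (x : Idx N) (τ : ℍ) : ℂ :=
  Complex.exp (-(2 * Real.pi * Complex.I * (eσ x : ℝ) * τ)) * Wfun c x τ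

lemma Wfun_T {c : (SL(2, ℤ) ⧸ Gamma0 N) → ℍ → ℂ}
    (hc : ∀ q τ, c (ModularGroup.T • q) (ModularGroup.T • τ) = c q τ) (x : Idx N) (τ : ℍ) :
    Wfun c x (ModularGroup.T • τ) = zet (per N x.1) ^ (x.2.val : ℤ) * Wfun c x τ := by
  unfold Wfun
  set p := per N x.1 with hp
  set m : ℤ := (x.2.val : ℤ) with hm
  set b : SL(2, ℤ) ⧸ Gamma0 N := Quotient.out x.1 with hb
  set A : ℕ → ℂ := fun n => zet p ^ (m * (n : ℤ)) * c (ModularGroup.T ^ n • b) (ModularGroup.T • τ)
    with hA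
  set B : ℕ → ℂ := fun n => zet p ^ (m * (n : ℤ)) * c (ModularGroup.T ^ n • b) τ with hB
  have h1 : ∀ n, A (n + 1) = zet p ^ m * B n := by
    intro n
    simp only [hA, hB]
    rw [pow_succ', mul_smul, hc]
    have : m * ((n + 1 : ℕ) : ℤ) = m + m * n := by push_cast; ring
    rw [this, zpow_add₀ (zet_ne_zero p)]
    ring
  have h2 : A p = A 0 := by
    simp only [hA]
    rw [T_pow_per_smul, pow_zero, one_smul]
    congr 1
    have : zet p ^ (m * (p : ℤ)) = 1 := by
      rw [(zet_zpow_eq_one_iff p _)]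
      exact Dvd.intro_left m rfl
    rw [this]
    simp
  have h3 : ∑ n ∈ Finset.range p, A n = ∑ n ∈ Finset.range p, A (n + 1) := by
    have e1 := Finset.sum_range_succ A p
    have e2 := Finset.sum_range_succ' A p
    rw [e1, h2] at e2
    exact add_right_cancel e2
  show (p : ℂ)⁻¹ * ∑ n ∈ Finset.range p, A n = zet p ^ m * ((p : ℂ)⁻¹ * ∑ n ∈ Finset.range p, B n)
  rw [h3]
  simp only [h1]
  rw [← Finset.mul_sum]
  ring

lemma Ufun_T {c : (SL(2, ℤ) ⧸ Gamma0 N) → ℍ → ℂ}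
    (hc : ∀ q τ, c (ModularGroup.T • q) (ModularGroup.T • τ) = c q τ) (x : Idx N) (τ : ℍ) :
    Ufun c x (ModularGroup.T • τ) = Ufun c x τ := by
  unfold Ufun
  rw [Wfun_T hc, coe_T_smul, zet_zpow_natCast_eq_exp]
  rw [← mul_assoc, ← Complex.exp_add]
  congr 2
  unfold eσ
  push_cast
  ring

end family

section family2

variable {N : ℕ} [NeZero N]

lemma Wfun_mdiff {c : (SL(2, ℤ) ⧸ Gamma0 N) → ℍ → ℂ} (hc : ∀ q, MDiff (c q)) (x : Idx N) :
    MDiff (Wfun c x) := by
  unfold Wfun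
  apply mdiff_const_mul
  apply mdiff_finset_sum
  intro n _
  exact mdiff_const_mul _ (hc _)

lemma Wfun_bdd {c : (SL(2, ℤ) ⧸ Gamma0 N) → ℍ → ℂ} (hc : ∀ q, IsBoundedAtImInfty (c q))
    (x : Idx N) : IsBoundedAtImInfty (Wfun c x) := by
  unfold Wfun
  apply bdd_const_mul
  apply bdd_finset_sum
  intro n _
  exact bdd_const_mul _ (hc _)

lemma Ufun_mdiff {c : (SL(2, ℤ) ⧸ Gamma0 N) → ℍ → ℂ} (hc : ∀ q, MDiff (c q)) (x : Idx N) :
    MDiff (Ufun c x) := by
  unfold Ufun
  have h1 := mdiff_exp_mul (-(2 * Real.pi * Complex.I * (eσ x : ℝ)))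
  have h2 : (fun τ : ℍ => Complex.exp (-(2 * Real.pi * Complex.I * (eσ x : ℝ)) * τ)) =
      fun τ : ℍ => Complex.exp (-(2 * Real.pi * Complex.I * (eσ x : ℝ) * τ)) := by
    funext τ
    congr 1
    ring
  rw [h2] at h1
  exact h1.mul (Wfun_mdiff hc x)

lemma Ufun_bdd {c : (SL(2, ℤ) ⧸ Gamma0 N) → ℍ → ℂ} (hc : IsConjFamily c) (x : Idx N) :
    IsBoundedAtImInfty (Ufun c x) :=
  isBoundedAtImInfty_of_growth (eσ_lt_one x) (Ufun_mdiff hc.hol x) (Ufun_T hc.shift x)
    (Wfun_bdd hc.bdd x) (fun _ => rfl)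

lemma Ufun_periodic {c : (SL(2, ℤ) ⧸ Gamma0 N) → ℍ → ℂ} (hc : IsConjFamily c) (x : Idx N) :
    Function.Periodic (Ufun c x ∘ ofComplex) ((1 : ℝ) : ℂ) :=
  periodic_of_T_smul (Ufun_T hc.shift x)

lemma Ufun_tendsto {c : (SL(2, ℤ) ⧸ Gamma0 N) → ℍ → ℂ} (hc : IsConjFamily c) (x : Idx N) :
    Tendsto (Ufun c x) atImInfty (𝓝 (valueAtInfty (Ufun c x))) :=
  tendsto_valueAtInfty (Ufun_periodic hc x) (Ufun_mdiff hc.hol x) (Ufun_bdd hc x)

/-- `Ufun` times the exponential is `Wfun`. -/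
lemma Ufun_mul_exp (c : (SL(2, ℤ) ⧸ Gamma0 N) → ℍ → ℂ) (x : Idx N) (τ : ℍ) :
    Ufun c x τ * Complex.exp (2 * Real.pi * Complex.I * (eσ x : ℝ) * τ) = Wfun c x τ := by
  unfold Ufun
  rw [mul_comm, ← mul_assoc, ← Complex.exp_add, add_neg_cancel, Complex.exp_zero, one_mul]

/-- Fourier inversion along an orbit. -/
lemma sum_Wfun (c : (SL(2, ℤ) ⧸ Gamma0 N) → ℍ → ℂ) (ω : Orb N) (k : ZMod (per N ω)) (τ : ℍ) :
    ∑ m : ZMod (per N ω), Wfun c ⟨ω, m⟩ τ * zet (per N ω) ^ (-((k.val : ℤ) * (m.val : ℤ))) =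
      c (ModularGroup.T ^ k.val • Quotient.out ω) τ := by
  have h := dft_inversion (per N ω) (fun n => c (ModularGroup.T ^ n • Quotient.out ω) τ) k.val
    (ZMod.val_lt k)
  rw [← sum_zmod_val (per N ω) (fun j => ((per N ω : ℂ)⁻¹ * ∑ n ∈ Finset.range (per N ω),
    zet (per N ω) ^ ((j : ℤ) * (n : ℤ)) * (fun n => c (ModularGroup.T ^ n • Quotient.out ω) τ) n) *
      zet (per N ω) ^ (-((k.val : ℤ) * (j : ℤ))))] at h
  exact h

end family2

section matrices

variable (N : ℕ) [NeZero N]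

/-- the block DFT matrix -/
noncomputable def Bσ : Matrix (Idx N) (Idx N) ℂ := fun x' x =>
  if x'.1 = x.1 then zet (per N x.1) ^ (-((x.2.val : ℤ) * (x'.2.val : ℤ))) else 0

/-- its inverse -/
noncomputable def Bσinv : Matrix (Idx N) (Idx N) ℂ := fun x x'' =>
  if x.1 = x''.1 then (per N x.1 : ℂ)⁻¹ * zet (per N x.1) ^ ((x.2.val : ℤ) * (x''.2.val : ℤ))
  else 0

lemma Bσ_mul_inv : Bσ N * Bσinv N = 1 := by
  ext ⟨ω', m'⟩ ⟨ω'', m''⟩
  rw [Matrix.mul_apply, Fintype.sum_sigma]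
  by_cases h : ω' = ω''
  · subst h
    rw [Finset.sum_eq_single ω']
    · simp only [Bσ, Bσinv, if_true]
      have hp0 : (per N ω' : ℂ) ≠ 0 := by exact_mod_cast NeZero.ne (per N ω')
      have h1 : ∀ k : ZMod (per N ω'),
          zet (per N ω') ^ (-((k.val : ℤ) * (m'.val : ℤ))) *
            ((per N ω' : ℂ)⁻¹ * zet (per N ω') ^ ((k.val : ℤ) * (m''.val : ℤ))) =
          (fun j : ℕ => (per N ω' : ℂ)⁻¹ *
            zet (per N ω') ^ ((((m''.val : ℤ) - (m'.val : ℤ)) * (j : ℤ)))) k.val := by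
        intro k
        simp only []
        rw [mul_left_comm, ← zpow_add₀ (zet_ne_zero _)]
        congr 2
        ring
      rw [Finset.sum_congr rfl (fun k _ => h1 k),
        sum_zmod_val (per N ω') (fun j : ℕ => (per N ω' : ℂ)⁻¹ *
            zet (per N ω') ^ ((((m''.val : ℤ) - (m'.val : ℤ)) * (j : ℤ)))),
        ← Finset.mul_sum,
        sum_zet_zpow_eq _ _ _ (ZMod.val_lt m'') (ZMod.val_lt m')]
      by_cases hm : m' = m''
      · subst hm
        simp [hp0]
      · have hv : ¬ (m''.val = m'.val) := fun hv => hm (ZMod.val_injective _ hv.symm)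
        have hne : (⟨ω', m'⟩ : Idx N) ≠ ⟨ω', m''⟩ := by
          intro heq
          exact hm (eq_of_heq (Sigma.mk.inj heq).2)
        rw [if_neg hv, Matrix.one_apply_ne hne]
        simp
    · intro ω _ hω
      apply Finset.sum_eq_zero
      intro k _
      simp only [Bσ]
      rw [if_neg (fun h => hω h.symm), zero_mul]
    · intro h
      exact absurd (Finset.mem_univ _) h
  · have hne : (⟨ω', m'⟩ : Idx N) ≠ ⟨ω'', m''⟩ := by
      intro heq
      exact h (Sigma.mk.inj heq).1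
    rw [Matrix.one_apply_ne hne]
    apply Finset.sum_eq_zero
    intro ω _
    apply Finset.sum_eq_zero
    intro k _
    simp only [Bσ, Bσinv]
    by_cases h1 : ω' = ω
    · subst h1
      rw [if_neg h, mul_zero]
    · rw [if_neg h1, zero_mul]

lemma det_Bσ_ne_zero : (Bσ N).det ≠ 0 := by
  have h := congrArg Matrix.det (Bσ_mul_inv N)
  rw [Matrix.det_mul, Matrix.det_one] at h
  exact left_ne_zero_of_mul_eq_one h

lemma sum_range_cast (p : ℕ) : ∑ m ∈ Finset.range p, (m : ℝ) = (p : ℝ) * ((p : ℝ) - 1) / 2 := by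
  induction p with
  | zero => simp
  | succ n ih =>
    rw [Finset.sum_range_succ, ih]
    push_cast
    ring

lemma two_mul_sum_eσ :
    2 * ∑ x : Idx N, eσ x = ((Gamma0 N).index : ℝ) - (numCusps N : ℝ) := by
  rw [Fintype.sum_sigma]
  have h1 : ∀ ω : Orb N, ∑ m : ZMod (per N ω), eσ (⟨ω, m⟩ : Idx N) = ((per N ω : ℝ) - 1) / 2 := by
    intro ω
    have hp0 : (per N ω : ℝ) ≠ 0 := by exact_mod_cast NeZero.ne (per N ω)
    simp only [eσ]
    rw [sum_zmod_val (per N ω) (fun j : ℕ => (j : ℝ) / (per N ω : ℝ)), ← Finset.sum_div,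
      sum_range_cast]
    field_simp
  rw [Finset.sum_congr rfl (fun ω _ => h1 ω), ← Finset.sum_div, Finset.sum_sub_distrib,
    sum_per, Finset.sum_const, Finset.card_univ, nsmul_eq_mul, mul_one, card_Orb]
  ring

end matrices

section mainIdentity

variable {N : ℕ} [NeZero N]

lemma main_identity_idx (c : (SL(2, ℤ) ⧸ Gamma0 N) → ℍ → ℂ) (x : Idx N) (τ : ℍ) :
    c ((sig N).symm x) τ =
      ∑ x' : Idx N, Ufun c x' τ * Complex.exp (2 * Real.pi * Complex.I * (eσ x' : ℝ) * τ) *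
        Bσ N x' x := by
  obtain ⟨ω, k⟩ := x
  rw [Fintype.sum_sigma, Finset.sum_eq_single ω]
  · simp only [Bσ, if_true, Ufun_mul_exp]
    rw [sum_Wfun, sig_symm_apply]
  · intro ω' _ hω
    apply Finset.sum_eq_zero
    intro m _
    simp only [Bσ]
    rw [if_neg hω, mul_zero]
  · intro h
    exact absurd (Finset.mem_univ _) h

lemma main_identity (c : (SL(2, ℤ) ⧸ Gamma0 N) → ℍ → ℂ) (q : SL(2, ℤ) ⧸ Gamma0 N) (τ : ℍ) :
    c q τ =
      ∑ q' : SL(2, ℤ) ⧸ Gamma0 N, Ufun c (sig N q') τ *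
        Complex.exp (2 * Real.pi * Complex.I * (eσ (sig N q') : ℝ) * τ) *
        Bσ N (sig N q') (sig N q) := by
  have h := main_identity_idx c (sig N q) τ
  rw [Equiv.symm_apply_apply] at h
  rw [h]
  exact (Equiv.sum_comp (sig N) (fun x' => Ufun c x' τ *
    Complex.exp (2 * Real.pi * Complex.I * (eσ x' : ℝ) * τ) * Bσ N x' (sig N q))).symm

/-- linearity of `Ufun` in the family, with coefficient functions -/
lemma Ufun_sum {ι : Type*} (s : Finset ι) (a : ι → ℍ → ℂ)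
    (c : ι → (SL(2, ℤ) ⧸ Gamma0 N) → ℍ → ℂ) (x : Idx N) (τ : ℍ) :
    Ufun (fun q τ => ∑ j ∈ s, a j τ * c j q τ) x τ = ∑ j ∈ s, a j τ * Ufun (c j) x τ := by
  simp only [Ufun, Wfun]
  simp only [Finset.mul_sum]
  rw [Finset.sum_comm]
  apply Finset.sum_congr rfl
  intro j _
  apply Finset.sum_congr rfl
  intro n _
  ring

end mainIdentity

section mf

lemma isMF_top_of_class {F : Type*} [FunLike F ℍ ℂ] {k : ℤ} [ModularFormClass F 𝒮ℒ k] (f : F) :
    IsMF ⊤ k (f : ℍ → ℂ) := by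
  have hinv : ∀ γ : SL(2, ℤ), (f : ℍ → ℂ) ∣[k] γ = f := fun γ =>
    SlashInvariantFormClass.slash_action_eq f _ ⟨γ, rfl⟩
  refine ⟨ModularFormClass.holo f, fun γ _ => hinv γ, fun g => ?_⟩
  rw [hinv g]
  exact ModularFormClass.bdd_at_infty f

lemma isMF_discriminant : IsMF ⊤ 12 ModularForm.discriminant :=
  isMF_top_of_class CuspForm.discriminant

lemma isMF_mul_top {Γ : Subgroup SL(2, ℤ)} {k₁ k₂ : ℤ} {a F : ℍ → ℂ}
    (ha : IsMF ⊤ k₁ a) (hF : IsMF Γ k₂ F) : IsMF Γ (k₁ + k₂) (a * F) := by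
  refine ⟨ha.1.mul hF.1, fun γ hγ => ?_, fun g => ?_⟩
  · rw [mul_slash_SL2, ha.2.1 γ (Subgroup.mem_top γ), hF.2.1 γ hγ]
  · rw [mul_slash_SL2, ha.2.1 g (Subgroup.mem_top g)]
    have h1 := ha.2.2 1
    rw [SlashAction.slash_one] at h1
    exact Filter.BoundedAtFilter.mul h1 (hF.2.2 g)

lemma isMF_add {Γ : Subgroup SL(2, ℤ)} {k : ℤ} {f g : ℍ → ℂ}
    (hf : IsMF Γ k f) (hg : IsMF Γ k g) : IsMF Γ k (f + g) := by
  refine ⟨hf.1.add hg.1, fun γ hγ => ?_, fun γ => ?_⟩
  · rw [SlashAction.add_slash, hf.2.1 γ hγ, hg.2.1 γ hγ]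
  · rw [SlashAction.add_slash]
    exact Filter.BoundedAtFilter.add (hf.2.2 γ) (hg.2.2 γ)

lemma isMF_zero {Γ : Subgroup SL(2, ℤ)} {k : ℤ} : IsMF Γ k (0 : ℍ → ℂ) := by
  refine ⟨mdifferentiable_const, fun γ _ => SlashAction.zero_slash _ _, fun γ => ?_⟩
  rw [SlashAction.zero_slash]
  exact zero_form_isBoundedAtImInfty

lemma isMF_smul {Γ : Subgroup SL(2, ℤ)} {k : ℤ} {f : ℍ → ℂ} (c : ℂ)
    (hf : IsMF Γ k f) : IsMF Γ k (c • f) := by
  refine ⟨hf.1.const_smul c, fun γ hγ => ?_, fun γ => ?_⟩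
  · rw [ModularForm.SL_smul_slash, hf.2.1 γ hγ]
  · rw [ModularForm.SL_smul_slash]
    exact (boundedAtImInftySubalgebra ℂ).smul_mem (hf.2.2 γ) c

lemma isMF_neg {Γ : Subgroup SL(2, ℤ)} {k : ℤ} {f : ℍ → ℂ}
    (hf : IsMF Γ k f) : IsMF Γ k (-f) := by
  have := isMF_smul (-1) hf
  simpa using this

lemma isMF_sub {Γ : Subgroup SL(2, ℤ)} {k : ℤ} {f g : ℍ → ℂ}
    (hf : IsMF Γ k f) (hg : IsMF Γ k g) : IsMF Γ k (f - g) := by
  rw [sub_eq_add_neg]
  exact isMF_add hf (isMF_neg hg)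

lemma isMF_sum {Γ : Subgroup SL(2, ℤ)} {k : ℤ} {ι : Type*} (s : Finset ι) {f : ι → ℍ → ℂ}
    (hf : ∀ i ∈ s, IsMF Γ k (f i)) : IsMF Γ k (∑ i ∈ s, f i) := by
  classical
  induction s using Finset.induction_on with
  | empty => simpa using isMF_zero
  | insert i t hi IH =>
    rw [Finset.sum_insert hi]
    exact isMF_add (hf i (Finset.mem_insert_self i t))
      (IH (fun j hj => hf j (Finset.mem_insert_of_mem hj)))

lemma isMF_congr_weight {Γ : Subgroup SL(2, ℤ)} {k k' : ℤ} {f : ℍ → ℂ}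
    (hf : IsMF Γ k f) (h : k = k') : IsMF Γ k' f := h ▸ hf

/-- slash by `-1` -/
lemma slash_neg_one (f : ℍ → ℂ) (k : ℤ) (τ : ℍ) :
    (f ∣[k] (-1 : SL(2, ℤ))) τ = f τ * (-1) ^ (-k) := by
  rw [SL_slash_apply]
  have h1 : (-1 : SL(2, ℤ)) • τ = τ := by
    rw [ModularGroup.SL_neg_smul, one_smul]
  have h2 : denom ((-1 : SL(2, ℤ))) τ = -1 := by
    rw [ModularGroup.denom_apply]
    simp
  rw [h1, h2]

lemma neg_one_mem_Gamma0 (N : ℕ) : (-1 : SL(2, ℤ)) ∈ Gamma0 N := by
  rw [Gamma0_mem]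
  simp

/-- a nonzero form on `Γ₀(N)` has even weight -/
lemma isMF_even_weight {N : ℕ} {k : ℤ} {f : ℍ → ℂ} (hf : IsMF (Gamma0 N) k f) (hne : f ≠ 0) :
    Even k := by
  by_contra hodd
  rw [Int.not_even_iff_odd] at hodd
  apply hne
  funext τ
  have h1 := congrFun (hf.2.1 _ (neg_one_mem_Gamma0 N)) τ
  rw [slash_neg_one, (Odd.neg hodd).neg_one_zpow] at h1
  have h2 : f τ + f τ = 0 := by
    nth_rewrite 1 [← h1]
    ring
  have h3 : (2 : ℂ) * f τ = 0 := by rw [two_mul]; exact h2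
  simpa using h3

/-- Eisenstein series of even weight `≥ 4`: level one, tends to `1` at `i∞`. -/
lemma exists_levelOne_tendsto_one (n : ℕ) (hn : 3 ≤ n) (hn2 : Even n) :
    ∃ a : ℍ → ℂ, IsMF ⊤ (n : ℤ) a ∧ Tendsto a atImInfty (𝓝 1) := by
  refine ⟨E hn, isMF_top_of_class (E hn), ?_⟩
  have hper : Function.Periodic ((E hn : ℍ → ℂ) ∘ ofComplex) ((1 : ℝ) : ℂ) :=
    SlashInvariantFormClass.periodic_comp_ofComplex (E hn) one_mem_strictPeriods_SL
  have han := ModularFormClass.analyticAt_cuspFunction_zero (E hn) one_pos one_mem_strictPeriods_SL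
  have h1 := qExpansion_coeff_zero one_pos han hper
  rw [E_qExpansion_coeff_zero hn hn2] at h1
  have h2 := tendsto_valueAtInfty hper (ModularFormClass.holo (E hn))
    (ModularFormClass.bdd_at_infty (E hn))
  rw [← h1] at h2
  exact h2

lemma isMF_conjFamily {N : ℕ} [NeZero N] {k : ℤ} {f : ℍ → ℂ} (hf : IsMF (Gamma0 N) k f) :
    IsConjFamily (conj (Gamma0 N) k f) where
  shift := conj_T_smul hf.2.1
  hol := fun _ => hf.1.slash k _
  bdd := fun _ => hf.2.2 _

end mf

section indep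

variable {N : ℕ} [NeZero N] {ι : Type} [Fintype ι] {k : ι → ℤ} {F : ι → ℍ → ℂ}

lemma isMF_one_top : IsMF ⊤ 0 (1 : ℍ → ℂ) := by
  refine ⟨mdifferentiable_const, fun γ _ => is_invariant_one γ, fun g => ?_⟩
  rw [is_invariant_one]
  exact Filter.const_boundedAtFilter _ (1 : ℂ)

/-- members of a homogeneous basis are nonzero -/
lemma homBasis_ne_zero (hB : IsHomBasis N k F) (j : ι) : F j ≠ 0 := by
  classical
  intro h0
  have ha : ∀ i, IsMF ⊤ (k j - k i) ((Pi.single j (1 : ℍ → ℂ) : ι → ℍ → ℂ) i) := by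
    intro i
    by_cases hij : i = j
    · subst hij
      rw [Pi.single_eq_same, sub_self]
      exact isMF_one_top
    · rw [Pi.single_eq_of_ne hij]
      exact isMF_zero
  have hsum : ∑ i, (Pi.single j (1 : ℍ → ℂ) : ι → ℍ → ℂ) i * F i = 0 := by
    rw [Finset.sum_eq_single j]
    · rw [Pi.single_eq_same, h0, mul_zero]
    · intro i _ hij
      rw [Pi.single_eq_of_ne hij, zero_mul]
    · intro h
      exact absurd (Finset.mem_univ _) h
  have := hB.indep (k j) _ ha hsum j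
  rw [Pi.single_eq_same] at this
  have h1 := congrFun this UpperHalfPlane.I
  simp at h1

lemma homBasis_weight_even (hB : IsHomBasis N k F) (j : ι) : Even (k j) :=
  isMF_even_weight (hB.mem j) (homBasis_ne_zero hB j)

/-- conjugates of a combination with level-one coefficients -/
lemma conj_sum_mul (K : ℤ) (g : ι → ℂ) (a : ι → ℍ → ℂ)
    (ha : ∀ j, IsMF ⊤ (K - k j) (a j)) (q : SL(2, ℤ) ⧸ Gamma0 N) (τ : ℍ) :
    conj (Gamma0 N) K (∑ j, g j • (a j * F j)) q τ =
      ∑ j, (g j * a j τ) * conj (Gamma0 N) (k j) (F j) q τ := by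
  unfold conj
  rw [SlashAction.sum_slash, Finset.sum_apply]
  apply Finset.sum_congr rfl
  intro j _
  rw [ModularForm.SL_smul_slash]
  have h1 : (a j * F j) ∣[K] ((Quotient.out q : SL(2, ℤ))⁻¹) =
      (a j) ∣[K - k j] ((Quotient.out q : SL(2, ℤ))⁻¹) *
        (F j) ∣[k j] ((Quotient.out q : SL(2, ℤ))⁻¹) := by
    rw [← mul_slash_SL2, sub_add_cancel]
  rw [h1, (ha j).2.1 _ (Subgroup.mem_top _)]
  simp only [Pi.smul_apply, Pi.mul_apply, smul_eq_mul]
  ring

/-- the limit matrix in the `Idx` indexing -/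
noncomputable def Lσ (k : ι → ℤ) (F : ι → ℍ → ℂ) (j : ι) (x : Idx N) : ℂ :=
  valueAtInfty (Ufun (conj (Gamma0 N) (k j) (F j)) x)

/-- The statement of the division lemma `div_Δ` for `Γ₀(N)` (proved in the package `Division`). -/
def DivDeltaStatement (N : ℕ) : Prop :=
  ∀ (w : ℤ) (f : ℍ → ℂ), IsMF (Gamma0 N) w f →
    (∀ g : SL(2, ℤ), (f ∣[w] g) =O[atImInfty] fun τ : ℍ => Real.exp (-2 * Real.pi * τ.im)) →
    ∃ h : ℍ → ℂ, IsMF (Gamma0 N) (w - 12) h ∧ f = ModularForm.discriminant * h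

lemma Lσ_indep (hdiv : DivDeltaStatement N) (hB : IsHomBasis N k F) (g : ι → ℂ)
    (hg : ∀ x : Idx N, ∑ j, g j * Lσ k F j x = 0) : ∀ j, g j = 0 := by
  classical
  -- the common weight
  set K : ℤ := 12 + 2 * ∑ j, |k j| with hK
  have hKk : ∀ j, 12 ≤ K - k j := by
    intro j
    have h1 : |k j| ≤ ∑ i, |k i| :=
      Finset.single_le_sum (f := fun i => |k i|) (fun i _ => abs_nonneg _) (Finset.mem_univ j)
    have h2 : k j ≤ |k j| := le_abs_self _
    have h3 : 0 ≤ |k j| := abs_nonneg _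
    rw [hK]
    linarith
  have hKeven : ∀ j, Even (K - k j) := by
    intro j
    have h1 : Even K := by
      rw [hK]
      exact Even.add (by decide) (even_two_mul _)
    exact Even.sub h1 (homBasis_weight_even hB j)
  -- level one coefficients tending to `1`
  have hex : ∀ j, ∃ a : ℍ → ℂ, IsMF ⊤ (K - k j) a ∧ Tendsto a atImInfty (𝓝 1) := by
    intro j
    have h0 : 0 ≤ K - k j := le_trans (by norm_num) (hKk j)
    have h3 : 3 ≤ (K - k j).toNat := by
      have := hKk j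
      omega
    have h2 : Even (K - k j).toNat := by
      have := hKeven j
      rw [← Int.toNat_of_nonneg h0] at this
      exact (Int.even_coe_nat _).mp this
    obtain ⟨a, ha1, ha2⟩ := exists_levelOne_tendsto_one _ h3 h2
    exact ⟨a, isMF_congr_weight ha1 (Int.toNat_of_nonneg h0), ha2⟩
  choose a ha1 ha2 using hex
  -- the combination
  set f : ℍ → ℂ := ∑ j, g j • (a j * F j) with hf
  have hfMF : IsMF (Gamma0 N) K f := by
    apply isMF_sum
    intro j _
    apply isMF_smul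
    exact isMF_congr_weight (isMF_mul_top (ha1 j) (hB.mem j)) (sub_add_cancel K (k j))
  have hfam := isMF_conjFamily hfMF
  have hcj : ∀ j, IsConjFamily (conj (Gamma0 N) (k j) (F j)) := fun j =>
    isMF_conjFamily (hB.mem j)
  have hconj : conj (Gamma0 N) K f =
      fun q τ => ∑ j, (fun j τ => g j * a j τ) j τ * (fun j => conj (Gamma0 N) (k j) (F j)) j q τ := by
    funext q τ
    exact conj_sum_mul K g a ha1 q τ
  -- the components of `f` tend to zero
  have hzero : ∀ x : Idx N, IsZeroAtImInfty (Ufun (conj (Gamma0 N) K f) x) := by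
    intro x
    have h1 : Ufun (conj (Gamma0 N) K f) x =
        fun τ => ∑ j, (g j * a j τ) * Ufun (conj (Gamma0 N) (k j) (F j)) x τ := by
      funext τ
      rw [hconj]
      exact Ufun_sum Finset.univ (fun j τ => g j * a j τ)
        (fun j => conj (Gamma0 N) (k j) (F j)) x τ
    show Tendsto _ atImInfty (𝓝 0)
    rw [h1, ← hg x]
    apply tendsto_finsetSum
    intro j _
    have h2 : Tendsto (fun τ => g j * a j τ) atImInfty (𝓝 (g j * 1)) :=
      (ha2 j).const_mul (g j)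
    rw [mul_one] at h2
    exact h2.mul (Ufun_tendsto (hcj j) x)
  -- hence exponential decay of the components
  have hdecay : ∀ x : Idx N, Ufun (conj (Gamma0 N) K f) x =O[atImInfty]
      fun τ : ℍ => Real.exp (-2 * Real.pi * τ.im) := by
    intro x
    have := IsZeroAtImInfty.exp_decay_atImInfty (hzero x) one_pos (Ufun_periodic hfam x)
      (Ufun_mdiff hfam.hol x) (Ufun_bdd hfam x)
    simpa using this
  -- hence exponential decay of all conjugates
  have hconjdecay : ∀ q : SL(2, ℤ) ⧸ Gamma0 N, conj (Gamma0 N) K f q =O[atImInfty]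
      fun τ : ℍ => Real.exp (-2 * Real.pi * τ.im) := by
    intro q
    have h1 : conj (Gamma0 N) K f q = fun τ => ∑ q' : SL(2, ℤ) ⧸ Gamma0 N,
        Ufun (conj (Gamma0 N) K f) (sig N q') τ *
        Complex.exp (2 * Real.pi * Complex.I * (eσ (sig N q') : ℝ) * τ) *
        Bσ N (sig N q') (sig N q) := by
      funext τ
      exact main_identity _ q τ
    rw [h1]
    have h1' : (fun τ : ℍ => ∑ q' : SL(2, ℤ) ⧸ Gamma0 N,
        Ufun (conj (Gamma0 N) K f) (sig N q') τ *
        Complex.exp (2 * Real.pi * Complex.I * (eσ (sig N q') : ℝ) * τ) *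
        Bσ N (sig N q') (sig N q)) = ∑ q' : SL(2, ℤ) ⧸ Gamma0 N, fun τ : ℍ =>
        Ufun (conj (Gamma0 N) K f) (sig N q') τ *
        Complex.exp (2 * Real.pi * Complex.I * (eσ (sig N q') : ℝ) * τ) *
        Bσ N (sig N q') (sig N q) := by
      funext τ
      rw [Finset.sum_apply]
    rw [h1']
    apply Asymptotics.IsBigO.sum
    intro q' _
    have h2 : (fun τ : ℍ => Complex.exp (2 * Real.pi * Complex.I * (eσ (sig N q') : ℝ) * τ) *
        Bσ N (sig N q') (sig N q)) =O[atImInfty] fun _ : ℍ => (1 : ℝ) := by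
      apply Asymptotics.IsBigO.of_bound ‖Bσ N (sig N q') (sig N q)‖
      refine Filter.Eventually.of_forall (fun τ => ?_)
      rw [norm_mul, norm_exp_two_pi_I_mul, norm_one, mul_one]
      have h3 : Real.exp (-2 * Real.pi * eσ (sig N q') * τ.im) ≤ 1 := by
        rw [Real.exp_le_one_iff]
        have := eσ_nonneg (sig N q')
        have := τ.im_pos
        have := Real.pi_pos
        have h4 : 0 ≤ 2 * Real.pi * eσ (sig N q') * τ.im := by positivity
        linarith
      calc Real.exp (-2 * Real.pi * eσ (sig N q') * τ.im) * ‖Bσ N (sig N q') (sig N q)‖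
          ≤ 1 * ‖Bσ N (sig N q') (sig N q)‖ :=
            mul_le_mul_of_nonneg_right h3 (norm_nonneg _)
        _ = ‖Bσ N (sig N q') (sig N q)‖ := one_mul _
    have h5 := (hdecay (sig N q')).mul h2
    simp only [mul_one] at h5
    refine h5.congr_left (fun τ => ?_)
    ring
  -- hence divisibility by `Δ`
  have hslash : ∀ γ : SL(2, ℤ), (f ∣[K] γ) =O[atImInfty]
      fun τ : ℍ => Real.exp (-2 * Real.pi * τ.im) := by
    intro γ
    rw [slash_eq_conj hfMF.2.1 γ]
    exact hconjdecay _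
  obtain ⟨h, hh1, hh2⟩ := hdiv K f hfMF hslash
  obtain ⟨b, hb1, hb2⟩ := hB.span (K - 12) h hh1
  have hcoef : ∀ j, IsMF ⊤ (K - k j) (g j • a j - ModularForm.discriminant * b j) := by
    intro j
    apply isMF_sub (isMF_smul _ (ha1 j))
    exact isMF_congr_weight (isMF_mul_top isMF_discriminant (hb1 j)) (by ring)
  have hsum : ∑ j, (g j • a j - ModularForm.discriminant * b j) * F j = 0 := by
    have e1 : ∑ j, (g j • a j - ModularForm.discriminant * b j) * F j =
        ∑ j, g j • (a j * F j) - ModularForm.discriminant * ∑ j, b j * F j := by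
      rw [Finset.mul_sum, ← Finset.sum_sub_distrib]
      apply Finset.sum_congr rfl
      intro j _
      rw [sub_mul, smul_mul_assoc, mul_assoc]
    rw [e1, ← hb2, ← hh2, hf, sub_self]
  have hall := hB.indep K _ hcoef hsum
  intro j
  have hj := hall j
  have hbbdd : IsBoundedAtImInfty (b j) := by
    have := (hb1 j).2.2 1
    rwa [SlashAction.slash_one] at this
  have hlim : Tendsto (g j • a j - ModularForm.discriminant * b j) atImInfty (𝓝 (g j * 1 - 0)) := by
    apply Tendsto.sub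
    · exact (ha2 j).const_mul (g j)
    · exact Filter.ZeroAtFilter.mul_boundedAtFilter ModularForm.discriminant_isZeroAtImInfty hbbdd
  rw [hj, mul_one, sub_zero] at hlim
  have hconst : Tendsto (0 : ℍ → ℂ) atImInfty (𝓝 0) := tendsto_const_nhds
  exact (tendsto_nhds_unique hlim hconst)

end indep

section final

variable {N : ℕ} [NeZero N] {ι : Type} [Fintype ι] {k : ι → ℤ} {F : ι → ℍ → ℂ}

/-- **C4**: factorisation of the conjugate matrix near `i∞`
(same conclusion as `Fermat.Agent.S20.infty_structure` of the skeleton), given the division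
lemma by `Δ`. -/
theorem infty_structure_of_div (hdiv : DivDeltaStatement N) (hB : IsHomBasis N k F) :
    ∃ (e : (SL(2, ℤ) ⧸ Gamma0 N) → ℝ)
      (B : Matrix (SL(2, ℤ) ⧸ Gamma0 N) (SL(2, ℤ) ⧸ Gamma0 N) ℂ)
      (U : ℍ → Matrix ι (SL(2, ℤ) ⧸ Gamma0 N) ℂ)
      (L : Matrix ι (SL(2, ℤ) ⧸ Gamma0 N) ℂ),
      (∀ q, 0 ≤ e q ∧ e q < 1) ∧
      (2 * ∑ q, e q = ((Gamma0 N).index : ℝ) - numCusps N) ∧
      B.det ≠ 0 ∧
      (∀ (τ : ℍ) (j : ι) (q : SL(2, ℤ) ⧸ Gamma0 N),
        conj (Gamma0 N) (k j) (F j) q τ =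
          ∑ q', U τ j q' * Complex.exp (2 * Real.pi * Complex.I * e q' * τ) * B q' q) ∧
      (∀ j q, Tendsto (fun τ : ℍ => U τ j q) atImInfty (𝓝 (L j q))) ∧
      LinearIndependent ℂ (fun j : ι => L j) := by
  classical
  refine ⟨fun q => eσ (sig N q), (Bσ N).submatrix (sig N) (sig N),
    fun τ j q' => Ufun (conj (Gamma0 N) (k j) (F j)) (sig N q') τ,
    fun j q' => Lσ k F j (sig N q'), ?_, ?_, ?_, ?_, ?_, ?_⟩
  · exact fun q => ⟨eσ_nonneg _, eσ_lt_one _⟩
  · rw [Equiv.sum_comp (sig N) (fun x => eσ x)]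
    exact two_mul_sum_eσ N
  · rw [Matrix.det_submatrix_equiv_self]
    exact det_Bσ_ne_zero N
  · intro τ j q
    exact main_identity _ q τ
  · intro j q
    exact Ufun_tendsto (isMF_conjFamily (hB.mem j)) (sig N q)
  · rw [Fintype.linearIndependent_iff]
    intro g hg
    apply Lσ_indep hdiv hB g
    intro x
    have h1 := congrFun hg ((sig N).symm x)
    simp only [Finset.sum_apply, Pi.smul_apply, smul_eq_mul, Pi.zero_apply,
      Equiv.apply_symm_apply] at h1
    exact h1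

end final

end Fermat.Agent.S20.H801
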