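/-
S20 long-shot: interface of the LEVEL ONE package (helper500).  SORRY-FREE (statements only).
The package L1 proves `theorem l1 : L1Statement`; package AN may assume `L1Statement`.
-/
import Mathlib

set_option autoImplicit false

open UpperHalfPlane ModularForm Complex Filter
open scoped MatrixGroups Manifold Real Topology

noncomputable section

namespace Fermat.Agent.S20

/-- The modular `j`-function, normalised as `j = E₄³/Δ = q⁻¹ + 744 + …`
(so `j(i) = 1728`, `j(ρ) = 0`). -/
def jFun (z : ℍ) : ℂ := (E₄ z) ^ 3 / ModularForm.discriminant z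

/-- The point `ρ = e^{2πi/3} = (-1 + i√3)/2`, fixed by `S * T`. -/
def rho : ℍ := ⟨⟨-1 / 2, Real.sqrt 3 / 2⟩, by simp⟩

/-- **Package L1**: everything package AN needs to know about level one. -/
structure L1Statement : Prop where
  /-- `j` is holomorphic on the upper half plane -/
  mdiff : MDiff jFun
  /-- `j` is `SL(2,ℤ)`-invariant -/
  invariant : ∀ (g : SL(2, ℤ)) (z : ℍ), jFun (g • z) = jFun z
  /-- `j` has a simple pole at `i∞` with leading coefficient `1`: `q · j → 1` -/
  tendsto : Tendsto (fun z : ℍ => jFun z * cexp (2 * π * Complex.I * z)) atImInfty (𝓝 1)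
  /-- a holomorphic `SL(2,ℤ)`-invariant function with at most a pole of order `m` at `i∞`
  is a polynomial of degree `≤ m` in `j` -/
  poly : ∀ (f : ℍ → ℂ) (m : ℕ), MDiff f → (∀ (g : SL(2, ℤ)) (z : ℍ), f (g • z) = f z) →
    IsBoundedAtImInfty (fun z : ℍ => f z * cexp (2 * π * Complex.I * z) ^ m) →
    ∃ P : Polynomial ℂ, P.natDegree ≤ m ∧ ∀ z, f z = P.eval (jFun z)
  /-- `j` separates `SL(2,ℤ)`-orbits -/
  inj : ∀ z w : ℍ, jFun z = jFun w → ∃ g : SL(2, ℤ), g • z = w
  /-- `j` is surjective -/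
  surj : ∀ a : ℂ, ∃ z : ℍ, jFun z = a
  /-- the order of vanishing of `j - j(z₀)` at `z₀` is the order of the stabiliser of `z₀`
  in `PSL(2,ℤ)` -/
  order : ∀ z₀ : ℍ, analyticOrderAt (fun w : ℂ => jFun (ofComplex w) - jFun z₀) (z₀ : ℂ)
    = ((Nat.card (MulAction.stabilizer SL(2, ℤ) z₀) / 2 : ℕ) : ℕ∞)
  /-- stabiliser of `i` -/
  stab_I : MulAction.stabilizer SL(2, ℤ) UpperHalfPlane.I = Subgroup.zpowers ModularGroup.S
  /-- stabiliser of `ρ` -/
  stab_rho : MulAction.stabilizer SL(2, ℤ) rho = Subgroup.zpowers (ModularGroup.S * ModularGroup.T)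
  /-- all other points have stabiliser `{±1}` -/
  stab_generic : ∀ z : ℍ, (∀ g : SL(2, ℤ), g • z ≠ UpperHalfPlane.I) → (∀ g : SL(2, ℤ), g • z ≠ rho) →
    ∀ g : SL(2, ℤ), g • z = z → g = 1 ∨ g = -1
  /-- orders of `S` and `S * T` -/
  S_sq : ModularGroup.S ^ 2 = -1
  ST_cube : (ModularGroup.S * ModularGroup.T) ^ 3 = -1
  /-- values at the elliptic points -/
  j_I : jFun UpperHalfPlane.I = 1728
  j_rho : jFun rho = 0

end Fermat.Agent.S20

end
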