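import Mathlib
import Fermat.Agent.S20.JInj
import Fermat.Agent.S20.InterfaceL1

/-!
# Field `inj` of `L1Statement`: `jFun` separates `SL(2,ℤ)`-orbits
-/

set_option autoImplicit false

open UpperHalfPlane ModularForm MatrixGroups

noncomputable section

namespace Fermat.Agent.S20

/-- `jFun z = jFun w` implies `w ∈ SL(2,ℤ) z` (field `inj` of `L1Statement`). -/
theorem jFun_inj_h544 (z w : ℍ) (h : jFun z = jFun w) : ∃ g : SL(2, ℤ), g • z = w := by
  refine exists_smul_eq_of_j_eq_h544 z w ?_
  have hz := discriminant_ne_zero z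
  have hw := discriminant_ne_zero w
  unfold jFun at h
  rw [div_eq_div_iff hz hw] at h
  exact h

end Fermat.Agent.S20
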