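import Fermat.Agent.S20.PI_helper537
import Fermat.Agent.S20.Defs

/-!
# S20: `pointwise_indep` in the shape of helper860's primary skeleton (helper537)
-/

set_option autoImplicit false

namespace Fermat.Agent.S20.PI537

open Fermat.Agent.S20
open UpperHalfPlane ModularForm CongruenceSubgroup MatrixGroups

lemma neg_one_mem_Gamma0 (N : ℕ) : (-1 : SL(2, ℤ)) ∈ Gamma0 N := by
  rw [Gamma0_mem]
  simp

/-- **C-core 1** (exact statement of `PointIndep.lean` in helper860's skeleton): at every point the
conjugate vectors of a homogeneous basis are linearly independent. -/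
theorem pointwise_indep_860 {N : ℕ} [NeZero N] {ι : Type} [Fintype ι] {k : ι → ℤ}
    {F : ι → ℍ → ℂ} (hB : IsHomBasis N k F) (τ : ℍ) :
    LinearIndependent ℂ
      (fun j : ι => fun q : SL(2, ℤ) ⧸ Gamma0 N => conj (Gamma0 N) (k j) (F j) q τ) :=
  pointwise_indep (Γ := Gamma0 N) (neg_one_mem_Gamma0 N) hB.mem hB.span hB.indep τ

end Fermat.Agent.S20.PI537
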