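import Fermat.Agent.S20.C0_helper559
import Fermat.Agent.S20.KerEv_helper292
import Fermat.Agent.S20.T5U_helper703
import Fermat.Agent.S20.A3_helper537_Stab

/-!
# S20 core: pointwise independence of a homogeneous basis (helper537)

If `F j ∈ MF Γ (k j)` is a homogeneous basis of `⨁ₖ MF Γ k` over the level one forms
(`hmem`, `hspan`, `hindep` = the three fields of helper860's `IsHomBasis`), then the vectors of
conjugates `ev Γ (k j) τ (F j)` are linearly independent at every point `τ` of the upper half plane.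
-/

set_option autoImplicit false

noncomputable section

namespace Fermat.Agent.S20.PI537

open Fermat.Agent.S20
open UpperHalfPlane ModularForm CongruenceSubgroup MatrixGroups Filter Matrix.SpecialLinearGroup
open scoped Manifold Topology Real

local notation "Δ" => ModularForm.discriminant

/-! ### level one monomials -/

lemma one_mem_MF_top : (1 : ℍ → ℂ) ∈ MF (⊤ : Subgroup SL(2, ℤ)) 0 := by
  refine ⟨mdifferentiable_const, fun γ _ => is_invariant_one γ, fun γ => ?_⟩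
  rw [is_invariant_one γ]
  exact Filter.const_boundedAtFilter _ (1 : ℂ)

lemma pow_mem_MF_top {a : ℤ} {E : ℍ → ℂ} (hE : E ∈ MF (⊤ : Subgroup SL(2, ℤ)) a) (n : ℕ) :
    E ^ n ∈ MF (⊤ : Subgroup SL(2, ℤ)) (n * a) := by
  induction n with
  | zero => simpa using one_mem_MF_top
  | succ n ih =>
    have h := C0h559.mul_mem_MF hE ih
    rw [pow_succ']
    have e : a + (n : ℤ) * a = ((n + 1 : ℕ) : ℤ) * a := by push_cast; ring
    rwa [e] at h

/-- transport of a level one divisor along the orbit -/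
lemma levelOneDivisor_smul {z₀ : ℍ} {w : ℤ} {P : ℍ → ℂ} (hP : LevelOneDivisor z₀ w P)
    (g : SL(2, ℤ)) : LevelOneDivisor (g • z₀) w P where
  mem := hP.mem
  zero_iff z := by
    rw [hP.zero_iff]
    constructor
    · rintro ⟨γ, rfl⟩
      exact ⟨γ * g⁻¹, by rw [mul_smul, inv_smul_smul]⟩
    · rintro ⟨γ, rfl⟩
      exact ⟨γ * g, by rw [mul_smul]⟩
  simple := hP.simple
  not_zero_at_infty := hP.not_zero_at_infty

variable {Γ : Subgroup SL(2, ℤ)} {ι : Type} [Fintype ι] {k : ι → ℤ} {F : ι → ℍ → ℂ}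

/-! ### the core division argument -/

/-- Core: if a sub-family of the conjugate vectors satisfies a linear relation at `τ`, and the
members of the sub-family can be brought to a common weight `K` by level one forms not vanishing
at `τ`, then the relation is trivial. -/
theorem core [Γ.FiniteIndex]
    (hmem : ∀ j, F j ∈ MF Γ (k j))
    (hspan : ∀ (w : ℤ) (f : ℍ → ℂ), f ∈ MF Γ w →
      ∃ a : ι → ℍ → ℂ, (∀ j, a j ∈ MF ⊤ (w - k j)) ∧ f = ∑ j, a j * F j)
    (hindep : ∀ (w : ℤ) (a : ι → ℍ → ℂ), (∀ j, a j ∈ MF ⊤ (w - k j)) →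
      ∑ j, a j * F j = 0 → ∀ j, a j = 0)
    {τ : ℍ} {w : ℤ} {P : ℍ → ℂ} (hP : LevelOneDivisor τ w P)
    (K : ℤ) (S : Finset ι) (A : ι → ℍ → ℂ) (hA : ∀ j ∈ S, A j ∈ MF ⊤ (K - k j))
    (hAτ : ∀ j ∈ S, A j τ ≠ 0)
    (c : ι → ℂ) (hc : ∑ j ∈ S, c j • ev Γ (k j) τ (F j) = 0) : ∀ j ∈ S, c j = 0 := by
  classical
  set a' : ι → ℍ → ℂ := fun j => if j ∈ S then (c j / A j τ) • A j else 0 with ha'
  have ha'mem : ∀ j, a' j ∈ MF ⊤ (K - k j) := by
    intro j
    by_cases hj : j ∈ S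
    · simp only [ha', if_pos hj]
      exact Submodule.smul_mem _ _ (hA j hj)
    · simp only [ha', if_neg hj]
      exact Submodule.zero_mem _
  have hterm : ∀ j, a' j * F j ∈ MF Γ K := by
    intro j
    have := C0h559.mul_mem_MF (ha'mem j) (hmem j)
    rwa [sub_add_cancel] at this
  set f : ℍ → ℂ := ∑ j, a' j * F j with hf
  have hfmem : f ∈ MF Γ K := Submodule.sum_mem _ (fun j _ => hterm j)
  have hevj : ∀ j, ev Γ K τ (a' j * F j) = a' j τ • ev Γ (k j) τ (F j) := by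
    intro j
    have := C0h559.ev_mul (Γ := Γ) (k := k j) (ha'mem j) (F j) τ
    rwa [sub_add_cancel] at this
  have hev : ev Γ K τ f = 0 := by
    rw [hf, map_sum]
    simp_rw [hevj]
    rw [← hc, ← Finset.sum_subset (Finset.subset_univ S)]
    · refine Finset.sum_congr rfl (fun j hj => ?_)
      simp only [ha', if_pos hj, Pi.smul_apply, smul_eq_mul]
      rw [div_mul_cancel₀ _ (hAτ j hj)]
    · intro j _ hj
      simp only [ha', if_neg hj, Pi.zero_apply, zero_smul]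
  obtain ⟨g, hg, hfg⟩ := KerEv292.ker_ev hP hfmem hev
  obtain ⟨b, hb, hgb⟩ := hspan (K - w) g hg
  have hrel : ∑ j, (a' j - P * b j) * F j = 0 := by
    simp_rw [sub_mul, Finset.sum_sub_distrib, mul_assoc, ← Finset.mul_sum, ← hgb, ← hfg, ← hf]
    exact sub_self _
  have hcoef : ∀ j, (a' j - P * b j) ∈ MF ⊤ (K - k j) := by
    intro j
    refine Submodule.sub_mem _ (ha'mem j) ?_
    have := C0h559.mul_mem_MF hP.mem (hb j)
    have e : w + (K - w - k j) = K - k j := by ring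
    rwa [e] at this
  have hz := hindep K _ hcoef hrel
  intro j hj
  have h1 := congrFun (hz j) τ
  have hPτ : P τ = 0 := (hP.zero_iff τ).2 ⟨1, one_smul _ _⟩
  simp only [ha', if_pos hj, Pi.sub_apply, Pi.smul_apply, Pi.mul_apply, hPτ, zero_mul, sub_zero,
    smul_eq_mul, Pi.zero_apply] at h1
  rwa [div_mul_cancel₀ _ (hAτ j hj)] at h1

/-! ### weights are even -/

theorem wt_even [Γ.FiniteIndex] (hneg : -1 ∈ Γ)
    (hmem : ∀ j, F j ∈ MF Γ (k j))
    (hindep : ∀ (w : ℤ) (a : ι → ℍ → ℂ), (∀ j, a j ∈ MF ⊤ (w - k j)) →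
      ∑ j, a j * F j = 0 → ∀ j, a j = 0)
    (j : ι) : Even (k j) := by
  classical
  by_contra hodd
  rw [Int.not_even_iff_odd] at hodd
  have hF : F j = 0 := by
    have h := hmem j
    rw [C0h559.MF_eq_bot_of_odd Γ hneg hodd] at h
    simpa using h
  have h1 : ∀ i, (if i = j then (1 : ℍ → ℂ) else 0) ∈
      MF (⊤ : Subgroup SL(2, ℤ)) (k j - k i) := by
    intro i
    split_ifs with h
    · subst h
      rw [sub_self]
      exact one_mem_MF_top
    · exact Submodule.zero_mem _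
  have h2 : ∑ i, (if i = j then (1 : ℍ → ℂ) else 0) * F i = 0 := by
    simp [hF]
  have h3 := hindep (k j) _ h1 h2 j
  simp only [if_true] at h3
  exact one_ne_zero (congrFun h3 I)

/-! ### the generic case -/

lemma exists_four_six (n : ℤ) (hn : 4 ≤ n) (he : Even n) :
    ∃ x y : ℕ, (x : ℤ) * 4 + (y : ℤ) * 6 = n := by
  obtain ⟨m, hm⟩ := he
  rcases Int.even_or_odd' m with ⟨t, rfl | rfl⟩
  · refine ⟨t.toNat, 0, ?_⟩
    have ht : 0 ≤ t := by omega
    rw [Int.toNat_of_nonneg ht]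
    omega
  · refine ⟨(t - 1).toNat, 1, ?_⟩
    have ht : 0 ≤ t - 1 := by omega
    rw [Int.toNat_of_nonneg ht]
    omega

theorem indep_generic [Γ.FiniteIndex] (hneg : -1 ∈ Γ)
    (hmem : ∀ j, F j ∈ MF Γ (k j))
    (hspan : ∀ (w : ℤ) (f : ℍ → ℂ), f ∈ MF Γ w →
      ∃ a : ι → ℍ → ℂ, (∀ j, a j ∈ MF ⊤ (w - k j)) ∧ f = ∑ j, a j * F j)
    (hindep : ∀ (w : ℤ) (a : ι → ℍ → ℂ), (∀ j, a j ∈ MF ⊤ (w - k j)) →
      ∑ j, a j * F j = 0 → ∀ j, a j = 0)
    (τ : ℍ) (h4 : E₄ τ ≠ 0) (h6 : E₆ τ ≠ 0) :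
    LinearIndependent ℂ (fun j => ev Γ (k j) τ (F j)) := by
  classical
  rw [Fintype.linearIndependent_iff]
  intro c hc j
  set K : ℤ := 4 + 2 * ∑ i, |k i| with hK
  have hA : ∀ i, ∃ A : ℍ → ℂ, A ∈ MF (⊤ : Subgroup SL(2, ℤ)) (K - k i) ∧ A τ ≠ 0 := by
    intro i
    have hle : |k i| ≤ ∑ i, |k i| :=
      Finset.single_le_sum (f := fun i => |k i|) (fun _ _ => abs_nonneg _) (Finset.mem_univ i)
    have hki : k i ≤ |k i| := le_abs_self _
    have hnn : 0 ≤ |k i| := abs_nonneg _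
    have h1 : 4 ≤ K - k i := by rw [hK]; linarith
    have h2 : Even (K - k i) := by
      rw [hK]
      refine Even.sub (Even.add (by decide) (even_two_mul _)) (wt_even hneg hmem hindep i)
    obtain ⟨x, y, hxy⟩ := exists_four_six _ h1 h2
    refine ⟨(⇑E₄) ^ x * (⇑E₆) ^ y, ?_, ?_⟩
    · have := C0h559.mul_mem_MF (Γ := ⊤) (pow_mem_MF_top T5h703.E₄_mem_MF x)
        (pow_mem_MF_top T5h703.E₆_mem_MF y)
      rwa [hxy] at this
    · simp [h4, h6]
  choose A hAmem hAτ using hA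
  exact core hmem hspan hindep (T5h703.levelOneDivisor_generic τ h4 h6) K Finset.univ A
    (fun i _ => hAmem i) (fun i _ => hAτ i) c hc j (Finset.mem_univ j)

/-! ### the elliptic cases -/

theorem indep_of_stabilizer [Γ.FiniteIndex] (hneg : -1 ∈ Γ)
    (hmem : ∀ j, F j ∈ MF Γ (k j))
    (hspan : ∀ (w : ℤ) (f : ℍ → ℂ), f ∈ MF Γ w →
      ∃ a : ι → ℍ → ℂ, (∀ j, a j ∈ MF ⊤ (w - k j)) ∧ f = ∑ j, a j * F j)
    (hindep : ∀ (w : ℤ) (a : ι → ℍ → ℂ), (∀ j, a j ∈ MF ⊤ (w - k j)) →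
      ∑ j, a j * F j = 0 → ∀ j, a j = 0)
    {τ : ℍ} {w : ℤ} {P : ℍ → ℂ} (hP : LevelOneDivisor τ w P)
    (γ₀ : SL(2, ℤ)) (hγ₀ : γ₀ • τ = τ) (n : ℕ) (hn : 0 < n)
    (hu : IsPrimitiveRoot (denom γ₀ τ ^ 2) n)
    (B : ℍ → ℂ) (hB : B ∈ MF (⊤ : Subgroup SL(2, ℤ)) (2 * n)) (hBτ : B τ ≠ 0) :
    LinearIndependent ℂ (fun j => ev Γ (k j) τ (F j)) := by
  classical
  rw [Fintype.linearIndependent_iff]
  intro c hc j₀
  set u : ℂ := denom γ₀ τ with hudef
  have hu0 : u ≠ 0 := denom_ne_zero _ _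
  -- the permutation operator of `γ₀`
  set R : Module.End ℂ (X Γ → ℂ) := LinearMap.funLeft ℂ ℂ (fun x : X Γ => γ₀⁻¹ • x) with hRdef
  have hR : ∀ j, R (ev Γ (k j) τ (F j)) = (u ^ (-(k j))) • ev Γ (k j) τ (F j) := by
    intro j
    ext x
    have h := C0h559.ev_smul (hmem j).2.1 γ₀ τ (γ₀ • x)
    rw [hγ₀, inv_smul_smul] at h
    have h' := C0h559.ev_smul (hmem j).2.1 γ₀ τ x
    rw [hγ₀] at h'
    simp only [hRdef, LinearMap.funLeft_apply, Pi.smul_apply, smul_eq_mul]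
    rw [h', ← mul_assoc, ← zpow_add₀ hu0]
    simp
  -- split the relation according to the eigenvalue
  set lam : ι → ℂ := fun j => u ^ (-(k j)) with hlam
  set S : Finset ι := Finset.univ.filter (fun j => lam j = lam j₀) with hS
  have hsplit : ∑ j ∈ S, c j • ev Γ (k j) τ (F j) = 0 := by
    have hind := (iSupIndep_iff_finsetSum_eq_zero_imp_eq_zero _).1
      (Module.End.eigenspaces_iSupIndep R)
    have h1 := hind (Finset.univ.image lam)
      (fun μ => ∑ j ∈ Finset.univ.filter (fun j => lam j = μ), c j • ev Γ (k j) τ (F j))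
      (fun μ _ => by
        refine Submodule.sum_mem _ (fun j hj => Submodule.smul_mem _ _ ?_)
        rw [Module.End.mem_eigenspace_iff, hR j]
        have : lam j = μ := (Finset.mem_filter.1 hj).2
        rw [← this])
      (by
        rw [← hc]
        exact Finset.sum_fiberwise_of_maps_to (fun j _ => Finset.mem_image_of_mem lam
          (Finset.mem_univ j)) _)
      (lam j₀) (Finset.mem_image_of_mem _ (Finset.mem_univ _))
    exact h1
  -- common weight
  set M : ℤ := ∑ i, |k i| with hM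
  have hM0 : 0 ≤ M := Finset.sum_nonneg (fun _ _ => abs_nonneg _)
  set K : ℤ := k j₀ + (2 * n) * M with hK
  have hn' : (1 : ℤ) ≤ n := by exact_mod_cast hn
  have hdiv : ∀ j ∈ S, ∃ t : ℕ, K - k j = t * (2 * (n : ℤ)) := by
    intro j hj
    have hj' : u ^ (-(k j)) = u ^ (-(k j₀)) := (Finset.mem_filter.1 hj).2
    have h1 : u ^ (k j₀ - k j) = 1 := by
      rw [sub_eq_add_neg, zpow_add₀ hu0, hj', ← zpow_add₀ hu0, add_neg_cancel, zpow_zero]
    obtain ⟨a, ha⟩ := wt_even hneg hmem hindep j₀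
    obtain ⟨b, hb⟩ := wt_even hneg hmem hindep j
    have h2 : (u ^ 2) ^ (a - b) = 1 := by
      rw [← zpow_natCast u 2, ← zpow_mul]
      have e : ((2 : ℕ) : ℤ) * (a - b) = k j₀ - k j := by push_cast; omega
      rw [e]
      exact h1
    obtain ⟨m, hm⟩ := (hu.zpow_eq_one_iff_dvd _).1 h2
    have hle0 : |k j₀| ≤ M :=
      Finset.single_le_sum (f := fun i => |k i|) (fun _ _ => abs_nonneg _) (Finset.mem_univ j₀)
    have hle : |k j| ≤ M :=
      Finset.single_le_sum (f := fun i => |k i|) (fun _ _ => abs_nonneg _) (Finset.mem_univ j)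
    have hab : -M ≤ a - b := by
      have h3 := neg_abs_le (k j₀)
      have h4 := le_abs_self (k j)
      omega
    have hbound : 0 ≤ m + M := by
      by_contra hneg'
      rw [not_le] at hneg'
      have hm0 : m < 0 := by linarith
      have : (n : ℤ) * m ≤ m := by nlinarith
      linarith
    refine ⟨(m + M).toNat, ?_⟩
    rw [Int.toNat_of_nonneg hbound, hK]
    have e : k j₀ - k j = 2 * ((n : ℤ) * m) := by rw [← hm]; omega
    linear_combination e
  choose! t ht using hdiv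
  refine core hmem hspan hindep hP K S (fun j => B ^ (t j)) ?_ ?_ c hsplit j₀ ?_
  · intro j hj
    have := pow_mem_MF_top hB (t j)
    rwa [← ht j hj] at this
  · intro j _
    simpa using pow_ne_zero (t j) hBτ
  · simp [hS]

/-! ### stabilisers of the elliptic points -/

lemma denom_one_SL (τ : ℍ) : denom ((1 : SL(2, ℤ)) : GL (Fin 2) ℝ) τ = 1 := by
  simp [denom]

lemma denom_neg_one_SL (τ : ℍ) : denom ((-1 : SL(2, ℤ)) : GL (Fin 2) ℝ) τ = -1 := by
  simp [denom]

lemma S_ne_one : (ModularGroup.S : SL(2, ℤ)) ≠ 1 := by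
  intro h
  have := congrArg (fun g : SL(2, ℤ) => g 0 0) h
  simp [ModularGroup.S] at this

lemma S_ne_neg_one : (ModularGroup.S : SL(2, ℤ)) ≠ -1 := by
  intro h
  have := congrArg (fun g : SL(2, ℤ) => g 0 0) h
  simp [ModularGroup.S] at this

lemma ST_ne_one : (ModularGroup.S * ModularGroup.T : SL(2, ℤ)) ≠ 1 := by
  intro h
  have := congrArg (fun g : SL(2, ℤ) => g 0 0) h
  simp [ModularGroup.S, ModularGroup.T] at this

lemma ST_ne_neg_one : (ModularGroup.S * ModularGroup.T : SL(2, ℤ)) ≠ -1 := by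
  intro h
  have := congrArg (fun g : SL(2, ℤ) => g 0 0) h
  simp [ModularGroup.S, ModularGroup.T] at this

/-- A stabilising conjugate `g s g⁻¹` of a non-central element `s` has automorphy factor with
square `≠ 1`. -/
lemma denom_sq_ne_one {z₀ : ℍ} (g s : SL(2, ℤ)) (hs : s • z₀ = z₀) (h1 : s ≠ 1) (h2 : s ≠ -1) :
    (g * s * g⁻¹) • (g • z₀) = g • z₀ ∧ denom (g * s * g⁻¹ : SL(2, ℤ)) (g • z₀ : ℍ) ^ 2 ≠ 1 := by
  have hfix : (g * s * g⁻¹) • (g • z₀) = g • z₀ := by
    rw [mul_smul, inv_smul_smul, mul_smul, hs]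
  refine ⟨hfix, fun h => ?_⟩
  have h' : denom (g * s * g⁻¹ : SL(2, ℤ)) (g • z₀ : ℍ) ^ 2 = 1 ^ 2 := by rw [h, one_pow]
  rcases sq_eq_sq_iff_eq_or_eq_neg.1 h' with h3 | h3
  · have := A3h537.eq_of_denom_eq_of_fix (g * s * g⁻¹) 1 hfix (one_smul _ _)
      (by rw [h3, denom_one_SL])
    apply h1
    have e : s = g⁻¹ * (g * s * g⁻¹) * g := by group
    rw [e, this]
    group
  · have := A3h537.eq_of_denom_eq_of_fix (g * s * g⁻¹) (-1) hfix
      (by rw [ModularGroup.SL_neg_smul, one_smul]) (by rw [h3, denom_neg_one_SL])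
    apply h2
    have e : s = g⁻¹ * (g * s * g⁻¹) * g := by group
    rw [e, this]
    simp

/-! ### the theorem -/

/-- **Pointwise independence** of a homogeneous basis. -/
theorem pointwise_indep [Γ.FiniteIndex] (hneg : -1 ∈ Γ)
    (hmem : ∀ j, F j ∈ MF Γ (k j))
    (hspan : ∀ (w : ℤ) (f : ℍ → ℂ), f ∈ MF Γ w →
      ∃ a : ι → ℍ → ℂ, (∀ j, a j ∈ MF ⊤ (w - k j)) ∧ f = ∑ j, a j * F j)
    (hindep : ∀ (w : ℤ) (a : ι → ℍ → ℂ), (∀ j, a j ∈ MF ⊤ (w - k j)) →
      ∑ j, a j * F j = 0 → ∀ j, a j = 0)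
    (τ : ℍ) : LinearIndependent ℂ (fun j => ev Γ (k j) τ (F j)) := by
  by_cases h6 : E₆ τ = 0
  · obtain ⟨g, rfl⟩ := (T5h703.E₆_eq_zero_iff_orbit τ).1 h6
    have h4 : E₄ (g • (I : ℍ)) ≠ 0 := T5h703.E₄_ne_zero_of_E₆_eq_zero _ h6
    obtain ⟨hfix, hne⟩ := denom_sq_ne_one g ModularGroup.S T5h703.S_smul_I S_ne_one S_ne_neg_one
    have hu4 : denom (g * ModularGroup.S * g⁻¹ : SL(2, ℤ)) (g • (I : ℍ) : ℍ) ^ 4 = 1 := by
      have := A3h537.denom_zpow_eq_one_of_fix E₄ h4 _ hfix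
      exact_mod_cast this
    have hprim : IsPrimitiveRoot
        (denom (g * ModularGroup.S * g⁻¹ : SL(2, ℤ)) (g • (I : ℍ) : ℍ) ^ 2) 2 := by
      refine IsPrimitiveRoot.mk_of_lt _ (by norm_num) (by rw [← pow_mul]; exact hu4) ?_
      intro l hl0 hl2
      interval_cases l
      simpa using hne
    exact indep_of_stabilizer hneg hmem hspan hindep
      (levelOneDivisor_smul T5h703.levelOneDivisor_E₆ g) _ hfix 2 (by norm_num) hprim ⇑E₄
      (by simpa using T5h703.E₄_mem_MF) h4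
  by_cases h4 : E₄ τ = 0
  · obtain ⟨g, rfl⟩ := (T5h703.E₄_eq_zero_iff_orbit τ).1 h4
    obtain ⟨hfix, hne⟩ := denom_sq_ne_one g (ModularGroup.S * ModularGroup.T)
      T5h703.ST_smul_rho ST_ne_one ST_ne_neg_one
    have hu6 : denom (g * (ModularGroup.S * ModularGroup.T) * g⁻¹ : SL(2, ℤ))
        (g • T5h703.rho : ℍ) ^ 6 = 1 := by
      have := A3h537.denom_zpow_eq_one_of_fix E₆ h6 _ hfix
      exact_mod_cast this
    have hprim : IsPrimitiveRoot
        (denom (g * (ModularGroup.S * ModularGroup.T) * g⁻¹ : SL(2, ℤ)) (g • T5h703.rho : ℍ) ^ 2)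
        3 := by
      refine IsPrimitiveRoot.mk_of_lt _ (by norm_num) (by rw [← pow_mul]; exact hu6) ?_
      intro l hl0 hl3
      interval_cases l
      · simpa using hne
      · intro h2
        apply hne
        have h3 : (denom (g * (ModularGroup.S * ModularGroup.T) * g⁻¹ : SL(2, ℤ))
            (g • T5h703.rho : ℍ) ^ 2) ^ 3 = 1 := by rw [← pow_mul]; exact hu6
        have e : ∀ x : ℂ, x ^ 3 = x ^ 2 * x := fun x => by ring
        rw [e, h2, one_mul] at h3
        exact h3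
    exact indep_of_stabilizer hneg hmem hspan hindep
      (levelOneDivisor_smul T5h703.levelOneDivisor_E₄ g) _ hfix 3 (by norm_num) hprim ⇑E₆
      (by simpa using T5h703.E₆_mem_MF) h6
  · exact indep_generic hneg hmem hspan hindep τ h4 h6

end Fermat.Agent.S20.PI537
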