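import Fermat.Agent.S20.Defs

/-!
# S20, package C-core part 1 (helper260): pointwise independence of a homogeneous basis

Hypothesis-explicit version of `pointwise_indep` of helper860's skeleton: the division lemmas and
zero-set lemmas of `Division.lean` are taken as hypotheses (in their exact shapes).
Everything lives in `namespace Fermat.Agent.S20.H260`.
-/

set_option autoImplicit false

open UpperHalfPlane ModularForm CongruenceSubgroup Matrix.SpecialLinearGroup EisensteinSeries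
open scoped MatrixGroups ModularForm Manifold

namespace Fermat.Agent.S20.H260

open Fermat.Agent.S20

/-! ### closure properties of `IsMF` -/

section IsMFapi

variable {Γ : Subgroup SL(2, ℤ)}

theorem isMF_zero (k : ℤ) : IsMF Γ k 0 := by
  refine ⟨mdifferentiable_const, fun γ _ => SlashAction.zero_slash _ _, fun γ => ?_⟩
  rw [SlashAction.zero_slash]
  exact (boundedAtImInftySubalgebra ℂ).zero_mem

theorem isMF_add {k : ℤ} {f g : ℍ → ℂ} (hf : IsMF Γ k f) (hg : IsMF Γ k g) :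
    IsMF Γ k (f + g) := by
  obtain ⟨hf1, hf2, hf3⟩ := hf
  obtain ⟨hg1, hg2, hg3⟩ := hg
  refine ⟨hf1.add hg1, fun γ hγ => ?_, fun γ => ?_⟩
  · rw [SlashAction.add_slash, hf2 γ hγ, hg2 γ hγ]
  · rw [SlashAction.add_slash]
    exact (hf3 γ).add (hg3 γ)

theorem isMF_smul {k : ℤ} {f : ℍ → ℂ} (c : ℂ) (hf : IsMF Γ k f) : IsMF Γ k (c • f) := by
  obtain ⟨hf1, hf2, hf3⟩ := hf
  refine ⟨hf1.const_smul c, fun γ hγ => ?_, fun γ => ?_⟩
  · rw [ModularForm.SL_smul_slash, hf2 γ hγ]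
  · rw [ModularForm.SL_smul_slash]
    exact (hf3 γ).const_smul_left c

theorem isMF_neg {k : ℤ} {f : ℍ → ℂ} (hf : IsMF Γ k f) : IsMF Γ k (-f) := by
  have := isMF_smul (-1 : ℂ) hf
  simpa using this

theorem isMF_sub {k : ℤ} {f g : ℍ → ℂ} (hf : IsMF Γ k f) (hg : IsMF Γ k g) :
    IsMF Γ k (f - g) := by
  rw [sub_eq_add_neg]
  exact isMF_add hf (isMF_neg hg)

theorem isMF_sum {α : Type*} (s : Finset α) {k : ℤ} {f : α → ℍ → ℂ}
    (hf : ∀ i ∈ s, IsMF Γ k (f i)) : IsMF Γ k (∑ i ∈ s, f i) := by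
  classical
  induction s using Finset.induction_on with
  | empty => simpa using isMF_zero k
  | insert a s ha ih =>
    rw [Finset.sum_insert ha]
    exact isMF_add (hf a (Finset.mem_insert_self a s))
      (ih fun i hi => hf i (Finset.mem_insert_of_mem hi))

theorem isMF_mul {k₁ k₂ : ℤ} {f g : ℍ → ℂ} (hf : IsMF Γ k₁ f) (hg : IsMF Γ k₂ g) :
    IsMF Γ (k₁ + k₂) (f * g) := by
  obtain ⟨hf1, hf2, hf3⟩ := hf
  obtain ⟨hg1, hg2, hg3⟩ := hg
  refine ⟨hf1.mul hg1, fun γ hγ => ?_, fun γ => ?_⟩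
  · rw [ModularForm.mul_slash_SL2, hf2 γ hγ, hg2 γ hγ]
  · rw [ModularForm.mul_slash_SL2]
    exact (hf3 γ).mul (hg3 γ)

theorem isMF_mul' {k₁ k₂ k : ℤ} {f g : ℍ → ℂ} (hf : IsMF Γ k₁ f) (hg : IsMF Γ k₂ g)
    (hk : k₁ + k₂ = k) : IsMF Γ k (f * g) := hk ▸ isMF_mul hf hg

theorem isMF_one : IsMF Γ 0 1 := by
  refine ⟨mdifferentiable_const, fun γ _ => ModularForm.is_invariant_one γ, fun γ => ?_⟩
  rw [ModularForm.is_invariant_one]
  exact (boundedAtImInftySubalgebra ℂ).one_mem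

theorem isMF_pow {k : ℤ} {f : ℍ → ℂ} (hf : IsMF Γ k f) (n : ℕ) : IsMF Γ (k * n) (f ^ n) := by
  induction n with
  | zero => simpa using (isMF_one (Γ := Γ))
  | succ n ih =>
    rw [pow_succ]
    exact isMF_mul' ih hf (by push_cast; ring)

theorem isMF_mono {Γ' : Subgroup SL(2, ℤ)} (h : Γ' ≤ Γ) {k : ℤ} {f : ℍ → ℂ} (hf : IsMF Γ k f) :
    IsMF Γ' k f :=
  ⟨hf.1, fun γ hγ => hf.2.1 γ (h hγ), hf.2.2⟩

theorem isMF_of_top {k : ℤ} {f : ℍ → ℂ} (hf : IsMF ⊤ k f) : IsMF Γ k f :=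
  isMF_mono le_top hf

/-- A bundled level-one modular form satisfies `IsMF ⊤`. -/
theorem isMF_top_coe {k : ℤ} (g : ModularForm 𝒮ℒ k) : IsMF ⊤ k ⇑g := by
  refine ⟨ModularFormClass.holo g, fun γ _ => ?_,
    fun γ => ModularFormClass.bdd_at_infty_slash g γ⟩
  rw [ModularForm.SL_slash]
  exact SlashInvariantFormClass.slash_action_eq g _ ⟨γ, rfl⟩

theorem isMF_E₄ : IsMF ⊤ 4 ⇑E₄ := isMF_top_coe E₄

theorem isMF_E₆ : IsMF ⊤ 6 ⇑E₆ := isMF_top_coe E₆

/-- level-one forms are invariant under every `g`. -/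
theorem IsMF_top_slash {k : ℤ} {a : ℍ → ℂ} (ha : IsMF ⊤ k a) (g : SL(2, ℤ)) : a ∣[k] g = a :=
  ha.2.1 g (Subgroup.mem_top g)

end IsMFapi


/-! ### `conj` API -/

section conjApi

variable {Γ : Subgroup SL(2, ℤ)}

/-- For `Γ`-invariant `f`, `conj Γ k f (gΓ) = f ∣[k] g⁻¹`. -/
theorem conj_eq_slash_inv {k : ℤ} {f : ℍ → ℂ} (hf : ∀ γ ∈ Γ, f ∣[k] γ = f) (g : SL(2, ℤ)) :
    conj Γ k f (g : SL(2, ℤ) ⧸ Γ) = f ∣[k] g⁻¹ := by
  obtain ⟨h, hh⟩ := QuotientGroup.mk_out_eq_mul Γ g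
  unfold conj
  rw [hh, mul_inv_rev, SlashAction.slash_mul, hf _ (inv_mem h.2)]

/-- Variant: `conj Γ k f (g⁻¹Γ) = f ∣[k] g`. -/
theorem conj_inv_eq_slash {k : ℤ} {f : ℍ → ℂ} (hf : ∀ γ ∈ Γ, f ∣[k] γ = f) (g : SL(2, ℤ)) :
    conj Γ k f ((g⁻¹ : SL(2, ℤ)) : SL(2, ℤ) ⧸ Γ) = f ∣[k] g := by
  rw [conj_eq_slash_inv hf, inv_inv]

/-- The conjugates are permuted by the slash action. -/
theorem conj_slash {k : ℤ} {f : ℍ → ℂ} (hf : ∀ γ ∈ Γ, f ∣[k] γ = f)
    (q : SL(2, ℤ) ⧸ Γ) (γ : SL(2, ℤ)) :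
    (conj Γ k f q) ∣[k] γ = conj Γ k f (γ⁻¹ • q) := by
  induction q using QuotientGroup.induction_on with
  | H g =>
    rw [MulAction.Quotient.smul_coe, conj_eq_slash_inv hf, conj_eq_slash_inv hf,
      ← SlashAction.slash_mul, smul_eq_mul, mul_inv_rev, inv_inv]

/-- Conjugates of a product with a level-one form. -/
theorem conj_mul_levelOne {w k : ℤ} {a f : ℍ → ℂ} (ha : IsMF ⊤ w a) (q : SL(2, ℤ) ⧸ Γ) :
    conj Γ (w + k) (a * f) q = a * conj Γ k f q := by
  unfold conj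
  rw [ModularForm.mul_slash_SL2, IsMF_top_slash ha]

end conjApi


/-! ### Reformulation of a vanishing combination of the conjugate vectors -/

section main

variable {N : ℕ} {ι : Type} [Fintype ι] {k : ι → ℤ} {F : ι → ℍ → ℂ}

theorem sum_conj_eq_zero_iff (hF : ∀ j, ∀ γ ∈ Gamma0 N, F j ∣[k j] γ = F j) (τ : ℍ)
    (c : ι → ℂ) :
    (∑ j, c j • (fun q : SL(2, ℤ) ⧸ Gamma0 N => conj (Gamma0 N) (k j) (F j) q τ)) = 0 ↔
      ∀ g : SL(2, ℤ), ∑ j, c j * (F j ∣[k j] g) τ = 0 := by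
  constructor
  · intro h g
    have := congrFun h ((g⁻¹ : SL(2, ℤ)) : SL(2, ℤ) ⧸ Gamma0 N)
    simp only [Finset.sum_apply, Pi.smul_apply, smul_eq_mul, Pi.zero_apply] at this
    rw [← this]
    refine Finset.sum_congr rfl fun j _ => ?_
    rw [conj_inv_eq_slash (hF j)]
  · intro h
    funext q
    induction q using QuotientGroup.induction_on with
    | H g =>
      simp only [Finset.sum_apply, Pi.smul_apply, smul_eq_mul, Pi.zero_apply]
      rw [← h g⁻¹]
      refine Finset.sum_congr rfl fun j _ => ?_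
      rw [conj_eq_slash_inv (hF j)]

/-- Value of a level-one form at a translate. -/
theorem levelOne_apply_smul {w : ℤ} {a : ℍ → ℂ} (ha : IsMF ⊤ w a) (g : SL(2, ℤ)) (τ : ℍ) :
    a (g • τ) = a τ * denom g τ ^ w := by
  have h := congrFun (IsMF_top_slash ha g) τ
  rw [ModularForm.SL_slash_apply] at h
  have hd : denom g τ ≠ 0 := denom_ne_zero g τ
  rw [← h, mul_assoc, ← zpow_add₀ hd]
  simp

/-- Value of any function at a translate, in terms of the slash. -/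
theorem apply_smul_eq_slash (w : ℤ) (f : ℍ → ℂ) (g : SL(2, ℤ)) (τ : ℍ) :
    f (g • τ) = (f ∣[w] g) τ * denom g τ ^ w := by
  rw [ModularForm.SL_slash_apply]
  have hd : denom g τ ≠ 0 := denom_ne_zero g τ
  rw [mul_assoc, ← zpow_add₀ hd]
  simp

/-- **Core division step.** -/
theorem core_division {τ : ℍ} {wP : ℤ} {P : ℍ → ℂ} (hP : IsMF ⊤ wP P) (hPτ : P τ = 0)
    (hdiv : ∀ (K : ℤ) (f : ℍ → ℂ), IsMF (Gamma0 N) K f → (∀ g : SL(2, ℤ), f (g • τ) = 0) →
      ∃ h : ℍ → ℂ, IsMF (Gamma0 N) (K - wP) h ∧ f = P * h)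
    (hB : IsHomBasis N k F) (K : ℤ) (a : ι → ℍ → ℂ) (ha : ∀ j, IsMF ⊤ (K - k j) (a j))
    (c : ι → ℂ) (h0 : ∀ g : SL(2, ℤ), ∑ j, c j * a j τ * (F j ∣[k j] g) τ = 0) :
    ∀ j, c j * a j τ = 0 := by
  set f : ℍ → ℂ := ∑ j, (c j • a j) * F j with hf_def
  have hf : IsMF (Gamma0 N) K f :=
    isMF_sum _ fun j _ =>
      isMF_mul' (isMF_smul _ (isMF_of_top (ha j))) (hB.mem j) (by ring)
  have hfτ : ∀ g : SL(2, ℤ), f (g • τ) = 0 := by
    intro g
    have hd : denom g τ ≠ 0 := denom_ne_zero g τ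
    have : f (g • τ) = denom g τ ^ K * ∑ j, c j * a j τ * (F j ∣[k j] g) τ := by
      rw [hf_def, Finset.sum_apply, Finset.mul_sum]
      refine Finset.sum_congr rfl fun j _ => ?_
      rw [Pi.mul_apply, Pi.smul_apply, smul_eq_mul, levelOne_apply_smul (ha j),
        apply_smul_eq_slash (k j) (F j)]
      have : denom g τ ^ K = denom g τ ^ (K - k j) * denom g τ ^ (k j) := by
        rw [← zpow_add₀ hd]; congr 1; ring
      rw [this]; ring
    rw [this, h0 g, mul_zero]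
  obtain ⟨h, hh, hfh⟩ := hdiv K f hf hfτ
  obtain ⟨b, hb, hhb⟩ := hB.span (K - wP) h hh
  have key := hB.indep K (fun j => c j • a j - P * b j)
    (fun j => isMF_sub (isMF_smul _ (ha j)) (isMF_mul' hP (hb j) (by ring)))
    (by
      have : ∑ j, (c j • a j - P * b j) * F j = f - P * ∑ j, b j * F j := by
        rw [hf_def, Finset.mul_sum, ← Finset.sum_sub_distrib]
        refine Finset.sum_congr rfl fun j _ => ?_
        ring
      rw [this, ← hhb, ← hfh, sub_self])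
  intro j
  have := congrFun (key j) τ
  simp only [Pi.sub_apply, Pi.smul_apply, Pi.mul_apply, smul_eq_mul, hPτ, zero_mul, sub_zero,
    Pi.zero_apply] at this
  exact this


/-! ### Splitting a relation along the eigenvalues of a stabiliser element -/

/-- Pure algebra: a relation which is stable under twisting by roots of unity `lam j` splits
into the relations for the individual values of `lam`. -/
theorem eigen_split_aux {G : Type*} [Monoid G] (X : G → ι → ℂ) (s : G) (lam : ι → ℂ)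
    (hX : ∀ g j, X (g * s) j = lam j * X g j) (m : ℕ) (hm : 0 < m) (hlam : ∀ j, lam j ^ m = 1)
    (c : ι → ℂ) (h0 : ∀ g, ∑ j, c j * X g j = 0) (μ : ℂ) :
    ∀ g, ∑ j, (if lam j = μ then c j else 0) * X g j = 0 := by
  classical
  -- step 1: twisted relations
  have h1 : ∀ (n : ℕ) (g : G), ∑ j, c j * lam j ^ n * X g j = 0 := by
    intro n
    induction n with
    | zero => intro g; simpa using h0 g
    | succ n ih =>
      intro g
      rw [← ih (g * s)]
      refine Finset.sum_congr rfl fun j _ => ?_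
      rw [hX, pow_succ]; ring
  intro g
  by_cases hμ : ∃ j, lam j = μ
  · obtain ⟨j₀, hj₀⟩ := hμ
    have hμm : μ ^ m = 1 := hj₀ ▸ hlam j₀
    have hμ0 : μ ≠ 0 := by
      rintro rfl
      rw [zero_pow hm.ne'] at hμm
      exact zero_ne_one hμm
    have hgeom : ∀ j, ∑ n ∈ Finset.range m, (lam j * μ⁻¹) ^ n =
        if lam j = μ then (m : ℂ) else 0 := by
      intro j
      split_ifs with h
      · rw [h, mul_inv_cancel₀ hμ0]; simp
      · have hx : lam j * μ⁻¹ ≠ 1 := by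
          intro hx
          apply h
          have := congrArg (· * μ) hx
          simpa [mul_assoc, inv_mul_cancel₀ hμ0] using this
        have hxm : (lam j * μ⁻¹) ^ m = 1 := by
          rw [mul_pow, hlam, inv_pow, hμm]; simp
        have := mul_geom_sum (lam j * μ⁻¹) m
        rw [hxm, sub_self] at this
        rcases mul_eq_zero.mp this with h' | h'
        · exact absurd (sub_eq_zero.mp h') hx
        · exact h'
    have h2 : ∑ n ∈ Finset.range m, (μ⁻¹) ^ n * ∑ j, c j * lam j ^ n * X g j = 0 := by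
      refine Finset.sum_eq_zero fun n _ => ?_
      rw [h1 n g, mul_zero]
    have h3 : ∑ n ∈ Finset.range m, (μ⁻¹) ^ n * ∑ j, c j * lam j ^ n * X g j =
        (m : ℂ) * ∑ j, (if lam j = μ then c j else 0) * X g j := by
      simp_rw [Finset.mul_sum]
      rw [Finset.sum_comm]
      refine Finset.sum_congr rfl fun j _ => ?_
      have : ∀ n, (μ⁻¹) ^ n * (c j * lam j ^ n * X g j) =
          c j * X g j * (lam j * μ⁻¹) ^ n := by
        intro n; rw [mul_pow]; ring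
      simp_rw [this]
      rw [← Finset.mul_sum, hgeom j]
      split_ifs <;> ring
    rw [h3] at h2
    rcases mul_eq_zero.mp h2 with h' | h'
    · exact absurd h' (Nat.cast_ne_zero.mpr hm.ne')
    · exact h'
  · refine Finset.sum_eq_zero fun j _ => ?_
    rw [if_neg (fun h => hμ ⟨j, h⟩), zero_mul]

/-- The slash twisted by a stabiliser element. -/
theorem slash_mul_stab_apply (w : ℤ) (f : ℍ → ℂ) (g s : SL(2, ℤ)) {τ : ℍ} (hs : s • τ = τ) :
    (f ∣[w] (g * s)) τ = denom s τ ^ (-w) * (f ∣[w] g) τ := by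
  rw [SlashAction.slash_mul, ModularForm.SL_slash_apply (f := f ∣[w] g), hs, mul_comm]

/-- **Independence at a point, given a stabiliser element and a division lemma.** -/
theorem indep_of_stabilizer {τ : ℍ} (s : SL(2, ℤ)) (hs : s • τ = τ) (m : ℕ) (hm : 0 < m)
    (hε : IsPrimitiveRoot (denom s τ) m)
    (n₀ : ℕ) (hA : ∀ n : ℕ, n₀ ≤ n → ∃ a : ℍ → ℂ, IsMF ⊤ ((m : ℤ) * n) a ∧ a τ ≠ 0)
    {wP : ℤ} {P : ℍ → ℂ} (hP : IsMF ⊤ wP P) (hPτ : P τ = 0)
    (hdiv : ∀ (K : ℤ) (f : ℍ → ℂ), IsMF (Gamma0 N) K f → (∀ g : SL(2, ℤ), f (g • τ) = 0) →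
      ∃ h : ℍ → ℂ, IsMF (Gamma0 N) (K - wP) h ∧ f = P * h)
    (hB : IsHomBasis N k F) (c : ι → ℂ)
    (h0 : ∀ g : SL(2, ℤ), ∑ j, c j * (F j ∣[k j] g) τ = 0) : ∀ j, c j = 0 := by
  classical
  intro j₀
  set ε := denom s τ with hε_def
  have hε0 : ε ≠ 0 := denom_ne_zero s τ
  set lam : ι → ℂ := fun j => ε ^ (-k j) with hlam_def
  set μ : ℂ := lam j₀ with hμ_def
  have hsplit := eigen_split_aux (fun g j => (F j ∣[k j] g) τ) s lam
    (fun g j => slash_mul_stab_apply (k j) (F j) g s hs) m hm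
    (fun j => by
      simp only [hlam_def]
      rw [← zpow_natCast, ← zpow_mul, mul_comm, zpow_mul, zpow_natCast, hε.pow_eq_one, one_zpow])
    c h0 μ
  -- in the class of `j₀`, weights are congruent mod `m`
  have hdvd : ∀ j, lam j = μ → (m : ℤ) ∣ k j₀ - k j := by
    intro j hj
    rw [← hε.zpow_eq_one_iff_dvd, zpow_sub₀ hε0]
    simp only [hlam_def, hμ_def, zpow_neg] at hj
    rw [div_eq_one_iff_eq (zpow_ne_zero _ hε0)]
    exact (inv_injective hj).symm
  -- choose a large multiple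
  obtain ⟨M, hM⟩ : ∃ M : ℕ, ∀ j, (m : ℤ) * n₀ + (k j - k j₀) ≤ (m : ℤ) * M := by
    refine ⟨n₀ + (∑ j, |k j - k j₀|).toNat, fun j => ?_⟩
    have h1 : |k j - k j₀| ≤ ∑ j, |k j - k j₀| :=
      Finset.single_le_sum (f := fun j => |k j - k j₀|) (fun i _ => abs_nonneg _)
        (Finset.mem_univ j)
    have h2 : (0 : ℤ) ≤ ∑ j, |k j - k j₀| := Finset.sum_nonneg fun i _ => abs_nonneg _
    have h3 : ((∑ j, |k j - k j₀|).toNat : ℤ) = ∑ j, |k j - k j₀| := Int.toNat_of_nonneg h2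
    have h4 : (1 : ℤ) ≤ m := by exact_mod_cast hm
    push_cast
    rw [h3]
    have h5 : k j - k j₀ ≤ |k j - k j₀| := le_abs_self _
    nlinarith
  set K : ℤ := k j₀ + m * M with hK_def
  have hex : ∀ j, ∃ a : ℍ → ℂ, IsMF ⊤ (K - k j) a ∧ (lam j = μ → a τ ≠ 0) := by
    intro j
    by_cases hj : lam j = μ
    · obtain ⟨d, hd⟩ := hdvd j hj
      have hMd : (n₀ : ℤ) ≤ M + d := by
        have := hM j
        have h4 : (0 : ℤ) < m := by exact_mod_cast hm
        have : (m : ℤ) * n₀ ≤ m * (M + d) := by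
          rw [mul_add, ← hd]; linarith
        exact le_of_mul_le_mul_left this h4
      have hn : ((M + d).toNat : ℤ) = M + d :=
        Int.toNat_of_nonneg (le_trans (Int.natCast_nonneg _) hMd)
      obtain ⟨a, ha, haτ⟩ := hA (M + d).toNat (by
        have : (n₀ : ℤ) ≤ ((M + d).toNat : ℤ) := by rw [hn]; exact hMd
        exact_mod_cast this)
      refine ⟨a, ?_, fun _ => haτ⟩
      have : K - k j = (m : ℤ) * ((M + d).toNat : ℤ) := by
        rw [hn, hK_def, mul_add, ← hd]; ring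
      rw [this]; exact ha
    · exact ⟨0, isMF_zero _, fun h => absurd h hj⟩
  choose a ha haτ using hex
  have hcore := core_division hP hPτ hdiv hB K a ha
    (fun j => if lam j = μ then c j / a j τ else 0)
    (fun g => by
      refine Eq.trans (Finset.sum_congr rfl fun j _ => ?_) (hsplit g)
      split_ifs with h
      · rw [div_mul_cancel₀ _ (haτ j h)]
      · simp)
  have := hcore j₀
  rw [if_pos rfl, div_mul_cancel₀ _ (haτ j₀ rfl)] at this
  exact this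


/-! ### The stabiliser elements -/

theorem denom_mul_SL (g h : SL(2, ℤ)) (τ : ℍ) :
    denom ((g * h : SL(2, ℤ))) τ = denom g ((h • τ : ℍ)) * denom h τ := by
  have := congrFun (SlashAction.slash_mul (-1 : ℤ) g h (fun _ : ℍ => (1 : ℂ))) τ
  simp only [ModularForm.SL_slash_apply, neg_neg, zpow_one, one_mul] at this
  exact this

theorem denom_one_SL (τ : ℍ) : denom ((1 : SL(2, ℤ))) τ = 1 := by
  rw [ModularGroup.denom_apply]
  simp

theorem denom_conj (g u : SL(2, ℤ)) (z : ℍ) (hu : u • z = z) :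
    denom ((g * u * g⁻¹ : SL(2, ℤ))) ((g • z : ℍ)) = denom u z := by
  have h1 : denom ((g⁻¹ * g : SL(2, ℤ))) z = denom ((g⁻¹ : SL(2, ℤ))) ((g • z : ℍ)) * denom g z :=
    denom_mul_SL g⁻¹ g z
  rw [inv_mul_cancel, denom_one_SL] at h1
  have h2 : denom ((g * u * g⁻¹ : SL(2, ℤ))) ((g • z : ℍ)) =
      denom ((g * u : SL(2, ℤ))) ((g⁻¹ • g • z : ℍ)) * denom ((g⁻¹ : SL(2, ℤ))) ((g • z : ℍ)) :=
    denom_mul_SL (g * u) g⁻¹ (g • z)
  have h3 : g⁻¹ • g • z = z := inv_smul_smul g z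
  have h4 : denom ((g * u : SL(2, ℤ))) z = denom g ((u • z : ℍ)) * denom u z :=
    denom_mul_SL g u z
  rw [h2, h3, h4, hu]
  calc denom g z * denom u z * denom ((g⁻¹ : SL(2, ℤ))) ((g • z : ℍ))
      = denom u z * (denom ((g⁻¹ : SL(2, ℤ))) ((g • z : ℍ)) * denom g z) := by ring
    _ = denom u z := by rw [← h1, mul_one]

theorem conj_smul_fix (g u : SL(2, ℤ)) (z : ℍ) (hu : u • z = z) :
    (g * u * g⁻¹) • (g • z) = g • z := by
  rw [← mul_smul, inv_mul_cancel_right, mul_smul, hu]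

theorem S_smul_I : ModularGroup.S • UpperHalfPlane.I = UpperHalfPlane.I := by
  rw [UpperHalfPlane.modular_S_smul]
  ext
  simp [UpperHalfPlane.I]

theorem denom_S_I : denom ModularGroup.S UpperHalfPlane.I = Complex.I := by
  rw [ModularGroup.denom_S]
  rfl

theorem coe_rho : ((rho : ℍ) : ℂ) = ⟨-1 / 2, Real.sqrt 3 / 2⟩ := rfl

theorem rho_sq : ((rho : ℍ) : ℂ) ^ 2 + rho + 1 = 0 := by
  rw [coe_rho]
  have h3 : Real.sqrt 3 * Real.sqrt 3 = 3 := Real.mul_self_sqrt (by norm_num)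
  apply Complex.ext
  · simp [pow_two]
    nlinarith
  · simp [pow_two]
    ring

theorem ST_apply_entries :
    ((ModularGroup.S * ModularGroup.T : SL(2, ℤ)) 0 0 = 0) ∧
    ((ModularGroup.S * ModularGroup.T : SL(2, ℤ)) 0 1 = -1) ∧
    ((ModularGroup.S * ModularGroup.T : SL(2, ℤ)) 1 0 = 1) ∧
    ((ModularGroup.S * ModularGroup.T : SL(2, ℤ)) 1 1 = 1) := by
  decide

theorem denom_ST_rho :
    denom ((ModularGroup.S * ModularGroup.T : SL(2, ℤ))) rho = (rho : ℂ) + 1 := by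
  rw [ModularGroup.denom_apply]
  obtain ⟨-, -, h10, h11⟩ := ST_apply_entries
  rw [h10, h11]
  simp

theorem ST_smul_rho : (ModularGroup.S * ModularGroup.T) • rho = rho := by
  ext
  rw [UpperHalfPlane.coe_specialLinearGroup_apply]
  obtain ⟨h00, h01, h10, h11⟩ := ST_apply_entries
  rw [h00, h01, h10, h11]
  have h := rho_sq
  have hne : (rho : ℂ) + 1 ≠ 0 := by
    intro h0
    have : (rho : ℂ) = -1 := by linear_combination h0
    rw [this] at h
    norm_num at h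
  simp only [algebraMap_int_eq, eq_intCast, Int.cast_zero, Complex.ofReal_zero, zero_mul,
    Int.cast_neg, Int.cast_one, Complex.ofReal_neg, Complex.ofReal_one, zero_add, one_mul]
  rw [div_eq_iff hne]
  linear_combination -h

theorem isPrimitiveRoot_rho_add_one : IsPrimitiveRoot ((rho : ℂ) + 1) 6 := by
  have h := rho_sq
  set ε : ℂ := (rho : ℂ) + 1 with hε
  have h2 : ε ^ 2 = ε - 1 := by rw [hε]; linear_combination h
  have h3 : ε ^ 3 = -1 := by
    have : ε ^ 3 = ε * ε ^ 2 := by ring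
    rw [this, h2]; linear_combination h2
  refine IsPrimitiveRoot.mk_of_lt ε (by norm_num) ?_ ?_
  · have : ε ^ 6 = (ε ^ 3) ^ 2 := by ring
    rw [this, h3]; norm_num
  · intro l hl0 hl6 hl
    interval_cases l
    · -- ε = 1
      rw [pow_one] at hl
      rw [hl] at h2; norm_num at h2
    · -- ε^2 = 1
      have : ε = 2 := by linear_combination hl - h2
      rw [this] at h2; norm_num at h2
    · rw [h3] at hl; norm_num at hl
    · have : ε ^ 4 = ε * ε ^ 3 := by ring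
      rw [this, h3] at hl
      have : ε = -1 := by linear_combination -hl
      rw [this] at h2; norm_num at h2
    · have : ε ^ 5 = ε ^ 2 * ε ^ 3 := by ring
      rw [this, h3, h2] at hl
      have : ε = 0 := by linear_combination -hl
      rw [this] at h2; norm_num at h2

theorem neg_one_smul_SL (τ : ℍ) : (-1 : SL(2, ℤ)) • τ = τ := by
  rw [ModularGroup.SL_neg_smul, one_smul]

theorem denom_neg_one_SL (τ : ℍ) : denom ((-1 : SL(2, ℤ))) τ = -1 := by
  rw [ModularGroup.denom_apply]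
  simp

theorem E₄_ne_zero_of_E₆_eq_zero {τ : ℍ} (h : E₆ τ = 0) : E₄ τ ≠ 0 := by
  intro h4
  have := ModularForm.discriminant_eq_E₄_cube_sub_E₆_sq τ
  rw [h, h4] at this
  exact ModularForm.discriminant_ne_zero τ (by rw [this]; norm_num)

theorem E₆_ne_zero_of_E₄_eq_zero {τ : ℍ} (h : E₄ τ = 0) : E₆ τ ≠ 0 := by
  intro h6
  have := ModularForm.discriminant_eq_E₄_cube_sub_E₆_sq τ
  rw [h, h6] at this
  exact ModularForm.discriminant_ne_zero τ (by rw [this]; norm_num)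

/-- monomials in `E₄, E₆` not vanishing at a generic point -/
theorem exists_monomial_ne_zero {τ : ℍ} (h4 : E₄ τ ≠ 0) (h6 : E₆ τ ≠ 0) (n : ℕ) (hn : 2 ≤ n) :
    ∃ a : ℍ → ℂ, IsMF ⊤ ((2 : ℕ) * (n : ℤ)) a ∧ a τ ≠ 0 := by
  rcases Nat.even_or_odd' n with ⟨x, rfl | rfl⟩
  · refine ⟨⇑E₄ ^ x, ?_, by simpa using pow_ne_zero x h4⟩
    have := isMF_pow (isMF_E₄) x
    convert this using 1
    push_cast; ring
  · obtain ⟨y, rfl⟩ : ∃ y, x = y + 1 := ⟨x - 1, by omega⟩
    refine ⟨⇑E₄ ^ y * ⇑E₆, ?_, by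
      simp only [Pi.mul_apply, Pi.pow_apply]
      exact mul_ne_zero (pow_ne_zero y h4) h6⟩
    have := isMF_mul (isMF_pow (isMF_E₄) y) isMF_E₆
    convert this using 1
    push_cast; ring

/-! ### The main theorem (hypothesis-explicit) -/

/-- **Pointwise independence**, assuming the division lemmas of `Division.lean`
(as hypotheses, in their exact shapes; only the forward directions of the zero-set lemmas are
needed). -/
theorem pointwise_indep_of
    (hE6 : ∀ z : ℍ, E₆ z = 0 → ∃ g : SL(2, ℤ), g • UpperHalfPlane.I = z)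
    (hE4 : ∀ z : ℍ, E₄ z = 0 → ∃ g : SL(2, ℤ), g • rho = z)
    (hdiv6 : ∀ {w : ℤ} {f : ℍ → ℂ}, IsMF (Gamma0 N) w f →
      (∀ g : SL(2, ℤ), f (g • UpperHalfPlane.I) = 0) →
      ∃ h : ℍ → ℂ, IsMF (Gamma0 N) (w - 6) h ∧ f = ⇑E₆ * h)
    (hdiv4 : ∀ {w : ℤ} {f : ℍ → ℂ}, IsMF (Gamma0 N) w f →
      (∀ g : SL(2, ℤ), f (g • rho) = 0) →
      ∃ h : ℍ → ℂ, IsMF (Gamma0 N) (w - 4) h ∧ f = ⇑E₄ * h)
    (hdivP : ∀ {w : ℤ} {f : ℍ → ℂ} {τ₀ : ℍ}, E₄ τ₀ ≠ 0 → E₆ τ₀ ≠ 0 → IsMF (Gamma0 N) w f →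
      (∀ g : SL(2, ℤ), f (g • τ₀) = 0) →
      ∃ h : ℍ → ℂ, IsMF (Gamma0 N) (w - 12) h ∧
        f = (fun z => E₄ z ^ 3 * E₆ τ₀ ^ 2 - E₆ z ^ 2 * E₄ τ₀ ^ 3) * h)
    (hB : IsHomBasis N k F) (τ : ℍ) :
    LinearIndependent ℂ
      (fun j : ι => fun q : SL(2, ℤ) ⧸ Gamma0 N => conj (Gamma0 N) (k j) (F j) q τ) := by
  rw [Fintype.linearIndependent_iff]
  intro c hc
  rw [sum_conj_eq_zero_iff (fun j => (hB.mem j).2.1)] at hc
  by_cases h6 : E₆ τ = 0
  · -- orbit of `i`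
    have h4 : E₄ τ ≠ 0 := E₄_ne_zero_of_E₆_eq_zero h6
    obtain ⟨g₀, rfl⟩ := hE6 τ h6
    refine indep_of_stabilizer (g₀ * ModularGroup.S * g₀⁻¹)
      (conj_smul_fix g₀ _ _ S_smul_I) 4 (by norm_num) ?_ 0 ?_ isMF_E₆ h6 ?_ hB c hc
    · rw [denom_conj g₀ _ _ S_smul_I, denom_S_I]
      exact Complex.isPrimitiveRoot_I
    · intro n _
      exact ⟨⇑E₄ ^ n, isMF_pow isMF_E₄ n, by
        simp only [Pi.pow_apply]
        exact pow_ne_zero n h4⟩
    · intro K f hf hf0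
      refine hdiv6 hf fun g => ?_
      have := hf0 (g * g₀⁻¹)
      rwa [← mul_smul, inv_mul_cancel_right] at this
  by_cases h4 : E₄ τ = 0
  · -- orbit of `ρ`
    obtain ⟨g₀, rfl⟩ := hE4 τ h4
    refine indep_of_stabilizer (g₀ * (ModularGroup.S * ModularGroup.T) * g₀⁻¹)
      (conj_smul_fix g₀ _ _ ST_smul_rho) 6 (by norm_num) ?_ 0 ?_ isMF_E₄ h4 ?_ hB c hc
    · rw [denom_conj g₀ _ _ ST_smul_rho, denom_ST_rho]
      exact isPrimitiveRoot_rho_add_one
    · intro n _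
      exact ⟨⇑E₆ ^ n, isMF_pow isMF_E₆ n, by
        simp only [Pi.pow_apply]
        exact pow_ne_zero n h6⟩
    · intro K f hf hf0
      refine hdiv4 hf fun g => ?_
      have := hf0 (g * g₀⁻¹)
      rwa [← mul_smul, inv_mul_cancel_right] at this
  · -- generic point
    have hP : IsMF ⊤ 12 (fun z => E₄ z ^ 3 * E₆ τ ^ 2 - E₆ z ^ 2 * E₄ τ ^ 3) := by
      have h1 : IsMF ⊤ 12 ((E₆ τ ^ 2) • (⇑E₄ ^ 3) - (E₄ τ ^ 3) • (⇑E₆ ^ 2)) :=
        isMF_sub (isMF_smul _ (by simpa using isMF_pow isMF_E₄ 3))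
          (isMF_smul _ (by simpa using isMF_pow isMF_E₆ 2))
      convert h1 using 1
      funext z
      simp only [Pi.sub_apply, Pi.smul_apply, Pi.pow_apply, smul_eq_mul]
      ring
    refine indep_of_stabilizer (-1 : SL(2, ℤ)) (neg_one_smul_SL τ) 2 (by norm_num) ?_ 2
      (fun n hn => exists_monomial_ne_zero h4 h6 n hn) hP (by ring) ?_ hB c hc
    · rw [denom_neg_one_SL]
      exact IsPrimitiveRoot.neg_one 0 (by norm_num)
    · intro K f hf hf0
      exact hdivP h4 h6 hf hf0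

end main

end Fermat.Agent.S20.H260
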