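import Fermat.Agent.S20.Division
import Fermat.Agent.S20.PointIndep260
import Fermat.Agent.S20.H920.CardIndex

/-!
# Package C-core: pointwise independence of a homogeneous basis; number of generators = index

The two statements of helper860's skeleton (`PointIndep.lean`), verbatim and unconditional:

* `pointwise_indep` : assembled from `H260.pointwise_indep_of` (helper260, `PointIndep260.lean`) and
  the division lemmas of `Division.lean` (helper399);
* `card_eq_index` : from `pointwise_indep` and `H920.card_eq_index_of_indep` (helper920).
-/

set_option autoImplicit false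

open UpperHalfPlane ModularForm CongruenceSubgroup Matrix.SpecialLinearGroup EisensteinSeries
open scoped MatrixGroups ModularForm Manifold

namespace Fermat.Agent.S20

variable {N : ℕ} [NeZero N] {ι : Type} [Fintype ι] {k : ι → ℤ} {F : ι → ℍ → ℂ}

/-- **C-core 1**: at every point the conjugate vectors of the basis are linearly independent. -/
theorem pointwise_indep (hB : IsHomBasis N k F) (τ : ℍ) :
    LinearIndependent ℂ
      (fun j : ι => fun q : SL(2, ℤ) ⧸ Gamma0 N => conj (Gamma0 N) (k j) (F j) q τ) :=
  H260.pointwise_indep_of (fun z => (E₆_eq_zero_iff z).mp) (fun z => (E₄_eq_zero_iff z).mp)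
    (fun hf h0 => div_E₆ hf h0) (fun hf h0 => div_E₄ hf h0)
    (fun h4 h6 hf h0 => div_P h4 h6 hf h0) hB τ

/-- **C-core 2**: the number of generators is the index. -/
theorem card_eq_index (hB : IsHomBasis N k F) : Fintype.card ι = (Gamma0 N).index :=
  H920.card_eq_index_of_indep hB (pointwise_indep hB UpperHalfPlane.I)

end Fermat.Agent.S20
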